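import Fermat.Prelude.Def_GaloisRep_Adic
import Mathlib.RingTheory.DiscreteValuationRing.Basic
import Mathlib.RingTheory.AdicCompletion.Basic
import Mathlib.RingTheory.Filtration
import Mathlib.LinearAlgebra.Matrix.Charpoly.Coeff

/-!
# Rank two over a discrete valuation ring: the algebra of S34 and S35
-/

set_option autoImplicit false
set_option linter.unusedSectionVars false
set_option linter.style.haveILetI false

noncomputable section

open Polynomial IsLocalRing

namespace Fermat.Agent.BadPrime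

variable {O : Type} [CommRing O] [IsDomain O] [IsDiscreteValuationRing O]

/-- A vector divisible by every power of an element of the maximal ideal is zero. -/
theorem eq_zero_of_forall_pow_smul {V : Type} [AddCommGroup V] [Module O V] [Module.Free O V]
    {a : O} (ha : a ∈ maximalIdeal O) {v : V} (h : ∀ n : ℕ, ∃ w, v = a ^ n • w) : v = 0 := by
  let b := Module.Free.chooseBasis O V
  refine b.repr.injective (Finsupp.ext fun i => ?_)
  rw [map_zero, Finsupp.zero_apply]
  refine Ideal.mem_bot.mp ?_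
  rw [← Ideal.iInf_pow_eq_bot_of_isDomain (maximalIdeal O) (Ideal.IsMaximal.ne_top inferInstance)]
  refine Ideal.mem_iInf.mpr fun n => ?_
  obtain ⟨w, rfl⟩ := h n
  rw [map_smul, Finsupp.smul_apply, smul_eq_mul]
  exact Ideal.mul_mem_right _ _ (Ideal.pow_mem_pow ha n)

theorem natCast_pow_smul_eq_zero [CharZero O] {V : Type} [AddCommGroup V] [Module O V]
    [Module.Free O V] {p c : ℕ} (hp : p ≠ 0) {v : V} (h : p ^ c • v = 0) : v = 0 := by
  rw [← Nat.cast_smul_eq_nsmul O] at h
  exact (smul_eq_zero.mp h).resolve_left (by exact_mod_cast pow_ne_zero c hp)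

/-- The characteristic polynomial in rank two. -/
theorem charpoly_rank_two (ρ : GaloisRepAdic O) (σ : AlgebraicClosure ℚ ≃ₐ[ℚ] AlgebraicClosure ℚ) :
    LinearMap.charpoly (ρ.ρ σ) =
      X ^ 2 - C (LinearMap.trace O ρ.V (ρ.ρ σ)) * X + C (LinearMap.det (ρ.ρ σ)) := by
  let b := Module.finBasisOfFinrankEq O ρ.V ρ.finrank_eq
  rw [← LinearMap.charpoly_toMatrix (ρ.ρ σ) b, LinearMap.trace_eq_matrix_trace O b,
    ← LinearMap.det_toMatrix b, Matrix.charpoly_fin_two]

/-- A unipotent operator of level two in rank two has characteristic polynomial `(X - 1) ^ 2`. -/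
theorem charpoly_eq_of_sub_one_sq (ρ : GaloisRepAdic O)
    (σ : AlgebraicClosure ℚ ≃ₐ[ℚ] AlgebraicClosure ℚ)
    (h : ∀ v, ρ.ρ σ (ρ.ρ σ v - v) = ρ.ρ σ v - v) :
    LinearMap.charpoly (ρ.ρ σ) = (X - 1) ^ 2 := by
  let b := Module.finBasisOfFinrankEq O ρ.V ρ.finrank_eq
  rw [← LinearMap.charpoly_toMatrix (ρ.ρ σ) b]
  set A := LinearMap.toMatrix b b (ρ.ρ σ) with hA
  have hN : (A - 1) * (A - 1) = 0 := by
    have h0 : (ρ.ρ σ - 1) * (ρ.ρ σ - 1) = 0 := LinearMap.ext fun v => by
      simp only [Module.End.mul_apply, LinearMap.sub_apply, Module.End.one_apply, h, sub_self,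
        LinearMap.zero_apply]
    rw [hA, ← LinearMap.toMatrix_one b, ← map_sub, ← LinearMap.toMatrix_mul, h0, map_zero]
  have hd : (A 0 0 - 1) * (A 1 1 - 1) - A 0 1 * A 1 0 = 0 := by
    have := congrArg Matrix.det hN
    rw [Matrix.det_mul, Matrix.det_zero] at this
    simpa [Matrix.det_fin_two] using mul_self_eq_zero.mp this
  have e00 := congrFun (congrFun hN 0) 0
  have e11 := congrFun (congrFun hN 1) 1
  simp [Matrix.mul_apply, Fin.sum_univ_two] at e00 e11
  have ht : (A 0 0 - 1) + (A 1 1 - 1) = 0 := by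
    refine mul_self_eq_zero.mp ?_
    linear_combination e00 + e11 + 2 * hd
  have htr : A.trace = 2 := by
    rw [Matrix.trace_fin_two]
    linear_combination ht
  have hdet : A.det = 1 := by
    rw [Matrix.det_fin_two]
    linear_combination hd + ht
  rw [Matrix.charpoly_fin_two, htr, hdet, map_one, C_ofNat]
  ring

/-- If `(A ^ 2 - 1) (A ^ 2 - q ^ 2) = 0` and `det A = q` then `trace A = ±(q + 1)`. -/
theorem charpoly_eq_of_sq_relation (ρ : GaloisRepAdic O)
    (σ : AlgebraicClosure ℚ ≃ₐ[ℚ] AlgebraicClosure ℚ) (q : ℕ)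
    (hdet : LinearMap.det (ρ.ρ σ) = (q : O))
    (h : ∀ v, ρ.ρ σ (ρ.ρ σ (ρ.ρ σ (ρ.ρ σ v) - v)) =
      ((q : O) ^ 2) • (ρ.ρ σ (ρ.ρ σ v) - v)) :
    LinearMap.charpoly (ρ.ρ σ) = X ^ 2 - C ((q : O) + 1) * X + C (q : O) ∨
      LinearMap.charpoly (ρ.ρ σ) = X ^ 2 + C ((q : O) + 1) * X + C (q : O) := by
  set A := ρ.ρ σ with hA
  set t := LinearMap.trace O ρ.V A with ht
  have hchar := charpoly_rank_two ρ σ
  rw [← hA, hdet, ← ht] at hchar
  have hCH : ∀ v, A (A v) = t • A v - (q : O) • v := fun v => by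
    have h1 := LinearMap.congr_fun (LinearMap.aeval_self_charpoly A) v
    rw [hchar] at h1
    simp [pow_two, Module.algebraMap_end_eq_smul_id] at h1
    rw [← sub_eq_zero, ← h1, Nat.cast_smul_eq_nsmul]
    abel
  suffices hD : t ^ 2 = ((q : O) + 1) ^ 2 by
    rcases eq_or_eq_neg_of_sq_eq_sq _ _ hD with h' | h'
    · left; rw [hchar, h']
    · right; rw [hchar, h', map_neg]; ring
  rw [← sub_eq_zero]
  have hzero : ∀ v, (t ^ 2 - ((q : O) + 1) ^ 2) • A (A v) = 0 := by
    intro v
    have h' := h v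
    rw [map_sub, map_sub, hCH (A (A v))] at h'
    simp only [map_sub, map_smul, hCH v] at h'
    rw [hCH v]
    rw [← sub_eq_zero] at h'
    rw [← h']
    module
  obtain ⟨v, hv⟩ : ∃ v : ρ.V, v ≠ 0 := by
    by_contra hcon
    push Not at hcon
    haveI : Subsingleton ρ.V := ⟨fun a b => by rw [hcon a, hcon b]⟩
    simpa [Module.finrank_zero_of_subsingleton] using ρ.finrank_eq
  have hbij : Function.Injective A := by
    intro a b hab
    have := congrArg (ρ.ρ σ⁻¹) hab
    rwa [hA, ← Module.End.mul_apply, ← Module.End.mul_apply, ← map_mul, inv_mul_cancel, map_one,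
      Module.End.one_apply, Module.End.one_apply] at this
  refine (smul_eq_zero.mp (hzero v)).resolve_right fun h0 => hv ?_
  exact hbij (hbij (h0.trans (by rw [map_zero, map_zero])))

end Fermat.Agent.BadPrime
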