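import Fermat.Agent.EichlerShimura.FiniteDVR
import Mathlib.NumberTheory.Padics.PadicIntegers
import Mathlib.RingTheory.Ideal.GoingUp

/-!
# `p`-adic points of finite `ℤ`-algebras
-/

set_option autoImplicit false
set_option linter.style.haveILetI false

noncomputable section

open IsLocalRing TensorProduct

namespace Fermat.Agent.BadPrime

/-- A domain which is finite over `ℤ` and of characteristic zero maps to a complete discrete
valuation ring finite over `ℤ_[p]`; every such map is injective. -/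
theorem exists_hom_finiteDVR (p : ℕ) [Fact p.Prime] (R : Type) [CommRing R] [IsDomain R]
    [CharZero R] [Module.Finite ℤ R] :
    ∃ (O : Type) (_ : CommRing O) (_ : IsDomain O) (_ : IsDiscreteValuationRing O)
      (_ : IsAdicComplete (maximalIdeal O) O) (_ : Finite (ResidueField O)) (_ : CharZero O),
      (p : O) ∈ maximalIdeal O ∧ Nonempty (R →+* O) ∧
      ∃ φ : ℤ_[p] →+* O, IsLocalHom φ := by
  haveI : Module.IsTorsionFree ℤ R := inferInstance
  haveI : Module.Free ℤ R := Module.free_of_finite_type_torsion_free'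
  haveI : Finite (ResidueField ℤ_[p]) := Finite.of_equiv _ PadicInt.residueField.symm.toEquiv
  have hinj : Function.Injective (algebraMap ℤ_[p] (ℤ_[p] ⊗[ℤ] R)) :=
    Algebra.TensorProduct.includeLeft_injective (R := ℤ) (S := ℤ_[p]) (A := ℤ_[p]) (B := R)
      (RingHom.injective_int (algebraMap ℤ R))
  haveI : Algebra.IsIntegral ℤ_[p] (ℤ_[p] ⊗[ℤ] R) := Algebra.IsIntegral.of_finite _ _
  obtain ⟨P, -, hPprime, hP⟩ := Ideal.exists_ideal_over_prime_of_isIntegral (R := ℤ_[p])
    (S := ℤ_[p] ⊗[ℤ] R) (⊥ : Ideal ℤ_[p]) (⊥ : Ideal (ℤ_[p] ⊗[ℤ] R))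
    (le_of_eq ((RingHom.injective_iff_ker_eq_bot _).mp hinj))
  haveI := hPprime
  obtain ⟨O, iO1, iO2, iO3, iO4, iO5, iO6, iAlg, -, iLoc, -, f, -⟩ :=
    EichlerShimura.exists_finiteDVR_extension ℤ_[p] (ℤ_[p] ⊗[ℤ] R) P fun a ha => by
      have : a ∈ (⊥ : Ideal ℤ_[p]) := hP ▸ (Ideal.mem_comap.mpr ha)
      simpa using this
  refine ⟨O, iO1, iO2, iO3, iO4, iO5, iO6, ?_,
    ⟨f.toRingHom.comp (Algebra.TensorProduct.includeRight.toRingHom : R →+* ℤ_[p] ⊗[ℤ] R)⟩,
    algebraMap ℤ_[p] O, iLoc⟩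
  rw [← map_natCast (algebraMap ℤ_[p] O) p]
  refine map_nonunit _ _ ?_
  rw [PadicInt.maximalIdeal_eq_span_p]
  exact Ideal.mem_span_singleton_self _

/-- A ring homomorphism from a domain finite over `ℤ` to a ring of characteristic zero is
injective. -/
theorem injective_of_finite_int {R O : Type*} [CommRing R] [IsDomain R] [Module.Finite ℤ R]
    [CommRing O] [IsDomain O] [CharZero O] (f : R →+* O) : Function.Injective f := by
  rw [RingHom.injective_iff_ker_eq_bot]
  haveI : Algebra.IsIntegral ℤ R := Algebra.IsIntegral.of_finite ℤ R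
  haveI : (RingHom.ker f).IsPrime := RingHom.ker_isPrime f
  refine Ideal.eq_bot_of_comap_eq_bot (R := ℤ) ?_
  rw [RingHom.comap_ker, ← RingHom.injective_iff_ker_eq_bot]
  exact RingHom.injective_int _

end Fermat.Agent.BadPrime
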