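import Fermat.Agent.BadPrime.NewformKill
import Fermat.Agent.BadPrime.Embed
import Fermat.Agent.EichlerShimura.Eigensystem
import Fermat.Agent.Density.CharpolyDetermines
import Fermat.Agent.Galois.Frobenius
import Fermat.Agent.HeckeFinite.Finite

/-!
# Eigen-systems agreeing at almost all primes

* `qCoeff_eq_of_almost_all`: two eigenforms agreeing at almost all primes agree at every prime
  dividing neither level.
* `exists_poly_killing_away`: the killing polynomial avoiding any finite set of primes.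
-/

set_option autoImplicit false
set_option linter.style.haveILetI false

noncomputable section

open Polynomial IsLocalRing CongruenceSubgroup ModularFormClass
open scoped TensorProduct

namespace Fermat.Agent.BadPrime

/-- The hypotheses of the Eichler–Shimura construction at level `N`. -/
def HasEigenRep (N : ℕ) [NeZero N] : Prop :=
  EichlerShimura.HasKummerIso N ∧ EichlerShimura.GaloisFiniteLevel N ∧
    ∀ p : ℕ, p.Prime → EichlerShimura.FrobeniusOnTorsion N p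

variable {N M : ℕ} [NeZero N] [NeZero M]

/-- Two normalised eigenforms with the same coefficients at almost all primes have the same
coefficient at every prime dividing neither level. -/
theorem qCoeff_eq_of_almost_all (hN : HasEigenRep N) (hM : HasEigenRep M)
    {f : CuspForm (Gamma0 N) 2} (hf : f.IsNormalizedEigenform)
    {g : CuspForm (Gamma0 M) 2} (hg : g.IsNormalizedEigenform) (S : Finset ℕ)
    (h : ∀ ℓ : ℕ, ℓ.Prime → ℓ ∉ S → qCoeff f ℓ = qCoeff g ℓ)
    {q : ℕ} (hq : q.Prime) (hqN : ¬ q ∣ N) (hqM : ¬ q ∣ M) : qCoeff f q = qCoeff g q := by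
  classical
  obtain ⟨lam, hlam, hlq⟩ : ∃ lam : ℕ, lam.Prime ∧ lam ≠ q := by
    obtain ⟨lam, hle, hlam⟩ := Nat.exists_infinite_primes (q + 1)
    exact ⟨lam, hlam, by omega⟩
  haveI : Fact lam.Prime := ⟨hlam⟩
  obtain ⟨χf, -, hTf, -⟩ := exists_eigenChar hf (∅ : Set ℕ)
  obtain ⟨χg, -, hTg, -⟩ := exists_eigenChar hg (∅ : Set ℕ)
  haveI := HeckeFinite.moduleFinite_heckeAlgebra N 2 (∅ : Set ℕ)
  haveI := HeckeFinite.moduleFinite_heckeAlgebra M 2 (∅ : Set ℕ)
  let Ψ : CuspForm.heckeAlgebra N 2 (∅ : Set ℕ) ⊗[ℤ] CuspForm.heckeAlgebra M 2 (∅ : Set ℕ) →ₐ[ℤ] ℂ :=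
    Algebra.TensorProduct.lift χf.toIntAlgHom χg.toIntAlgHom (fun _ _ => mul_comm _ _)
  haveI : Module.Finite ℤ (CuspForm.heckeAlgebra N 2 (∅ : Set ℕ) ⊗[ℤ]
      CuspForm.heckeAlgebra M 2 (∅ : Set ℕ)) := Module.Finite.tensorProduct ℤ _ _
  haveI : Module.Finite ℤ Ψ.toRingHom.range :=
    Module.Finite.of_surjective Ψ.toRingHom.rangeRestrict.toIntAlgHom.toLinearMap
      Ψ.toRingHom.rangeRestrict_surjective
  obtain ⟨O, _, _, _, _, _, _, hl, ⟨iota⟩, -⟩ := exists_hom_finiteDVR lam Ψ.toRingHom.range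
  let φf : CuspForm.heckeAlgebra N 2 (∅ : Set ℕ) →+* O :=
    iota.comp (Ψ.toRingHom.rangeRestrict.comp Algebra.TensorProduct.includeLeftRingHom)
  let φg : CuspForm.heckeAlgebra M 2 (∅ : Set ℕ) →+* O :=
    iota.comp (Ψ.toRingHom.rangeRestrict.comp Algebra.TensorProduct.includeRight.toRingHom)
  obtain ⟨ρf, hρf, -⟩ :=
    EichlerShimura.exists_galoisRepAdic_of_eigensystem N lam hN.1 (hN.2.2 lam hlam) hN.2.1 O hl φf
  obtain ⟨ρg, hρg, -⟩ :=
    EichlerShimura.exists_galoisRepAdic_of_eigensystem M lam hM.1 (hM.2.2 lam hlam) hM.2.1 O hl φg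
  have hcp := Density.adic_charpoly_eq_of_frobenius ρf ρg
    (S ∪ N.primeFactors ∪ M.primeFactors ∪ {lam}) fun ℓ hℓ hℓS A hA σ hσ => by
      simp only [Finset.mem_union, Finset.mem_singleton, Nat.mem_primeFactors, not_or] at hℓS
      obtain ⟨⟨⟨hℓS, hℓN⟩, hℓM⟩, hℓl⟩ := hℓS
      have hℓN' : ¬ ℓ ∣ N := fun h' => hℓN ⟨hℓ, h', NeZero.ne N⟩
      have hℓM' : ¬ ℓ ∣ M := fun h' => hℓM ⟨hℓ, h', NeZero.ne M⟩
      rw [hρf ℓ hℓ hℓN' hℓl A hA σ hσ, hρg ℓ hℓ hℓM' hℓl A hA σ hσ]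
      congr 3
      simp only [φf, φg, RingHom.comp_apply]
      congr 1
      refine congrArg iota (Subtype.ext ?_)
      show Ψ (_ ⊗ₜ (1 : CuspForm.heckeAlgebra M 2 (∅ : Set ℕ))) =
        Ψ ((1 : CuspForm.heckeAlgebra N 2 (∅ : Set ℕ)) ⊗ₜ _)
      simp [Ψ, hTf, hTg, h ℓ hℓ hℓS]
  obtain ⟨A, σ, hA, hσ⟩ := Galois.exists_valuationSubring_isFrobeniusAt hq
  have h1 := hcp σ
  rw [hρf q hq hqN hlq.symm A hA σ hσ, hρg q hq hqM hlq.symm A hA σ hσ] at h1
  have h2 := congrArg (fun P => Polynomial.coeff P 1) h1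
  simp at h2
  have h3 := injective_of_finite_int iota h2
  have h4 : Ψ (CuspForm.heckeAlgebra.T hq hqN (Set.notMem_empty q) ⊗ₜ
        (1 : CuspForm.heckeAlgebra M 2 (∅ : Set ℕ))) =
      Ψ ((1 : CuspForm.heckeAlgebra N 2 (∅ : Set ℕ)) ⊗ₜ
        CuspForm.heckeAlgebra.T hq hqM (Set.notMem_empty q)) := congrArg Subtype.val h3
  simpa [Ψ, hTf, hTg] using h4

omit [NeZero N] in
/-- The killing polynomial may avoid any finite set of primes: here the variables are the primes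
not dividing an arbitrary multiple `K ≠ 0` of `M`. -/
theorem exists_poly_killing_away {M' : ℕ} [NeZero M'] (hM : HasEigenRep M) (hM' : HasEigenRep M')
    {g : CuspForm (Gamma0 M) 2} (hg : g.IsNewform) (h : M' ∣ M) (hne : M' ≠ M)
    {K : ℕ} (hK : K ≠ 0) (hMK : M ∣ K) :
    ∃ P : MvPolynomial (GoodIndex K) ℤ, MvPolynomial.aeval (goodT (h.trans hMK)) P = 0 ∧
      MvPolynomial.aeval (fun ℓ : GoodIndex K => qCoeff g ℓ) P ≠ 0 := by
  by_contra hcon
  push Not at hcon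
  obtain ⟨f, hf, hfa⟩ :=
    exists_eigenform_of_ker_le (h.trans hMK) (fun ℓ : GoodIndex K => qCoeff g ℓ) hcon
  refine hg.2 M' h hne ⟨f, hf, fun ℓ hℓ hℓM => ?_⟩
  exact qCoeff_eq_of_almost_all hM' hM hf hg.1 K.primeFactors
    (fun r hr hrK => hfa ⟨r, hr, fun h' => hrK (Nat.mem_primeFactors.mpr ⟨hr, h', hK⟩)⟩)
    hℓ (fun h' => hℓM (h'.trans h)) hℓM

end Fermat.Agent.BadPrime
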