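import Fermat.Agent.BadPrime.GeometryStatements
import Fermat.Agent.BadPrime.RankTwo
import Fermat.Agent.BadPrime.StrongMult
import Fermat.Agent.EichlerShimura.DatumPoints
import Fermat.Prelude.Def_GaloisRep_LocalConditions

/-!
# S34 from the unipotence of inertia on torsion

Each minimal prime of the coefficient ring gives a representation realised in torsion of `J₀(N)`,
on which inertia at `q` is unipotent of level two.
-/

set_option autoImplicit false
set_option linter.style.haveILetI false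

noncomputable section

open Polynomial IsLocalRing ModularCurve

namespace Fermat.Agent.BadPrime

local notation "ℚ̄" => AlgebraicClosure ℚ
local notation "Γℚ" => (AlgebraicClosure ℚ ≃ₐ[ℚ] AlgebraicClosure ℚ)

/-- A representation realised in torsion of `J₀(M q)` has `(X - 1) ^ 2` as characteristic
polynomial on inertia at `q`. -/
theorem charpoly_inertia_of_tate {M q : ℕ} (hq : q.Prime) (hgeo : InertiaUnipotentTorsion M q)
    {p : ℕ} (hp : p.Prime) (hqp : q ≠ p) {O : Type} [CommRing O] [IsDomain O]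
    [IsDiscreteValuationRing O] (hpO : (p : O) ∈ maximalIdeal O) (ρ : GaloisRepAdic O)
    (htate : ∀ n : ℕ, ∃ (m : ℕ) (f : ρ.V →+ (Fin m → JZero (M * q))),
      (∀ v, f v = 0 ↔ ∃ w, v = ((p : O) ^ n) • w) ∧ (∀ v i, p ^ n • f v i = 0) ∧
      ∀ σ v i, f (ρ.ρ σ v) i = σ • f v i)
    {A : ValuationSubring ℚ̄} (hA : A.LiesOverPrime q) {σ : Γℚ}
    (hσ : σ ∈ A.inertiaSubgroupIn ℚ) : LinearMap.charpoly (ρ.ρ σ) = (X - 1) ^ 2 := by
  refine charpoly_eq_of_sub_one_sq ρ σ fun v => ?_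
  rw [← sub_eq_zero]
  refine eq_zero_of_forall_pow_smul hpO fun n => ?_
  obtain ⟨m, f, h0, hn, heq⟩ := htate n
  refine (h0 _).mp (funext fun i => ?_)
  have hnq : ¬ q ∣ p ^ n := fun h =>
    hqp ((Nat.prime_dvd_prime_iff_eq hq hp).mp (hq.dvd_of_dvd_pow h))
  have h1 := hgeo A hA σ hσ _ hnq (f v i) (hn v i)
  simp only [map_sub, Pi.sub_apply, Pi.zero_apply, heq]
  simp only [smul_sub] at h1
  rw [h1, sub_self]

/-- Statement S34 from `InertiaUnipotentTorsion`. -/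
theorem isUnipotentOnInertiaAt_of_datum
    {𝒪 : Type} [CommRing 𝒪] [IsDomain 𝒪] [IsDiscreteValuationRing 𝒪]
    [IsAdicComplete (maximalIdeal 𝒪) 𝒪] [Finite (ResidueField 𝒪)] [CharZero 𝒪]
    {p : ℕ} (hp : p.Prime) (hp𝒪 : (p : 𝒪) ∈ maximalIdeal 𝒪)
    {N : ℕ} [NeZero N] (hN : HasEigenRep N) {S : Finset ℕ} (hpS : p ∈ S)
    (hNS : ∀ q : ℕ, q.Prime → q ∣ N → q ∈ S)
    {θ : CuspForm.heckeAlgebra N 2 (↑S : Set ℕ) →+* ResidueField 𝒪}
    {T : Type} [CommRing T] [IsLocalRing T] [IsNoetherianRing T]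
    [IsAdicComplete (maximalIdeal T) T] [Algebra 𝒪 T] [IsLocalHom (algebraMap 𝒪 T)]
    [Module.Finite 𝒪 T] [Module.Free 𝒪 T]
    (H : CuspForm.HeckeGaloisRepDatum N (↑S : Set ℕ) 𝒪 θ T)
    (q : ℕ) (hq : q.Prime) (hqp : q ≠ p) (hqN : q ∣ N) (hq2 : ¬ q ^ 2 ∣ N)
    (hgeo : ∀ M : ℕ, ¬ q ∣ M → M * q = N → InertiaUnipotentTorsion M q) :
    H.ρ.IsUnipotentOnInertiaAt q := by
  haveI := Fact.mk hp
  obtain ⟨M, rfl⟩ : ∃ M, N = M * q := ⟨N / q, (Nat.div_mul_cancel hqN).symm⟩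
  have hqM : ¬ q ∣ M := fun h => hq2 (by rw [pow_two]; exact mul_dvd_mul_right h q)
  obtain ⟨hK, hL, hF⟩ := hN
  intro P hP σ hσ
  haveI := EichlerShimura.isReduced_of_datum hNS H
  rw [← sub_eq_zero]
  refine Polynomial.ext fun i => ?_
  rw [coeff_zero]
  have hmem : (LinearMap.charpoly (H.ρ.ρ σ) - (X - 1) ^ 2).coeff i ∈ sInf (minimalPrimes T) := by
    refine Ideal.mem_sInf.mpr fun {Q} hQ => ?_
    obtain ⟨O, _, _, _, _, _, _, _, _, _, ψ, hψ, χ, ρ, hker, -, hρ, -, hcp⟩ :=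
      EichlerShimura.exists_point_of_minimalPrime hK (hF p hp) hL hp𝒪 hpS H Q hQ
    have hpO : (p : O) ∈ maximalIdeal O := by
      rw [← map_natCast (algebraMap 𝒪 O) p]
      exact map_nonunit (algebraMap 𝒪 O) _ hp𝒪
    obtain ⟨ρ', hρ', -, htate⟩ := EichlerShimura.exists_galoisRepAdic_of_eigensystem_tate (M * q) p
      hK (hF p hp) hL O hpO χ
    have hsame : LinearMap.charpoly (ρ.ρ σ) = (X - 1) ^ 2 := by
      rw [Density.adic_charpoly_eq_of_frobenius ρ ρ' (insert p (M * q).primeFactors)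
        (fun ℓ hℓ hℓS A hA τ hτ => ?_) σ]
      · exact charpoly_inertia_of_tate hq (hgeo M hqM rfl) hp hqp hpO ρ' htate hP hσ
      · rw [Finset.mem_insert, not_or, Nat.mem_primeFactors] at hℓS
        have hℓN : ¬ ℓ ∣ M * q := fun h => hℓS.2 ⟨hℓ, h, NeZero.ne _⟩
        rw [hρ ℓ hℓ hℓN hℓS.1 A hA τ hτ, hρ' ℓ hℓ hℓN hℓS.1 A hA τ hτ]
    have h1 := hcp σ
    rw [hsame] at h1
    letI : Algebra T O := ψ.toRingHom.toAlgebra
    have h2 : LinearMap.charpoly ((H.ρ.ρ σ).baseChange O) = (X - 1) ^ 2 := h1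
    rw [LinearMap.charpoly_baseChange] at h2
    rw [← hker, RingHom.mem_ker]
    have h3 := congrArg (fun r : O[X] => r.coeff i) h2
    simp only [coeff_map] at h3
    rw [coeff_sub, map_sub, sub_eq_zero]
    refine h3.trans ?_
    rw [show ((X : O[X]) - 1) ^ 2 = (((X : T[X]) - 1) ^ 2).map ψ.toRingHom by simp, coeff_map]
    rfl
  rwa [show sInf (minimalPrimes T) = (⊥ : Ideal T).radical from Ideal.sInf_minimalPrimes,
    show (⊥ : Ideal T).radical = ⊥ from nilradical_eq_zero T, Ideal.mem_bot] at hmem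

end Fermat.Agent.BadPrime

end
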