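import Fermat.Agent.BadPrime.NewformEigenPart
import Fermat.Agent.EichlerShimura.GaloisMatrices
import Fermat.Agent.Galois.Frobenius
import Fermat.Prelude.Def_GaloisRep_Adic

/-!
# The Tate lattice of a newform dies at every lower level

`V` is a `λ`-adic representation with the Frobenius polynomials of a newform of level `M`, mapped
equivariantly to torsion of `J₀(M)`. A Galois equivariant map `J₀(M) → J₀(M')`, `M'` a proper
divisor, kills the image of a fixed nonzero multiple of `V`. The Hecke operators act on the image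
through the eigen-system by the congruence relation, so no commutation of correspondences is used.
-/

set_option autoImplicit false
set_option linter.style.haveILetI false

noncomputable section

open CongruenceSubgroup ModularCurve ModularFormClass Polynomial IsLocalRing

namespace Fermat.Agent.BadPrime

open EichlerShimura (QZ cuspRank heckeMatrix heckeTU torsionPts torsionCoords torsionMap coordEnd
  matrixEnd)

local notation "ℚ̄" => AlgebraicClosure ℚ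

variable {O : Type} [CommRing O] [IsDomain O] [IsDiscreteValuationRing O]

/-- In rank two the quadratic relation follows from the characteristic polynomial. -/
theorem rho_quadratic (ρ : GaloisRepAdic O) {σ : ℚ̄ ≃ₐ[ℚ] ℚ̄} {a b : O}
    (h : LinearMap.charpoly (ρ.ρ σ) = X ^ 2 - C a * X + C b) (v : ρ.V) :
    ρ.ρ σ (ρ.ρ σ v) - a • ρ.ρ σ v + b • v = 0 := by
  have h1 := LinearMap.congr_fun (LinearMap.aeval_self_charpoly (ρ.ρ σ)) v
  rw [h] at h1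
  simpa [pow_two, Module.algebraMap_end_eq_smul_id] using h1

theorem rho_surjective (ρ : GaloisRepAdic O) (σ : ℚ̄ ≃ₐ[ℚ] ℚ̄) : Function.Surjective (ρ.ρ σ) :=
  fun w => ⟨ρ.ρ σ⁻¹ w, by rw [← Module.End.mul_apply, ← map_mul, mul_inv_cancel, map_one,
    Module.End.one_apply]⟩

theorem matrixEnd_eq_ringHom {r : ℕ} :
    ∃ Ψ : Matrix (Fin r) (Fin r) ℤ →+* Module.End ℤ (Fin r → QZ), ∀ H, Ψ H = matrixEnd H :=
  ⟨(endVecRingEquivMatrixEnd (Fin r) ℤ QZ).symm.toRingHom.comp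
    (Int.castRingHom (Module.End ℤ QZ)).mapMatrix, fun _ => rfl⟩

/-- A Galois equivariant map to the Jacobian of a divisor level kills the multiples of the
lattice of an eigensystem by the values of every relation of that level between good operators. -/
theorem killing_of_relation {M M' : ℕ} [NeZero M] [NeZero M'] (hM' : HasEigenRep M')
    (h : M' ∣ M) {p : ℕ} (hp : p.Prime) {K : ℕ} (hMK : M ∣ K) (hpK : p ∣ K)
    (χ : CuspForm.heckeAlgebra M 2 (∅ : Set ℕ) →+* O) (ρ : GaloisRepAdic O)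
    (hρ : ∀ (ℓ : ℕ) (hℓ : ℓ.Prime) (hℓM : ¬ ℓ ∣ M), ℓ ≠ p →
      ∀ A : ValuationSubring ℚ̄, A.LiesOverPrime ℓ → ∀ σ : ℚ̄ ≃ₐ[ℚ] ℚ̄, A.IsFrobeniusAt σ ℓ →
        LinearMap.charpoly (ρ.ρ σ) =
          X ^ 2 - C (χ (CuspForm.heckeAlgebra.T hℓ hℓM (Set.notMem_empty ℓ))) * X + C (ℓ : O))
    {P : MvPolynomial (GoodIndex K) ℤ} (hP0 : MvPolynomial.aeval (goodT (h.trans hMK)) P = 0)
    (k : ℕ) (F : ρ.V →+ JZero M') (hF : ∀ v, p ^ k • F v = 0)
    (hFeq : ∀ σ v, F (ρ.ρ σ v) = σ • F v) (v : ρ.V) :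
    F (χ (MvPolynomial.aeval (goodT hMK) P) • v) = 0 := by
  classical
  have hM'' := hM'
  obtain ⟨⟨e, hT, -, -⟩, -, hFrob⟩ := hM''
  obtain ⟨Θ, hΘ⟩ := exists_heckeRep M'
  obtain ⟨Ψ, hΨ⟩ := matrixEnd_eq_ringHom (r := cuspRank M')
  have hpk : 0 < p ^ k := pow_pos hp.pos k
  let Ft : ρ.V →+ torsionPts M' := F.codRestrict _ fun v =>
    isOfFinAddOrder_iff_nsmul_eq_zero.mpr ⟨p ^ k, hpk, hF v⟩
  let L : ρ.V →+ (Fin (cuspRank M') → QZ) := (torsionCoords e).toAddMonoidHom.comp Ft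
  have hgen : ∀ (ℓ : GoodIndex K) (v : ρ.V),
      Ψ (Θ (goodT (h.trans hMK) ℓ)) (L v) = L (χ (goodT hMK ℓ) • v) := by
    rintro ⟨ℓ, hℓ, hℓK⟩ w
    have hℓM : ¬ ℓ ∣ M := fun h' => hℓK (h'.trans hMK)
    have hℓM' : ¬ ℓ ∣ M' := fun h' => hℓM (h'.trans h)
    have hℓp : ℓ ≠ p := fun h' => hℓK (h' ▸ hpK)
    have hℓMp : ¬ ℓ ∣ M' * p := fun h' => (hℓ.dvd_mul.mp h').elim hℓM'
      fun h'' => hℓp ((Nat.prime_dvd_prime_iff_eq hℓ hp).mp h'')
    obtain ⟨A, σ, hA, hσ⟩ := Galois.exists_valuationSubring_isFrobeniusAt hℓ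
    obtain ⟨u, rfl⟩ := rho_surjective ρ σ w
    have hrel := congrArg F (rho_quadratic ρ (hρ ℓ hℓ hℓM hℓp A hA σ hσ) u)
    rw [map_add, map_sub, map_zero, hFeq, hFeq, Nat.cast_smul_eq_nsmul, map_nsmul] at hrel
    have hrel' := (hFrob p hp ℓ hℓ hℓMp A hA).2 σ hσ (F u) ⟨k, hF u⟩
    rw [← hFeq σ u] at hrel hrel'
    have hTy : heckeOperatorBar M' ⟨ℓ, hℓ⟩ (F (ρ.ρ σ u)) =
        F (χ (CuspForm.heckeAlgebra.T hℓ hℓM (Set.notMem_empty ℓ)) • ρ.ρ σ u) :=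
      (sub_eq_zero.mp (by
        rw [← sub_eq_zero_of_eq (hrel'.trans hrel.symm)]
        abel)).symm
    have hTU : goodT (h.trans hMK) ⟨ℓ, hℓ, hℓK⟩ = heckeTU M' ⟨ℓ, hℓ⟩ := by
      simp [goodT, heckeTU, dif_neg hℓM']
    rw [hTU, hΨ (Θ (heckeTU M' ⟨ℓ, hℓ⟩)), hΘ ⟨ℓ, hℓ⟩, ← EichlerShimura.coordEnd_hecke e ⟨ℓ, hℓ⟩
      (heckeOperatorBar M' ⟨ℓ, hℓ⟩).toAddMonoidHom (hT ⟨ℓ, hℓ⟩ hℓM')]
    simp only [L, AddMonoidHom.comp_apply, AddEquiv.coe_toAddMonoidHom,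
      EichlerShimura.coordEnd_apply, AddEquiv.symm_apply_apply]
    exact congrArg (torsionCoords e) (Subtype.ext hTy)
  have key : ∀ (Q : MvPolynomial (GoodIndex K) ℤ) (v : ρ.V),
      Ψ (Θ (MvPolynomial.aeval (goodT (h.trans hMK)) Q)) (L v) =
        L (χ (MvPolynomial.aeval (goodT hMK) Q) • v) := by
    intro Q
    induction Q using MvPolynomial.induction_on with
    | C a =>
      intro v
      simp only [eq_intCast, map_intCast]
      rw [Module.End.intCast_apply, Int.cast_smul_eq_zsmul, map_zsmul]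
    | add p q hp hq =>
      intro v
      simp only [map_add, LinearMap.add_apply, add_smul, hp, hq]
    | mul_X p ℓ hp =>
      intro v
      simp only [map_mul, MvPolynomial.aeval_X, Module.End.mul_apply, hgen, hp, smul_smul]
  have h0 := key P v
  rw [hP0, map_zero, map_zero, LinearMap.zero_apply] at h0
  have h0' := (torsionCoords e).map_eq_zero_iff.mp h0.symm
  exact congrArg Subtype.val h0'

/-- A Galois equivariant map to the Jacobian of a proper divisor level kills a fixed nonzero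
multiple of the lattice of a newform. -/
theorem exists_ne_zero_killing {M M' : ℕ} [NeZero M] [NeZero M'] (hM : HasEigenRep M)
    (hM' : HasEigenRep M') {g : CuspForm (Gamma0 M) 2} (hg : g.IsNewform) (h : M' ∣ M)
    (hne : M' ≠ M) {p : ℕ} (hp : p.Prime) [CharZero O]
    (φ : CuspForm.heckeAlgebra M 2 (∅ : Set ℕ) →+* ℂ)
    (hφ : ∀ (ℓ : ℕ) (hℓ : ℓ.Prime) (hℓM : ¬ ℓ ∣ M),
      φ (CuspForm.heckeAlgebra.T hℓ hℓM (Set.notMem_empty ℓ)) = qCoeff g ℓ)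
    (χ : CuspForm.heckeAlgebra M 2 (∅ : Set ℕ) →+* O) (hker : RingHom.ker χ ≤ RingHom.ker φ)
    (ρ : GaloisRepAdic O)
    (hρ : ∀ (ℓ : ℕ) (hℓ : ℓ.Prime) (hℓM : ¬ ℓ ∣ M), ℓ ≠ p →
      ∀ A : ValuationSubring ℚ̄, A.LiesOverPrime ℓ → ∀ σ : ℚ̄ ≃ₐ[ℚ] ℚ̄, A.IsFrobeniusAt σ ℓ →
        LinearMap.charpoly (ρ.ρ σ) =
          X ^ 2 - C (χ (CuspForm.heckeAlgebra.T hℓ hℓM (Set.notMem_empty ℓ))) * X + C (ℓ : O)) :
    ∃ c : O, c ≠ 0 ∧ ∀ (k : ℕ) (F : ρ.V →+ JZero M'),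
      (∀ v, p ^ k • F v = 0) → (∀ σ v, F (ρ.ρ σ v) = σ • F v) → ∀ v, F (c • v) = 0 := by
  classical
  have hK0 : M * p ≠ 0 := Nat.mul_ne_zero (NeZero.ne M) hp.ne_zero
  have hMK : M ∣ M * p := dvd_mul_right M p
  obtain ⟨P, hP0, hPg⟩ := exists_poly_killing_away hM hM' hg h hne hK0 hMK
  refine ⟨χ (MvPolynomial.aeval (goodT hMK) P), fun hc => hPg ?_, fun k F hF hFeq v =>
    killing_of_relation hM' h hp hMK (dvd_mul_left p M) χ ρ hρ hP0 k F hF hFeq v⟩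
  have h1 : φ (MvPolynomial.aeval (goodT hMK) P) = 0 :=
    RingHom.mem_ker.mp (hker (RingHom.mem_ker.mpr hc))
  rw [← h1, MvPolynomial.map_aeval (g := goodT hMK) φ P,
    RingHom.ext_int (φ.comp (algebraMap ℤ _)) (algebraMap ℤ ℂ)]
  simp only [goodT, hφ]
  rfl

/-- A nonzero killing multiplier gives a killing power of `p`. -/
theorem exists_pow_of_killing {M' p : ℕ} [NeZero M'] (hpO : (p : O) ∈ maximalIdeal O)
    {ρ : GaloisRepAdic O} {c : O} (hc0 : c ≠ 0)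
    (hc : ∀ (k : ℕ) (F : ρ.V →+ JZero M'),
      (∀ v, p ^ k • F v = 0) → (∀ σ v, F (ρ.ρ σ v) = σ • F v) → ∀ v, F (c • v) = 0) :
    ∃ c₀ : ℕ, ∀ (k : ℕ) (F : ρ.V →+ JZero M'),
      (∀ v, p ^ k • F v = 0) → (∀ σ v, F (ρ.ρ σ v) = σ • F v) →
      ∀ v, p ^ c₀ • F v = 0 := by
  obtain ⟨ϖ, hϖ⟩ := IsDiscreteValuationRing.exists_irreducible O
  obtain ⟨i, u, rfl⟩ := IsDiscreteValuationRing.eq_unit_mul_pow_irreducible hc0 hϖ
  rw [hϖ.maximalIdeal_eq, Ideal.mem_span_singleton] at hpO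
  obtain ⟨d, hd⟩ := pow_dvd_pow_of_dvd hpO i
  refine ⟨i, fun k F hF hFeq v => ?_⟩
  rw [← map_nsmul, ← Nat.cast_smul_eq_nsmul O, Nat.cast_pow,
    show (p : O) ^ i = (↑u * ϖ ^ i) * (↑u⁻¹ * d) by rw [hd]; rw [mul_mul_mul_comm, Units.mul_inv, one_mul],
    mul_smul]
  exact hc k F hF hFeq _

/-- The bound as a power of `p`. -/
theorem exists_pow_killing {M M' : ℕ} [NeZero M] [NeZero M'] (hM : HasEigenRep M)
    (hM' : HasEigenRep M') {g : CuspForm (Gamma0 M) 2} (hg : g.IsNewform) (h : M' ∣ M)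
    (hne : M' ≠ M) {p : ℕ} (hp : p.Prime) [CharZero O] (hpO : (p : O) ∈ maximalIdeal O)
    (φ : CuspForm.heckeAlgebra M 2 (∅ : Set ℕ) →+* ℂ)
    (hφ : ∀ (ℓ : ℕ) (hℓ : ℓ.Prime) (hℓM : ¬ ℓ ∣ M),
      φ (CuspForm.heckeAlgebra.T hℓ hℓM (Set.notMem_empty ℓ)) = qCoeff g ℓ)
    (χ : CuspForm.heckeAlgebra M 2 (∅ : Set ℕ) →+* O) (hker : RingHom.ker χ ≤ RingHom.ker φ)
    (ρ : GaloisRepAdic O)
    (hρ : ∀ (ℓ : ℕ) (hℓ : ℓ.Prime) (hℓM : ¬ ℓ ∣ M), ℓ ≠ p →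
      ∀ A : ValuationSubring ℚ̄, A.LiesOverPrime ℓ → ∀ σ : ℚ̄ ≃ₐ[ℚ] ℚ̄, A.IsFrobeniusAt σ ℓ →
        LinearMap.charpoly (ρ.ρ σ) =
          X ^ 2 - C (χ (CuspForm.heckeAlgebra.T hℓ hℓM (Set.notMem_empty ℓ))) * X + C (ℓ : O)) :
    ∃ c₀ : ℕ, ∀ (k : ℕ) (F : ρ.V →+ JZero M'),
      (∀ v, p ^ k • F v = 0) → (∀ σ v, F (ρ.ρ σ v) = σ • F v) →
      ∀ v, p ^ c₀ • F v = 0 := by
  obtain ⟨c, hc0, hc⟩ := exists_ne_zero_killing hM hM' hg h hne hp φ hφ χ hker ρ hρ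
  exact exists_pow_of_killing hpO hc0 hc

end Fermat.Agent.BadPrime
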