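import Fermat.Agent.EichlerShimura.Commute
import Fermat.Agent.EichlerShimura.GaloisHecke

/-!
# The two degeneracy maps `J₀(Mr) → J₀(M)`

Pushforward of divisor classes along `heckeAlphaBar` and `heckeBetaBar`, and their commutation
with the arithmetic Galois action.
-/

set_option autoImplicit false
set_option linter.style.haveILetI false

noncomputable section

namespace Fermat.Agent.BadPrime

open AlgebraicCurve

section General

variable {K F F' : Type*} [Field K] [Field F] [Field F'] [Algebra K F] [Algebra K F']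
  (φ : F →ₐ[K] F') (hφ : φ.toRingHom.IsIntegral) (hfin : FiniteAlong K φ)
  (hN : NormFormulaAlong K φ hfin)

/-- Pushforward of divisors of degree zero. -/
def degZeroPush :
    Divisor.degZero (K := K) (F := F') →+ Divisor.degZero (K := K) (F := F) :=
  ((Divisor.pushforwardAlong φ hφ).domRestrict (Divisor.degZero (K := K) (F := F'))).codRestrict _
    (fun D => Divisor.pushforwardAlong_mem_degZero φ hφ D.2)

@[simp]
theorem coe_degZeroPush (D : Divisor.degZero (K := K) (F := F')) :
    (degZeroPush φ hφ D : Divisor K F) = Divisor.pushforwardAlong φ hφ (D : Divisor K F') :=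
  rfl

/-- Pushforward on `Pic⁰`. -/
def pic0Push : Pic0 K F' →+ Pic0 K F :=
  QuotientAddGroup.map _ _ (degZeroPush φ hφ) (by
    rintro ⟨D, hD0⟩ hD
    simp only [AddSubgroup.mem_addSubgroupOf] at hD ⊢
    exact Divisor.isPrincipal_pushforwardAlong φ hφ hfin hN hD)

theorem pic0Push_mk (D : Divisor.degZero (K := K) (F := F')) :
    pic0Push φ hφ hfin hN (Pic0.mk D) = Pic0.mk (degZeroPush φ hφ D) :=
  rfl

/-- A class with vanishing pushforward has principal pushforward divisor. -/
theorem pushforwardAlong_mem_principal {D : Divisor.degZero (K := K) (F := F')}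
    (h : pic0Push φ hφ hfin hN (Pic0.mk D) = 0) :
    Divisor.pushforwardAlong φ hφ (D : Divisor K F') ∈ Divisor.principal (K := K) (F := F) := by
  rw [pic0Push_mk] at h
  exact AddSubgroup.mem_addSubgroupOf.mp ((QuotientAddGroup.eq_zero_iff _).mp h)

theorem pic0Push_semilinear_smul {g : SemilinearAut K F} {g' : SemilinearAut K F'}
    (h : SemilinearAut.IntertwinesAlong φ.toRingHom g g') (x : Pic0 K F') :
    g • pic0Push φ hφ hfin hN x = pic0Push φ hφ hfin hN (g' • x) := by
  obtain ⟨D, rfl⟩ := Pic0.mk_surjective x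
  rw [pic0Push_mk, SemilinearAut.pic0_smul_mk, SemilinearAut.pic0_smul_mk, pic0Push_mk]
  refine congrArg Pic0.mk (Subtype.ext ?_)
  simp only [SemilinearAut.coe_degZeroSMulHom, coe_degZeroPush]
  rw [EichlerShimura.pushforwardAlong_semilinear_smul h hφ]

end General

open ModularCurve EichlerShimura Curve

variable (M r : ℕ) [NeZero M] [NeZero r]

local notation "ℚ̄" => AlgebraicClosure ℚ

theorem isIntegral_heckeAlphaBar : (heckeAlphaBar ℚ̄ M r).toRingHom.IsIntegral := by
  haveI : NeZero (M * r) := ⟨Nat.mul_ne_zero (NeZero.ne M) (NeZero.ne r)⟩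
  haveI := isFunctionField1_level (complexEmbedding : ℚ̄ →+* ℂ) M
  haveI := isFunctionField1_level (complexEmbedding : ℚ̄ →+* ℂ) (M * r)
  exact isIntegralAlong _

theorem isIntegral_heckeBetaBar : (heckeBetaBar ℚ̄ M r).toRingHom.IsIntegral := by
  haveI : NeZero (M * r) := ⟨Nat.mul_ne_zero (NeZero.ne M) (NeZero.ne r)⟩
  haveI := isFunctionField1_level (complexEmbedding : ℚ̄ →+* ℂ) M
  haveI := isFunctionField1_level (complexEmbedding : ℚ̄ →+* ℂ) (M * r)
  exact isIntegralAlong _

theorem finiteAlong_heckeAlphaBar : FiniteAlong ℚ̄ (heckeAlphaBar ℚ̄ M r) := by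
  haveI : NeZero (M * r) := ⟨Nat.mul_ne_zero (NeZero.ne M) (NeZero.ne r)⟩
  haveI := isFunctionField1_level (complexEmbedding : ℚ̄ →+* ℂ) M
  haveI := isFunctionField1_level (complexEmbedding : ℚ̄ →+* ℂ) (M * r)
  exact finiteAlong _

theorem finiteAlong_heckeBetaBar : FiniteAlong ℚ̄ (heckeBetaBar ℚ̄ M r) := by
  haveI : NeZero (M * r) := ⟨Nat.mul_ne_zero (NeZero.ne M) (NeZero.ne r)⟩
  haveI := isFunctionField1_level (complexEmbedding : ℚ̄ →+* ℂ) M
  haveI := isFunctionField1_level (complexEmbedding : ℚ̄ →+* ℂ) (M * r)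
  exact finiteAlong _

theorem normFormulaAlong_heckeAlphaBar :
    NormFormulaAlong ℚ̄ (heckeAlphaBar ℚ̄ M r) (finiteAlong_heckeAlphaBar M r) := by
  haveI : NeZero (M * r) := ⟨Nat.mul_ne_zero (NeZero.ne M) (NeZero.ne r)⟩
  haveI := isFunctionField1_level (complexEmbedding : ℚ̄ →+* ℂ) M
  haveI := isFunctionField1_level (complexEmbedding : ℚ̄ →+* ℂ) (M * r)
  exact normFormulaAlong _ _

theorem normFormulaAlong_heckeBetaBar :
    NormFormulaAlong ℚ̄ (heckeBetaBar ℚ̄ M r) (finiteAlong_heckeBetaBar M r) := by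
  haveI : NeZero (M * r) := ⟨Nat.mul_ne_zero (NeZero.ne M) (NeZero.ne r)⟩
  haveI := isFunctionField1_level (complexEmbedding : ℚ̄ →+* ℂ) M
  haveI := isFunctionField1_level (complexEmbedding : ℚ̄ →+* ℂ) (M * r)
  exact normFormulaAlong _ _

/-- `α_* : J₀(Mr) → J₀(M)`. -/
def alphaPush : JZero (M * r) →+ JZero M :=
  pic0Push (heckeAlphaBar ℚ̄ M r) (isIntegral_heckeAlphaBar M r) (finiteAlong_heckeAlphaBar M r)
    (normFormulaAlong_heckeAlphaBar M r)

/-- `β_* : J₀(Mr) → J₀(M)`. -/
def betaPush : JZero (M * r) →+ JZero M :=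
  pic0Push (heckeBetaBar ℚ̄ M r) (isIntegral_heckeBetaBar M r) (finiteAlong_heckeBetaBar M r)
    (normFormulaAlong_heckeBetaBar M r)

variable {M r}

theorem galois_smul_alphaPush (σ : ℚ̄ ≃ₐ[ℚ] ℚ̄) (x : JZero (M * r)) :
    σ • alphaPush M r x = alphaPush M r (σ • x) := by
  rw [galois_smul_pic0_def, galois_smul_pic0_def]
  exact pic0Push_semilinear_smul _ _ _ _ (heckeAlphaBar_intertwines M r σ) x

theorem galois_smul_betaPush (σ : ℚ̄ ≃ₐ[ℚ] ℚ̄) (x : JZero (M * r)) :
    σ • betaPush M r x = betaPush M r (σ • x) := by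
  rw [galois_smul_pic0_def, galois_smul_pic0_def]
  exact pic0Push_semilinear_smul _ _ _ _ (heckeBetaBar_intertwines M r σ) x

/-- A class killed by `α_*` has principal pushforward divisor along `α`. -/
theorem pushforward_alpha_mem_principal (hα : (heckeAlphaBar ℚ̄ M r).toRingHom.IsIntegral)
    {D : Divisor.degZero (K := ℚ̄) (F := modularFunctionFieldBar (M * r))}
    (h : alphaPush M r (Pic0.mk D) = 0) :
    Divisor.pushforwardAlong (heckeAlphaBar ℚ̄ M r) hα
        (D : Divisor ℚ̄ (modularFunctionFieldBar (M * r))) ∈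
      Divisor.principal (K := ℚ̄) (F := modularFunctionFieldBar M) :=
  pushforwardAlong_mem_principal _ _ _ _ h

/-- A class killed by `β_*` has principal pushforward divisor along `β`. -/
theorem pushforward_beta_mem_principal (hβ : (heckeBetaBar ℚ̄ M r).toRingHom.IsIntegral)
    {D : Divisor.degZero (K := ℚ̄) (F := modularFunctionFieldBar (M * r))}
    (h : betaPush M r (Pic0.mk D) = 0) :
    Divisor.pushforwardAlong (heckeBetaBar ℚ̄ M r) hβ
        (D : Divisor ℚ̄ (modularFunctionFieldBar (M * r))) ∈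
      Divisor.principal (K := ℚ̄) (F := modularFunctionFieldBar M) :=
  pushforwardAlong_mem_principal _ _ _ _ h

end Fermat.Agent.BadPrime

end
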