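import Fermat.Agent.BadPrime.FullSystem
import Fermat.Agent.BadPrime.EigenLattice
import Fermat.Agent.BadPrime.Pushforward
import Fermat.Agent.BadPrime.RankTwo
import Fermat.Agent.EichlerShimura.Eigensystem
import Fermat.Agent.Density.Transfer

/-!
# The representation of a newform inside the Tate module of `J₀(M)`

`exists_newformTateRep` packages, for the data of S35 and S36, a representation whose reductions sit
in powers of `J₀(M)`; `exists_killed_family` puts them inside the kernel of both degeneracy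
pushforwards to a level `M'` with `M = M' q`, up to a bounded power of the residue characteristic.
-/

set_option autoImplicit false
set_option linter.style.haveILetI false

noncomputable section

open Polynomial IsLocalRing CongruenceSubgroup ModularFormClass ModularCurve

namespace Fermat.Agent.BadPrime

local notation "ℚ̄" => AlgebraicClosure ℚ
local notation "Γℚ" => (AlgebraicClosure ℚ ≃ₐ[ℚ] AlgebraicClosure ℚ)

/-- The representation `ρ` of the newform `g` is realised in the torsion of `J₀(M)`. -/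
def IsNewformTateRep {M : ℕ} [NeZero M] (g : CuspForm (Gamma0 M) 2) (p : ℕ) {O : Type} [CommRing O]
    [IsLocalRing O] (ρ : GaloisRepAdic O) : Prop :=
  ∃ (φ : CuspForm.heckeAlgebra M 2 (∅ : Set ℕ) →+* ℂ)
    (χ : CuspForm.heckeAlgebra M 2 (∅ : Set ℕ) →+* O),
    (∀ (ℓ : ℕ) (hℓ : ℓ.Prime) (hℓM : ¬ ℓ ∣ M),
      φ (CuspForm.heckeAlgebra.T hℓ hℓM (Set.notMem_empty ℓ)) = qCoeff g ℓ) ∧
    RingHom.ker χ = RingHom.ker φ ∧
    (∀ (ℓ : ℕ) (hℓ : ℓ.Prime) (hℓM : ¬ ℓ ∣ M), ℓ ≠ p →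
      ∀ A : ValuationSubring ℚ̄, A.LiesOverPrime ℓ → ∀ σ : Γℚ, A.IsFrobeniusAt σ ℓ →
        LinearMap.charpoly (ρ.ρ σ) =
          X ^ 2 - C (χ (CuspForm.heckeAlgebra.T hℓ hℓM (Set.notMem_empty ℓ))) * X + C (ℓ : O)) ∧
    ∀ n : ℕ, ∃ (m : ℕ) (f : ρ.V →+ (Fin m → JZero M)),
      (∀ v, f v = 0 ↔ ∃ w, v = ((p : O) ^ n) • w) ∧ (∀ v i, p ^ n • f v i = 0) ∧
      ∀ σ v i, f (ρ.ρ σ v) i = σ • f v i

/-- The data of S35 and S36 have a representation realised in the torsion of `J₀(M)`. -/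
theorem exists_newformTateRep {M : ℕ} [NeZero M] (hM : HasEigenRep M)
    {g : CuspForm (Gamma0 M) 2} (hg : g.IsNewform) (lam : ℕ) [Fact lam.Prime] (S : Finset ℕ)
    (O' : Type) [CommRing O'] [IsDomain O'] [IsDiscreteValuationRing O']
    [IsAdicComplete (maximalIdeal O') O'] [Finite (ResidueField O')]
    [CharZero O'] (hlamO' : (lam : O') ∈ maximalIdeal O')
    (chig : CuspForm.heckeAlgebra M 2 (↑S : Set ℕ) →+* ℂ)
    (hchig : ∀ (ℓ : ℕ) (hℓ : ℓ.Prime) (hℓM : ¬ ℓ ∣ M) (hℓS : ℓ ∉ (↑S : Set ℕ)),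
      chig (CuspForm.heckeAlgebra.T hℓ hℓM hℓS) = qCoeff g ℓ)
    (iota : chig.range →+* O') (hlamS : lam ∈ S)
    (hMS : ∀ q : ℕ, q.Prime → q ∣ M → q ∈ S) :
    ∃ (O'' : Type) (_ : CommRing O'') (_ : IsDomain O'') (_ : IsDiscreteValuationRing O'')
      (_ : IsAdicComplete (maximalIdeal O'') O'') (_ : Finite (ResidueField O''))
      (_ : CharZero O'') (_ : Algebra O' O'') (_ : Module.Finite O' O'')
      (_ : IsLocalHom (algebraMap O' O'')),
      Function.Injective (algebraMap O' O'') ∧ (lam : O'') ∈ maximalIdeal O'' ∧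
      ∃ ρ : GaloisRepAdic O'',
        (∀ (ℓ : ℕ) (hℓ : ℓ.Prime) (hℓM : ¬ ℓ ∣ M) (hℓS : ℓ ∉ (↑S : Set ℕ)),
          ∀ A : ValuationSubring ℚ̄, A.LiesOverPrime ℓ → ∀ σ : Γℚ, A.IsFrobeniusAt σ ℓ →
            LinearMap.charpoly (ρ.ρ σ) =
              X ^ 2 - C (algebraMap O' O'' ((iota.comp chig.rangeRestrict)
                (CuspForm.heckeAlgebra.T hℓ hℓM hℓS))) * X + C ((ℓ : O''))) ∧
        ρ.DetIsCyclotomic lam ∧ IsNewformTateRep g lam ρ := by
  obtain ⟨φ, hT, -, O'', i1, i2, i3, i4, i5, i6, i7, i8, i9, hinj, χ, hker, hχ⟩ :=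
    exists_full_system hg.1 S hMS O' chig hchig iota
  have hlamO'' : (lam : O'') ∈ maximalIdeal O'' := by
    rw [← map_natCast (algebraMap O' O'') lam]
    exact map_nonunit _ _ hlamO'
  obtain ⟨hK, hL, hF⟩ := hM
  obtain ⟨ρ, hρ, -, htate⟩ := EichlerShimura.exists_galoisRepAdic_of_eigensystem_tate M lam hK
    (hF lam Fact.out) hL O'' hlamO'' χ
  refine ⟨O'', i1, i2, i3, i4, i5, i6, i7, i8, i9, hinj, hlamO'', ρ,
    fun ℓ hℓ hℓM hℓS A hA σ hσ => ?_, ?_, φ, χ, hT, hker, hρ, htate⟩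
  · rw [hρ ℓ hℓ hℓM (fun h => hℓS (h ▸ Finset.mem_coe.mpr hlamS)) A hA σ hσ, hχ ℓ hℓ hℓM hℓS]
  · refine Density.detIsCyclotomic_of_charpoly_frobenius ρ lam Fact.out hlamO'' (S ∪ M.primeFactors)
      fun ℓ hℓ hℓS A hA σ hσ => ?_
    rw [Finset.mem_union, not_or, Nat.mem_primeFactors] at hℓS
    have hℓM : ¬ ℓ ∣ M := fun h => hℓS.2 ⟨hℓ, h, NeZero.ne M⟩
    exact ⟨_, hρ ℓ hℓ hℓM (fun h => hℓS.1 (h ▸ hlamS)) A hA σ hσ⟩

/-- Reductions into `J₀(M' q)` of a lattice killed by equivariant maps to `J₀(M')` are, times a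
fixed power of `p`, killed by both degeneracy pushforwards. -/
theorem killed_family_of_pow_killing {M' q p c₀ : ℕ} [NeZero M'] [NeZero q]
    {O : Type} [CommRing O] [IsDomain O] [IsDiscreteValuationRing O] {ρ : GaloisRepAdic O}
    (hc₀ : ∀ (k : ℕ) (F : ρ.V →+ JZero M'),
      (∀ v, p ^ k • F v = 0) → (∀ σ v, F (ρ.ρ σ v) = σ • F v) → ∀ v, p ^ c₀ • F v = 0)
    (htate : ∀ n : ℕ, ∃ (m : ℕ) (f : ρ.V →+ (Fin m → JZero (M' * q))),
      (∀ v, f v = 0 ↔ ∃ w, v = ((p : O) ^ n) • w) ∧ (∀ v i, p ^ n • f v i = 0) ∧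
      ∀ σ v i, f (ρ.ρ σ v) i = σ • f v i) (n : ℕ) :
    ∃ (m : ℕ) (f : ρ.V →+ (Fin m → JZero (M' * q))),
      (∀ v, f v = 0 ↔ ∃ w, v = ((p : O) ^ n) • w) ∧ (∀ v i, p ^ n • f v i = 0) ∧
      (∀ σ v i, f (ρ.ρ σ v) i = σ • f v i) ∧
      ∀ v i, alphaPush M' q (p ^ c₀ • f v i) = 0 ∧ betaPush M' q (p ^ c₀ • f v i) = 0 := by
  obtain ⟨m, f, h0, hn, heq⟩ := htate n
  refine ⟨m, f, h0, hn, heq, fun v i => ?_⟩
  let fi : ρ.V →+ JZero (M' * q) := (Pi.evalAddMonoidHom _ i).comp f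
  constructor
  · rw [map_nsmul]
    exact hc₀ n ((alphaPush M' q).comp fi) (fun w => by
        simp only [fi, AddMonoidHom.comp_apply, Pi.evalAddMonoidHom_apply, ← map_nsmul]
        rw [hn, map_zero])
      (fun σ w => by
        simp only [fi, AddMonoidHom.comp_apply, Pi.evalAddMonoidHom_apply, heq,
          galois_smul_alphaPush]) v
  · rw [map_nsmul]
    exact hc₀ n ((betaPush M' q).comp fi) (fun w => by
        simp only [fi, AddMonoidHom.comp_apply, Pi.evalAddMonoidHom_apply, ← map_nsmul]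
        rw [hn, map_zero])
      (fun σ w => by
        simp only [fi, AddMonoidHom.comp_apply, Pi.evalAddMonoidHom_apply, heq,
          galois_smul_betaPush]) v

/-- The reductions of `ρ`, times a fixed power of `p`, are killed by both degeneracy
pushforwards. -/
theorem exists_killed_family {M M' q : ℕ} [NeZero M] [NeZero M'] [NeZero q] (hMq : M = M' * q)
    (hq : q ≠ 1) (hM : HasEigenRep M) (hM' : HasEigenRep M')
    {g : CuspForm (Gamma0 M) 2} (hg : g.IsNewform) {p : ℕ} (hp : p.Prime)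
    {O : Type} [CommRing O] [IsDomain O] [IsDiscreteValuationRing O] [CharZero O]
    (hpO : (p : O) ∈ maximalIdeal O) {ρ : GaloisRepAdic O} (hρ : IsNewformTateRep g p ρ) :
    ∃ c₀ : ℕ, ∀ n : ℕ, ∃ (m : ℕ) (f : ρ.V →+ (Fin m → JZero (M' * q))),
      (∀ v, f v = 0 ↔ ∃ w, v = ((p : O) ^ n) • w) ∧ (∀ v i, p ^ n • f v i = 0) ∧
      (∀ σ v i, f (ρ.ρ σ v) i = σ • f v i) ∧
      ∀ v i, alphaPush M' q (p ^ c₀ • f v i) = 0 ∧ betaPush M' q (p ^ c₀ • f v i) = 0 := by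
  subst hMq
  obtain ⟨φ, χ, hφ, hker, hchar, htate⟩ := hρ
  have hne : M' ≠ M' * q := fun h => hq ((mul_eq_left₀ (NeZero.ne M')).mp h.symm)
  obtain ⟨c₀, hc₀⟩ := exists_pow_killing hM hM' hg (dvd_mul_right M' q) hne hp hpO φ hφ χ
    hker.le ρ hchar
  exact ⟨c₀, killed_family_of_pow_killing hc₀ htate⟩

end Fermat.Agent.BadPrime

end
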