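import Fermat.Agent.BadPrime.GeometryStatements
import Fermat.Agent.BadPrime.TateEigen
import Fermat.Agent.EC.Det.CyclotomicChar

/-!
# S35 from the quadratic relation of Frobenius on killed torsion

The representation sits in torsion killed by both pushforwards to level `M / q`, so the square `F`
of Frobenius at `q` satisfies `(F - 1) (F - q ^ 2) = 0`; as `det = q` the trace is `±(q + 1)`.
-/

set_option autoImplicit false
set_option linter.style.haveILetI false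

noncomputable section

open Polynomial IsLocalRing CongruenceSubgroup ModularFormClass ModularCurve AlgebraicCurve

namespace Fermat.Agent.BadPrime

local notation "ℚ̄" => AlgebraicClosure ℚ
local notation "Γℚ" => (AlgebraicClosure ℚ ≃ₐ[ℚ] AlgebraicClosure ℚ)

/-- A cyclotomic determinant is `q` at a Frobenius at `q ≠ p`. -/
theorem det_eq_natCast_of_detIsCyclotomic {O : Type} [CommRing O] [IsDomain O]
    [IsDiscreteValuationRing O] {ρ : GaloisRepAdic O} {p q : ℕ} (h : ρ.DetIsCyclotomic p)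
    (hp : p.Prime) (hq : q.Prime) (hqp : q ≠ p) {A : ValuationSubring ℚ̄}
    (hA : A.LiesOverPrime q) {σ : Γℚ} (hσ : A.IsFrobeniusAt σ q) :
    LinearMap.det (ρ.ρ σ) = (q : O) := by
  rw [← sub_eq_zero]
  refine eq_zero_of_forall_pow_smul (V := O) h.1 fun n => ?_
  haveI : NeZero (p ^ n) := ⟨pow_ne_zero n hp.ne_zero⟩
  have hn : ¬ q ∣ p ^ n := fun hd =>
    hqp ((Nat.prime_dvd_prime_iff_eq hq hp).mp (hq.dvd_of_dvd_pow hd))
  have hμ : ∀ μ : ℚ̄, μ ^ p ^ n = 1 → σ μ = μ ^ q := fun μ hμ => by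
    rw [EC.apply_eq_pow_cycloChar (p ^ n) σ hμ, EC.cycloChar_eq_of_isFrobeniusAt hq hn hA hσ,
      ZMod.val_natCast, pow_eq_pow_mod q hμ]
  obtain ⟨w, hw⟩ := Ideal.mem_span_singleton.mp (h.2 n σ q hμ)
  exact ⟨w, by rw [hw, smul_eq_mul, Nat.cast_pow]⟩

/-- The characteristic polynomial of Frobenius at a prime exactly dividing the level. -/
theorem charpoly_frobenius_of_killed {M q : ℕ} [NeZero M] [NeZero q] (hq : q.Prime)
    (hgeo : FrobeniusSqTorsion M q) {p : ℕ} (hp : p.Prime) (hqp : q ≠ p) {O : Type} [CommRing O]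
    [IsDomain O] [IsDiscreteValuationRing O] [CharZero O] (hpO : (p : O) ∈ maximalIdeal O)
    (ρ : GaloisRepAdic O) (hdet : ρ.DetIsCyclotomic p) (c₀ : ℕ)
    (hfam : ∀ n : ℕ, ∃ (m : ℕ) (f : ρ.V →+ (Fin m → JZero (M * q))),
      (∀ v, f v = 0 ↔ ∃ w, v = ((p : O) ^ n) • w) ∧ (∀ v i, p ^ n • f v i = 0) ∧
      (∀ σ v i, f (ρ.ρ σ v) i = σ • f v i) ∧
      ∀ v i, alphaPush M q (p ^ c₀ • f v i) = 0 ∧ betaPush M q (p ^ c₀ • f v i) = 0)
    {A : ValuationSubring ℚ̄} (hA : A.LiesOverPrime q) {σ : Γℚ} (hσ : A.IsFrobeniusAt σ q) :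
    LinearMap.charpoly (ρ.ρ σ) = X ^ 2 - C ((q : O) + 1) * X + C (q : O) ∨
      LinearMap.charpoly (ρ.ρ σ) = X ^ 2 + C ((q : O) + 1) * X + C (q : O) := by
  refine charpoly_eq_of_sq_relation ρ σ q
    (det_eq_natCast_of_detIsCyclotomic hdet hp hq hqp hA hσ) fun v => ?_
  refine sub_eq_zero.mp (natCast_pow_smul_eq_zero (O := O) (c := c₀) hp.ne_zero ?_)
  refine eq_zero_of_forall_pow_smul hpO fun n => ?_
  obtain ⟨m, f, h0, hn, heq, hkill⟩ := hfam n
  refine (h0 _).mp (funext fun i => ?_)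
  have hnq : ¬ q ∣ p ^ n := fun h =>
    hqp ((Nat.prime_dvd_prime_iff_eq hq hp).mp (hq.dvd_of_dvd_pow h))
  obtain ⟨D, hD⟩ := Pic0.mk_surjective (p ^ c₀ • f v i)
  have hka := (hkill v i).1
  have hkb := (hkill v i).2
  rw [← hD] at hka hkb
  have h1 := hgeo A hA σ hσ (p ^ n) hnq (isIntegral_heckeAlphaBar M q) (isIntegral_heckeBetaBar M q)
    D (hD ▸ by rw [smul_comm, hn, smul_zero]) (pushforward_alpha_mem_principal _ hka)
    (pushforward_beta_mem_principal _ hkb)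
  rw [hD] at h1
  have hs : ∀ (τ : Γℚ) (k : ℕ) (x : JZero (M * q)), τ • (k • x) = k • τ • x := fun τ k x =>
    map_nsmul (DistribSMul.toAddMonoidHom (JZero (M * q)) τ) k x
  rw [← Nat.cast_pow, Nat.cast_smul_eq_nsmul]
  simp only [map_sub, map_nsmul, Pi.sub_apply, Pi.smul_apply, Pi.zero_apply, heq, smul_sub]
  simp only [smul_sub, hs] at h1
  rw [smul_comm (p ^ c₀) (q ^ 2), smul_comm (p ^ c₀) (q ^ 2), h1, nsmul_sub, sub_self]

/-- Statement S35 from `FrobeniusSqTorsion`. -/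
theorem exists_charpoly_frobenius_of_sqTorsion (hrep : ∀ (N : ℕ) [NeZero N], HasEigenRep N)
    {M : ℕ} [NeZero M] {g : CuspForm (Gamma0 M) 2} (hg : g.IsNewform)
    (lam : ℕ) [Fact lam.Prime] (S : Finset ℕ)
    (hgeo : ∀ (M' q : ℕ) [NeZero M'] [NeZero q], q.Prime → q ≠ lam → ¬ q ∣ M' → M' * q = M →
      FrobeniusSqTorsion M' q)
    (O' : Type) [CommRing O'] [IsDomain O'] [IsDiscreteValuationRing O']
    [IsAdicComplete (maximalIdeal O') O'] [Finite (ResidueField O')]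
    [CharZero O'] (hlamO' : (lam : O') ∈ maximalIdeal O')
    (chig : CuspForm.heckeAlgebra M 2 (↑S : Set ℕ) →+* ℂ)
    (hchig : ∀ (ℓ : ℕ) (hℓ : ℓ.Prime) (hℓM : ¬ ℓ ∣ M) (hℓS : ℓ ∉ (↑S : Set ℕ)),
      chig (CuspForm.heckeAlgebra.T hℓ hℓM hℓS) = qCoeff g ℓ)
    (iota : chig.range →+* O') (hlamS : lam ∈ S)
    (hMS : ∀ q : ℕ, q.Prime → q ∣ M → q ∈ S) :
    ∃ (O'' : Type) (_ : CommRing O'') (_ : IsDomain O'') (_ : IsDiscreteValuationRing O'')
      (_ : IsAdicComplete (maximalIdeal O'') O'') (_ : Finite (ResidueField O''))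
      (_ : CharZero O'') (_ : Algebra O' O'') (_ : Module.Finite O' O'')
      (_ : IsLocalHom (algebraMap O' O'')),
      Function.Injective (algebraMap O' O'') ∧
      ∃ ρ : GaloisRepAdic O'',
        (∀ (ℓ : ℕ) (hℓ : ℓ.Prime) (hℓM : ¬ ℓ ∣ M) (hℓS : ℓ ∉ (↑S : Set ℕ)),
          ∀ A : ValuationSubring ℚ̄, A.LiesOverPrime ℓ → ∀ σ : Γℚ, A.IsFrobeniusAt σ ℓ →
            LinearMap.charpoly (ρ.ρ σ) =
              X ^ 2 - C (algebraMap O' O'' ((iota.comp chig.rangeRestrict)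
                (CuspForm.heckeAlgebra.T hℓ hℓM hℓS))) * X + C ((ℓ : O''))) ∧
        (∀ q : ℕ, q.Prime → q ≠ lam → q ∣ M → ¬ q ^ 2 ∣ M →
          ∀ A : ValuationSubring ℚ̄, A.LiesOverPrime q → ∀ σ : Γℚ, A.IsFrobeniusAt σ q →
            LinearMap.charpoly (ρ.ρ σ) = X ^ 2 - C ((q : O'') + 1) * X + C ((q : O'')) ∨
            LinearMap.charpoly (ρ.ρ σ) = X ^ 2 + C ((q : O'') + 1) * X + C ((q : O''))) := by
  obtain ⟨O'', i1, i2, i3, i4, i5, i6, i7, i8, i9, hinj, hlam, ρ, hchar, hdet, htate⟩ :=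
    exists_newformTateRep (hrep M) hg lam S O' hlamO' chig hchig iota hlamS hMS
  refine ⟨O'', i1, i2, i3, i4, i5, i6, i7, i8, i9, hinj, ρ, hchar,
    fun q hq hqlam hqM hq2 A hA σ hσ => ?_⟩
  haveI : NeZero q := ⟨hq.ne_zero⟩
  have hM : M = M / q * q := (Nat.div_mul_cancel hqM).symm
  haveI : NeZero (M / q) := ⟨fun h => NeZero.ne M (by rw [hM, h, zero_mul])⟩
  have hqM' : ¬ q ∣ M / q := fun h => hq2 (by rw [pow_two, hM]; exact mul_dvd_mul_right h q)
  obtain ⟨c₀, hfam⟩ := exists_killed_family hM hq.ne_one (hrep M) (hrep (M / q)) hg Fact.out hlam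
    htate
  exact charpoly_frobenius_of_killed hq (hgeo _ q hq hqlam hqM' hM.symm) Fact.out hqlam hlam ρ hdet
    c₀ hfam hA hσ

end Fermat.Agent.BadPrime

end
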