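import Fermat.Agent.BadPrime.Pushforward
import Fermat.Agent.EichlerShimura.CorrespondenceComm
import Fermat.Agent.Curve.Functorial

/-!
# Pullback of divisor classes and base change

For a square of function fields with `f (N_ψ y) = N_a (b y)`, pullback commutes with pushforward:
by weak approximation it is enough to compare principal divisors.
-/

set_option autoImplicit false
set_option linter.style.haveILetI false

noncomputable section

namespace Fermat.Agent.BadPrime

open AlgebraicCurve Fermat.Agent.Curve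

section Pull

variable {K F F' : Type*} [Field K] [Field F] [Field F'] [Algebra K F] [Algebra K F']
  [HasPrincipalDivisors K F']
  (φ : F →ₐ[K] F') (hφ : φ.toRingHom.IsIntegral) (hFI : FundamentalIdentityAlong K φ hφ)

/-- Pullback of divisors of degree zero. -/
def degZeroPull :
    Divisor.degZero (K := K) (F := F) →+ Divisor.degZero (K := K) (F := F') :=
  ((Divisor.pullbackAlong φ hφ).domRestrict (Divisor.degZero (K := K) (F := F))).codRestrict _
    (fun D => Divisor.pullbackAlong_mem_degZero φ hφ hFI D.2)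

@[simp]
theorem coe_degZeroPull (D : Divisor.degZero (K := K) (F := F)) :
    (degZeroPull φ hφ hFI D : Divisor K F') = Divisor.pullbackAlong φ hφ (D : Divisor K F) :=
  rfl

/-- Pullback on `Pic⁰`. -/
def pic0Pull : Pic0 K F →+ Pic0 K F' :=
  QuotientAddGroup.map _ _ (degZeroPull φ hφ hFI) (by
    rintro ⟨D, hD0⟩ hD
    simp only [AddSubgroup.mem_addSubgroupOf] at hD ⊢
    exact Divisor.isPrincipal_pullbackAlong φ hφ hD)

theorem pic0Pull_mk (D : Divisor.degZero (K := K) (F := F)) :
    pic0Pull φ hφ hFI (Pic0.mk D) = Pic0.mk (degZeroPull φ hφ hFI D) :=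
  rfl

theorem pic0Pull_semilinear_smul {g : SemilinearAut K F} {g' : SemilinearAut K F'}
    (h : SemilinearAut.IntertwinesAlong φ.toRingHom g g') (x : Pic0 K F) :
    g' • pic0Pull φ hφ hFI x = pic0Pull φ hφ hFI (g • x) := by
  obtain ⟨D, rfl⟩ := Pic0.mk_surjective x
  rw [pic0Pull_mk, SemilinearAut.pic0_smul_mk, SemilinearAut.pic0_smul_mk, pic0Pull_mk]
  refine congrArg Pic0.mk (Subtype.ext ?_)
  simp only [SemilinearAut.coe_degZeroSMulHom, coe_degZeroPull]
  rw [EichlerShimura.pullbackAlong_semilinear_smul h hφ]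

end Pull

/-- `φ_* φ^* = deg φ`. -/
theorem pic0Push_pic0Pull {K F F' : Type*} [Field K] [Field F] [Field F'] [Algebra K F]
    [Algebra K F'] [IsFunctionField1 K F] [IsFunctionField1 K F']
    (φ : F →ₐ[K] F') (hφ : φ.toRingHom.IsIntegral) (hFI : FundamentalIdentityAlong K φ hφ)
    (hfin : FiniteAlong K φ) (hN : NormFormulaAlong K φ hfin) (x : Pic0 K F) :
    pic0Push φ hφ hfin hN (pic0Pull φ hφ hFI x) = finrankAlong K φ • x := by
  obtain ⟨D, rfl⟩ := Pic0.mk_surjective x
  rw [pic0Pull_mk, pic0Push_mk]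
  show Pic0.mk _ = finrankAlong K φ • (QuotientAddGroup.mk D : Pic0 K F)
  rw [← QuotientAddGroup.mk_nsmul]
  refine congrArg Pic0.mk (Subtype.ext ?_)
  rw [coe_degZeroPush, coe_degZeroPull, Curve.pushforwardAlong_pullbackAlong,
    AddSubgroupClass.coe_nsmul, natCast_zsmul]

section Square

variable {K F₀ F₁ F₂ G : Type*} [Field K] [Field F₀] [Field F₁] [Field F₂] [Field G]
  [Algebra K F₀] [Algebra K F₁] [Algebra K F₂] [Algebra K G]
  [HasPrincipalDivisors K F₁] [HasPrincipalDivisors K F₂] [HasPrincipalDivisors K G]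

open EichlerShimura

/-- Pullback commutes with pushforward in a square where it does so on functions. -/
theorem pushforwardAlong_pullbackAlong_comm
    (happrox : ∀ (S : Finset (Place K F₂)) (n : Place K F₂ → ℤ),
      ∃ f : F₂, f ≠ 0 ∧ ∀ v ∈ S, v.ord f = n v)
    {f : F₀ →ₐ[K] F₁} {ψ : F₀ →ₐ[K] F₂} {a : F₁ →ₐ[K] G} {b : F₂ →ₐ[K] G}
    (hf : f.toRingHom.IsIntegral) (hψ : ψ.toRingHom.IsIntegral)
    (ha : a.toRingHom.IsIntegral) (hb : b.toRingHom.IsIntegral)
    (hψfin : FiniteAlong K ψ) (hψN : NormFormulaAlong K ψ hψfin)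
    (hafin : FiniteAlong K a) (haN : NormFormulaAlong K a hafin)
    (hnorm : ∀ y : F₂, f (normAlong ψ y) = normAlong a (b y)) (D : Divisor K F₂) :
    Divisor.pushforwardAlong a ha (Divisor.pullbackAlong b hb D) =
      Divisor.pullbackAlong f hf (Divisor.pushforwardAlong ψ hψ D) := by
  classical
  set T₁ := (Divisor.pushforwardAlong a ha).comp (Divisor.pullbackAlong b hb) with hT₁
  set T₂ := (Divisor.pullbackAlong f hf).comp (Divisor.pushforwardAlong ψ hψ) with hT₂
  suffices key : T₁ = T₂ from DFunLike.congr_fun key D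
  refine Finsupp.addHom_ext fun P m => ?_
  refine Finsupp.ext fun Q => ?_
  set S : Finset (Place K F₂) :=
    (Place.fiberAlong a ha Q).image (fun w => w.restrictAlong b hb) ∪
      Place.fiberAlong ψ hψ (Q.restrictAlong f hf) with hS
  obtain ⟨y, hy, hord⟩ := happrox S (Finsupp.single P m)
  obtain ⟨E, hE, -⟩ := HasPrincipalDivisors.exists_divisor (K := K) y hy
  have hvanish : ∀ v ∈ S, (Finsupp.single P m - E) v = 0 := fun v hv => by
    rw [Finsupp.sub_apply, hE, hord v hv, sub_self]
  have h1 : T₁ (Finsupp.single P m - E) Q = 0 := by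
    set E' := Divisor.pullbackAlong b hb (Finsupp.single P m - E) with hE'
    show Divisor.pushforwardAlong a ha E' Q = 0
    rw [← Finsupp.sum_single E', map_finsuppSum, Finsupp.sum_apply]
    refine Finset.sum_eq_zero fun w _ => ?_
    simp only [Divisor.pushforwardAlong_single]
    by_cases hQ : w.restrictAlong a ha = Q
    · have hw0 : E' w = 0 := by
        rw [hE', Divisor.pullbackAlong_apply, hvanish _ (Finset.mem_union_left _
          (Finset.mem_image_of_mem _ (Place.mem_fiberAlong.mpr hQ))), mul_zero]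
      simp [hw0]
    · exact Finsupp.single_eq_of_ne' hQ
  have h2 : T₂ (Finsupp.single P m - E) Q = 0 := by
    set E' := Finsupp.single P m - E with hE'
    show Divisor.pullbackAlong f hf (Divisor.pushforwardAlong ψ hψ E') Q = 0
    rw [Divisor.pullbackAlong_apply, ← Finsupp.sum_single E', map_finsuppSum, Finsupp.sum_apply]
    refine mul_eq_zero_of_right _ (Finset.sum_eq_zero fun w _ => ?_)
    simp only [Divisor.pushforwardAlong_single]
    by_cases hQ : w.restrictAlong ψ hψ = Q.restrictAlong f hf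
    · simp [hvanish w (Finset.mem_union_right _ (Place.mem_fiberAlong.mpr hQ))]
    · exact Finsupp.single_eq_of_ne' hQ
  have hprinc : T₁ E Q = T₂ E Q := by
    have e1 : T₁ E Q = Q.ord (normAlong a (b y)) :=
      pushforwardAlong_eq_ord ha hafin haN ((map_ne_zero b).mpr hy) (fun w => by
        rw [Divisor.pullbackAlong_apply, hE, Place.ord_restrictAlong]) Q
    have e2 : T₂ E Q = Q.ord (f (normAlong ψ y)) := by
      show Divisor.pullbackAlong f hf (Divisor.pushforwardAlong ψ hψ E) Q = _
      rw [Divisor.pullbackAlong_apply, pushforwardAlong_eq_ord hψ hψfin hψN hy hE,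
        Place.ord_restrictAlong]
    rw [e1, e2, hnorm]
  rw [map_sub, Finsupp.sub_apply, sub_eq_zero] at h1 h2
  rw [h1, h2, hprinc]

/-- Pullback commutes with pushforward on classes. -/
theorem pic0Push_pic0Pull_comm
    (happrox : ∀ (S : Finset (Place K F₂)) (n : Place K F₂ → ℤ),
      ∃ f : F₂, f ≠ 0 ∧ ∀ v ∈ S, v.ord f = n v)
    {f : F₀ →ₐ[K] F₁} {ψ : F₀ →ₐ[K] F₂} {a : F₁ →ₐ[K] G} {b : F₂ →ₐ[K] G}
    (hf : f.toRingHom.IsIntegral) (hψ : ψ.toRingHom.IsIntegral)
    (ha : a.toRingHom.IsIntegral) (hb : b.toRingHom.IsIntegral)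
    (hfFI : FundamentalIdentityAlong K f hf) (hbFI : FundamentalIdentityAlong K b hb)
    (hψfin : FiniteAlong K ψ) (hψN : NormFormulaAlong K ψ hψfin)
    (hafin : FiniteAlong K a) (haN : NormFormulaAlong K a hafin)
    (hnorm : ∀ y : F₂, f (normAlong ψ y) = normAlong a (b y)) (x : Pic0 K F₂) :
    pic0Push a ha hafin haN (pic0Pull b hb hbFI x) =
      pic0Pull f hf hfFI (pic0Push ψ hψ hψfin hψN x) := by
  obtain ⟨D, rfl⟩ := Pic0.mk_surjective x
  rw [pic0Pull_mk, pic0Push_mk, pic0Push_mk, pic0Pull_mk]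
  refine congrArg Pic0.mk (Subtype.ext ?_)
  simp only [coe_degZeroPush, coe_degZeroPull]
  exact pushforwardAlong_pullbackAlong_comm happrox hf hψ ha hb hψfin hψN hafin haN hnorm D

end Square

end Fermat.Agent.BadPrime

end
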