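import Fermat.Agent.BadPrime.GeometryStatements
import Fermat.Agent.BadPrime.Pullback
import Fermat.Agent.EichlerShimura.Commute
import Fermat.Agent.Reduction.AtkinLehner
import Fermat.Agent.Reduction.PsiPrime

/-!
# Removing an auxiliary prime from the level

For `r` a prime with `r + 1` a power of `q` (`(q, r) = (2, 3), (3, 2)`) the two torsion statements
at level `M r q` give the ones at level `M q`: pullback is injective on prime-to-`q` torsion and
commutes with both degeneracy pushforwards.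
-/

set_option autoImplicit false
set_option linter.style.haveILetI false
set_option linter.unusedSectionVars false
set_option synthInstance.maxHeartbeats 400000

noncomputable section

namespace Fermat.Agent.BadPrime

open AlgebraicCurve ModularCurve EichlerShimura Curve
open Fermat.Agent.Modular hiding jL
open Fermat.Agent.Reduction (jdElem coe_jdElem levelGens laurentBaseChange_full_eq_adjoin)

local notation "ℚ̄" => AlgebraicClosure ℚ
local notation "ι₀" => (complexEmbedding : ℚ̄ →+* ℂ)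

/-- A subfield containing the constants and the image of `FL A` also contains its generators'
span. -/
theorem mem_of_generators {L : Type*} [Field L] [Algebra ℚ L] {A K : ℕ} [NeZero A] [NeZero K]
    (h : A ∣ K) (E : Subfield (FL K L)) (hc : ∀ c : L, algebraMap L (FL K L) c ∈ E)
    (hd : ∀ (d : ℕ) (_ : NeZero d) (hd : d ∣ A), levelIncl (L := L) h (jdElem L hd) ∈ E) (x : FL A L) :
    levelIncl (L := L) h x ∈ E := by
  let E' : Subfield (LaurentSeries L) := E.map (FL K L).val.toRingHom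
  have hmem : ∀ y : FL K L, y ∈ E → (y : LaurentSeries L) ∈ E' := fun y hy => ⟨y, hy, rfl⟩
  have hgen : levelGens L A ⊆ (E' : Set (LaurentSeries L)) := by
    rintro _ ⟨_, ⟨d, hne, hdA, rfl⟩, rfl⟩
    have h1 := hmem _ (hd d hne hdA)
    rw [coe_levelIncl, coe_jdElem] at h1
    exact h1
  have hconst : Set.range (algebraMap L (LaurentSeries L)) ⊆ (E' : Set (LaurentSeries L)) := by
    rintro _ ⟨c, rfl⟩
    exact hmem _ (hc c)
  have hx : (x : LaurentSeries L) ∈ IntermediateField.adjoin L (levelGens L A) :=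
    (laurentBaseChange_full_eq_adjoin L A).le x.2
  have hxE : (x : LaurentSeries L) ∈ E' :=
    (Subfield.closure_le (t := E')).mpr (Set.union_subset hconst hgen) hx
  obtain ⟨y, hy, hyx⟩ := hxE
  exact (Subtype.ext ((coe_levelIncl (L := L) h x).trans hyx.symm) : levelIncl (L := L) h x = y) ▸ hy

/-- Composing with a bijection keeps the degree. -/
theorem finrankAlong_comp_bijective {K F F' F'' : Type*} [Field K] [Field F] [Field F'] [Field F'']
    [Algebra K F] [Algebra K F'] [Algebra K F''] (φ : F →ₐ[K] F') (w : F' →ₐ[K] F'')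
    (hw : Function.Bijective w) : finrankAlong K (w.comp φ) = finrankAlong K φ := by
  letI := algebraAlong φ
  letI := algebraAlong (w.comp φ)
  exact (Algebra.finrank_eq_of_equiv_equiv (RingEquiv.refl F) (RingEquiv.ofBijective w.toRingHom hw)
    (RingHom.ext fun _ => rfl)).symm

variable {M q r : ℕ} [NeZero M] [NeZero q] [NeZero r]

/-- The function field of level `M r q` is generated by those of levels `M r` and `M q`. -/
theorem closure_range_levelIncl_levelIncl (hq : q.Prime) (hqMr : ¬ q ∣ M * r)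
    [NeZero (M * q)] [NeZero (M * r)] [NeZero (M * r * q)]
    (hA : M * r ∣ M * r * q) (hB : M * q ∣ M * r * q) :
    Subfield.closure (Set.range (levelIncl (L := ℚ̄) hA) ∪ Set.range (levelIncl (L := ℚ̄) hB)) =
      ⊤ := by
  obtain ⟨w, hw⟩ := Reduction.exists_atkinLehner_gens (L := ℚ̄) ι₀ hq hqMr
  set C := Subfield.closure
    (Set.range (levelIncl (L := ℚ̄) hA) ∪ Set.range (levelIncl (L := ℚ̄) hB)) with hC
  have hCA : ∀ x, levelIncl (L := ℚ̄) hA x ∈ C := fun x => Subfield.subset_closure (.inl ⟨x, rfl⟩)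
  have hCB : ∀ x, levelIncl (L := ℚ̄) hB x ∈ C := fun x => Subfield.subset_closure (.inr ⟨x, rfl⟩)
  let E := C.map w.toRingHom
  have hc : ∀ c : ℚ̄, algebraMap ℚ̄ (FL (M * r * q) ℚ̄) c ∈ E := fun c =>
    ⟨algebraMap ℚ̄ _ c, (levelIncl (L := ℚ̄) hA).commutes c ▸ hCA _, w.commutes c⟩
  have h1 : ∀ x : FL 1 ℚ̄, levelIncl (L := ℚ̄) (one_dvd (M * r * q)) x ∈ E := by
    refine mem_of_generators _ E hc fun d hne hd => ?_
    obtain rfl : d = 1 := Nat.dvd_one.mp hd
    haveI : NeZero (q * 1) := ⟨by simpa using hq.ne_zero⟩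
    have hq1 : q * 1 ∣ M * r * q := by rw [mul_one]; exact dvd_mul_left q _
    have hq1' : q * 1 ∣ M * q := by rw [mul_one]; exact dvd_mul_left q _
    refine ⟨jdElem ℚ̄ hq1, ?_, ?_⟩
    · rw [show jdElem ℚ̄ hq1 = levelIncl (L := ℚ̄) hB (jdElem ℚ̄ hq1') from
        Subtype.ext (by rw [coe_levelIncl, coe_jdElem, coe_jdElem])]
      exact hCB _
    · refine ((hw 1 inferInstance inferInstance (one_dvd _) hq1 (one_dvd _)).2).trans ?_
      exact Subtype.ext (by rw [coe_levelIncl, coe_jdElem, coe_jdElem])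
  have h2 : ∀ x : FL (M * r) ℚ̄, levelScale (L := ℚ̄) q (M := M * r * q) dvd_rfl x ∈ E := by
    intro x
    refine ⟨levelIncl (L := ℚ̄) hA x, hCA x, ?_⟩
    have hcomp : w.comp (levelIncl (L := ℚ̄) hA) = levelScale (L := ℚ̄) q (M := M * r * q) dvd_rfl := by
      refine Reduction.algHom_ext_jdElem ℚ̄ fun d hne hd => ?_
      haveI : NeZero (q * d) := ⟨Nat.mul_ne_zero hq.ne_zero hne.out⟩
      have h₁ : d ∣ M * r * q := hd.trans hA
      have h₂ : q * d ∣ M * r * q := by rw [mul_comm (M * r) q]; exact mul_dvd_mul_left q hd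
      rw [AlgHom.comp_apply, show levelIncl (L := ℚ̄) hA (jdElem ℚ̄ hd) = jdElem ℚ̄ h₁ from
        Subtype.ext (by rw [coe_levelIncl, coe_jdElem, coe_jdElem]),
        (hw d hne ‹_› h₁ h₂ hd).1]
      exact Subtype.ext (by
        rw [coe_levelScale, coe_jdElem, coe_jdElem, coeffEmb, ← coeffMap_qExpand_comm,
          qExpand_qExpand])
    exact AlgHom.congr_fun hcomp x
  have hE : E = ⊤ := by
    refine eq_top_iff.mpr ?_
    rw [← closure_range_levelIncl_levelScale (L := ℚ̄) (fun K _ => functionFieldGeneration K)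
      (A := 1) (B := M * r) q (one_dvd _) dvd_rfl rfl]
    exact Subfield.closure_le.mpr (Set.union_subset (Set.range_subset_iff.mpr h1)
      (Set.range_subset_iff.mpr h2))
  refine eq_top_iff.mpr fun x _ => ?_
  have hx : w x ∈ E := hE ▸ Subfield.mem_top (w x)
  obtain ⟨y, hy, hyx⟩ := hx
  rwa [show x = y from w.toRingHom.injective hyx.symm]

/-- `β` has the degree of `α`. -/
theorem finrankAlong_heckeBetaBar (N : ℕ) [NeZero N] (hq : q.Prime) (hqN : ¬ q ∣ N)
    [NeZero (N * q)] :
    finrankAlong ℚ̄ (heckeBetaBar ℚ̄ N q) = finrankAlong ℚ̄ (heckeAlphaBar ℚ̄ N q) := by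
  obtain ⟨w, hw1, hw2⟩ := Reduction.exists_atkinLehner (L := ℚ̄) (N := N) hq hqN ι₀
  have hww : ∀ x, w (w x) = x := by
    have hle : (⊤ : Subfield (FL (N * q) ℚ̄)) ≤
        (w.comp w).toRingHom.eqLocusField (RingHom.id _) := by
      rw [← closure_range_levelIncl_levelScale (L := ℚ̄) (fun K _ => functionFieldGeneration K)
        (A := N) (B := N) q (dvd_mul_right N q) dvd_rfl rfl]
      refine Subfield.closure_le.mpr (Set.union_subset (Set.range_subset_iff.mpr fun x => ?_)
        (Set.range_subset_iff.mpr fun x => ?_))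
      · show w (w (levelIncl (L := ℚ̄) (dvd_mul_right N q) x)) = levelIncl (L := ℚ̄) (dvd_mul_right N q) x
        rw [← heckeAlphaBar_eq_levelIncl, show w (heckeAlphaBar ℚ̄ N q x) = heckeBetaBar ℚ̄ N q x
          from AlgHom.congr_fun hw1 x]
        exact AlgHom.congr_fun hw2 x
      · show w (w (levelScale (L := ℚ̄) q dvd_rfl x)) = levelScale (L := ℚ̄) q dvd_rfl x
        rw [show levelScale (L := ℚ̄) q (dvd_refl (N * q)) x = heckeBetaBar ℚ̄ N q x from
          Subtype.ext (by rw [coe_levelScale, coe_heckeBetaBar]),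
          show w (heckeBetaBar ℚ̄ N q x) = heckeAlphaBar ℚ̄ N q x from AlgHom.congr_fun hw2 x]
        exact AlgHom.congr_fun hw1 x
    exact fun x => hle (Subfield.mem_top x)
  rw [← hw1]
  exact finrankAlong_comp_bijective _ w ⟨w.toRingHom.injective, fun x => ⟨w x, hww x⟩⟩

theorem levelIncl_intertwines {N K : ℕ} [NeZero N] [NeZero K] (h : N ∣ K) (σ : ℚ̄ ≃ₐ[ℚ] ℚ̄) :
    SemilinearAut.IntertwinesAlong (levelIncl (L := ℚ̄) h).toRingHom
      (arithmeticGalois (modularFunctionFieldFull N) σ)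
      (arithmeticGalois (modularFunctionFieldFull K) σ) := fun x => by
  apply Subtype.ext
  show coeffMap (σ : ℚ̄ →+* ℚ̄) ((levelIncl (L := ℚ̄) h x : LaurentSeries ℚ̄)) =
    ((levelIncl (L := ℚ̄) h (arithmeticRingAut (modularFunctionFieldFull N) σ x) : LaurentSeries ℚ̄))
  rw [coe_levelIncl, coe_levelIncl, coe_arithmeticRingAut_apply]

variable (M q r)

theorem mul_dvd_aux : M * q ∣ M * r * q := mul_dvd_mul_right (dvd_mul_right M r) q

/-- Pullback `J₀(M q) → J₀(M r q)`. -/
def auxPull : JZero (M * q) →+ JZero (M * r * q) :=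
  haveI : NeZero (M * r * q) := ⟨by simp [NeZero.ne]⟩
  haveI : NeZero (M * q) := ⟨by simp [NeZero.ne]⟩
  haveI := isFunctionField1_level ι₀ (M * q)
  haveI := isFunctionField1_level ι₀ (M * r * q)
  pic0Pull (levelIncl (L := ℚ̄) (mul_dvd_aux M q r)) (isIntegralAlong _) (fundamentalIdentityAlong _ _)

variable {M q r}

theorem galois_smul_auxPull (σ : ℚ̄ ≃ₐ[ℚ] ℚ̄) (x : JZero (M * q)) :
    σ • auxPull M q r x = auxPull M q r (σ • x) := by
  haveI : NeZero (M * r * q) := ⟨by simp [NeZero.ne]⟩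
  haveI : NeZero (M * q) := ⟨by simp [NeZero.ne]⟩
  haveI := isFunctionField1_level ι₀ (M * q)
  haveI := isFunctionField1_level ι₀ (M * r * q)
  rw [galois_smul_pic0_def, galois_smul_pic0_def]
  exact pic0Pull_semilinear_smul _ _ _ (levelIncl_intertwines _ σ) x

/-- Pullback to the auxiliary level is injective on torsion prime to `q`. -/
theorem auxPull_injective (hq : q.Prime) (hr : r.Prime) (hrM : ¬ r ∣ M) (hrq : r ≠ q) {e : ℕ}
    (hre : r + 1 = q ^ e) {n : ℕ} (hn : ¬ q ∣ n) {z : JZero (M * q)} (hnz : n • z = 0)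
    (hz : auxPull M q r z = 0) : z = 0 := by
  haveI : NeZero (M * r * q) := ⟨by simp [NeZero.ne]⟩
  haveI : NeZero (M * q) := ⟨by simp [NeZero.ne]⟩
  haveI := isFunctionField1_level ι₀ (M * q)
  haveI := isFunctionField1_level ι₀ (M * r * q)
  have hdeg : finrankAlong ℚ̄ (levelIncl (L := ℚ̄) (mul_dvd_aux M q r)) = q ^ e := by
    have h1 := finrankAlong_levelIncl_mul (L := ℚ̄) (fun K _ => finrank_FL K ι₀)
      (mul_dvd_aux M q r)
    have h2 : ¬ r ∣ M * q := fun h => (hr.dvd_mul.mp h).elim hrM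
      fun h' => hrq ((Nat.prime_dvd_prime_iff_eq hr hq).mp h')
    have h3 : dedekindPsi (M * r * q) = dedekindPsi (M * q * r) := congrArg _ (by ring)
    rw [h3, Reduction.dedekindPsi_mul_prime (NeZero.ne _) hr h2] at h1
    rw [← hre]
    exact Nat.eq_of_mul_eq_mul_left (EichlerShimura.dedekindPsi_pos (M * q))
      (h1.trans (by ring))
  have h3 := congrArg (pic0Push (levelIncl (L := ℚ̄) (mul_dvd_aux M q r)) (isIntegralAlong _) (finiteAlong _)
    (normFormulaAlong _ _)) hz
  unfold auxPull at h3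
  rw [pic0Push_pic0Pull, map_zero, hdeg] at h3
  refine AddMonoid.addOrderOf_eq_one_iff.mp (Nat.eq_one_of_dvd_coprimes
    ((Nat.Prime.coprime_iff_not_dvd hq).mpr hn |>.pow_left e)
    (addOrderOf_dvd_of_nsmul_eq_zero h3) (addOrderOf_dvd_of_nsmul_eq_zero hnz))

omit [NeZero q] in
/-- `InertiaUnipotentTorsion` descends from the auxiliary level. -/
theorem inertiaUnipotentTorsion_of_aux (hq : q.Prime) (hr : r.Prime) (hrM : ¬ r ∣ M) (hrq : r ≠ q)
    {e : ℕ} (hre : r + 1 = q ^ e) (h : InertiaUnipotentTorsion (M * r) q) :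
    InertiaUnipotentTorsion M q := by
  haveI : NeZero q := ⟨hq.ne_zero⟩
  intro A hA σ hσ n hn x hx
  have hs : ∀ (k : ℕ) (y : JZero (M * q)), σ • (k • y) = k • σ • y := fun k y =>
    map_nsmul (DistribSMul.toAddMonoidHom (JZero (M * q)) σ) k y
  have h0 : σ • (0 : JZero (M * q)) = 0 :=
    map_zero (DistribSMul.toAddMonoidHom (JZero (M * q)) σ)
  rw [← sub_eq_zero]
  refine auxPull_injective hq hr hrM hrq hre hn ?_ ?_
  · simp only [nsmul_sub, ← hs, hx, h0, sub_self]
  · have h1 := h A hA σ hσ n hn (auxPull M q r x) (by rw [← map_nsmul, hx, map_zero])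
    simp only [map_sub, ← galois_smul_auxPull]
    rw [h1, sub_self]

/-- `FrobeniusSqTorsion` descends from the auxiliary level. -/
theorem frobeniusSqTorsion_of_aux [NeZero (M * r)] (hq : q.Prime) (hqM : ¬ q ∣ M) (hr : r.Prime)
    (hrM : ¬ r ∣ M) (hrq : r ≠ q) {e : ℕ} (hre : r + 1 = q ^ e)
    (h : FrobeniusSqTorsion (M * r) q) : FrobeniusSqTorsion M q := by
  intro A hA φ hφ n hn hα hβ D hD hDα hDβ
  haveI : NeZero (M * r * q) := ⟨by simp [NeZero.ne]⟩
  haveI : NeZero (M * q) := ⟨by simp [NeZero.ne]⟩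
  haveI := isFunctionField1_level ι₀ M
  haveI := isFunctionField1_level ι₀ (M * r)
  haveI := isFunctionField1_level ι₀ (M * q)
  haveI := isFunctionField1_level ι₀ (M * r * q)
  have hqMr : ¬ q ∣ M * r := fun hd => (hq.dvd_mul.mp hd).elim hqM
    fun h' => hrq ((Nat.prime_dvd_prime_iff_eq hq hr).mp h').symm
  have hdeg : finrankAlong ℚ̄ (heckeAlphaBar ℚ̄ (M * r) q) =
      finrankAlong ℚ̄ (heckeAlphaBar ℚ̄ M q) := by
    have h1 := finrankAlong_levelIncl_mul (L := ℚ̄) (fun K _ => finrank_FL K ι₀)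
      (dvd_mul_right (M * r) q)
    have h2 := finrankAlong_levelIncl_mul (L := ℚ̄) (fun K _ => finrank_FL K ι₀)
      (dvd_mul_right M q)
    have h3 := dedekindPsi_mul_mul M hr hq hrq
    rw [heckeAlphaBar_eq_levelIncl, heckeAlphaBar_eq_levelIncl]
    refine Nat.eq_of_mul_eq_mul_left (Nat.mul_pos (EichlerShimura.dedekindPsi_pos (M * r))
      (EichlerShimura.dedekindPsi_pos M)) ?_
    calc dedekindPsi (M * r) * dedekindPsi M * finrankAlong ℚ̄ (levelIncl (L := ℚ̄) (dvd_mul_right (M * r) q))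
        = dedekindPsi (M * r * q) * dedekindPsi M := by rw [← h1]; ring
      _ = dedekindPsi (M * r) * dedekindPsi (M * q) := h3
      _ = _ := by rw [← h2]; ring
  have key : ∀ (ψ : FL M ℚ̄ →ₐ[ℚ̄] FL (M * q) ℚ̄) (a : FL (M * r) ℚ̄ →ₐ[ℚ̄] FL (M * r * q) ℚ̄),
      (∀ x, a (levelIncl (L := ℚ̄) (dvd_mul_right M r) x) = levelIncl (L := ℚ̄) (mul_dvd_aux M q r) (ψ x)) →
      finrankAlong ℚ̄ a = finrankAlong ℚ̄ ψ →
      Subfield.closure (Set.range a ∪ Set.range (levelIncl (L := ℚ̄) (mul_dvd_aux M q r))) = ⊤ →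
      ∀ x, pic0Push a (isIntegralAlong _) (finiteAlong _) (normFormulaAlong _ _)
          (auxPull M q r x) =
        pic0Pull (levelIncl (L := ℚ̄) (dvd_mul_right M r)) (isIntegralAlong _) (fundamentalIdentityAlong _ _)
          (pic0Push ψ (isIntegralAlong _) (finiteAlong _) (normFormulaAlong _ _) x) :=
    fun ψ a hsq hd hgen x => pic0Push_pic0Pull_comm exists_forall_ord_eq _ _ _ _ _ _ _ _ _ _
      (map_normAlong_of_compositum _ ψ a _ hsq (finiteAlong _) (finiteAlong _) hd hgen) x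
  have halpha : alphaPush (M * r) q (auxPull M q r (Pic0.mk D)) = 0 := by
    refine (key (heckeAlphaBar ℚ̄ M q) (heckeAlphaBar ℚ̄ (M * r) q)
      (fun x => Subtype.ext (by simp)) hdeg ?_ _).trans ?_
    · rw [heckeAlphaBar_eq_levelIncl]
      exact closure_range_levelIncl_levelIncl hq hqMr _ _
    · rw [pic0Push_mk, show Pic0.mk (degZeroPush (heckeAlphaBar ℚ̄ M q) _ D) = 0 from
        (QuotientAddGroup.eq_zero_iff _).mpr (AddSubgroup.mem_addSubgroupOf.mpr hDα), map_zero]
  have hbeta : betaPush (M * r) q (auxPull M q r (Pic0.mk D)) = 0 := by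
    refine (key (heckeBetaBar ℚ̄ M q) (heckeBetaBar ℚ̄ (M * r) q)
      (fun x => Subtype.ext (by simp)) ?_ ?_ _).trans ?_
    · rw [finrankAlong_heckeBetaBar (M * r) hq hqMr, finrankAlong_heckeBetaBar M hq hqM, hdeg]
    · rw [Set.union_comm, show heckeBetaBar ℚ̄ (M * r) q = levelScale (L := ℚ̄) q (M := M * r * q) dvd_rfl
        from AlgHom.ext fun x => Subtype.ext (by rw [coe_levelScale, coe_heckeBetaBar])]
      exact closure_range_levelIncl_levelScale (fun K _ => functionFieldGeneration K) q _ _ rfl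
    · rw [pic0Push_mk, show Pic0.mk (degZeroPush (heckeBetaBar ℚ̄ M q) _ D) = 0 from
        (QuotientAddGroup.eq_zero_iff _).mpr (AddSubgroup.mem_addSubgroupOf.mpr hDβ), map_zero]
  obtain ⟨E, hE⟩ := Pic0.mk_surjective (auxPull M q r (Pic0.mk D))
  rw [← hE] at halpha hbeta
  have h1 := h A hA φ hφ n hn (isIntegral_heckeAlphaBar _ _) (isIntegral_heckeBetaBar _ _) E
    (by rw [hE, ← map_nsmul, hD, map_zero]) (pushforward_alpha_mem_principal _ halpha)
    (pushforward_beta_mem_principal _ hbeta)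
  rw [hE] at h1
  have hs : ∀ (k : ℕ) (y : JZero (M * q)), φ • (k • y) = k • φ • y := fun k y =>
    map_nsmul (DistribSMul.toAddMonoidHom (JZero (M * q)) φ) k y
  have h0 : φ • (0 : JZero (M * q)) = 0 :=
    map_zero (DistribSMul.toAddMonoidHom (JZero (M * q)) φ)
  rw [← sub_eq_zero]
  refine auxPull_injective hq hr hrM hrq hre hn ?_ ?_
  · simp only [nsmul_sub, smul_comm n (q ^ 2), ← hs, hD, h0, nsmul_zero, sub_self]
  · simp only [map_sub, map_nsmul, ← galois_smul_auxPull]
    rw [h1, sub_self]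

end Fermat.Agent.BadPrime

end
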