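import Fermat.Prelude.Def_ModularCurve_X0ModL
import Mathlib.RingTheory.PowerSeries.Expand

/-!
# Laurent series in characteristic `q`

`x ^ q` is the dilation of the Frobenius twist of `x`, and the powers `t ^ i`, `i < q`, of a series
of order `-1` are independent over the dilated series.
-/

set_option autoImplicit false

noncomputable section

open ModularCurve

namespace Fermat.Agent.BadPrime

theorem coeff_order_ne' {R : Type*} [Zero R] {x : LaurentSeries R} (hx : x ≠ 0) :
    x.coeff x.order ≠ 0 :=
  HahnSeries.coeff_orderTop_ne (HahnSeries.order_eq_orderTop_of_ne_zero hx).symm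

variable {k : Type*} [Field k] {q : ℕ} [Fact q.Prime] [CharP k q]

instance neZero_prime_fact (q : ℕ) [h : Fact q.Prime] : NeZero q := ⟨h.out.ne_zero⟩

theorem qExpand_ofPowerSeries (n : ℕ) [NeZero n] (p : PowerSeries k) :
    qExpand k n (HahnSeries.ofPowerSeries ℤ k p) =
      HahnSeries.ofPowerSeries ℤ k (PowerSeries.expand n (NeZero.ne n) p) := by
  ext m
  by_cases hm : (n : ℤ) ∣ m
  · obtain ⟨i, rfl⟩ := hm
    rw [qExpand_coeff_mul]
    rcases le_or_gt 0 i with hi | hi
    · lift i to ℕ using hi
      rw [show ((n : ℤ) * (i : ℤ)) = ((n * i : ℕ) : ℤ) by push_cast; ring,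
        HahnSeries.ofPowerSeries_apply_coeff, HahnSeries.ofPowerSeries_apply_coeff,
        PowerSeries.coeff_expand_mul]
    · rw [ofPowerSeries_coeff_of_neg _ hi, ofPowerSeries_coeff_of_neg]
      exact mul_neg_of_pos_of_neg (by exact_mod_cast Nat.pos_of_ne_zero (NeZero.ne n)) hi
  · rw [qExpand_coeff_of_not_dvd n _ hm]
    rcases le_or_gt 0 m with h0 | h0
    · lift m to ℕ using h0
      rw [HahnSeries.ofPowerSeries_apply_coeff,
        PowerSeries.coeff_expand_of_not_dvd _ _ _ fun h => hm (by exact_mod_cast h)]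
    · rw [ofPowerSeries_coeff_of_neg _ h0]

/-- The `q`-th power of a Laurent series in characteristic `q`. -/
theorem pow_char_eq_qExpand (x : LaurentSeries k) :
    x ^ q = qExpand k q (coeffMap (frobenius k q) x) := by
  conv_lhs => rw [← x.single_order_mul_powerSeriesPart]
  conv_rhs => rw [← x.single_order_mul_powerSeriesPart]
  rw [mul_pow, map_mul, map_mul, coeffMap_single, qExpand_single, HahnSeries.single_pow,
    coeffMap_ofPowerSeries, qExpand_ofPowerSeries, map_one, one_pow, nsmul_eq_mul, ← map_pow]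
  congr 2
  rw [← PowerSeries.map_expand]
  exact (MvPowerSeries.map_frobenius_expand q (NeZero.ne q)).symm

/-- The coefficientwise Frobenius twist, as a ring homomorphism. -/
def frobTwist : LaurentSeries k →+* LaurentSeries k := coeffMap (frobenius k q)

theorem qExpand_frobTwist (x : LaurentSeries k) :
    qExpand k q (frobTwist (q := q) x) = x ^ q :=
  (pow_char_eq_qExpand x).symm

omit [CharP k q] in
/-- The powers `t ^ i`, `i < q`, of a series of order `-1` are independent over the dilated
series. -/
theorem eq_zero_of_sum_qExpand_mul_pow {t : LaurentSeries k} (ht : t ≠ 0) (hord : t.order = -1)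
    (c : Fin q → LaurentSeries k) (h : ∑ i, qExpand k q (c i) * t ^ (i : ℕ) = 0) : c = 0 := by
  classical
  by_contra hc
  obtain ⟨i₀, hi₀⟩ := Function.ne_iff.1 hc
  have hne : ∀ i, c i ≠ 0 → qExpand k q (c i) * t ^ (i : ℕ) ≠ 0 := fun i hi =>
    mul_ne_zero ((map_ne_zero_iff _ (qExpand_injective q)).2 hi) (pow_ne_zero _ ht)
  have hordE : ∀ x : LaurentSeries k, x ≠ 0 → (qExpand k q x).order = (q : ℤ) * x.order := by
    intro x hx
    have hqx := (map_ne_zero_iff _ (qExpand_injective q)).2 hx
    refine le_antisymm (HahnSeries.order_le_of_coeff_ne_zero ?_) ?_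
    · rw [qExpand_coeff_mul]
      exact coeff_order_ne' hx
    · have hco := coeff_order_ne' hqx
      obtain ⟨i, hi⟩ : (q : ℤ) ∣ (qExpand k q x).order := by
        by_contra h'
        exact hco (qExpand_coeff_of_not_dvd q _ h')
      rw [hi, qExpand_coeff_mul] at hco
      rw [hi]
      exact mul_le_mul_of_nonneg_left (HahnSeries.order_le_of_coeff_ne_zero hco) (by positivity)
  have hpow : ∀ i : ℕ, (t ^ i).order = -(i : ℤ) := by
    intro i
    induction i with
    | zero => simp
    | succ i ih => rw [pow_succ, HahnSeries.order_mul (pow_ne_zero _ ht) ht, ih, hord]; push_cast; ring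
  let o : Fin q → ℤ := fun i => (q : ℤ) * (c i).order - (i : ℕ)
  obtain ⟨m, hm, hmin⟩ := Finset.exists_min_image (Finset.univ.filter fun i => c i ≠ 0) o
    ⟨i₀, by simpa using hi₀⟩
  rw [Finset.mem_filter] at hm
  have ho : ∀ i, c i ≠ 0 → (qExpand k q (c i) * t ^ (i : ℕ)).order = o i := fun i hi => by
    rw [HahnSeries.order_mul ((map_ne_zero_iff _ (qExpand_injective q)).2 hi) (pow_ne_zero _ ht),
      hordE _ hi, hpow]
    simp only [o, sub_eq_add_neg]
  have h0 := congrArg (fun z : LaurentSeries k => z.coeff (o m)) h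
  simp only [HahnSeries.coeff_sum, HahnSeries.coeff_zero] at h0
  rw [Finset.sum_eq_single m ?_ (by simp)] at h0
  · rw [← ho m hm.2] at h0
    exact coeff_order_ne' (hne m hm.2) h0
  · intro i _ him
    by_cases hi : c i = 0
    · rw [hi, map_zero, zero_mul, HahnSeries.coeff_zero]
    refine HahnSeries.coeff_eq_zero_of_lt_order ?_
    rw [ho i hi]
    refine lt_of_le_of_ne (hmin i (by simpa using hi)) fun he => him (Fin.ext ?_)
    have hq : (q : ℤ) ∣ ((i : ℕ) : ℤ) - ((m : ℕ) : ℤ) :=
      ⟨(c i).order - (c m).order, by simp only [o] at he; linarith⟩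
    have := Int.eq_zero_of_abs_lt_dvd hq (abs_lt.2 ⟨by have := m.2; omega, by have := i.2; omega⟩)
    omega

theorem order_jqModC : (jqModC k).order = -1 := by
  have h : jqModC k ≠ 0 := jqModC_ne_zero_of_nontrivial k
  refine le_antisymm (HahnSeries.order_le_of_coeff_ne_zero ?_) ?_
  · rw [coeff_jqModC_neg_one]; exact one_ne_zero
  · by_contra hlt
    exact coeff_order_ne' h (coeff_jqModC_of_lt k (not_le.1 hlt))

end Fermat.Agent.BadPrime
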