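import Fermat.Agent.BadPrime.GaussBaseField
import Fermat.Agent.BadPrime.GaussLaurent
import Fermat.Agent.Modular.Degree

/-!
# Preliminaries on the function field of `X₀(Mq)` over that of `X₀(M)`
-/

set_option autoImplicit false
set_option synthInstance.maxHeartbeats 400000

noncomputable section

open ModularCurve IntermediateField
open scoped IntermediateField

namespace Fermat.Agent.BadPrime

open Fermat.Agent.Reduction Fermat.Agent.Modular

theorem dedekindPsi_mul_prime_of_not_dvd {M q : ℕ} (hq : q.Prime) (hqM : ¬ q ∣ M) (hM : M ≠ 0) :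
    dedekindPsi (M * q) = (q + 1) * dedekindPsi M := by
  have hdvd : ∀ {d}, d ∈ M.divisors → ¬ q ∣ d := fun hd h =>
    hqM (h.trans (Nat.dvd_of_mem_divisors hd))
  have hdiv : (M * q).divisors = M.divisors ∪ M.divisors.image (· * q) := by
    ext d
    simp only [Nat.mem_divisors, Finset.mem_union, Finset.mem_image, ne_eq, mul_eq_zero, hM,
      hq.ne_zero, or_self, not_false_eq_true, and_true]
    constructor
    · intro hd
      by_cases hqd : q ∣ d
      · obtain ⟨e, rfl⟩ := hqd
        rw [mul_comm q e] at hd ⊢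
        exact Or.inr ⟨e, Nat.dvd_of_mul_dvd_mul_right hq.pos hd, rfl⟩
      · exact Or.inl (((hq.coprime_iff_not_dvd.2 hqd).symm).dvd_of_dvd_mul_right hd)
    · rintro (hd | ⟨e, he, rfl⟩)
      · exact hd.mul_right q
      · exact Nat.mul_dvd_mul_right he q
  rw [dedekindPsi, dedekindPsi, hdiv, Finset.filter_union, Finset.sum_union, Finset.filter_image,
    Finset.sum_image (fun a _ b _ h => mul_right_cancel₀ hq.ne_zero h), add_mul, one_mul,
    Finset.mul_sum]
  · congr 1
    · refine Finset.sum_congr rfl fun d hd => ?_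
      rw [mul_comm M q, Nat.mul_div_assoc _ (Nat.dvd_of_mem_divisors (Finset.mem_filter.1 hd).1)]
    · refine Finset.sum_congr (Finset.filter_congr fun d hd => ?_) fun d _ => ?_
      · rw [Nat.squarefree_mul ((hq.coprime_iff_not_dvd.2 (hdvd hd)).symm)]
        simp [hq.squarefree]
      · exact Nat.mul_div_mul_right _ _ hq.pos
  · rw [Finset.disjoint_left]
    intro d hd hd'
    obtain ⟨e, -, rfl⟩ := Finset.mem_image.1 (Finset.mem_filter.1 hd').1
    exact hdvd (Finset.mem_filter.1 hd).1 (dvd_mul_left q e)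

variable {L k : Type*} [Field L] [Field k] {A : ValuationSubring L} {π : A →+* k}

theorem HasGaussRed.qExpand (n : ℕ) [NeZero n] {f : LaurentSeries L} {g : LaurentSeries k}
    (h : HasGaussRed π f g) :
    HasGaussRed π (ModularCurve.qExpand L n f) (ModularCurve.qExpand k n g) := by
  obtain ⟨a, b, hb, e₁, e₂⟩ := h
  refine ⟨ModularCurve.qExpand A n a, ModularCurve.qExpand A n b, ?_, ?_, ?_⟩
  · rw [coeffMap_qExpand]
    exact (map_ne_zero_iff _ (qExpand_injective n)).2 hb
  · rw [coeffMap_qExpand, coeffMap_qExpand, ← map_mul, e₁]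
  · rw [coeffMap_qExpand, coeffMap_qExpand, ← map_mul, e₂]

/-- An element with reduction `0` is a multiple of a generator of the kernel of `π`. -/
theorem HasGaussRed.exists_eq_C_mul {ϖ : A} (hπ : π ϖ = 0) (hϖ : ∀ a : A, π a = 0 → ϖ ∣ a)
    (hϖ0 : ϖ ≠ 0) {f : LaurentSeries L} (h : HasGaussRed π f 0) :
    ∃ f' g', HasGaussRed π f' g' ∧ f = HahnSeries.C (ϖ : L) * f' := by
  classical
  obtain ⟨a, b, hb, e₁, e₂⟩ := h
  rw [zero_mul] at e₂
  have ha : ∀ n, π (a.coeff n) = 0 := fun n => by
    rw [← coeffMap_coeff, ← e₂, HahnSeries.coeff_zero]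
  choose c hc using fun n => hϖ _ (ha n)
  obtain ⟨a', ha'⟩ : ∃ a' : LaurentSeries A, a = HahnSeries.C ϖ * a' := by
    refine ⟨⟨c, a.isPWO_support.mono fun n hn h0 => hn ?_⟩, ?_⟩
    · have := hc n
      rw [h0, eq_comm, mul_eq_zero] at this
      exact this.resolve_left hϖ0
    · ext n
      rw [coeff_C_mul]
      exact congrArg Subtype.val (hc n)
  refine ⟨coeffMap A.subtype a' / coeffMap A.subtype b, coeffMap π a' / coeffMap π b,
    ⟨a', b, hb, ?_, div_mul_cancel₀ _ hb⟩, ?_⟩
  · refine div_mul_cancel₀ _ fun h0 => hb ?_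
    rw [coeffMap_subtype_injective (A := A) (h0.trans (map_zero _).symm), map_zero]
  · have hb' : coeffMap A.subtype b ≠ 0 := fun h0 => hb (by
      rw [coeffMap_subtype_injective (A := A) (h0.trans (map_zero _).symm), map_zero])
    have hC : coeffMap A.subtype (HahnSeries.C ϖ) = HahnSeries.C (ϖ : L) := by
      simp [HahnSeries.C_apply]
    rw [mul_div_assoc', eq_div_iff hb', e₁, ha', map_mul, hC]

/-- The field `k(j(q^d) : d ∣ M)` is stable under `q ↦ q^p` in characteristic `p`. -/
theorem qExpand_mem_fullC {q : ℕ} [Fact q.Prime] [CharP k q] {M : ℕ} {x : LaurentSeries k}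
    (hx : x ∈ modularFunctionFieldFullC k M) :
    ModularCurve.qExpand k q x ∈ modularFunctionFieldFullC k M := by
  have h : (modularFunctionFieldFullC k M).map (qExpandAlgHomC k q) ≤
      modularFunctionFieldFullC k M := by
    rw [modularFunctionFieldFullC, IntermediateField.adjoin_map, IntermediateField.adjoin_le_iff]
    rintro _ ⟨y, hy, rfl⟩
    have hy' := hy
    obtain ⟨d, hd, -, rfl⟩ := hy
    rw [qExpandAlgHomC_apply, SetLike.mem_coe]
    have e : ModularCurve.qExpand k q (ModularCurve.qExpand k d (jqModC k)) =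
        (ModularCurve.qExpand k d (jqModC k)) ^ q := by
      rw [pow_char_eq_qExpand, coeffMap_qExpand, coeffMap_jqModC]
    rw [e]
    exact pow_mem (IntermediateField.subset_adjoin k _ hy') q
  exact h ⟨x, hx, rfl⟩

variable [Algebra ℚ L] (q : ℕ) [Fact q.Prime] (M : ℕ) [NeZero M] (ι : L →+* ℂ) (hqM : ¬ q ∣ M)

include ι hqM in
theorem exists_atkinLehner_involution :
    ∃ w : FL (M * q) L →ₐ[L] FL (M * q) L,
      (∀ x, w (heckeAlphaBar L M q x) = heckeBetaBar L M q x) ∧
        (∀ x, w (heckeBetaBar L M q x) = heckeAlphaBar L M q x) ∧ ∀ x, w (w x) = x := by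
  have hq : q.Prime := Fact.out
  obtain ⟨w, h1, h2⟩ := exists_atkinLehner (L := L) hq hqM ι
  have e1 : ∀ x, w (heckeAlphaBar L M q x) = heckeBetaBar L M q x := AlgHom.congr_fun h1
  have e2 : ∀ x, w (heckeBetaBar L M q x) = heckeAlphaBar L M q x := AlgHom.congr_fun h2
  refine ⟨w, e1, e2, fun x => AlgHom.congr_fun (?_ : w.comp w = AlgHom.id L _) x⟩
  refine algHom_ext_jdElem (L := L) fun d hne hd => ?_
  show w (w (jdElem L hd)) = jdElem L hd
  by_cases hqd : q ∣ d
  · obtain ⟨e, rfl⟩ := hqd
    have : NeZero e := ⟨fun h => hne.out (by simp [h])⟩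
    have he : e ∣ M := by
      rw [mul_comm q e] at hd
      exact Nat.dvd_of_mul_dvd_mul_right hq.pos hd
    have hb : jdElem L hd = heckeBetaBar L M q (jdElem L he) := by
      refine Subtype.ext ?_
      rw [coe_heckeBetaBar, coe_jdElem, coe_jdElem, coeffEmb, ← coeffMap_qExpand, qExpand_qExpand]
    rw [hb, e2, e1]
  · have hd' : d ∣ M := ((hq.coprime_iff_not_dvd.2 hqd).symm).dvd_of_dvd_mul_right hd
    have ha : jdElem L hd = heckeAlphaBar L M q (jdElem L hd') := Subtype.ext rfl
    rw [ha, e1, e2]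

include ι hqM in
theorem finrank_heckeAlpha_fieldRange :
    Module.finrank (heckeAlphaBar L M q).fieldRange (FL (M * q) L) = q + 1 := by
  have hle : L⟮jL (M * q) L⟯ ≤ (heckeAlphaBar L M q).fieldRange := by
    rw [IntermediateField.adjoin_simple_le_iff]
    exact ⟨jL M L, Subtype.ext rfl⟩
  have h := IntermediateField.relfinrank_mul_finrank_top hle
  have e1 : (L⟮jL M L⟯).map (heckeAlphaBar L M q) = L⟮jL (M * q) L⟯ := by
    rw [IntermediateField.adjoin_map, Set.image_singleton]
    congr 2
  have e2 : IntermediateField.relfinrank L⟮jL (M * q) L⟯ (heckeAlphaBar L M q).fieldRange =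
      dedekindPsi M := by
    rw [← e1, AlgHom.fieldRange_eq_map, IntermediateField.relfinrank_map_map,
      IntermediateField.relfinrank_top_right, finrank_FL M ι]
  rw [e2, finrank_FL (M * q) ι, dedekindPsi_mul_prime_of_not_dvd Fact.out hqM (NeZero.ne M),
    mul_comm (q + 1)] at h
  refine Nat.eq_of_mul_eq_mul_left ?_ h
  rw [← index_Gamma0]
  exact Nat.pos_of_ne_zero Subgroup.FiniteIndex.index_ne_zero

end Fermat.Agent.BadPrime
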