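import Fermat.Agent.BadPrime.CoeffDescent
import Fermat.Agent.BadPrime.GaussTwoBasic
import Mathlib.FieldTheory.Finite.Extension

/-!
# Descent in `k(j(q^d) : d ∣ M)` and generators with coefficients in the prime field

Over a finite field of characteristic `q`, every element of `k(j(q^d) : d ∣ M)` integral over
`k[t]`, `t` a series over `𝔽_q`, is a `k`-combination of such elements with coefficients in `𝔽_q`;
on these the substitution `q ↦ q^q` is the `q`-th power.
-/

set_option autoImplicit false

noncomputable section

open ModularCurve Polynomial IntermediateField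

namespace Fermat.Agent.BadPrime

variable {K K' : Type*} [Field K] [Field K'] (M : ℕ)

theorem image_divisorExpansionsC (ι : K →+* K') :
    coeffMap ι '' divisorExpansionsC K M = divisorExpansionsC K' M := by
  ext x
  constructor
  · rintro ⟨_, ⟨d, hd, hdM, rfl⟩, rfl⟩
    exact ⟨d, hd, hdM, by rw [coeffMap_qExpand, coeffMap_jqModC]⟩
  · rintro ⟨d, hd, hdM, rfl⟩
    exact ⟨qExpand K d (jqModC K), ⟨d, hd, hdM, rfl⟩, by rw [coeffMap_qExpand, coeffMap_jqModC]⟩

theorem coeffMap_algebraMap_const (ι : K →+* K') (c : K) :
    coeffMap ι (algebraMap K (LaurentSeries K) c) = algebraMap K' (LaurentSeries K') (ι c) := by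
  rw [algebraMap_laurentSeries_eq_single, algebraMap_laurentSeries_eq_single, coeffMap_single]

/-- Base change of coefficients maps the function field into the function field. -/
theorem coeffMap_mem_fullC (ι : K →+* K') {x : LaurentSeries K}
    (hx : x ∈ modularFunctionFieldFullC K M) :
    coeffMap ι x ∈ modularFunctionFieldFullC K' M := by
  rw [modularFunctionFieldFullC] at hx
  induction hx using IntermediateField.adjoin_induction with
  | mem y hy =>
    exact IntermediateField.subset_adjoin K' _
      (image_divisorExpansionsC M ι ▸ Set.mem_image_of_mem _ hy)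
  | algebraMap c =>
    rw [coeffMap_algebraMap_const]
    exact IntermediateField.algebraMap_mem _ _
  | add y z _ _ hy hz => rw [map_add]; exact add_mem hy hz
  | inv y _ hy => rw [map_inv₀]; exact inv_mem hy
  | mul y z _ _ hy hz => rw [map_mul]; exact mul_mem hy hz

/-- A series over `K` lying in the function field over `K'` lies in the one over `K`. -/
theorem mem_fullC_of_coeffMap_mem (ι : K →+* K') {x : LaurentSeries K}
    (hx : coeffMap ι x ∈ modularFunctionFieldFullC K' M) :
    x ∈ modularFunctionFieldFullC K M := by
  refine EichlerShimura.mem_of_coeffMap_mem_closure ι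
    (modularFunctionFieldFullC K M).toSubfield
    (fun c => (modularFunctionFieldFullC K M).algebraMap_mem c) ?_
  refine Subfield.closure_mono (Set.union_subset_union_right _ ?_) hx
  rw [← image_divisorExpansionsC M ι]
  exact Set.image_mono (IntermediateField.subset_adjoin K _)

/-- Regular elements over a Galois extension of the constants decompose. -/
theorem exists_regular_decomposition_fullC [Algebra K K'] [FiniteDimensional K K'] [IsGalois K K']
    {t : LaurentSeries K} {x : LaurentSeries K'} (hx : x ∈ modularFunctionFieldFullC K' M)
    (hreg : IsRegularOver (coeffMap (algebraMap K K') t) x) :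
    ∃ (n : ℕ) (d : Fin n → K') (y : Fin n → LaurentSeries K),
      x = ∑ i, HahnSeries.C (d i) * coeffMap (algebraMap K K') (y i) ∧
      ∀ i, y i ∈ modularFunctionFieldFullC K M ∧ IsRegularOver t (y i) :=
  exists_regular_decomposition (modularFunctionFieldFullC K M) (modularFunctionFieldFullC K' M)
    (fun _ hy => mem_fullC_of_coeffMap_mem M (algebraMap K K') hy)
    (fun σ _ hy => coeffMap_mem_fullC M (σ : K' →+* K') hy) hx hreg

section Finite

variable {q : ℕ} [Fact q.Prime] {k : Type*} [Field k] [Finite k] [Algebra (ZMod q) k] [CharP k q]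

/-- Regular elements are combinations of regular elements fixed by the arithmetic Frobenius, on
which `q ↦ q^q` is the `q`-th power. -/
theorem exists_frobenius_generators {t : LaurentSeries (ZMod q)} {x : LaurentSeries k}
    (hx : x ∈ modularFunctionFieldFullC k M)
    (hreg : IsRegularOver (coeffMap (algebraMap (ZMod q) k) t) x) :
    ∃ (n : ℕ) (d : Fin n → k) (b : Fin n → LaurentSeries k),
      x = ∑ i, HahnSeries.C (d i) * b i ∧
      ∀ i, b i ∈ modularFunctionFieldFullC k M ∧
        IsRegularOver (coeffMap (algebraMap (ZMod q) k) t) (b i) ∧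
        ModularCurve.qExpand k q (b i) = b i ^ q := by
  obtain ⟨n, d, y, hxy, hy⟩ := exists_regular_decomposition_fullC (K := ZMod q) M hx hreg
  refine ⟨n, d, fun i => coeffMap (algebraMap (ZMod q) k) (y i), hxy, fun i => ⟨?_, ?_, ?_⟩⟩
  · exact coeffMap_mem_fullC M _ (hy i).1
  · exact (hy i).2.map _
  · rw [← map_pow, pow_char_eq_qExpand, coeffMap_qExpand]
    congr 2
    rw [ZMod.frobenius_zmod]
    ext m
    simp

end Finite

end Fermat.Agent.BadPrime
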