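import Fermat.Agent.Reduction.PlaceReduction
import Fermat.Agent.Curve.Degree

/-!
# Reduction onto the integral closure of `k[j]`

For a Gauss reduction preserving the genus and an element `j` whose degree is preserved, every
element of `Fb` without poles off the poles of `j̄` is the reduction of an element of `F` without
poles off the poles of `j`.  Applied to `j` and to `1 / j` this says that the reductions of the two
affine charts of the `j`-line model are normal.
-/

set_option autoImplicit false
set_option linter.unusedSectionVars false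

noncomputable section

namespace Fermat.Agent.BadPrime

open AlgebraicCurve Fermat.Agent.Curve Fermat.Agent.Reduction
open scoped IntermediateField

variable {K : Type*} [Field K] {k : Type*} [Field k] {A : ValuationSubring K}
variable {F : Type*} [Field F] [Algebra K F] {Fb : Type*} [Field Fb] [Algebra k Fb]
variable {π : A →+* k}

/-- The push-forward of an effective divisor is effective. -/
theorem mapDomain_nonneg {r : Place K F → Place k Fb} {D : Divisor K F} (hD : 0 ≤ D) :
    0 ≤ Finsupp.mapDomain r D := by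
  classical
  intro Q
  rw [Finsupp.mapDomain, Finsupp.sum_apply, Finsupp.coe_zero, Pi.zero_apply]
  refine Finset.sum_nonneg fun P _ => ?_
  show 0 ≤ Finsupp.single (r P) (D P) Q
  rw [Finsupp.single_apply]
  split_ifs
  · exact hD P
  · exact le_rfl

theorem degree_mapDomain {r : Place K F → Place k Fb} (hdeg : ∀ P, (r P).deg = P.deg)
    (D : Divisor K F) : Divisor.degree (Finsupp.mapDomain r D) = Divisor.degree D := by
  induction D using Finsupp.induction with
  | zero => simp
  | single_add P n D _ _ ih =>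
    rw [Finsupp.mapDomain_add, map_add, map_add, ih, Finsupp.mapDomain_single,
      Divisor.degree_single, Divisor.degree_single, hdeg]

theorem eq_zero_of_nonneg_of_degree_le {E : Divisor k Fb} [IsFunctionField1 k Fb] [IsAlgClosed k]
    (hE : 0 ≤ E) (h : Divisor.degree E ≤ 0) : E = 0 := by
  have hsum : ∑ v ∈ E.support, E v * (v.deg : ℤ) = 0 :=
    le_antisymm (degree_eq_sum E ▸ h) (Finset.sum_nonneg fun v _ => mul_nonneg (hE v) (by simp))
  ext v
  by_cases hv : v ∈ E.support
  · have := (Finset.sum_eq_zero_iff_of_nonneg fun v _ => mul_nonneg (hE v) (by simp)).1 hsum v hv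
    simpa [deg_eq_one v] using this
  · simpa using hv

section GaussData

variable (G : GaussData π F Fb)

/-- The reduction of the inverse is the inverse of the reduction. -/
theorem inv_mem_graph {f : F} {g : Fb} (h : (f, g) ∈ G.graph) (hg : g ≠ 0) :
    (f⁻¹, g⁻¹) ∈ G.graph := by
  have hf := G.ne_zero_of_mem h hg
  obtain ⟨c, hc, g', hg', hcg⟩ := G.exists_smul (inv_ne_zero hf)
  have h1 : (algebraMap K F c, g' * g) ∈ G.graph := by
    have := G.graph.mul_mem hcg h
    simpa [Algebra.smul_def, mul_assoc, hf] using this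
  have hcA : c ∈ A := by
    by_contra hcn
    have hinv : c⁻¹ ∈ A := (A.mem_or_inv_mem c).resolve_left hcn
    have h0 : π ⟨c⁻¹, hinv⟩ = 0 := G.residue_eq_zero ⟨c⁻¹, hinv⟩ (by simpa using hcn)
    have := G.graph.mul_mem (G.algebraMap_mem ⟨c⁻¹, hinv⟩) h1
    simp only [h0, map_zero, Prod.mk_mul_mk, zero_mul, ← map_mul, inv_mul_cancel₀ hc,
      map_one] at this
    exact one_ne_zero (α := Fb) (G.eq_of_mem G.graph.one_mem this)
  have hπ : algebraMap k Fb (π ⟨c, hcA⟩) = g' * g :=
    G.eq_of_mem (G.algebraMap_mem ⟨c, hcA⟩) h1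
  have hcinv : c⁻¹ ∈ A := by
    by_contra hcn
    rw [G.residue_eq_zero ⟨c, hcA⟩ hcn, map_zero] at hπ
    exact mul_ne_zero hg' hg hπ.symm
  have h2 := G.graph.mul_mem (G.algebraMap_mem ⟨c⁻¹, hcinv⟩) hcg
  have hπ2 : algebraMap k Fb (π ⟨c⁻¹, hcinv⟩) * (g' * g) = 1 := by
    rw [← hπ, ← map_mul, ← map_mul, ← map_one (algebraMap k Fb), ← map_one π]
    exact congrArg (fun x => algebraMap k Fb (π x)) (Subtype.ext (inv_mul_cancel₀ hc))
  have hg2 : algebraMap k Fb (π ⟨c⁻¹, hcinv⟩) * g' = g⁻¹ :=
    eq_inv_of_mul_eq_one_left (by rw [mul_assoc]; exact hπ2)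
  simpa [Prod.mk_mul_mk, hg2, Algebra.smul_def, ← mul_assoc, ← map_mul, hc] using h2

variable [IsAlgClosed K] [IsAlgClosed k] [IsFunctionField1 K F] [IsFunctionField1 k Fb]

variable {G} in
/-- The poles of `j` go to the poles of `j̄` when the degree is preserved. -/
theorem mapDomain_poleDivisor {r : Place K F → Place k Fb} (hr : G.PlaceCompat r)
    (hdeg : ∀ P, (r P).deg = P.deg) {j : F} {jb : Fb} (hj : (j, jb) ∈ G.graph)
    (hjt : Transcendental K j) (htr : Transcendental k jb)
    (hn : Module.finrank k⟮jb⟯ Fb = Module.finrank K⟮j⟯ F) :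
    Finsupp.mapDomain r (poleDivisor (K := K) j) = poleDivisor (K := k) jb := by
  classical
  have hjb : jb ≠ 0 := fun h => htr (h ▸ isAlgebraic_zero)
  set Z : Divisor K F := divisorOf j + poleDivisor j with hZ
  have hZ0 : 0 ≤ Z := fun P => by
    simp only [hZ, Finsupp.add_apply, divisorOf_apply, poleDivisor_apply, Finsupp.coe_zero,
      Pi.zero_apply]
    omega
  have hcompat := hr j jb hj hjb (divisorOf j) fun P => rfl
  have hle : 0 ≤ Finsupp.mapDomain r (poleDivisor (K := K) j) - poleDivisor (K := k) jb := by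
    intro Q
    have h1 := hcompat Q
    have h2 := mapDomain_nonneg (r := r) hZ0 Q
    have h3 := mapDomain_nonneg (r := r) (poleDivisor_nonneg (K := K) j) Q
    rw [hZ, Finsupp.mapDomain_add, Finsupp.add_apply] at h2
    simp only [Finsupp.coe_zero, Pi.zero_apply, Finsupp.sub_apply, poleDivisor_apply] at h2 h3 ⊢
    omega
  refine sub_eq_zero.1 (eq_zero_of_nonneg_of_degree_le hle ?_)
  rw [map_sub, degree_mapDomain hdeg, degree_poleDivisor hjt, degree_poleDivisor htr, hn, sub_self]

/-- Every element without poles off the poles of `j̄` lifts to one without poles off those of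
`j`. -/
theorem exists_lift_regular (hgenus : genusFF K F ≤ genusFF k Fb) {j : F} {jb : Fb}
    (hj : (j, jb) ∈ G.graph) (htr : Transcendental k jb)
    (hn : Module.finrank k⟮jb⟯ Fb = Module.finrank K⟮j⟯ F) {w : Fb}
    (hw : ∀ Q : Place k Fb, 0 ≤ Q.ord jb → 0 ≤ Q.ord w) :
    ∃ x : F, (∀ P : Place K F, 0 ≤ P.ord j → 0 ≤ P.ord x) ∧ (x, w) ∈ G.graph := by
  classical
  obtain ⟨r, hdeg, hr⟩ := G.exists_placeCompat hgenus
  obtain ⟨c, hc⟩ := G.exists_redSpace_rr_eq hgenus hr hdeg
  have hjt := G.transcendental_of_mem hj htr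
  have := finiteDimensional_adjoin (K := K) hjt
  set P := poleDivisor (K := K) j
  set B : ℕ := ∑ Q ∈ (poleDivisor (K := k) w).support, (poleDivisor (K := k) w Q).toNat with hB
  set m : ℕ := c.toNat + B with hm
  have hpos : (1 : ℤ) ≤ Divisor.degree P := by
    rw [degree_poleDivisor hjt]
    exact_mod_cast Module.finrank_pos
  have hdm : c ≤ Divisor.degree (m • P) := by
    rw [map_nsmul, nsmul_eq_mul]
    have : (m : ℤ) ≤ (m : ℤ) * Divisor.degree P := le_mul_of_one_le_right (by positivity) hpos
    omega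
  have hmem : w ∈ riemannRochSpace (Finsupp.mapDomain r (m • P)) := by
    rw [Finsupp.mapDomain_smul, mapDomain_poleDivisor hr hdeg hj hjt htr hn,
      mem_riemannRochSpace_iff]
    refine fun Q => Or.inr ?_
    rw [Finsupp.smul_apply, nsmul_eq_mul, poleDivisor_apply]
    rcases le_or_gt 0 (Q.ord jb) with h | h
    · rw [max_eq_right (by omega), mul_zero, neg_zero]
      exact hw Q h
    · rw [max_eq_left (by omega)]
      have h1 : (m : ℤ) ≤ (m : ℤ) * -Q.ord jb := le_mul_of_one_le_right (by positivity) (by omega)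
      have h2 : -Q.ord w ≤ (B : ℤ) := by
        by_cases hQ : Q ∈ (poleDivisor (K := k) w).support
        · have : (poleDivisor (K := k) w Q).toNat ≤ B :=
            Finset.single_le_sum (f := fun Q => (poleDivisor (K := k) w Q).toNat)
              (fun _ _ => Nat.zero_le _) hQ
          simp only [poleDivisor_apply] at this
          omega
        · simp only [Finsupp.mem_support_iff, poleDivisor_apply, not_not] at hQ
          omega
      omega
  rw [← hc _ hdm] at hmem
  obtain ⟨x, hx, hxw⟩ := (G.mem_redSpace).1 hmem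
  refine ⟨x, fun Q hQ => ?_, hxw⟩
  rcases mem_riemannRochSpace_iff.1 hx Q with rfl | h
  · simp
  · rw [Finsupp.smul_apply, poleDivisor_apply, max_eq_right (by omega), smul_zero, neg_zero] at h
    exact h

/-- The same for the chart of `1 / j`. -/
theorem exists_lift_regular_inv (hgenus : genusFF K F ≤ genusFF k Fb) {j : F} {jb : Fb}
    (hj : (j, jb) ∈ G.graph) (htr : Transcendental k jb)
    (hn : Module.finrank k⟮jb⟯ Fb = Module.finrank K⟮j⟯ F) {w : Fb}
    (hw : ∀ Q : Place k Fb, Q.ord jb ≤ 0 → 0 ≤ Q.ord w) :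
    ∃ x : F, (∀ P : Place K F, P.ord j ≤ 0 → 0 ≤ P.ord x) ∧ (x, w) ∈ G.graph := by
  have hjb : jb ≠ 0 := fun h => htr (h ▸ isAlgebraic_zero)
  obtain ⟨x, hx, hxw⟩ := exists_lift_regular G hgenus (inv_mem_graph G hj hjb)
    (fun h => htr (by simpa using h.inv))
    (by rw [adjoin_inv, adjoin_inv]; exact hn) (w := w) fun Q hQ => hw Q (by
      rw [Place.ord_inv] at hQ; omega)
  exact ⟨x, fun Q hQ => hx Q (by rw [Place.ord_inv]; omega), hxw⟩

end GaussData

end Fermat.Agent.BadPrime
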