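import Fermat.Agent.BadPrime.GaussDescent
import Fermat.Agent.BadPrime.RationalGenerators
import Fermat.Agent.BadPrime.ReductionOnto
import Fermat.Agent.Reduction.UnitField
import Fermat.Agent.Reduction.AuxLevel
import Fermat.Agent.EC.Red.ResidueQbar
import Mathlib.FieldTheory.Normal.Closure

/-!
# Reduction onto the normalisation over a number field

For a number field `L` and a prime `ℓ ∤ N` with the genus preserved, every element of
`k(j(q^d) : d ∣ N)` integral over `k[j]` (or `k[1/j]`), `k` the residue field of `L`, is the Gauss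
reduction of an element of `L(j(q^d) : d ∣ N)` integral over `L[j]` (resp. `L[1/j]`).
-/

set_option autoImplicit false
set_option linter.style.haveILetI false
set_option synthInstance.maxHeartbeats 400000

noncomputable section

open ModularCurve Polynomial AlgebraicCurve
open scoped IntermediateField

namespace Fermat.Agent.BadPrime

open Fermat.Agent.Reduction Fermat.Agent.Modular Fermat.Agent.Curve

section Places

variable {K : Type*} [Field K] {F : IntermediateField K (LaurentSeries K)}

/-- Integral over `K[t]` inside a field of series. -/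
theorem isRegularOver_iff_isIntegral_adjoin (t x : F) :
    IsRegularOver (t : LaurentSeries K) (x : LaurentSeries K) ↔
      IsIntegral (Algebra.adjoin K ({t} : Set F)) x := by
  have he : evalAt (t : LaurentSeries K) =
      F.subtype.comp (Polynomial.aeval (R := K) t).toRingHom := by
    refine Polynomial.ringHom_ext (fun a => ?_) ?_
    · simp only [coe_eval₂RingHom, eval₂_C, RingHom.coe_comp, Function.comp_apply,
        AlgHom.toRingHom_eq_coe, RingHom.coe_coe, aeval_C]
      exact C_eq_algebraMap a
    · simp only [coe_eval₂RingHom, eval₂_X, RingHom.coe_comp, Function.comp_apply,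
        AlgHom.toRingHom_eq_coe, RingHom.coe_coe, aeval_X]
      rfl
  have h1 : IsRegularOver (t : LaurentSeries K) (x : LaurentSeries K) ↔
      (Polynomial.aeval (R := K) t).toRingHom.IsIntegralElem x := by
    constructor
    · rintro ⟨p, hp, h⟩
      refine ⟨p, hp, F.subtype.injective ?_⟩
      rw [hom_eval₂, ← he, map_zero]
      exact h
    · rintro ⟨p, hp, h⟩
      refine ⟨p, hp, ?_⟩
      rw [he]
      exact (hom_eval₂ p _ F.subtype x).symm.trans (by rw [h, map_zero])
  let s : K[X] →+* Algebra.adjoin K ({t} : Set F) :=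
    (Polynomial.aeval (R := K) t).toRingHom.codRestrict (Algebra.adjoin K ({t} : Set F)).toSubring
      fun p => by
        show Polynomial.aeval t p ∈ Algebra.adjoin K ({t} : Set F)
        rw [Algebra.adjoin_singleton_eq_range_aeval]
        exact ⟨p, rfl⟩
  have hs : Function.Surjective s := fun a => by
    obtain ⟨a, ha⟩ := a
    rw [Algebra.adjoin_singleton_eq_range_aeval] at ha
    obtain ⟨p, hp⟩ := ha
    exact ⟨p, Subtype.ext hp⟩
  have hcomp : (algebraMap (Algebra.adjoin K ({t} : Set F)) F).comp s =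
      (Polynomial.aeval (R := K) t).toRingHom := RingHom.ext fun _ => rfl
  have h2 : (Polynomial.aeval (R := K) t).toRingHom.IsIntegralElem x ↔
      IsIntegral (Algebra.adjoin K ({t} : Set F)) x := by
    constructor
    · rintro ⟨p, hp, h⟩
      exact ⟨p.map s, hp.map _, by rw [eval₂_map, hcomp, h]⟩
    · rintro ⟨P, hP, h⟩
      obtain ⟨p, hpP, -, hp⟩ :=
        lifts_and_natDegree_eq_and_monic (f := s) (by rw [lifts_iff_coeff_lifts]; exact fun n => hs _) hP
      exact ⟨p, hp, by rw [← hcomp, ← eval₂_map, hpP, h]⟩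
  rw [h1, h2]

/-- Integral over `K[t]` means regular at the places where `t` is. -/
theorem isRegularOver_iff_forall_place [IsFunctionField1 K F] (t x : F) :
    IsRegularOver (t : LaurentSeries K) (x : LaurentSeries K) ↔
      ∀ P : Place K F, 0 ≤ P.ord t → 0 ≤ P.ord x := by
  rw [isRegularOver_iff_isIntegral_adjoin, isIntegral_adjoin_iff]
  simp only [Set.mem_singleton_iff, forall_eq, mem_iff_ord_nonneg]

end Places

section Descent

variable {L Lb : Type*} [Field L] [Field Lb] [Algebra ℚ L] [Algebra ℚ Lb] [Algebra L Lb]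
  [IsScalarTower ℚ L Lb] [Algebra.IsAlgebraic ℚ Lb] [Normal L Lb]

/-- A regular element of the function field over `Lb` is a combination of regular elements of
the function field over `L`. -/
theorem exists_regular_combination (M : ℕ) {t : LaurentSeries L} {x : LaurentSeries Lb}
    (hx : x ∈ FL M Lb) (hreg : IsRegularOver (coeffMap (algebraMap L Lb) t) x) :
    ∃ (n : ℕ) (d : Fin n → Lb) (y : Fin n → LaurentSeries L),
      x = ∑ i, HahnSeries.C (d i) * coeffMap (algebraMap L Lb) (y i) ∧
      ∀ i, y i ∈ FL M L ∧ IsRegularOver t (y i) := by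
  classical
  obtain ⟨K, hK, z, hz⟩ := finiteCoeff_of_mem_laurentBaseChange (modularFunctionFieldFull M) hx
  have hint : ∀ a : Lb, IsIntegral L a := fun a =>
    ((Algebra.IsAlgebraic.isAlgebraic (R := ℚ) a).isIntegral).tower_top
  haveI : Algebra.IsAlgebraic L Lb := ⟨fun a => (hint a).isAlgebraic⟩
  haveI : CharZero L := charZero_of_injective_algebraMap (algebraMap ℚ L).injective
  obtain ⟨S, hS⟩ : (Subalgebra.toSubmodule K.toSubalgebra).FG := Module.Finite.iff_fg.1 hK
  set K₁ : IntermediateField L Lb := IntermediateField.adjoin L (S : Set Lb) with hK₁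
  haveI : FiniteDimensional L K₁ :=
    IntermediateField.finiteDimensional_adjoin fun a _ => hint a
  set E := IntermediateField.normalClosure L K₁ Lb with hE
  haveI : FiniteDimensional L E := inferInstance
  haveI : IsGalois L E := ⟨⟩
  have hKE : ∀ a : K, (a : Lb) ∈ E := fun a => by
    refine (IntermediateField.le_normalClosure K₁) ?_
    have ha : (a : Lb) ∈ Submodule.span ℚ (S : Set Lb) := by rw [hS]; exact a.2
    generalize (a : Lb) = y at ha ⊢
    induction ha using Submodule.span_induction with
    | mem y hy => exact IntermediateField.subset_adjoin L _ hy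
    | zero => exact zero_mem _
    | add y z _ _ hy hz => exact add_mem hy hz
    | smul c y _ hy =>
      rw [Algebra.smul_def, eq_ratCast]
      exact mul_mem (SubfieldClass.ratCast_mem _ _) hy
  let κ : K →+* E := (algebraMap K Lb).codRestrict E.toSubring fun a => hKE a
  set x' : LaurentSeries E := coeffMap κ z
  have hx' : coeffMap (algebraMap E Lb) x' = x := by
    rw [← hz, coeffMap_coeffMap]; rfl
  have hmem : x' ∈ modularFunctionFieldFullC E M := by
    refine mem_fullC_of_coeffMap_mem M (algebraMap E Lb) ?_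
    rw [hx', fullC_le_base]
    exact hx
  have ht : coeffMap (algebraMap E Lb) (coeffMap (algebraMap L E) t) =
      coeffMap (algebraMap L Lb) t := by
    rw [coeffMap_coeffMap]
    exact coeffMap_congr (IsScalarTower.algebraMap_eq L E Lb).symm t
  have hregE : IsRegularOver (coeffMap (algebraMap L E) t) x' := by
    refine IsRegularOver.of_map (algebraMap E Lb) (fun a => ?_) ?_
    · exact ((hint a).tower_top : IsIntegral E a)
    · rw [ht, hx']; exact hreg
  obtain ⟨n, d, y, hxy, hy⟩ := exists_regular_decomposition_fullC (K := L) M hmem hregE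
  refine ⟨n, fun i => algebraMap E Lb (d i), y, ?_, fun i => ⟨?_, (hy i).2⟩⟩
  · rw [← hx', hxy, map_sum]
    refine Finset.sum_congr rfl fun i _ => ?_
    rw [map_mul, coeffMap_coeffMap, HahnSeries.C_apply, coeffMap_single, ← HahnSeries.C_apply,
      coeffMap_congr (IsScalarTower.algebraMap_eq L E Lb).symm]
  · have h := (hy i).1
    rwa [fullC_le_base] at h

end Descent

section X0

variable (N : ℕ) [NeZero N] {ℓ : ℕ} [Fact ℓ.Prime] (hℓN : ¬ ℓ ∣ N)
  (A : ValuationSubring (AlgebraicClosure ℚ)) (hA : A.LiesOverPrime ℓ)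

include hℓN hA

/-- A lift over `ℚ̄` of an element regular over a chart. -/
theorem exists_regular_lift_bar (hN : (ℓ = 2 → 3 ∣ N) ∧ (ℓ = 3 → 2 ∣ N))
    {w : LaurentSeries (IsLocalRing.ResidueField A)}
    (hw : w ∈ modularFunctionFieldFullC (IsLocalRing.ResidueField A) N) :
    (IsRegularOver (jqModC (IsLocalRing.ResidueField A)) w →
      ∃ x ∈ FL N (AlgebraicClosure ℚ), IsRegularOver (jqModC (AlgebraicClosure ℚ)) x ∧
        HasGaussRed (IsLocalRing.residue A) x w) ∧
    (IsRegularOver (jqModC (IsLocalRing.ResidueField A))⁻¹ w →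
      ∃ x ∈ FL N (AlgebraicClosure ℚ), IsRegularOver (jqModC (AlgebraicClosure ℚ))⁻¹ x ∧
        HasGaussRed (IsLocalRing.residue A) x w) := by
  haveI : IsAlgClosed (IsLocalRing.ResidueField A) := EC.isAlgClosed_residueField A
  have hg := genusFF_le_modL N hℓN A hA hN
  have hn := finrank_jRes N hℓN A hA
  have htr := transcendental_jRes N (IsLocalRing.ResidueField A)
  have hjB : ((jBar N : modularFunctionFieldBar N) : LaurentSeries (AlgebraicClosure ℚ)) =
      jqModC (AlgebraicClosure ℚ) := by
    show coeffEmb (AlgebraicClosure ℚ) jq = _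
    rw [coeffEmb, ← jqModC_rat, coeffMap_jqModC]
  refine ⟨fun hreg => ?_, fun hreg => ?_⟩
  · obtain ⟨x, hx, hxw⟩ := exists_lift_regular (gaussDataX0 N hℓN A hA) hg (jBar_jRes_mem N A)
      htr hn (w := ⟨w, hw⟩) ((isRegularOver_iff_forall_place (jRes _ N) ⟨w, hw⟩).1 hreg)
    exact ⟨x, x.2, hjB ▸ (isRegularOver_iff_forall_place (jBar N) x).2 hx, hxw⟩
  · obtain ⟨x, hx, hxw⟩ := exists_lift_regular_inv (gaussDataX0 N hℓN A hA) hg (jBar_jRes_mem N A)
      htr hn (w := ⟨w, hw⟩) fun Q hQ => by
        refine (isRegularOver_iff_forall_place ((jRes _ N)⁻¹) ⟨w, hw⟩).1 ?_ Q ?_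
        · rw [IntermediateField.coe_inv]; exact hreg
        · rw [Place.ord_inv]; omega
    refine ⟨x, x.2, ?_, hxw⟩
    have h := (isRegularOver_iff_forall_place ((jBar N)⁻¹) x).2 fun P hP => hx P (by
      rw [Place.ord_inv] at hP; omega)
    rw [IntermediateField.coe_inv, hjB] at h
    exact h

omit hℓN hA

variable {L : Type} [Field L] [Algebra ℚ L] [FiniteDimensional ℚ L] [Algebra L (AlgebraicClosure ℚ)]
  [IsScalarTower ℚ L (AlgebraicClosure ℚ)] {AL : ValuationSubring L} {k : Type} [Field k]
  {πL : AL →+* k} [IsLocalHom πL]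

include hℓN hA in
/-- Reduction of a regular chart over a number field onto the normalisation of the reduced one. -/
theorem exists_regular_lift_of_lift (hN : (ℓ = 2 → 3 ∣ N) ∧ (ℓ = 3 → 2 ∣ N))
    (hAL : ∀ a, a ∈ AL → algebraMap L (AlgebraicClosure ℚ) a ∈ A)
    (κ : k →+* IsLocalRing.ResidueField A)
    (hκ : ∀ a : AL, IsLocalRing.residue A ⟨algebraMap L _ a, hAL a a.2⟩ = κ (πL a))
    (hπL : Function.Surjective πL) {b : LaurentSeries k}
    (hb : b ∈ modularFunctionFieldFullC k N) :
    (IsRegularOver (jqModC k) b →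
      ∃ x ∈ FL N L, IsRegularOver (jqModC L) x ∧ HasGaussRed πL x b) ∧
    (IsRegularOver (jqModC k)⁻¹ b →
      ∃ x ∈ FL N L, IsRegularOver (jqModC L)⁻¹ x ∧ HasGaussRed πL x b) := by
  haveI : Algebra.IsAlgebraic ℚ (AlgebraicClosure ℚ) := AlgebraicClosure.isAlgebraic ℚ
  haveI : IsAlgClosure ℚ (AlgebraicClosure ℚ) := ⟨inferInstance, inferInstance⟩
  haveI : Normal ℚ (AlgebraicClosure ℚ) := IsAlgClosure.normal ℚ _
  haveI : Normal L (AlgebraicClosure ℚ) := Normal.tower_top_of_normal ℚ L (AlgebraicClosure ℚ)
  haveI : Algebra.IsAlgebraic ℚ L := Algebra.IsAlgebraic.of_finite ℚ L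
  have hbar := exists_regular_lift_bar N hℓN A hA hN (coeffMap_mem_fullC N κ hb)
  have step : ∀ (t : LaurentSeries L) (x : LaurentSeries (AlgebraicClosure ℚ)),
      x ∈ FL N (AlgebraicClosure ℚ) →
      IsRegularOver (coeffMap (algebraMap L (AlgebraicClosure ℚ)) t) x →
      HasGaussRed (IsLocalRing.residue A) x (coeffMap κ b) →
      ∃ y ∈ FL N L, IsRegularOver t y ∧ HasGaussRed πL y b := by
    intro t x hx hreg hxb
    obtain ⟨n, d, y, hxy, hy⟩ := exists_regular_combination N hx hreg
    obtain ⟨c, hc⟩ := exists_combination_hasGaussRed hAL hκ hπL y (fun i => (hy i).1) d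
      (hxy ▸ hxb)
    refine ⟨_, ?_, ?_, hc⟩
    · refine sum_mem fun i _ => mul_mem ?_ (hy i).1
      rw [Reduction.C_eq_algebraMap]
      exact IntermediateField.algebraMap_mem _ _
    · exact IsRegularOver.sum _ fun i _ => (IsRegularOver.const t (c i)).mul (hy i).2
  refine ⟨fun hreg => ?_, fun hreg => ?_⟩
  · have h := hreg.map κ
    rw [coeffMap_jqModC] at h
    obtain ⟨x, hx, hxr, hxb⟩ := hbar.1 h
    exact step (jqModC L) x hx (by rw [coeffMap_jqModC]; exact hxr) hxb
  · have h := hreg.map κ
    rw [map_inv₀, coeffMap_jqModC] at h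
    obtain ⟨x, hx, hxr, hxb⟩ := hbar.2 h
    exact step (jqModC L)⁻¹ x hx (by rw [map_inv₀, coeffMap_jqModC]; exact hxr) hxb

end X0

end Fermat.Agent.BadPrime
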