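import Fermat.Agent.BadPrime.GaussModelData
import Fermat.Agent.BadPrime.RegularDescent
import Mathlib.RingTheory.DedekindDomain.IntegralClosure
import Mathlib.FieldTheory.IntermediateField.Adjoin.Algebra

/-!
# The charts of the special fibre are finite over the coordinate and have rational generators
-/

set_option autoImplicit false
set_option linter.style.haveILetI false
set_option synthInstance.maxHeartbeats 400000

noncomputable section

open ModularCurve Polynomial AlgebraicCurve
open scoped IntermediateField

namespace Fermat.Agent.BadPrime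

open Fermat.Agent.Reduction Fermat.Agent.Modular Fermat.Agent.Curve

variable (k : Type*) [Field k] (M : ℕ) [NeZero M]

theorem qDeriv_chartCoordRed_ne_zero (b : Bool) : qDeriv (chartCoordRed k b) ≠ 0 := by
  cases b with
  | false => exact qDeriv_jqModC_ne_zero k
  | true =>
    intro h
    have hj : jqModC k ≠ 0 := jqModC_ne_zero_of_nontrivial k
    have h1 : qDeriv (jqModC k * (jqModC k)⁻¹) = 0 := by
      rw [mul_inv_cancel₀ hj, ← map_one (HahnSeries.C (Γ := ℤ) (R := k)), qDeriv_C]
    rw [qDeriv_mul, show qDeriv (jqModC k)⁻¹ = 0 from h, mul_zero, add_zero, mul_eq_zero] at h1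
    exact h1.elim (qDeriv_jqModC_ne_zero k) (inv_ne_zero hj)

theorem transcendental_chartCoordRed (b : Bool) : Transcendental k (chartCoordRed k b) := by
  cases b with
  | false => exact Reduction.transcendental_jqModC k
  | true =>
    intro h
    exact Reduction.transcendental_jqModC k (by simpa [chartCoordRed] using h.inv)

theorem transcendental_chartCoordK (b : Bool) : Transcendental k (chartCoordK k M b) := by
  intro h
  refine transcendental_chartCoordRed k b ?_
  rw [← coe_chartCoordK k M b]
  exact h.algebraMap

theorem finiteDimensional_chartCoordK (b : Bool) :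
    FiniteDimensional k⟮chartCoordK k M b⟯ (modularFunctionFieldFullC k M) :=
  finiteDimensional_adjoin (transcendental_chartCoordK k M b)

theorem isSeparable_chartCoordK [PerfectField k] (b : Bool) :
    Algebra.IsSeparable k⟮chartCoordK k M b⟯ (modularFunctionFieldFullC k M) := by
  haveI := finiteDimensional_chartCoordK k M b
  refine ⟨fun x => ?_⟩
  have hx : IsIntegral k⟮chartCoordK k M b⟯ x := IsIntegral.of_finite _ x
  refine Reduction.isSeparable_of_coe (chartCoordK k M b) hx ?_
  have hx' := (isIntegral_iff_coe (chartCoordK k M b) x).1 hx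
  refine isSeparable_of_isIntegral ?_ ?_ hx'
  · rw [coe_chartCoordK]; exact qDeriv_chartCoordRed_ne_zero k b
  · rw [coe_chartCoordK]; exact transcendental_chartCoordRed k b

open scoped IntermediateField.algebraAdjoinAdjoin in
/-- A chart of the special fibre is finite over `k[t]`. -/
theorem finite_integralClosure_chartCoordK [PerfectField k] (b : Bool) :
    Module.Finite (Algebra.adjoin k ({chartCoordK k M b} : Set (modularFunctionFieldFullC k M)))
      (integralClosure (Algebra.adjoin k ({chartCoordK k M b} : Set (modularFunctionFieldFullC k M)))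
        (modularFunctionFieldFullC k M)) := by
  set t := chartCoordK k M b
  set S := Algebra.adjoin k ({t} : Set (modularFunctionFieldFullC k M)) with hS
  let s : k[X] →ₐ[k] S := (Polynomial.aeval (R := k) t).codRestrict S fun p => by
    rw [hS, Algebra.adjoin_singleton_eq_range_aeval]
    exact ⟨p, rfl⟩
  have hs : Function.Bijective s := by
    refine ⟨fun p p' h => ?_, fun a => ?_⟩
    · exact transcendental_iff_injective.1 (transcendental_chartCoordK k M b)
        (congrArg Subtype.val h)
    · obtain ⟨a, ha⟩ := a
      rw [hS, Algebra.adjoin_singleton_eq_range_aeval] at ha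
      obtain ⟨p, hp⟩ := ha
      exact ⟨p, Subtype.ext hp⟩
  let e : k[X] ≃+* S := (AlgEquiv.ofBijective s hs).toRingEquiv
  haveI : IsNoetherianRing S := isNoetherianRing_of_ringEquiv k[X] e
  haveI : IsIntegrallyClosed S := IsIntegrallyClosed.of_equiv e
  haveI := finiteDimensional_chartCoordK k M b
  haveI := isSeparable_chartCoordK k M b
  exact IsIntegralClosure.finite S k⟮t⟯ (modularFunctionFieldFullC k M)
    (integralClosure S (modularFunctionFieldFullC k M))

variable {k} {q : ℕ} [Fact q.Prime] [CharP k q] [Finite k]

/-- Generators on which the geometric Frobenius is the `q`-th power. -/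
theorem exists_chartP_generators (b : Bool) :
    ∃ G : Finset (chartP k M q b), Algebra.adjoin k (G : Set (chartP k M q b)) = ⊤ ∧
      ∀ g ∈ G, chartFr k q M b g = g ^ q := by
  classical
  letI : Algebra (ZMod q) k := ZMod.algebra k q
  obtain ⟨S, hS⟩ := (finite_integralClosure_chartCoordK k M b).fg_top
  have hcoord : coeffMap (algebraMap (ZMod q) k) (chartCoordRed (ZMod q) b) =
      chartCoordRed k b := by
    cases b <;> simp [chartCoordRed, map_inv₀, coeffMap_jqModC]
  have hdec : ∀ y : integralClosure
      (Algebra.adjoin k ({chartCoordK k M b} : Set (modularFunctionFieldFullC k M)))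
      (modularFunctionFieldFullC k M), ∃ (n : ℕ) (d : Fin n → k) (g : Fin n → chartP k M q b),
      ((y : modularFunctionFieldFullC k M) : LaurentSeries k) =
        ∑ i, HahnSeries.C (d i) * ((g i : modularFunctionFieldFullC k M) : LaurentSeries k) ∧
      ∀ i, chartFr k q M b (g i) = g i ^ q := by
    intro y
    have hreg := (isRegularOver_iff_isIntegral_adjoin (chartCoordK k M b)
      (y : modularFunctionFieldFullC k M)).2 y.2
    rw [coe_chartCoordK, ← hcoord] at hreg
    obtain ⟨n, d, g, hsum, hg⟩ := exists_frobenius_generators M
      (y : modularFunctionFieldFullC k M).2 hreg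
    have hmem : ∀ i, (⟨g i, (hg i).1⟩ : modularFunctionFieldFullC k M) ∈ chartP k M q b := fun i => by
      refine (mem_chartP k q M).2 ((isRegularOver_iff_isIntegral_adjoin _ _).1 ?_)
      rw [coe_chartCoordK, ← hcoord]
      exact (hg i).2.1
    exact ⟨n, d, fun i => ⟨⟨g i, (hg i).1⟩, hmem i⟩, hsum, fun i =>
      Subtype.ext (Subtype.ext (hg i).2.2)⟩
  choose n d g hsum hg using hdec
  refine ⟨insert ⟨chartCoordK k M b, chartCoordK_mem k q M b⟩
    (S.biUnion fun y => Finset.univ.image (g y)), ?_, ?_⟩
  · set G : Set (chartP k M q b) :=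
      ↑(insert (⟨chartCoordK k M b, chartCoordK_mem k q M b⟩ : chartP k M q b)
        (S.biUnion fun y => Finset.univ.image (g y))) with hG
    set T : Subalgebra k (modularFunctionFieldFullC k M) :=
      (Algebra.adjoin k G).map (chartP k M q b).val with hT
    have hgen : ∀ z : chartP k M q b, z ∈ G → (z : modularFunctionFieldFullC k M) ∈ T := fun z hz =>
      ⟨z, Algebra.subset_adjoin hz, rfl⟩
    have hlin : Algebra.adjoin k ({chartCoordK k M b} : Set (modularFunctionFieldFullC k M)) ≤ T :=
      Algebra.adjoin_le (Set.singleton_subset_iff.2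
        (hgen _ (Finset.mem_coe.2 (Finset.mem_insert_self _ _))))
    refine top_unique fun x _ => ?_
    suffices h : (x : modularFunctionFieldFullC k M) ∈ T by
      obtain ⟨z, hz, hzx⟩ := h
      rwa [← show z = x from Subtype.ext hzx]
    have hx : (⟨(x : modularFunctionFieldFullC k M), x.2⟩ : integralClosure
        (Algebra.adjoin k ({chartCoordK k M b} : Set (modularFunctionFieldFullC k M)))
        (modularFunctionFieldFullC k M)) ∈ Submodule.span _ (S : Set _) := hS ▸ Submodule.mem_top
    obtain ⟨c, -, hc⟩ := Submodule.mem_span_finset.1 hx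
    have hc' := congrArg (fun z : integralClosure _ (modularFunctionFieldFullC k M) =>
      (z : modularFunctionFieldFullC k M)) hc
    simp only [AddSubmonoidClass.coe_finsetSum, SetLike.val_smul] at hc'
    rw [← hc']
    refine Subalgebra.sum_mem _ fun y hy => ?_
    rw [Algebra.smul_def]
    refine mul_mem (hlin (c y).2) ?_
    have hy' : (y : modularFunctionFieldFullC k M) =
        ∑ i, d y i • (g y i : modularFunctionFieldFullC k M) := by
      refine Subtype.ext ?_
      rw [hsum y, AddSubmonoidClass.coe_finsetSum]
      exact Finset.sum_congr rfl fun i _ => (coeff_algebra_smul _ _ _).symm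
    rw [hy']
    exact Subalgebra.sum_mem _ fun i _ => Subalgebra.smul_mem _ (hgen _ (Finset.mem_coe.2
      (Finset.mem_insert_of_mem (Finset.mem_biUnion.2
        ⟨y, hy, Finset.mem_image.2 ⟨i, Finset.mem_univ i, rfl⟩⟩)))) _
  · intro z hz
    rcases Finset.mem_insert.1 hz with rfl | hz
    · exact Subtype.ext (frobK_coord k q M b)
    · obtain ⟨y, -, hz⟩ := Finset.mem_biUnion.1 hz
      obtain ⟨i, -, rfl⟩ := Finset.mem_image.1 hz
      exact hg y i

end Fermat.Agent.BadPrime
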