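import Fermat.Agent.BadPrime.GaussBaseField
import Fermat.Agent.BadPrime.RationalGenerators
import Fermat.Agent.Reduction.ModularData

/-!
# Full residue degree at a level prime to the characteristic

The field `k(j(q^d) : d ∣ N)` over a subfield `k` of the residue field of a place of `ℚ̄` is
`k(j, ū)`, by descent of coefficients; hence its degree over `k(j)` is that of `L(j(q^d))/L(j)`.
-/

set_option autoImplicit false
set_option linter.style.haveILetI false
set_option synthInstance.maxHeartbeats 400000

noncomputable section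

open ModularCurve Polynomial
open Fermat.Agent.Igusa (castSeries UnitPolyData)
open scoped IntermediateField

namespace Fermat.Agent.BadPrime

open Fermat.Agent.Reduction Fermat.Agent.Modular

variable (N : ℕ) [NeZero N] {ℓ : ℕ} [Fact ℓ.Prime] (hℓN : ¬ ℓ ∣ N)
  (A : ValuationSubring (AlgebraicClosure ℚ)) (hA : A.LiesOverPrime ℓ)
variable {L : Type} [Field L] [Algebra ℚ L] [Algebra L (AlgebraicClosure ℚ)]
  [IsScalarTower ℚ L (AlgebraicClosure ℚ)] {AL : ValuationSubring L}

include hA in
/-- A place of `L` under a place of `ℚ̄` above `ℓ` lies above `ℓ`. -/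
theorem liesOverPrime_of_le (hAL : ∀ a, a ∈ AL → algebraMap L (AlgebraicClosure ℚ) a ∈ A) :
    AL.LiesOverPrime ℓ := by
  obtain ⟨h, hmax⟩ := ValuationSubring.mem_nonunits_iff_exists_mem_maximalIdeal.1 hA
  refine ValuationSubring.mem_nonunits_iff_exists_mem_maximalIdeal.2 ⟨natCast_mem AL ℓ, ?_⟩
  intro hu
  refine (IsLocalRing.mem_maximalIdeal _).1 hmax ?_
  let ι : AL →+* A := ((algebraMap L (AlgebraicClosure ℚ)).comp AL.subtype).codRestrict
    A.toSubring fun a => hAL a a.2
  have := hu.map ι
  convert this using 1
  exact Subtype.ext (map_natCast (algebraMap L (AlgebraicClosure ℚ)) ℓ).symm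

include hℓN hA in
/-- The function field over the residue field of `L` has the generic degree over `k(j)`. -/
theorem hasFullResidueDegree_of_embedding
    (hAL : ∀ a, a ∈ AL → algebraMap L (AlgebraicClosure ℚ) a ∈ A) {k : Type} [Field k]
    [PerfectField k] (πL : AL →+* k) (κ : k →+* IsLocalRing.ResidueField A) :
    HasFullResidueDegree k L N := by
  haveI : CharZero L := charZero_of_injective_algebraMap (algebraMap ℚ L).injective
  obtain ⟨D⟩ := Igusa.nonempty_unitPolyData N ℓ hℓN
  let fk := πL.comp (zlHom (liesOverPrime_of_le A hA hAL))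
  obtain ⟨hP, hn, h0⟩ := polyOver_spec D fk
  have hNk : (N : k) ≠ 0 := fun h => natCast_residue_ne_zero hA hℓN (by
    rw [← map_natCast κ, h, map_zero])
  have hgen : modularFunctionFieldFullC k N ≤
      IntermediateField.adjoin k ({jqModC k, castSeries k D.u} : Set (LaurentSeries k)) := by
    rw [modularFunctionFieldFullC, IntermediateField.adjoin_le_iff]
    rintro x ⟨d, hne, hd, rfl⟩
    haveI := hne
    refine EichlerShimura.mem_of_coeffMap_mem_closure κ
      (IntermediateField.adjoin k ({jqModC k, castSeries k D.u} : Set _)).toSubfield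
      (fun c => IntermediateField.algebraMap_mem _ c) ?_
    have hx : coeffMap κ (qExpand k d (jqModC k)) ∈
        modularFunctionFieldFullC (IsLocalRing.ResidueField A) N := by
      rw [coeffMap_qExpand, coeffMap_jqModC]
      exact jqModCd_mem_full _ N hd
    rw [fullC_eq_adjoin D hA hℓN] at hx
    refine Subfield.closure_mono (Set.union_subset_union_right _ ?_) hx
    rintro v (rfl | rfl)
    · exact ⟨jqModC k, IntermediateField.subset_adjoin k _ (Set.mem_insert _ _), coeffMap_jqModC κ⟩
    · exact ⟨castSeries k D.u, IntermediateField.subset_adjoin k _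
        (Set.mem_insert_of_mem _ rfl), Igusa.coeffMap_castSeries κ D.u⟩
  have hk := finrank_of_spannedBy (F := modularFunctionFieldFullC k N)
    (fun Q hQd hQ => eq_zero_of_evalJU D fk hQd hQ) D.n_pos
    (castSeries_u_mem_fullC D hNk) (jK k N) rfl
    (fun x hx => spannedBy_of_mem_adjoin hP hn D.n_pos h0 (hgen hx))
  have hL := finrank_of_spannedBy (F := FL N L)
    (fun Q hQd hQ => eq_zero_of_evalJU D
      ((algebraMap ℚ L).comp (GaloisRep.ratLocalizedAt ℓ).subtype) hQd hQ)
    D.n_pos
    (by
      rw [FL, ← fullC_le_base]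
      exact castSeries_u_mem_fullC D (Nat.cast_ne_zero.2 (NeZero.ne N)))
    (jL N L) (by
      show coeffEmb L jq = _
      rw [coeffEmb, ← jqModC_rat, coeffMap_jqModC])
    (fun x hx => spannedBy_of_mem D hx)
  exact ⟨hk.2, hL.2, hk.1.trans hL.1.symm⟩

end Fermat.Agent.BadPrime
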