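import Fermat.Agent.BadPrime.GaussModelProps
import Fermat.Agent.BadPrime.RegularDescent
import Fermat.Agent.BadPrime.ChartFinite
import Fermat.Agent.BadPrime.FullResidue

/-!
# The three hypotheses on the level `M` of the two-component model

For a place `A` of `ℚ̄` over `q ∤ M` and the place `AL` of a number field `L` below it, the charts
of level `M` reduce onto the normal charts of `k(j(q^d) : d ∣ M)`, these are finite over the line
and have rational generators.
-/

set_option autoImplicit false
set_option linter.style.haveILetI false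
set_option synthInstance.maxHeartbeats 400000

noncomputable section

open ModularCurve Polynomial
open scoped IntermediateField

namespace Fermat.Agent.BadPrime

open Fermat.Agent.Reduction Fermat.Agent.Modular

section Props

variable (k : Type*) [Field k] (q : ℕ) [Fact q.Prime] [CharP k q] (M : ℕ) [NeZero M]

theorem isFiniteChart [PerfectField k] (b : Bool) : IsFiniteChart M k b :=
  finite_integralClosure_chartCoordK k M b

theorem hasRationalGenerators [Finite k] (b : Bool) : HasRationalGenerators q M k b :=
  exists_chartP_generators M b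

end Props

variable {L : Type*} [Field L] [Algebra ℚ L] [Algebra.IsAlgebraic ℚ L] {A : ValuationSubring L}
  {q M : ℕ} [NeZero M]

omit [Algebra.IsAlgebraic ℚ L] in
theorem coe_chartCoord (b : Bool) :
    (chartCoord L M b : LaurentSeries L) = chartCoordRed L b := by
  have h : coeffEmb L jq = jqModC L := by rw [coeffEmb, ← jqModC_rat, coeffMap_jqModC]
  cases b with
  | false => exact h
  | true =>
    simp only [chartCoord, chartCoordRed, cond_true, IntermediateField.coe_inv]
    exact congrArg (·⁻¹) h

omit [Algebra.IsAlgebraic ℚ L] in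
theorem chartCoord_mem_adjoin (b : Bool) : chartCoord L M b ∈ L⟮jL M L⟯ := by
  cases b with
  | false => exact IntermediateField.mem_adjoin_simple_self L _
  | true => exact inv_mem (IntermediateField.mem_adjoin_simple_self L _)

/-- An element integral over `L[t]` with a Gauss reduction is integral over the base of the
chart. -/
theorem mem_chartB_of_regular (hfd : HasFullResidueDegree (IsLocalRing.ResidueField A) L M)
    {b : Bool} {f : FL M L} (hreg : IsRegularOver (chartCoordRed L b) (f : LaurentSeries L))
    (hg : f ∈ gaussFL (IsLocalRing.residue A) M) : f ∈ chartB A M b := by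
  set K := L⟮jL M L⟯ with hK
  letI : Algebra (gaussJ (IsLocalRing.residue A) M) (FL M L) :=
    ((algebraMap K (FL M L)).comp (algebraMap (gaussJ (IsLocalRing.residue A) M) K)).toAlgebra
  haveI : IsScalarTower (gaussJ (IsLocalRing.residue A) M) K (FL M L) :=
    IsScalarTower.of_algebraMap_eq fun _ => rfl
  have h1 : IsIntegral (gaussJ (IsLocalRing.residue A) M) f :=
    isIntegral_gaussFL IsLocalRing.residue_surjective hfd hg
  set tK : K := ⟨chartCoord L M b, chartCoord_mem_adjoin b⟩ with htK
  have haev : ∀ p : L[X], ((Polynomial.aeval tK p : K) : FL M L) =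
      Polynomial.aeval (chartCoord L M b) p := fun p => (Polynomial.aeval_algHom_apply K.val tK p).symm
  have htr : Transcendental L (chartCoord L M b) := fun ha =>
    transcendental_chartCoordRed L b (by
      rw [← coe_chartCoord (M := M)]
      exact ha.algHom (FL M L).val)
  letI algX : Algebra L[X] K := (Polynomial.aeval (R := L) tK).toRingHom.toAlgebra
  letI algXF : Algebra L[X] (FL M L) :=
    (Polynomial.aeval (R := L) (chartCoord L M b)).toRingHom.toAlgebra
  haveI : IsScalarTower L[X] K (FL M L) := IsScalarTower.of_algebraMap_eq fun p => (haev p).symm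
  have hinjX : Function.Injective (algebraMap L[X] K) := fun p p' h =>
    transcendental_iff_injective.1 htr (by
      rw [← haev, ← haev]
      exact congrArg Subtype.val h)
  haveI : FaithfulSMul L[X] K := (faithfulSMul_iff_algebraMap_injective _ _).2 hinjX
  haveI : IsFractionRing L[X] K := IsFractionRing.of_field L[X] K fun z => by
    have hz : (z : FL M L) ∈ L⟮chartCoord L M b⟯ := by
      cases b with
      | false => exact z.2
      | true =>
        show (z : FL M L) ∈ L⟮(jL M L)⁻¹⟯
        rw [Curve.adjoin_inv]
        exact z.2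
    obtain ⟨r, s, hrs⟩ := (IntermediateField.mem_adjoin_simple_iff L _).1 hz
    refine ⟨r, s, Subtype.ext ?_⟩
    rw [IntermediateField.coe_div]
    exact hrs.trans (congrArg₂ (· / ·) (haev r).symm (haev s).symm)
  have h2 : IsIntegral L[X] f := by
    have h := (isRegularOver_iff_isIntegral_adjoin (chartCoord L M b) f).2
    rw [coe_chartCoord] at h
    obtain ⟨p, hp, hpx⟩ := hreg
    refine ⟨p, hp, Subtype.ext ?_⟩
    have e : evalAt (chartCoordRed L b) =
        (FL M L).subtype.comp (algebraMap L[X] (FL M L)) := by
      refine Polynomial.ringHom_ext (fun a => ?_) ?_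
      · show evalAt (chartCoordRed L b) (C a) =
          (((Polynomial.aeval (chartCoord L M b)) (C a) : FL M L) : LaurentSeries L)
        rw [coe_eval₂RingHom, eval₂_C, aeval_C]
        exact (coe_algebraMap_FL a).symm
      · show evalAt (chartCoordRed L b) X =
          (((Polynomial.aeval (chartCoord L M b)) X : FL M L) : LaurentSeries L)
        rw [coe_eval₂RingHom, eval₂_X, aeval_X, coe_chartCoord]
    rw [e] at hpx
    exact (hom_eval₂ p (algebraMap L[X] (FL M L)) (FL M L).subtype f).trans hpx
  have hmem : ∀ r : A[X], chartEval A M b r ∈ K := fun r => by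
    have : chartEval A M b r = ((Polynomial.aeval tK (r.map A.subtype) : K) : FL M L) := by
      rw [haev, Polynomial.aeval_def, Polynomial.eval₂_map]
      rfl
    rw [this]
    exact SetLike.coe_mem _
  have hmem' : ∀ r : ChartBase A b, algebraMap (ChartBase A b) (FL M L) r ∈ K := fun r => by
    obtain ⟨x, s, rfl⟩ := IsLocalization.exists_mk'_eq (chartS A b) r
    have e := congrArg (algebraMap (ChartBase A b) (FL M L))
      (IsLocalization.mk'_spec (ChartBase A b) x s)
    have ev : ∀ r : A[X],
        algebraMap (ChartBase A b) (FL M L) (algebraMap A[X] (ChartBase A b) r) =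
          chartEval A M b r := fun r => IsLocalization.lift_eq _ r
    rw [map_mul, ev, ev] at e
    rw [eq_div_of_mul_eq (chartEval_ne_zero A M s) e]
    exact div_mem (hmem x) (hmem s)
  letI : Algebra (ChartBase A b) K :=
    ((algebraMap (ChartBase A b) (FL M L)).codRestrict K.toSubring hmem').toAlgebra
  haveI : IsScalarTower (ChartBase A b) K (FL M L) := IsScalarTower.of_algebraMap_eq fun _ => rfl
  refine isIntegral_of_isIntegral_pair (K := K) (R₁ := gaussJ (IsLocalRing.residue A) M)
    (R₂ := L[X]) (R := ChartBase A b) ?_ h1 h2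
  rintro z ⟨g, rfl⟩ ⟨p, hp⟩
  obtain ⟨gb, hgb⟩ := g.2
  have hp' : ((algebraMap (gaussJ (IsLocalRing.residue A) M) K g : FL M L)) =
      Polynomial.aeval (chartCoord L M b) p := (congrArg Subtype.val hp).symm.trans (haev p)
  have hcoe : ∀ p : L[X], ((Polynomial.aeval (chartCoord L M b) p : FL M L) : LaurentSeries L) =
      p.eval₂ HahnSeries.C (chartCoord L M b : LaurentSeries L) := fun p => by
    induction p using Polynomial.induction_on' with
    | add p r hp hr => rw [map_add, eval₂_add, ← hp, ← hr]; rfl
    | monomial i c =>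
      rw [aeval_monomial, eval₂_monomial, IntermediateField.coe_mul, coe_algebraMap_FL,
        IntermediateField.coe_pow]
  have hred : HasGaussRed (IsLocalRing.residue A)
      (p.eval₂ HahnSeries.C (chartCoord L M b : LaurentSeries L)) gb := by
    rw [← hcoe, ← hp']; exact hgb
  have hpA : ∀ i, p.coeff i ∈ A := coeff_mem_of_hasGaussRed_aeval (IsLocalRing.residue A)
    (hasGaussRed_chartCoord A M b) (transcendental_chartCoordRed _ b) p hred
  obtain ⟨P, hP⟩ := (Polynomial.mem_lifts p).1
    ((Polynomial.lifts_iff_coeff_lifts (f := A.subtype) p).2 fun i => ⟨⟨_, hpA i⟩, rfl⟩)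
  refine ⟨algebraMap A[X] (ChartBase A b) P, Subtype.ext ?_⟩
  show algebraMap (ChartBase A b) (FL M L) (algebraMap A[X] (ChartBase A b) P) = _
  refine (IsLocalization.lift_eq _ P).trans ?_
  rw [hp', ← hP, Polynomial.aeval_def, Polynomial.eval₂_map]
  rfl

/-- Surjectivity of the charts from regular lifts. -/
theorem chartOnto_of_regular_lift (hfd : HasFullResidueDegree (IsLocalRing.ResidueField A) L M)
    (b : Bool)
    (h : ∀ x ∈ modularFunctionFieldFullC (IsLocalRing.ResidueField A) M,
      IsRegularOver (chartCoordRed (IsLocalRing.ResidueField A) b) x →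
      ∃ f ∈ FL M L, IsRegularOver (chartCoordRed L b) f ∧
        HasGaussRed (IsLocalRing.residue A) f x) :
    ChartOnto A q M b := by
  intro x hx
  have hreg := (isRegularOver_iff_isIntegral_adjoin _ x).2
    ((mem_chartP (IsLocalRing.ResidueField A) q M).1 hx)
  rw [coe_chartCoordK] at hreg
  obtain ⟨f, hf, hfreg, hfx⟩ := h x x.2 hreg
  exact ⟨⟨f, hf⟩, mem_chartB_of_regular hfd hfreg ⟨_, hfx⟩, hfx⟩

section X0

variable {ℓ : ℕ} [Fact ℓ.Prime] (N : ℕ) [NeZero N] (hℓN : ¬ ℓ ∣ N)
  (B : ValuationSubring (AlgebraicClosure ℚ)) (hB : B.LiesOverPrime ℓ)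
  {L₀ : Type} [Field L₀] [Algebra ℚ L₀] [FiniteDimensional ℚ L₀]
  [Algebra L₀ (AlgebraicClosure ℚ)] [IsScalarTower ℚ L₀ (AlgebraicClosure ℚ)]
  (AL : ValuationSubring L₀) (hAL : AL = B.comap (algebraMap L₀ (AlgebraicClosure ℚ)))

include hAL in
/-- The residue field of the place below embeds into the residue field of the place above. -/
theorem exists_residueEmbedding :
    ∃ (h : ∀ a, a ∈ AL → algebraMap L₀ (AlgebraicClosure ℚ) a ∈ B)
      (κ : IsLocalRing.ResidueField AL →+* IsLocalRing.ResidueField B),
      ∀ a : AL, IsLocalRing.residue B ⟨algebraMap L₀ _ a, h a a.2⟩ =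
        κ (IsLocalRing.residue AL a) := by
  have h : ∀ a, a ∈ AL → algebraMap L₀ (AlgebraicClosure ℚ) a ∈ B := fun a ha => by
    rw [hAL] at ha; exact ha
  have h' : ∀ a, algebraMap L₀ (AlgebraicClosure ℚ) a ∈ B → a ∈ AL := fun a ha => by
    rw [hAL]; exact ha
  let ι : AL →+* B := ((algebraMap L₀ (AlgebraicClosure ℚ)).comp AL.subtype).codRestrict
    B.toSubring fun a => h a a.2
  haveI : IsLocalHom ι := ⟨fun a ha => by
    obtain ⟨u, hu⟩ := ha.exists_right_inv
    have ha0 : (a : L₀) ≠ 0 := fun h0 => zero_ne_one (α := AlgebraicClosure ℚ) (by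
      have := congrArg Subtype.val hu
      simp [ι, h0] at this)
    refine IsUnit.of_mul_eq_one ⟨(a : L₀)⁻¹, h' _ ?_⟩ (Subtype.ext (mul_inv_cancel₀ ha0))
    have hu' : algebraMap L₀ (AlgebraicClosure ℚ) (a : L₀) * (u : AlgebraicClosure ℚ) = 1 :=
      congrArg Subtype.val hu
    rw [map_inv₀, inv_eq_of_mul_eq_one_right hu']
    exact u.2⟩
  exact ⟨h, IsLocalRing.ResidueField.map ι, fun a =>
    (IsLocalRing.ResidueField.map_residue ι a).symm⟩

include hℓN hB hAL in
/-- Full residue degree at the place of a number field. -/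
theorem hasFullResidueDegree_comap [PerfectField (IsLocalRing.ResidueField AL)] :
    HasFullResidueDegree (IsLocalRing.ResidueField AL) L₀ N := by
  obtain ⟨h, κ, -⟩ := exists_residueEmbedding B AL hAL
  exact hasFullResidueDegree_of_embedding N hℓN B hB h (IsLocalRing.residue AL) κ

include hℓN hB hAL in
/-- The charts of level `N` reduce onto the charts of the special fibre. -/
theorem chartOnto_comap [PerfectField (IsLocalRing.ResidueField AL)]
    (hN : (ℓ = 2 → 3 ∣ N) ∧ (ℓ = 3 → 2 ∣ N)) (b : Bool) : ChartOnto AL ℓ N b := by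
  haveI : Algebra.IsAlgebraic ℚ L₀ := Algebra.IsAlgebraic.of_finite ℚ L₀
  obtain ⟨h, κ, hκ⟩ := exists_residueEmbedding B AL hAL
  refine chartOnto_of_regular_lift
    (hasFullResidueDegree_of_embedding N hℓN B hB h (IsLocalRing.residue AL) κ) b
    fun x hx hreg => ?_
  have hlift := exists_regular_lift_of_lift N hℓN B hB hN h κ hκ
    IsLocalRing.residue_surjective hx
  cases b with
  | false => exact hlift.1 hreg
  | true => exact hlift.2 hreg

end X0

end Fermat.Agent.BadPrime
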