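import Fermat.Agent.BadPrime.Lattice

/-!
# The codimension identity for reductions of root modules

For `g` normalised and an `n`-th power at the horizontal primes,
`dim N / (I g)⁻ + dim N / (I g⁻¹)⁻ = 2 dim N / B⁻`.
-/

set_option autoImplicit false
set_option linter.unusedSectionVars false

open Polynomial

namespace Fermat.Agent.BadPrime.Chart

variable {R k F K N : Type*} [CommRing R] [IsDomain R] [Field k] [Field F] [Algebra R F]
  [CommRing K] [CommRing N] [Algebra k[X] N] {V : Vertical F K} (c : Chart V R k N)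
  {ι : Type*} [Fintype ι] [DecidableEq ι]

/-- The form `(x, y) ↦ μ (x * y)`. -/
noncomputable def mulForm (μ : N →ₗ[k[X]] k[X]) : N →ₗ[k[X]] N →ₗ[k[X]] k[X] :=
  (LinearMap.mul k[X] N).compr₂ μ

theorem mulForm_apply (μ : N →ₗ[k[X]] k[X]) (x y : N) : mulForm μ x y = μ (x * y) := rfl

/-- A basis of a full rank submodule, indexed like a given basis. -/
theorem exists_basis_of_finrank_eq (b : Module.Basis ι k[X] N) (U : Submodule k[X] N)
    (h : Module.finrank k[X] U = Fintype.card ι) : Nonempty (Module.Basis ι k[X] U) := by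
  have : Module.Finite k[X] N := Module.Finite.of_basis b
  have : Module.Free k[X] N := Module.Free.of_basis b
  exact ⟨(Module.Free.chooseBasis k[X] U).reindex (Fintype.equivOfCardEq (by
    rw [← Module.finrank_eq_card_chooseBasisIndex, h]))⟩

/-- Reduction preserves the rank of a lattice. -/
theorem IsLattice.finrank_redSubmodule [UniqueFactorizationMonoid R] [Module.Finite k[X] N]
    [Module.Free k[X] N] {I : Submodule R F} (hI : c.IsLattice I) :
    Module.finrank k[X] (c.redSubmodule I) = Module.finrank R I := by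
  obtain ⟨v, -⟩ := hI.exists_basis (Module.Free.chooseBasis k[X] (c.redSubmodule I))
  rw [Module.finrank_eq_card_chooseBasisIndex, Module.finrank_eq_card_basis v]

variable [UniqueFactorizationMonoid R] [IsNoetherianRing R] [Nontrivial K]
  [Module k N] [IsScalarTower k k[X] N]

/-- A full rank submodule, recognised by a finite codimension. -/
theorem finrank_eq_of_finite_quotient (b : Module.Basis ι k[X] N) (U : Submodule k[X] N)
    [Module.Finite k (N ⧸ U)] : Module.finrank k[X] U = Fintype.card ι := by
  have : Module.Finite k[X] N := Module.Finite.of_basis b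
  have : Module.Free k[X] N := Module.Free.of_basis b
  have h0 : Module.IsTorsion k[X] (N ⧸ U) := by
    intro x
    have hni : ¬ LinearIndependent k (fun i : ℕ => (Polynomial.X : k[X]) ^ i • x) := fun hli => by
      have := hli.finite
      exact not_finite ℕ
    rw [linearIndependent_iff'] at hni
    simp only [not_forall] at hni
    obtain ⟨s, f, hf, i, hi, hfi⟩ := hni
    refine ⟨⟨∑ j ∈ s, Polynomial.monomial j (f j),
      mem_nonZeroDivisors_of_ne_zero fun h => hfi ?_⟩, ?_⟩
    · have := congrArg (fun p => Polynomial.coeff p i) h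
      simpa [Polynomial.coeff_monomial, hi] using this
    · show (∑ j ∈ s, Polynomial.monomial j (f j)) • x = 0
      rw [Finset.sum_smul, ← hf]
      refine Finset.sum_congr rfl fun j _ => ?_
      rw [← Polynomial.C_mul_X_pow_eq_monomial, mul_smul, ← Polynomial.algebraMap_eq,
        algebraMap_smul]
  rw [← Submodule.finrank_quotient_add_finrank U |>.trans
    (Module.finrank_eq_card_basis b), Module.finrank_eq_zero_iff_isTorsion.mpr h0, zero_add]

variable {c} in
/-- The main codimension identity. -/
theorem IsNormalised.finrank_quotient_add {n : ℕ} {hn : n ≠ 0} {g : F} (hg : c.IsNormalised g)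
    (hh : IsPowerAtHorizontal c n g) (bN : Module.Basis ι k[X] N) (μ : N →ₗ[k[X]] k[X])
    (hμ : (gram (mulForm μ) bN bN).det ≠ 0)
    [Module.Finite k (N ⧸ c.redSubmodule (Subalgebra.toSubmodule c.B))] :
    Module.Finite k (N ⧸ c.redSubmodule (c.rootModule n hn g)) ∧
    Module.finrank k (N ⧸ c.redSubmodule (c.rootModule n hn g)) +
        Module.finrank k (N ⧸ c.redSubmodule (c.rootModule n hn g⁻¹)) =
      2 * Module.finrank k (N ⧸ c.redSubmodule (Subalgebra.toSubmodule c.B)) := by
  have : Module.Finite k[X] N := Module.Finite.of_basis bN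
  have : Module.Free k[X] N := Module.Free.of_basis bN
  -- bases of the reductions and their lifts
  have hBcard := finrank_eq_of_finite_quotient bN (c.redSubmodule (Subalgebra.toSubmodule c.B))
  have hBR : Module.finrank R c.B = Fintype.card ι := by
    rw [← hBcard, IsLattice.finrank_redSubmodule c isLattice_B]
    rfl
  have hIcard : ∀ g' : F, c.IsNormalised g' →
      Module.finrank k[X] (c.redSubmodule (c.rootModule n hn g')) = Fintype.card ι := by
    intro g' hg'
    rw [IsLattice.finrank_redSubmodule c hg'.isLattice, finrank_rootModule_eq hg', hBR]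
  obtain ⟨wb⟩ := exists_basis_of_finrank_eq bN _ hBcard
  obtain ⟨ub⟩ := exists_basis_of_finrank_eq bN _ (hIcard g hg)
  obtain ⟨vb⟩ := exists_basis_of_finrank_eq bN _ (hIcard g⁻¹ hg.inv)
  obtain ⟨w, hw⟩ := (isLattice_B (c := c)).exists_basis wb
  obtain ⟨u, hu⟩ := (hg.isLattice (n := n) (hn := hn)).exists_basis ub
  obtain ⟨v, hv⟩ := (hg.inv.isLattice (n := n) (hn := hn)).exists_basis vb
  choose hw1 hw2 using hw
  choose hu1 hu2 using hu
  choose hv1 hv2 using hv
  -- a lift of the functional
  choose μ' hμ' using fun i => c.red_surjective (μ (wb i : N))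
  let lam : (Subalgebra.toSubmodule c.B : Submodule R F) →ₗ[R] R := w.constr ℕ μ'
  have hlam : ∀ (x : (Subalgebra.toSubmodule c.B : Submodule R F)) (y : N),
      c.rd ⟨(x : F), c.B_le _ x.2⟩ = c.ι y → c.red (lam x) = μ y := by
    intro x y hxy
    have hy : y = ∑ i, c.red (w.repr x i) • (wb i : N) := by
      refine c.ι_injective ?_
      rw [← hxy, map_sum]
      have hsum : (⟨(x : F), c.B_le _ x.2⟩ : c.Bv) = ∑ i, w.repr x i • ⟨(w i : F), hw1 i⟩ := by
        refine Subtype.ext ?_
        conv_lhs => rw [← w.sum_repr x]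
        simp only [Submodule.coe_sum, Submodule.coe_smul, AddSubmonoidClass.coe_finsetSum,
          SetLike.val_smul]
      rw [hsum, map_sum]
      refine Finset.sum_congr rfl fun i _ => ?_
      rw [rd_smul, hw2, Algebra.smul_def, map_mul]
    rw [hy, map_sum, show lam x = ∑ i, w.repr x i * μ' i from ?_, map_sum]
    · exact Finset.sum_congr rfl fun i _ => by rw [map_mul, hμ', map_smul, smul_eq_mul]
    · show w.constr ℕ μ' x = _
      simp [Module.Basis.constr_apply_fintype, Module.Basis.equivFun_apply, smul_eq_mul]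
  -- products land in `B`
  have hprod : ∀ {a b : F}, a ∈ c.rootModule n hn g → b ∈ c.rootModule n hn g⁻¹ → a * b ∈ c.B := by
    intro a b ha hb
    refine c.rootClosed _ n hn ?_
    have := c.mul_mem_rootModule ha hb
    rwa [mul_inv_cancel₀ hg.ne_zero, mem_rootModule, mul_one] at this
  let P : Matrix ι ι R :=
    Matrix.of fun i j => lam ⟨(u i : F) * (v j : F), hprod (u i).2 (v j).2⟩
  let Q : Matrix ι ι R :=
    Matrix.of fun i j => lam ⟨(w i : F) * (w j : F), c.B.mul_mem (w i).2 (w j).2⟩
  have hredP : c.red P.det =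
      (gram (mulForm μ) (fun i => (ub i : N)) fun i => (vb i : N)).det := by
    rw [RingHom.map_det]
    refine congrArg Matrix.det (Matrix.ext fun i j => hlam _ _ ?_)
    show c.rd (⟨_, hu1 i⟩ * ⟨_, hv1 j⟩) = c.ι ((ub i : N) * (vb j : N))
    rw [map_mul, map_mul, hu2, hv2]
  have hredQ : c.red Q.det =
      (gram (mulForm μ) (fun i => (wb i : N)) fun i => (wb i : N)).det := by
    rw [RingHom.map_det]
    refine congrArg Matrix.det (Matrix.ext fun i j => hlam _ _ ?_)
    show c.rd (⟨_, hw1 i⟩ * ⟨_, hw1 j⟩) = c.ι ((wb i : N) * (wb j : N))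
    rw [map_mul, map_mul, hw2, hw2]
  have hP0 : c.red P.det ≠ 0 := by
    rw [hredP, gram_eq_toMatrix_mul _ bN, Matrix.det_mul, Matrix.det_mul, Matrix.det_transpose]
    exact mul_ne_zero (mul_ne_zero (finrank_quotient_eq_natDegree_det bN _ ub).2.2 hμ)
      (finrank_quotient_eq_natDegree_det bN _ vb).2.2
  have hQ0 : c.red Q.det ≠ 0 := by
    rw [hredQ, gram_eq_toMatrix_mul _ bN, Matrix.det_mul, Matrix.det_mul, Matrix.det_transpose]
    exact mul_ne_zero (mul_ne_zero (finrank_quotient_eq_natDegree_det bN _ wb).2.2 hμ)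
      (finrank_quotient_eq_natDegree_det bN _ wb).2.2
  -- local comparison at the horizontal primes
  have hloc : ∀ p : R, Prime p → ¬ Associated p c.π → ∃ s : R, ¬ p ∣ s ∧
      P.det ∣ s * Q.det ∧ Q.det ∣ s * P.det := by
    intro p hp hpπ
    obtain ⟨u₀, s, hu₀, hps, h1, h2⟩ := hh p hp hpπ
    have hps' : ¬ p ∣ (s * s) ^ Fintype.card ι := fun h => by
      rcases hp.dvd_or_dvd (hp.dvd_of_dvd_pow h) with h | h <;> exact hps h
    have hg0 := hg.ne_zero
    have hw0 : u₀ ^ n * g ≠ 0 := mul_ne_zero (pow_ne_zero _ hu₀) hg0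
    obtain ⟨m, rfl⟩ := Nat.exists_eq_succ_of_ne_zero hn
    -- memberships
    have hA : ∀ a ∈ c.rootModule _ hn g, s • (a * u₀⁻¹) ∈ c.B := by
      intro a ha
      refine c.rootClosed _ _ hn ?_
      rw [show (s • (a * u₀⁻¹)) ^ (m + 1) = s ^ m • ((a ^ (m + 1) * g) *
        (s • (u₀ ^ (m + 1) * g)⁻¹)) by
          rw [_root_.smul_pow, mul_smul_comm, smul_smul, ← pow_succ, mul_pow, inv_pow, mul_inv]
          congr 1
          field_simp]
      exact c.B.smul_mem (mul_mem ha h2) _
    have hA' : ∀ a ∈ c.rootModule _ hn g⁻¹, s • (a * u₀) ∈ c.B := by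
      intro a ha
      refine c.rootClosed _ _ hn ?_
      rw [show (s • (a * u₀)) ^ (m + 1) = s ^ m • ((a ^ (m + 1) * g⁻¹) *
        (s • (u₀ ^ (m + 1) * g))) by
          rw [_root_.smul_pow, mul_smul_comm, smul_smul, ← pow_succ, mul_pow]
          congr 1
          field_simp]
      exact c.B.smul_mem (mul_mem ha h1) _
    have hB : ∀ b ∈ c.B, s • (b * u₀) ∈ c.rootModule _ hn g := by
      intro b hb
      rw [mem_rootModule, show (s • (b * u₀)) ^ (m + 1) * g = s ^ m • (b ^ (m + 1) *
        (s • (u₀ ^ (m + 1) * g))) by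
          rw [_root_.smul_pow, smul_mul_assoc, mul_smul_comm, smul_smul, ← pow_succ, mul_pow]
          congr 1
          ring]
      exact c.B.smul_mem (mul_mem (_root_.pow_mem hb _) h1) _
    have hB' : ∀ b ∈ c.B, s • (b * u₀⁻¹) ∈ c.rootModule _ hn g⁻¹ := by
      intro b hb
      rw [mem_rootModule, show (s • (b * u₀⁻¹)) ^ (m + 1) * g⁻¹ = s ^ m • (b ^ (m + 1) *
        (s • (u₀ ^ (m + 1) * g)⁻¹)) by
          rw [_root_.smul_pow, smul_mul_assoc, mul_smul_comm, smul_smul, ← pow_succ, mul_pow,
            inv_pow, mul_inv]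
          congr 1
          ring]
      exact c.B.smul_mem (mul_mem (_root_.pow_mem hb _) h2) _
    refine ⟨(s * s) ^ Fintype.card ι, hps', ?_, ?_⟩
    · let A : Matrix ι ι R := Matrix.of fun x i => u.repr ⟨_, hB _ (w i).2⟩ x
      let A' : Matrix ι ι R := Matrix.of fun x i => v.repr ⟨_, hB' _ (w i).2⟩ x
      have heq : (s * s) • Q = A.transpose * P * A' := by
        refine Matrix.ext fun i j => ?_
        simp only [Matrix.smul_apply, smul_eq_mul, Matrix.mul_apply, Matrix.transpose_apply,
          Matrix.of_apply, A, A', P, Q, Finset.sum_mul]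
        rw [← smul_eq_mul, ← map_smul]
        refine (congrArg lam (show _ = ∑ y, ∑ x, (u.repr ⟨_, hB _ (w i).2⟩ x *
            v.repr ⟨_, hB' _ (w j).2⟩ y) •
              (⟨(u x : F) * (v y : F), hprod (u x).2 (v y).2⟩ :
                (Subalgebra.toSubmodule c.B : Submodule R F)) from ?_)).trans ?_
        · refine Subtype.ext ?_
          simp only [Submodule.coe_sum, Submodule.coe_smul]
          rw [Finset.sum_comm]
          calc (s * s) • ((w i : F) * (w j : F))
              = ((⟨_, hB _ (w i).2⟩ : c.rootModule _ hn g) : F) *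
                  ((⟨_, hB' _ (w j).2⟩ : c.rootModule _ hn g⁻¹) : F) := by
                rw [smul_mul_smul_comm]
                congr 1
                field_simp
            _ = _ := by
                conv_lhs => rw [← u.sum_repr ⟨_, hB _ (w i).2⟩, ← v.sum_repr ⟨_, hB' _ (w j).2⟩]
                simp only [Submodule.coe_sum, Submodule.coe_smul, Finset.sum_mul, Finset.mul_sum,
                  smul_mul_smul_comm]
                exact Finset.sum_comm
        · simp only [map_sum, map_smul, smul_eq_mul]
          exact Finset.sum_congr rfl fun y _ => Finset.sum_congr rfl fun x _ => by ring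
      rw [← Matrix.det_smul, heq, Matrix.det_mul, Matrix.det_mul, Matrix.det_transpose]
      exact Dvd.dvd.mul_right (dvd_mul_left _ _) _
    · let A : Matrix ι ι R := Matrix.of fun x i => w.repr ⟨_, hA _ (u i).2⟩ x
      let A' : Matrix ι ι R := Matrix.of fun x i => w.repr ⟨_, hA' _ (v i).2⟩ x
      have heq : (s * s) • P = A.transpose * Q * A' := by
        refine Matrix.ext fun i j => ?_
        simp only [Matrix.smul_apply, smul_eq_mul, Matrix.mul_apply, Matrix.transpose_apply,
          Matrix.of_apply, A, A', P, Q, Finset.sum_mul]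
        rw [← smul_eq_mul, ← map_smul]
        refine (congrArg lam (show _ = ∑ y, ∑ x, (w.repr ⟨_, hA _ (u i).2⟩ x *
            w.repr ⟨_, hA' _ (v j).2⟩ y) •
              (⟨(w x : F) * (w y : F), c.B.mul_mem (w x).2 (w y).2⟩ :
                (Subalgebra.toSubmodule c.B : Submodule R F)) from ?_)).trans ?_
        · refine Subtype.ext ?_
          simp only [Submodule.coe_sum, Submodule.coe_smul]
          rw [Finset.sum_comm]
          calc (s * s) • ((u i : F) * (v j : F))
              = ((⟨_, hA _ (u i).2⟩ : (Subalgebra.toSubmodule c.B : Submodule R F)) : F) *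
                  ((⟨_, hA' _ (v j).2⟩ : (Subalgebra.toSubmodule c.B : Submodule R F)) : F) := by
                rw [smul_mul_smul_comm]
                congr 1
                field_simp
            _ = _ := by
                conv_lhs => rw [← w.sum_repr ⟨_, hA _ (u i).2⟩, ← w.sum_repr ⟨_, hA' _ (v j).2⟩]
                simp only [Submodule.coe_sum, Submodule.coe_smul, Finset.sum_mul, Finset.mul_sum,
                  smul_mul_smul_comm]
                exact Finset.sum_comm
        · simp only [map_sum, map_smul, smul_eq_mul]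
          exact Finset.sum_congr rfl fun y _ => Finset.sum_congr rfl fun x _ => by ring
      rw [← Matrix.det_smul, heq, Matrix.det_mul, Matrix.det_mul, Matrix.det_transpose]
      exact Dvd.dvd.mul_right (dvd_mul_left _ _) _
  have hassoc : Associated P.det Q.det := by
    have hne : ∀ {x : R}, c.red x ≠ 0 → x ≠ 0 := fun h h0 => h (by rw [h0, map_zero])
    have hnπ : ∀ {x p : R}, c.red x ≠ 0 → p ∣ x → ¬ Associated p c.π := fun h hp ha =>
      h ((c.red_eq_zero _).mpr (ha.symm.dvd.trans hp))
    refine associated_of_dvd_dvd (dvd_of_forall_prime (hne hP0) fun p hp hpx => ?_)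
      (dvd_of_forall_prime (hne hQ0) fun p hp hpx => ?_)
    · obtain ⟨s, hs, h1, -⟩ := hloc p hp (hnπ hP0 hpx)
      exact ⟨s, hs, h1⟩
    · obtain ⟨s, hs, -, h2⟩ := hloc p hp (hnπ hQ0 hpx)
      exact ⟨s, hs, h2⟩
  refine ⟨(finrank_quotient_eq_natDegree_det bN _ ub).2.1,
    finrank_quotient_add_eq_of_associated bN (mulForm μ) hμ ub vb wb ?_⟩
  rw [← hredP, ← hredQ]
  exact hassoc.map c.red.toMonoidHom

end Fermat.Agent.BadPrime.Chart
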