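import Fermat.Agent.Reduction.Series
import Fermat.Agent.EichlerShimura.LaurentDescent
import Mathlib.RingTheory.Trace.Basic
import Mathlib.FieldTheory.Finite.Basic

/-!
# Descent of coefficients for elements regular over `K[t]`

`IsRegularOver t x` says that the series `x` is integral over `K[t]`.  For a series `x` over a
finite Galois extension `K'` of `K`, one has `x = ∑ dᵢ tᵢ` with `tᵢ` over `K` such that
`tᵢ = ∑_σ σ(eᵢ x)`; so regular elements of a field generated by series over `K` are combinations
of regular elements of the field over `K`.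
-/

set_option autoImplicit false

noncomputable section

open ModularCurve Polynomial

namespace Fermat.Agent.BadPrime

open Fermat.Agent.Reduction (evalAt)
open Fermat.Agent.EichlerShimura (coeffApply coeffApply_coeff)

variable {K K' : Type*} [Field K] [Field K']

/-- The series `x` is integral over `K[t]`. -/
def IsRegularOver (t x : LaurentSeries K) : Prop := (evalAt t).IsIntegralElem x

theorem coeffMap_comp_evalAt (ι : K →+* K') (t : LaurentSeries K) :
    (coeffMap ι).comp (evalAt t) = (evalAt (coeffMap ι t)).comp (mapRingHom ι) := by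
  refine Polynomial.ringHom_ext (fun a => ?_) ?_
  · simp [HahnSeries.C_apply]
  · simp

theorem coeffMap_inj (ι : K →+* K') : Function.Injective (coeffMap ι) := fun x y h => by
  ext n
  exact ι.injective (by simpa using congrArg (fun z : LaurentSeries K' => z.coeff n) h)

namespace IsRegularOver

variable {t x y : LaurentSeries K}

theorem add (hx : IsRegularOver t x) (hy : IsRegularOver t y) : IsRegularOver t (x + y) :=
  RingHom.IsIntegralElem.add _ hx hy

theorem mul (hx : IsRegularOver t x) (hy : IsRegularOver t y) : IsRegularOver t (x * y) :=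
  RingHom.IsIntegralElem.mul _ hx hy

theorem evalAt_self (t : LaurentSeries K) (p : K[X]) : IsRegularOver t (evalAt t p) :=
  RingHom.isIntegralElem_map _

theorem const (t : LaurentSeries K) (c : K) : IsRegularOver t (HahnSeries.C c) := by
  simpa using evalAt_self t (Polynomial.C c)

theorem zero (t : LaurentSeries K) : IsRegularOver t (0 : LaurentSeries K) := by
  simpa using const t 0

theorem sum {ι : Type*} (s : Finset ι) {f : ι → LaurentSeries K}
    (h : ∀ i ∈ s, IsRegularOver t (f i)) : IsRegularOver t (∑ i ∈ s, f i) := by
  classical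
  induction s using Finset.induction_on with
  | empty => simpa using zero t
  | insert a s ha ih =>
    rw [Finset.sum_insert ha]
    exact (h a (Finset.mem_insert_self a s)).add (ih fun i hi => h i (Finset.mem_insert_of_mem hi))

theorem map (ι : K →+* K') (hx : IsRegularOver t x) :
    IsRegularOver (coeffMap ι t) (coeffMap ι x) := by
  obtain ⟨p, hp, h⟩ := hx
  refine ⟨p.map (mapRingHom ι), hp.map _, ?_⟩
  rw [eval₂_map, ← coeffMap_comp_evalAt, ← hom_eval₂, h, map_zero]

/-- Regularity descends along an algebraic extension of the constants. -/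
theorem of_map (ι : K →+* K') (hι : ι.IsIntegral)
    (h : IsRegularOver (coeffMap ι t) (coeffMap ι x)) : IsRegularOver t x := by
  have hpoly : (mapRingHom ι).IsIntegral := by
    have hX : (mapRingHom ι).IsIntegralElem (Polynomial.X : K'[X]) := by
      simpa using RingHom.isIntegralElem_map (mapRingHom ι) (x := (Polynomial.X : K[X]))
    intro p
    induction p using Polynomial.induction_on' with
    | add p q hp hq => exact RingHom.IsIntegralElem.add _ hp hq
    | monomial n a =>
      rw [← C_mul_X_pow_eq_monomial]
      refine RingHom.IsIntegralElem.mul _ ?_ ?_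
      · obtain ⟨P, hP, hPa⟩ := hι a
        refine ⟨P.map Polynomial.C, hP.map _, ?_⟩
        rw [eval₂_map, show (mapRingHom ι).comp Polynomial.C = Polynomial.C.comp ι from
          RingHom.ext fun c => by simp, ← hom_eval₂, hPa, map_zero]
      · induction n with
        | zero => simpa using RingHom.isIntegralElem_map (mapRingHom ι) (x := (1 : K[X]))
        | succ n ih => rw [pow_succ]; exact RingHom.IsIntegralElem.mul _ ih hX
  have key : ((coeffMap ι).comp (evalAt t)).IsIntegralElem (coeffMap ι x) := by
    rw [coeffMap_comp_evalAt]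
    letI : Algebra K[X] K'[X] := (mapRingHom ι).toAlgebra
    letI : Algebra K'[X] (LaurentSeries K') := (evalAt (coeffMap ι t)).toAlgebra
    letI : Algebra K[X] (LaurentSeries K') :=
      ((evalAt (coeffMap ι t)).comp (mapRingHom ι)).toAlgebra
    haveI : IsScalarTower K[X] K'[X] (LaurentSeries K') :=
      IsScalarTower.of_algebraMap_eq fun _ => rfl
    haveI : Algebra.IsIntegral K[X] K'[X] := ⟨hpoly⟩
    exact isIntegral_trans (R := K[X]) (A := K'[X]) (coeffMap ι x) h
  obtain ⟨p, hp, hpx⟩ := key
  refine ⟨p, hp, coeffMap_inj ι ?_⟩
  rw [map_zero, hom_eval₂, hpx]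

end IsRegularOver

/-- Conjugation preserves regularity over a conjugation invariant series. -/
theorem IsRegularOver.conj {t x : LaurentSeries K} (σ : K →+* K) (ht : coeffMap σ t = t)
    (hx : IsRegularOver t x) : IsRegularOver t (coeffMap σ x) := ht ▸ hx.map σ

variable [Algebra K K'] [FiniteDimensional K K'] [IsGalois K K']

/-- A series over a Galois extension as a combination of series over the base. -/
theorem exists_trace_decomposition (x : LaurentSeries K') :
    ∃ (n : ℕ) (d e : Fin n → K') (t : Fin n → LaurentSeries K),
      x = ∑ i, HahnSeries.C (d i) * coeffMap (algebraMap K K') (t i) ∧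
      ∀ i, coeffMap (algebraMap K K') (t i) =
        ∑ σ : K' ≃ₐ[K] K', coeffMap (σ : K' →+* K') (HahnSeries.C (e i) * x) := by
  classical
  let b := Module.finBasis K K'
  let d := (Algebra.traceForm K K').dualBasis (traceForm_nondegenerate K K') b
  refine ⟨Module.finrank K K', d, b, fun i => coeffApply
    ((Algebra.trace K K').toAddMonoidHom.comp (AddMonoidHom.mulLeft (b i))) x, ?_, fun i => ?_⟩
  · ext n
    simp only [HahnSeries.coeff_sum, HahnSeries.C_apply, HahnSeries.coeff_single_zero_mul,
      coeffMap_coeff, coeffApply_coeff, AddMonoidHom.comp_apply, AddMonoidHom.coe_mulLeft,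
      LinearMap.toAddMonoidHom_coe]
    conv_lhs => rw [← d.sum_repr (x.coeff n)]
    refine Finset.sum_congr rfl fun i _ => ?_
    rw [LinearMap.BilinForm.dualBasis_repr_apply, Algebra.traceForm_apply, Algebra.smul_def,
      mul_comm (x.coeff n), mul_comm]
  · ext n
    rw [coeffMap_coeff, coeffApply_coeff, AddMonoidHom.comp_apply, AddMonoidHom.coe_mulLeft,
      LinearMap.toAddMonoidHom_coe, trace_eq_sum_automorphisms, HahnSeries.coeff_sum]
    refine Finset.sum_congr rfl fun σ _ => ?_
    rw [coeffMap_coeff, HahnSeries.C_apply, HahnSeries.coeff_single_zero_mul]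
    rfl

/-- Regular series of a field generated over `K'` by series over `K` are combinations of regular
series over `K` in the field over `K`. -/
theorem exists_regular_decomposition (F : IntermediateField K (LaurentSeries K))
    (F' : IntermediateField K' (LaurentSeries K'))
    (hF : ∀ y, coeffMap (algebraMap K K') y ∈ F' → y ∈ F)
    (hF' : ∀ (σ : K' ≃ₐ[K] K') (y : LaurentSeries K'),
      y ∈ F' → coeffMap (σ : K' →+* K') y ∈ F')
    {t : LaurentSeries K} {x : LaurentSeries K'}
    (hx : x ∈ F') (hreg : IsRegularOver (coeffMap (algebraMap K K') t) x) :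
    ∃ (n : ℕ) (d : Fin n → K') (y : Fin n → LaurentSeries K),
      x = ∑ i, HahnSeries.C (d i) * coeffMap (algebraMap K K') (y i) ∧
      ∀ i, y i ∈ F ∧ IsRegularOver t (y i) := by
  obtain ⟨n, d, e, y, hxy, hy⟩ := exists_trace_decomposition (K := K) x
  refine ⟨n, d, y, hxy, fun i => ⟨hF _ ?_, IsRegularOver.of_map (algebraMap K K') ?_ ?_⟩⟩
  · rw [hy i]
    refine sum_mem fun σ _ => hF' σ _ (mul_mem ?_ hx)
    rw [Reduction.C_eq_algebraMap]
    exact IntermediateField.algebraMap_mem _ _
  · exact fun a => (Algebra.IsIntegral.isIntegral a : IsIntegral K a)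
  · rw [hy i]
    refine IsRegularOver.sum _ fun σ _ => ?_
    refine IsRegularOver.conj _ ?_ ((IsRegularOver.const _ _).mul hreg)
    rw [coeffMap_coeffMap]
    exact coeffMap_congr (RingHom.ext fun a => σ.commutes a) t

end Fermat.Agent.BadPrime
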