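import Fermat.Agent.BadPrime.Systems
import Fermat.Prelude.Thm_ModularForm_sturm_bound_Gamma0

/-!
# Raising the level of an eigen-system

* `finiteDimensional_cuspForm`: finite dimensionality, from the Sturm bound.
* `levelIncl`: `S₂(Γ₀(M)) → S₂(Γ₀(R))` for `M ∣ R`.
* `exists_eigenform_level_of_dvd`: an eigenform of level `R` with the same good eigen-system.
-/

set_option autoImplicit false

open CongruenceSubgroup ModularFormClass
open scoped MatrixGroups

noncomputable section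

namespace Fermat.Agent.BadPrime

theorem finiteDimensional_cuspForm (N : ℕ) [NeZero N] :
    FiniteDimensional ℂ (CuspForm (Gamma0 N) 2) := by
  let B := ((2 : ℤ) * (Gamma0 N).index).toNat / 12
  let φ : CuspForm (Gamma0 N) 2 →ₗ[ℂ] Fin (B + 1) → ℂ :=
    LinearMap.pi fun n => Periods.qCoeffLin N n
  refine FiniteDimensional.of_injective φ ((injective_iff_map_eq_zero φ).mpr fun f hf => ?_)
  let F : ModularForm (Gamma0 N) 2 :=
    { f.toSlashInvariantForm with
      holo' := f.holo'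
      bdd_at_cusps' := fun hc g hg => (f.zero_at_cusps' hc g hg).boundedAtFilter }
  have h := ModularForm.sturm_bound_Gamma0 N F fun n hn =>
    congrFun hf ⟨n, Nat.lt_succ_of_le hn⟩
  exact DFunLike.ext _ _ fun z => (congrArg (fun G : ModularForm (Gamma0 N) 2 => G z) h :)

theorem gamma0_le_of_dvd {M R : ℕ} (h : M ∣ R) : Gamma0 R ≤ Gamma0 M := by
  intro g hg
  rw [Gamma0_mem] at hg ⊢
  have := congrArg (ZMod.castHom h (ZMod M)) hg
  simpa using this

variable {M R : ℕ} [NeZero M] [NeZero R]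

/-- The inclusion `S₂(Γ₀(M)) → S₂(Γ₀(R))` for `M ∣ R`. -/
def levelIncl (h : M ∣ R) :
    CuspForm (Gamma0 M) 2 →ₗ[ℂ] CuspForm (Gamma0 R) 2 where
  toFun f :=
    { toFun := f
      slash_action_eq' := fun γ hγ =>
        f.slash_action_eq' γ (Subgroup.map_mono (gamma0_le_of_dvd h) hγ)
      holo' := f.holo'
      zero_at_cusps' := fun hc => f.zero_at_cusps' (by
        rw [Subgroup.IsArithmetic.isCusp_iff_isCusp_SL2Z] at hc ⊢
        exact hc) }
  map_add' _ _ := rfl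
  map_smul' _ _ := rfl

@[simp] theorem coe_levelIncl (h : M ∣ R) (f : CuspForm (Gamma0 M) 2) :
    (levelIncl h f : UpperHalfPlane → ℂ) = f := rfl

theorem heckeTLin_levelIncl (h : M ∣ R) {ℓ : ℕ} (hℓ : ℓ.Prime) (hℓR : ¬ ℓ ∣ R)
    (f : CuspForm (Gamma0 M) 2) :
    CuspForm.heckeTLin 2 hℓ hℓR (levelIncl h f) =
      levelIncl h (CuspForm.heckeTLin 2 hℓ (fun h' => hℓR (h'.trans h)) f) := by
  refine Periods.ext_qCoeff fun n => ?_
  rw [Hecke.qCoeff_heckeTLin, coe_levelIncl, coe_levelIncl, Hecke.qCoeff_heckeTLin]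

/-- An eigen-system of level `M ∣ R` occurs at level `R`, at the primes not dividing `R`. -/
theorem exists_eigenform_level_of_dvd (h : M ∣ R) {g : CuspForm (Gamma0 M) 2}
    (hg : g.IsNormalizedEigenform) :
    ∃ f : CuspForm (Gamma0 R) 2, f.IsNormalizedEigenform ∧
      ∀ ℓ : ℕ, ℓ.Prime → ¬ ℓ ∣ R → qCoeff f ℓ = qCoeff g ℓ := by
  have := finiteDimensional_cuspForm R
  let W : Submodule ℂ (CuspForm (Gamma0 R) 2) :=
    ⨅ (ℓ : ℕ) (hℓ : ℓ.Prime) (hℓR : ¬ ℓ ∣ R),
      Module.End.eigenspace (CuspForm.heckeTLin 2 hℓ hℓR) (qCoeff g ℓ)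
  have mem_W : ∀ {x}, x ∈ W ↔ ∀ (ℓ : ℕ) (hℓ : ℓ.Prime) (hℓR : ¬ ℓ ∣ R),
      CuspForm.heckeTLin 2 hℓ hℓR x = qCoeff g ℓ • x := by
    intro x; simp [W, Submodule.mem_iInf, Module.End.mem_eigenspace_iff]
  have hW : W ≠ ⊥ := by
    intro hbot
    have hmem : levelIncl h g ∈ W := mem_W.mpr fun ℓ hℓ hℓR => by
      rw [heckeTLin_levelIncl, (Periods.isEigen_of_isNormalizedEigenform hg).1 ℓ hℓ
        (fun h' => hℓR (h'.trans h)), map_smul]
    rw [hbot, Submodule.mem_bot] at hmem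
    apply hg.ne_zero
    exact DFunLike.coe_injective (by
      have := congrArg (fun x : CuspForm (Gamma0 R) 2 => (x : UpperHalfPlane → ℂ)) hmem
      exact this)
  obtain ⟨v, hvW, hv0, hv⟩ := Hecke.exists_common_eigenvector
    (CuspForm.heckeAlgebra R 2 ∅).val.toRingHom W hW (fun t x hx => mem_W.mpr fun ℓ hℓ hℓR => by
      have hcomm := congrArg Subtype.val
        (mul_comm (CuspForm.heckeAlgebra.T hℓ hℓR (Set.notMem_empty ℓ)) t)
      simp only [MulMemClass.coe_mul, CuspForm.heckeAlgebra.coe_T] at hcomm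
      show CuspForm.heckeTLin 2 hℓ hℓR ((t : Module.End ℂ (CuspForm (Gamma0 R) 2)) x) = _
      rw [← Module.End.mul_apply, hcomm, Module.End.mul_apply, mem_W.mp hx ℓ hℓ hℓR, map_smul]
      rfl)
  obtain ⟨φ, hφ⟩ := Hecke.exists_eigenchar _ hv0 hv
  obtain ⟨f, hf, -, hT, -⟩ := Hecke.exists_normalizedEigenform_of_eigenvector φ hv0 hφ
  refine ⟨f, hf, fun ℓ hℓ hℓR => ?_⟩
  rw [hT ℓ hℓ hℓR]
  refine smul_left_injective ℂ hv0 ?_
  exact (hφ _).symm.trans (mem_W.mp hvW ℓ hℓ hℓR)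

end Fermat.Agent.BadPrime
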