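import Fermat.Agent.Periods.HeckeCoeff
import Fermat.Agent.Hecke.EigenformOfChar
import Fermat.Prelude.Def_CuspForm_Newforms

/-!
# Eigen-systems of normalised eigenforms

* `exists_eigenChar`: the eigen-character of a normalised eigenform.
* `exists_newform_of_eigenform`: every good eigen-system has a newform at a divisor of the level.
-/

set_option autoImplicit false

open CongruenceSubgroup ModularFormClass

namespace Fermat.Agent.BadPrime

variable {N : ℕ} [NeZero N]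

/-- A normalised eigenform is an eigenvector of the whole Hecke algebra; the eigen-character sends
`T_ℓ` and `U_q` to the prime coefficients. -/
theorem exists_eigenChar {f : CuspForm (Gamma0 N) 2} (hf : f.IsNormalizedEigenform) (S : Set ℕ) :
    ∃ χ : CuspForm.heckeAlgebra N 2 S →+* ℂ,
      (∀ t : CuspForm.heckeAlgebra N 2 S, (t : Module.End ℂ _) f = χ t • f) ∧
      (∀ (ℓ : ℕ) (hℓ : ℓ.Prime) (hℓN : ¬ ℓ ∣ N) (hℓS : ℓ ∉ S),
        χ (CuspForm.heckeAlgebra.T hℓ hℓN hℓS) = qCoeff f ℓ) ∧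
      ∀ (q : ℕ) (hq : q.Prime) (hqN : q ∣ N) (hqS : q ∉ S),
        χ (CuspForm.heckeAlgebra.U hq hqN hqS) = qCoeff f q := by
  have hE := Periods.isEigen_of_isNormalizedEigenform hf
  have h0 : f ≠ 0 := hf.ne_zero
  have hv : ∀ t : Module.End ℂ (CuspForm (Gamma0 N) 2), t ∈ CuspForm.heckeAlgebra N 2 S →
      ∃ c : ℂ, t f = c • f := by
    intro t ht
    induction ht using Algebra.adjoin_induction with
    | mem x hx =>
      rcases hx with ⟨ℓ, hℓ, hℓN, -, rfl⟩ | ⟨q, hqN, hq, -, rfl⟩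
      · exact ⟨_, hE.1 ℓ hℓ hℓN⟩
      · exact ⟨_, hE.2 q hqN hq⟩
    | algebraMap r => exact ⟨r, by simp [Int.cast_smul_eq_zsmul]⟩
    | add x y _ _ hx hy =>
      obtain ⟨a, ha⟩ := hx
      obtain ⟨b, hb⟩ := hy
      exact ⟨a + b, by rw [LinearMap.add_apply, ha, hb, add_smul]⟩
    | mul x y _ _ hx hy =>
      obtain ⟨a, ha⟩ := hx
      obtain ⟨b, hb⟩ := hy
      exact ⟨b * a, by rw [Module.End.mul_apply, hb, map_smul, ha, smul_smul]⟩
  obtain ⟨χ, hχ⟩ := Hecke.exists_eigenchar (CuspForm.heckeAlgebra N 2 S).val.toRingHom h0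
    fun t => hv _ t.2
  have key : ∀ {x y : ℂ}, x • f = y • f → x = y := fun h => smul_left_injective ℂ h0 h
  refine ⟨χ, hχ, fun ℓ hℓ hℓN hℓS => key ?_, fun q hq hqN hqS => key ?_⟩
  · exact (hχ _).symm.trans (hE.1 ℓ hℓ hℓN)
  · exact (hχ _).symm.trans (hE.2 q hqN hq)

/-- The values of the eigen-character lie in any subring containing the relevant coefficients. -/
theorem eigenChar_mem_subring {S : Set ℕ} (χ : CuspForm.heckeAlgebra N 2 S →+* ℂ) (R : Subring ℂ)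
    (hT : ∀ (ℓ : ℕ) (hℓ : ℓ.Prime) (hℓN : ¬ ℓ ∣ N) (hℓS : ℓ ∉ S),
      χ (CuspForm.heckeAlgebra.T hℓ hℓN hℓS) ∈ R)
    (hU : ∀ (q : ℕ) (hq : q.Prime) (hqN : q ∣ N) (hqS : q ∉ S),
      χ (CuspForm.heckeAlgebra.U hq hqN hqS) ∈ R)
    (t : CuspForm.heckeAlgebra N 2 S) : χ t ∈ R := by
  obtain ⟨t, ht⟩ := t
  induction ht using Algebra.adjoin_induction with
  | mem x hx =>
    rcases hx with ⟨ℓ, hℓ, hℓN, hℓS, rfl⟩ | ⟨q, hqN, hq, hqS, rfl⟩
    · exact hT ℓ hℓ hℓN hℓS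
    · exact hU q hq hqN hqS
  | algebraMap r =>
    have : χ (algebraMap ℤ _ r) ∈ R := by simp [eq_intCast, intCast_mem]
    exact this
  | add x y hx hy h1 h2 =>
    have := R.add_mem h1 h2
    rw [← map_add] at this
    exact this
  | mul x y hx hy h1 h2 =>
    have := R.mul_mem h1 h2
    rw [← map_mul] at this
    exact this

omit [NeZero N] in
/-- The good eigen-system of a normalised eigenform is that of a newform at a divisor of the level. -/
theorem exists_newform_of_eigenform (hN : N ≠ 0) {f : CuspForm (Gamma0 N) 2}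
    (hf : f.IsNormalizedEigenform) :
    ∃ (M : ℕ) (g : CuspForm (Gamma0 M) 2), M ∣ N ∧ g.IsNewform ∧
      ∀ ℓ : ℕ, ℓ.Prime → ¬ ℓ ∣ N → qCoeff g ℓ = qCoeff f ℓ := by
  classical
  have hex : ∃ M, M ∣ N ∧ CuspForm.GoodEigensystemOccursAt f M :=
    ⟨N, dvd_rfl, CuspForm.GoodEigensystemOccursAt.refl hf⟩
  obtain ⟨hMN, g, hg, hgf⟩ := Nat.find_spec hex
  refine ⟨Nat.find hex, g, hMN, ⟨hg, fun M' hM' hne hocc => ?_⟩, hgf⟩
  obtain ⟨h, hh, hhg⟩ := hocc
  have hpos : 0 < Nat.find hex := Nat.pos_of_dvd_of_pos hMN (Nat.pos_of_ne_zero hN)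
  refine Nat.find_min hex (lt_of_le_of_ne (Nat.le_of_dvd hpos hM') hne) ⟨hM'.trans hMN, h, hh, ?_⟩
  intro ℓ hℓ hℓN
  rw [hhg ℓ hℓ (fun h' => hℓN (h'.trans hMN)), hgf ℓ hℓ hℓN]

end Fermat.Agent.BadPrime
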