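import Fermat.Agent.BadPrime.ConductorDefs
import Fermat.Agent.BadPrime.Systems
import Fermat.Agent.BadPrime.Raise
import Fermat.Agent.BadPrime.Embed
import Fermat.Agent.HeckeFinite.Finite
import Fermat.Agent.Density.CharpolyDetermines
import Fermat.Agent.Density.AbsIrr
import Fermat.Agent.Density.Transfer
import Fermat.Agent.EC.Det.AbsIrreducible
import Fermat.Agent.EC.Frob.Trace
import Fermat.Agent.EC.Torsion.Rat
import Fermat.Agent.Galois.Frobenius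
import Fermat.Prelude.Def_WeierstrassCurve_ConductorLevel
import Fermat.Prelude.Def_FLTPrelim_ModularRep

/-!
# Conductor–level matching

A semistable curve which is modular of a cube-free level is modular of its conductor level, given
the behaviour of the representation of a newform at the primes of its level.
-/

set_option autoImplicit false
set_option linter.style.haveILetI false

noncomputable section

open Polynomial IsLocalRing

namespace Fermat.Agent.BadPrime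

local notation "ℚ̄" => AlgebraicClosure ℚ
local notation "Γℚ" => (AlgebraicClosure ℚ ≃ₐ[ℚ] AlgebraicClosure ℚ)

open CongruenceSubgroup ModularFormClass

/-- An eigen-character of `g` away from `S` with a point in a `lam`-adic ring of integers. -/
theorem exists_data {M : ℕ} [NeZero M] {g : CuspForm (Gamma0 M) 2} (hg : g.IsNormalizedEigenform)
    (lam : ℕ) [Fact lam.Prime] (S : Finset ℕ) :
    ∃ chig : CuspForm.heckeAlgebra M 2 (↑S : Set ℕ) →+* ℂ,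
      (∀ (ℓ : ℕ) (hℓ : ℓ.Prime) (hℓM : ¬ ℓ ∣ M) (hℓS : ℓ ∉ (↑S : Set ℕ)),
        chig (CuspForm.heckeAlgebra.T hℓ hℓM hℓS) = qCoeff g ℓ) ∧
      ∃ (O : Type) (_ : CommRing O) (_ : IsDomain O) (_ : IsDiscreteValuationRing O)
        (_ : IsAdicComplete (maximalIdeal O) O) (_ : Finite (ResidueField O)) (_ : CharZero O),
        (lam : O) ∈ maximalIdeal O ∧
        ∃ (iota : chig.range →+* O) (φ : ℤ_[lam] →+* O), Function.Injective iota ∧ IsLocalHom φ := by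
  obtain ⟨chig, -, hT, -⟩ := exists_eigenChar hg (↑S : Set ℕ)
  haveI := HeckeFinite.moduleFinite_heckeAlgebra M 2 (↑S : Set ℕ)
  haveI : Module.Finite ℤ chig.range :=
    Module.Finite.of_surjective chig.rangeRestrict.toIntAlgHom.toLinearMap
      chig.rangeRestrict_surjective
  obtain ⟨O, i1, i2, i3, i4, i5, i6, hl, ⟨iota⟩, φ, hφ⟩ := exists_hom_finiteDVR lam chig.range
  exact ⟨chig, hT, O, i1, i2, i3, i4, i5, i6, hl, iota, φ, injective_of_finite_int iota, hφ⟩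

/-- An integer value of the eigen-character is sent to that integer. -/
theorem iota_apply_of_eq_intCast {A : Type*} [Ring A] (chig : A →+* ℂ) {O : Type*} [CommRing O]
    (iota : chig.range →+* O) {t : A} {a : ℤ} (h : chig t = a) :
    (iota.comp chig.rangeRestrict) t = (a : O) := by
  have : chig.rangeRestrict t = (a : chig.range) := Subtype.ext (by simp [h])
  rw [RingHom.comp_apply, this, map_intCast]

/-- A representation with the Frobenius characteristic polynomials of `W` has everywhere the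
characteristic polynomials of a Tate module of `W`. -/
theorem charpoly_eq_map_tate (W : WeierstrassCurve ℤ) {lam : ℕ} [Fact lam.Prime]
    (ρW : GaloisRepAdic ℤ_[lam])
    (hρW : ∀ ℓ : ℕ, ℓ.Prime → ℓ ≠ lam → W.IsGoodPrimeFor ℓ →
      ∀ A : ValuationSubring ℚ̄, A.LiesOverPrime ℓ → ∀ σ : Γℚ, A.IsFrobeniusAt σ ℓ →
        LinearMap.charpoly (ρW.ρ σ) =
          X ^ 2 - C ((W.apOfModel ℓ : ℤ_[lam])) * X + C ((ℓ : ℤ_[lam])))
    {O : Type} [CommRing O] [IsLocalRing O] [IsHausdorff (maximalIdeal O) O]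
    (φ : ℤ_[lam] →+* O) (hφ : IsLocalHom φ) (ρ : GaloisRepAdic O) (S : Finset ℕ)
    (hS : ∀ ℓ : ℕ, ℓ.Prime → ℓ ∉ S → ℓ ≠ lam ∧ W.IsGoodPrimeFor ℓ)
    (h : ∀ ℓ : ℕ, ℓ.Prime → ℓ ∉ S → ∀ A : ValuationSubring ℚ̄, A.LiesOverPrime ℓ →
      ∀ σ : Γℚ, A.IsFrobeniusAt σ ℓ →
        LinearMap.charpoly (ρ.ρ σ) = X ^ 2 - C (W.apOfModel ℓ : O) * X + C (ℓ : O))
    (γ : Γℚ) : LinearMap.charpoly (ρ.ρ γ) = (LinearMap.charpoly (ρW.ρ γ)).map φ := by
  have key : ∀ τ : Γℚ, LinearMap.charpoly ((ρW.baseChangeAlong φ hφ).ρ τ) =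
      (LinearMap.charpoly (ρW.ρ τ)).map φ := by
    intro τ
    letI : Algebra ℤ_[lam] O := φ.toAlgebra
    exact LinearMap.charpoly_baseChange (ρW.ρ τ) O
  rw [← key]
  refine Density.adic_charpoly_eq_of_frobenius ρ (ρW.baseChangeAlong φ hφ) S
    (fun ℓ hℓ hℓS A hA σ hσ => ?_) γ
  rw [key, h ℓ hℓ hℓS A hA σ hσ, hρW ℓ hℓ (hS ℓ hℓ hℓS).1 (hS ℓ hℓ hℓS).2 A hA σ hσ]
  simp

/-- The residual representation of a representation with the Frobenius characteristic polynomials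
of `W` is absolutely irreducible and odd when `W[p]` is irreducible. -/
theorem residual_absIrr_and_odd (W : WeierstrassCurve ℤ) (hΔ : W.Δ ≠ 0) {p : ℕ} [Fact p.Prime]
    (hp2 : p ≠ 2) (hirr : W.ModRepIsIrreducible p)
    {O : Type} [CommRing O] [IsLocalRing O] (hpO : (p : O) ∈ maximalIdeal O)
    (ρ : GaloisRepAdic O) (S : Finset ℕ)
    (hS : ∀ ℓ : ℕ, ℓ.Prime → ℓ ∉ S → ℓ ≠ p ∧ W.IsGoodPrimeFor ℓ)
    (h : ∀ ℓ : ℕ, ℓ.Prime → ℓ ∉ S → ∀ A : ValuationSubring ℚ̄, A.LiesOverPrime ℓ →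
      ∀ σ : Γℚ, A.IsFrobeniusAt σ ℓ →
        LinearMap.charpoly (ρ.ρ σ) = X ^ 2 - C (W.apOfModel ℓ : O) * X + C (ℓ : O)) :
    ρ.residual.IsAbsolutelyIrreducible ∧ ρ.residual.IsOdd := by
  have hp : p.Prime := Fact.out
  haveI := EC.isElliptic_map_rat hΔ
  have h0 : (p : ResidueField O) = 0 := by
    rw [← map_natCast (residue O) p, residue_eq_zero_iff]; exact hpO
  haveI : CharP (ResidueField O) p := (CharP.charP_iff_prime_eq_zero hp).mpr h0
  letI : Algebra (ZMod p) (ResidueField O) := (ZMod.castHom (dvd_refl p) _).toAlgebra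
  let hcard := EC.natCard_torsion_rat (W.map (Int.castRingHom ℚ)) hp.ne_zero
  let hker := EC.galoisRepModuleEnd_factorsThroughFiniteLevel (W.map (Int.castRingHom ℚ)) hp.ne_zero
  let R := (W.map (Int.castRingHom ℚ)).residualGaloisRepOf p hcard hker
  have hR : R.IsAbsolutelyIrreducible :=
    EC.residualGaloisRepOf_isAbsolutelyIrreducible hΔ hp2 hcard hker hirr
  let R' := R.baseChange (ResidueField O)
  have h2 : (2 : ResidueField O) ≠ 0 := by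
    intro h2
    have h3 : (p : ℕ) ∣ 2 := (CharP.cast_eq_zero_iff (ResidueField O) p 2).mp (by exact_mod_cast h2)
    exact hp2 ((Nat.prime_dvd_prime_iff_eq hp Nat.prime_two).mp h3)
  have hodd : R'.IsOdd := fun c hc hne => by
    show LinearMap.det ((R.ρ c).baseChange (ResidueField O)) = -1
    rw [LinearMap.det_baseChange, EC.residualGaloisRepOf_isOdd hΔ p hcard hker c hc hne, map_neg,
      map_one]
  have hirr' : R'.IsAbsolutelyIrreducible :=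
    Density.isAbsolutelyIrreducible_of_odd R' h2 (Density.baseChange_isIrreducible R hR _) hodd
  have he : R'.IsEquiv ρ.residual := by
    refine Density.residual_isEquiv_of_frobenius R' ρ.residual S hirr'
      fun ℓ hℓ hℓS A hA σ hσ => ?_
    show LinearMap.charpoly ((R.ρ σ).baseChange (ResidueField O)) =
      LinearMap.charpoly ((ρ.ρ σ).baseChange (ResidueField O))
    rw [LinearMap.charpoly_baseChange, LinearMap.charpoly_baseChange, h ℓ hℓ hℓS A hA σ hσ]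
    rw [EC.charpoly_residualGaloisRepOf W hℓ hA (hS ℓ hℓ hℓS).2 hσ (hS ℓ hℓ hℓS).1 hcard hker]
    simp
  exact ⟨Density.isAbsolutelyIrreducible_of_isEquiv he hirr',
    Density.residual_isOdd_of_isEquiv he hodd⟩

variable {W : WeierstrassCurve ℤ} {N M : ℕ} [NeZero M] {g : CuspForm (Gamma0 M) 2}

/-- No prime of good reduction divides the level of the newform exactly once. -/
theorem good_not_dvd_once (h35 : NewformMultRep) (hW : ∀ lam : ℕ, [Fact lam.Prime] → HasTateRep W lam)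
    (hN : N ≠ 0) (hbad : ∀ ℓ : ℕ, ℓ.Prime → (ℓ : ℤ) ∣ W.Δ → ℓ ∣ N) (hMN : M ∣ N)
    (hg : g.IsNewform)
    (hga : ∀ ℓ : ℕ, ℓ.Prime → ¬ ℓ ∣ N → qCoeff g ℓ = (W.apOfModel ℓ : ℂ))
    {q : ℕ} (hq : q.Prime) (hqM : q ∣ M) (hgood : W.IsGoodPrimeFor q) : q ^ 2 ∣ M := by
  by_contra hq2
  obtain ⟨lam, hlam, hlq⟩ : ∃ lam : ℕ, lam.Prime ∧ lam ≠ q := by
    obtain ⟨lam, hle, hlam⟩ := Nat.exists_infinite_primes (q + 1)
    exact ⟨lam, hlam, by omega⟩
  haveI : Fact lam.Prime := ⟨hlam⟩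
  let S := N.primeFactors ∪ {lam}
  obtain ⟨chig, hchig, O', _, _, _, _, _, _, hl, iota, φ, -, hφ⟩ := exists_data hg.1 lam S
  have hS : ∀ ℓ : ℕ, ℓ.Prime → ℓ ∉ S → ℓ ≠ lam ∧ ¬ ℓ ∣ N ∧ ¬ ℓ ∣ M ∧ W.IsGoodPrimeFor ℓ := by
    intro ℓ hℓ hℓS
    simp only [S, Finset.mem_union, Finset.mem_singleton, Nat.mem_primeFactors, not_or] at hℓS
    have hℓN : ¬ ℓ ∣ N := fun h => hℓS.1 ⟨hℓ, h, hN⟩
    exact ⟨hℓS.2, hℓN, fun h => hℓN (h.trans hMN), fun h => hℓN (hbad ℓ hℓ h)⟩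
  obtain ⟨O'', _, _, _, _, _, _, _, _, _, -, ρ, hρ, hρq⟩ :=
    h35 hg lam S O' hl chig hchig iota (by simp [S]) fun r hr hrM =>
      Finset.mem_union_left _ (Nat.mem_primeFactors.mpr ⟨hr, hrM.trans hMN, hN⟩)
  obtain ⟨ρW, hρW, -⟩ := hW lam
  haveI := hφ
  have hcp : ∀ γ : Γℚ, LinearMap.charpoly (ρ.ρ γ) =
      (LinearMap.charpoly (ρW.ρ γ)).map ((algebraMap O' O'').comp φ) :=
    charpoly_eq_map_tate W ρW hρW _ inferInstance ρ S
      (fun ℓ hℓ hℓS => ⟨(hS ℓ hℓ hℓS).1, (hS ℓ hℓ hℓS).2.2.2⟩) fun ℓ hℓ hℓS A hA σ hσ => by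
        obtain ⟨-, hℓN, hℓM, -⟩ := hS ℓ hℓ hℓS
        rw [hρ ℓ hℓ hℓM (by simpa using hℓS) A hA σ hσ,
          iota_apply_of_eq_intCast chig iota ((hchig ℓ hℓ hℓM (by simpa using hℓS)).trans
            (hga ℓ hℓ hℓN)), map_intCast]
  obtain ⟨A, σ, hA, hσ⟩ := Galois.exists_valuationSubring_isFrobeniusAt hq
  have h1 := hcp σ
  rw [hρW q hq hlq.symm hgood A hA σ hσ] at h1
  have ha : W.apOfModel q = (q : ℤ) + 1 ∨ W.apOfModel q = -((q : ℤ) + 1) := by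
    rcases hρq q hq hlq.symm hqM hq2 A hA σ hσ with h2 | h2
    · left
      rw [h2] at h1
      have := congrArg (fun P => Polynomial.coeff P 1) h1
      simp at this
      exact Int.cast_injective (α := O'') (by push_cast; linear_combination this)
    · right
      rw [h2] at h1
      have := congrArg (fun P => Polynomial.coeff P 1) h1
      simp at this
      exact Int.cast_injective (α := O'') (by push_cast; linear_combination this)
  have hh := EC.apOfModel_sq_le W hq hgood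
  have hq' : (2 : ℤ) ≤ q := by exact_mod_cast hq.two_le
  rcases ha with h | h <;> rw [h] at hh <;> nlinarith

/-- No square of a prime divides the level of the newform. -/
theorem not_sq_dvd (h36 : NewformSquareRep) {p : ℕ} [Fact p.Prime] (hp2 : p ≠ 2)
    (hirr : W.ModRepIsIrreducible p) (hΔ : W.Δ ≠ 0)
    (hW : HasTateRep W p) (hN : N ≠ 0) (hp2N : ¬ p ^ 2 ∣ N)
    (hN3 : ∀ q : ℕ, q.Prime → ¬ q ^ 3 ∣ N)
    (hbad : ∀ ℓ : ℕ, ℓ.Prime → (ℓ : ℤ) ∣ W.Δ → ℓ ∣ N) (hMN : M ∣ N)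
    (hg : g.IsNewform)
    (hga : ∀ ℓ : ℕ, ℓ.Prime → ¬ ℓ ∣ N → qCoeff g ℓ = (W.apOfModel ℓ : ℂ))
    {q : ℕ} (hq : q.Prime) : ¬ q ^ 2 ∣ M := by
  intro hq2
  have hfac : M.factorization q = 2 := by
    refine le_antisymm ?_ ((hq.pow_dvd_iff_le_factorization (NeZero.ne M)).mp hq2)
    by_contra hlt
    push Not at hlt
    exact hN3 q hq (((hq.pow_dvd_iff_le_factorization (NeZero.ne M)).mpr hlt).trans hMN)
  have hqp : q ≠ p := by rintro rfl; exact hp2N (hq2.trans hMN)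
  let S := N.primeFactors ∪ {p}
  obtain ⟨chig, hchig, O', _, _, _, _, _, _, hl, iota, φ, -, hφ⟩ := exists_data hg.1 p S
  have hS : ∀ ℓ : ℕ, ℓ.Prime → ℓ ∉ S → ℓ ≠ p ∧ ¬ ℓ ∣ N ∧ ¬ ℓ ∣ M ∧ W.IsGoodPrimeFor ℓ := by
    intro ℓ hℓ hℓS
    simp only [S, Finset.mem_union, Finset.mem_singleton, Nat.mem_primeFactors, not_or] at hℓS
    have hℓN : ¬ ℓ ∣ N := fun h => hℓS.1 ⟨hℓ, h, hN⟩
    exact ⟨hℓS.2, hℓN, fun h => hℓN (h.trans hMN), fun h => hℓN (hbad ℓ hℓ h)⟩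
  have hval : ∀ (ℓ : ℕ) (hℓ : ℓ.Prime) (hℓM : ¬ ℓ ∣ M) (hℓS : ℓ ∉ (↑S : Set ℕ)),
      (iota.comp chig.rangeRestrict) (CuspForm.heckeAlgebra.T hℓ hℓM hℓS) =
        (W.apOfModel ℓ : O') := fun ℓ hℓ hℓM hℓS =>
    iota_apply_of_eq_intCast chig iota ((hchig ℓ hℓ hℓM hℓS).trans
      (hga ℓ hℓ (hS ℓ hℓ (by simpa using hℓS)).2.1))
  have hmemS : ∀ r : ℕ, r.Prime → r ∣ M → r ∈ S := fun r hr hrM =>
    Finset.mem_union_left _ (Nat.mem_primeFactors.mpr ⟨hr, hrM.trans hMN, hN⟩)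
  obtain ⟨O'', _, _, _, _, _, _, _, _, _, -, ρ, hρ, hnot⟩ :=
    h36 hg p S O' hl hp2 chig hchig iota (by simp [S]) hmemS
      (fun O'' _ _ _ _ _ _ _ _ _ _ ρ hρ => by
        refine residual_absIrr_and_odd W hΔ hp2 hirr ?_ ρ S
          (fun ℓ hℓ hℓS => ⟨(hS ℓ hℓ hℓS).1, (hS ℓ hℓ hℓS).2.2.2⟩) fun ℓ hℓ hℓS A hA σ hσ => ?_
        · rw [← map_natCast (algebraMap O' O'') p]
          exact map_nonunit (algebraMap O' O'') _ hl
        · obtain ⟨h1, -, h3, -⟩ := hS ℓ hℓ hℓS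
          rw [hρ ℓ hℓ h1 h3 (by simpa using hℓS) A hA σ hσ, hval, map_intCast])
  obtain ⟨ρW, hρW, huni⟩ := hW
  haveI := hφ
  have hcp : ∀ γ : Γℚ, LinearMap.charpoly (ρ.ρ γ) =
      (LinearMap.charpoly (ρW.ρ γ)).map ((algebraMap O' O'').comp φ) :=
    charpoly_eq_map_tate W ρW hρW _ inferInstance ρ S
      (fun ℓ hℓ hℓS => ⟨(hS ℓ hℓ hℓS).1, (hS ℓ hℓ hℓS).2.2.2⟩) fun ℓ hℓ hℓS A hA σ hσ => by
        rw [hρ ℓ hℓ (hS ℓ hℓ hℓS).2.2.1 (by simpa using hℓS) A hA σ hσ, hval, map_intCast]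
  exact hnot q hq hqp hfac fun P hP σ hσ => by
    rw [hcp σ, huni q hq hqp P hP σ hσ]
    simp

/-- The system of the newform is that of `W` at every prime of good reduction outside its level. -/
theorem qCoeff_eq_apOfModel (h35 : NewformMultRep)
    (hW : ∀ lam : ℕ, [Fact lam.Prime] → HasTateRep W lam)
    (hN : N ≠ 0) (hbad : ∀ ℓ : ℕ, ℓ.Prime → (ℓ : ℤ) ∣ W.Δ → ℓ ∣ N) (hMN : M ∣ N)
    (hg : g.IsNewform)
    (hga : ∀ ℓ : ℕ, ℓ.Prime → ¬ ℓ ∣ N → qCoeff g ℓ = (W.apOfModel ℓ : ℂ))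
    {q : ℕ} (hq : q.Prime) (hqM : ¬ q ∣ M) (hgood : W.IsGoodPrimeFor q) :
    qCoeff g q = (W.apOfModel q : ℂ) := by
  obtain ⟨lam, hlam, hlq⟩ : ∃ lam : ℕ, lam.Prime ∧ lam ≠ q := by
    obtain ⟨lam, hle, hlam⟩ := Nat.exists_infinite_primes (q + 1)
    exact ⟨lam, hlam, by omega⟩
  haveI : Fact lam.Prime := ⟨hlam⟩
  let S := N.primeFactors.erase q ∪ {lam}
  have hqS : q ∉ S := by simp [S, hlq.symm]
  obtain ⟨chig, hchig, O', _, _, _, _, _, _, hl, iota, φ, hiota, hφ⟩ := exists_data hg.1 lam S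
  have hS : ∀ ℓ : ℕ, ℓ.Prime → ℓ ∉ insert q S →
      ℓ ≠ lam ∧ ¬ ℓ ∣ N ∧ ¬ ℓ ∣ M ∧ W.IsGoodPrimeFor ℓ ∧ ℓ ∉ S := by
    intro ℓ hℓ hℓS
    simp only [S, Finset.mem_insert, Finset.mem_union, Finset.mem_singleton, Finset.mem_erase,
      Nat.mem_primeFactors, not_or] at hℓS
    have hℓN : ¬ ℓ ∣ N := fun h => hℓS.2.1 ⟨hℓS.1, hℓ, h, hN⟩
    exact ⟨hℓS.2.2, hℓN, fun h => hℓN (h.trans hMN), fun h => hℓN (hbad ℓ hℓ h),
      by simp [S, hℓS.2.2, hℓN]⟩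
  obtain ⟨O'', _, _, _, _, _, _, _, _, _, hinj, ρ, hρ, -⟩ :=
    h35 hg lam S O' hl chig hchig iota (by simp [S]) fun r hr hrM =>
      Finset.mem_union_left _ (Finset.mem_erase.mpr
        ⟨fun h => hqM (h ▸ hrM), Nat.mem_primeFactors.mpr ⟨hr, hrM.trans hMN, hN⟩⟩)
  obtain ⟨ρW, hρW, -⟩ := hW lam
  haveI := hφ
  have hcp : ∀ γ : Γℚ, LinearMap.charpoly (ρ.ρ γ) =
      (LinearMap.charpoly (ρW.ρ γ)).map ((algebraMap O' O'').comp φ) :=
    charpoly_eq_map_tate W ρW hρW _ inferInstance ρ (insert q S)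
      (fun ℓ hℓ hℓS => ⟨(hS ℓ hℓ hℓS).1, (hS ℓ hℓ hℓS).2.2.2.1⟩) fun ℓ hℓ hℓS A hA σ hσ => by
        obtain ⟨-, hℓN, hℓM, -, hℓS'⟩ := hS ℓ hℓ hℓS
        rw [hρ ℓ hℓ hℓM (by simpa using hℓS') A hA σ hσ,
          iota_apply_of_eq_intCast chig iota ((hchig ℓ hℓ hℓM (by simpa using hℓS')).trans
            (hga ℓ hℓ hℓN)), map_intCast]
  obtain ⟨A, σ, hA, hσ⟩ := Galois.exists_valuationSubring_isFrobeniusAt hq
  have h1 := hcp σ
  rw [hρ q hq hqM (by simpa using hqS) A hA σ hσ, hρW q hq hlq.symm hgood A hA σ hσ] at h1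
  have h2 := congrArg (fun P => Polynomial.coeff P 1) h1
  simp at h2
  have h3 : chig.rangeRestrict (CuspForm.heckeAlgebra.T hq hqM (by simpa using hqS)) =
      (W.apOfModel q : chig.range) := by
    refine hiota (hinj ?_)
    rw [map_intCast, map_intCast]
    exact h2
  rw [← hchig q hq hqM (by simpa using hqS)]
  simpa using congrArg Subtype.val h3

/-- **Conductor–level matching**, from the behaviour of newform representations. -/
theorem isModularModelOfLevel_conductorLevel (h35 : NewformMultRep) (h36 : NewformSquareRep)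
    (W : WeierstrassCurve ℤ) (N p : ℕ) [Fact p.Prime] (hp2 : p ≠ 2)
    (hirr : W.ModRepIsIrreducible p) (hp2N : ¬ p ^ 2 ∣ N) (hN : W.IsModularModelOfLevel N)
    (hbad : ∀ ℓ : ℕ, ℓ.Prime → (ℓ : ℤ) ∣ W.Δ → ℓ ∣ N) (hN3 : ∀ q : ℕ, q.Prime → ¬ q ^ 3 ∣ N)
    (hW : W.Δ ≠ 0 → ∀ lam : ℕ, [Fact lam.Prime] → HasTateRep W lam) :
    W.IsModularModelOfLevel W.conductorLevel := by
  have hN0 : N ≠ 0 := by rintro rfl; exact hp2N (dvd_zero _)
  have hΔ : W.Δ ≠ 0 := by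
    intro h0
    obtain ⟨r, hle, hr⟩ := Nat.exists_infinite_primes (N + 1)
    have := Nat.le_of_dvd (Nat.pos_of_ne_zero hN0) (hbad r hr (h0 ▸ dvd_zero _))
    omega
  haveI : NeZero N := ⟨hN0⟩
  obtain ⟨f, hf, hfa⟩ := hN
  obtain ⟨M, g, hMN, hg, hgf⟩ := exists_newform_of_eigenform hN0 hf
  haveI : NeZero M := ⟨fun h => hN0 (Nat.eq_zero_of_zero_dvd (h ▸ hMN))⟩
  have hga : ∀ ℓ : ℕ, ℓ.Prime → ¬ ℓ ∣ N → qCoeff g ℓ = (W.apOfModel ℓ : ℂ) := fun ℓ hℓ hℓN =>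
    (hgf ℓ hℓ hℓN).trans (hfa ℓ hℓ (fun h => hℓN (hbad ℓ hℓ h)) hℓN)
  have hsq : ∀ q : ℕ, q.Prime → ¬ q ^ 2 ∣ M := fun q hq =>
    not_sq_dvd h36 hp2 hirr hΔ (hW hΔ p) hN0 hp2N hN3 hbad hMN hg hga hq
  have hbadM : ∀ q : ℕ, q.Prime → q ∣ M → (q : ℤ) ∣ W.Δ := fun q hq hqM => by
    by_contra hgood
    exact hsq q hq (good_not_dvd_once h35 (hW hΔ) hN0 hbad hMN hg hga hq hqM hgood)
  have hMR : M ∣ W.conductorLevel := by
    rw [← Nat.factorization_le_iff_dvd (NeZero.ne M) (NeZero.ne W.conductorLevel), Finsupp.le_iff]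
    intro q hq
    have hq' : q.Prime := Nat.prime_of_mem_primeFactors hq
    have hqM : q ∣ M := Nat.dvd_of_mem_primeFactors hq
    have h1 : M.factorization q ≤ 1 := by
      by_contra h
      push Not at h
      exact hsq q hq' ((hq'.pow_dvd_iff_le_factorization (NeZero.ne M)).mpr h)
    exact h1.trans ((hq'.dvd_iff_one_le_factorization (NeZero.ne W.conductorLevel)).mp
      ((W.prime_dvd_conductorLevel_iff hΔ hq').mpr (hbadM q hq' hqM)))
  obtain ⟨f', hf', hf'g⟩ := exists_eigenform_level_of_dvd hMR hg.1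
  refine ⟨f', hf', fun q hq hgood hqR => ?_⟩
  rw [hf'g q hq hqR]
  exact qCoeff_eq_apOfModel h35 (hW hΔ) hN0 hbad hMN hg hga hq (fun h => hqR (h.trans hMR)) hgood

end Fermat.Agent.BadPrime
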