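import Fermat.Agent.BadPrime.ConductorDefs
import Fermat.Agent.EC.Tate.Multiplicative
import Fermat.Agent.EC.Frob.Trace
import Fermat.Agent.EC.Red.Qbar
import Fermat.Agent.Density.BrauerNesbitt
import Fermat.Agent.EC.Det.Cyclotomic

/-!
# The Tate module of a semistable curve satisfies `HasTateRep`
-/

set_option autoImplicit false

noncomputable section

open Polynomial

namespace Fermat.Agent.BadPrime

local notation "ℚ̄" => AlgebraicClosure ℚ

variable (W : WeierstrassCurve ℤ) (lam : ℕ) [hlam : Fact lam.Prime]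

theorem charpoly_of_trace_det {R : Type*} [CommRing R] [Nontrivial R] {V : Type*} [AddCommGroup V] [Module R V]
    (b : Module.Basis (Fin 2) R V) (f : Module.End R V) {t d : R}
    (ht : LinearMap.trace R V f = t) (hd : LinearMap.det f = d) :
    haveI := Module.Free.of_basis b
    haveI := Module.Finite.of_basis b
    LinearMap.charpoly f = X ^ 2 - C t * X + C d := by
  haveI := Module.Free.of_basis b
  haveI := Module.Finite.of_basis b
  rw [← LinearMap.charpoly_toMatrix f b, Density.charpoly_fin_two_eq,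
    ← LinearMap.trace_eq_matrix_trace R b f, LinearMap.det_toMatrix b f, ht, hd]

theorem tateRep_charpoly_frobenius (hΔ : W.Δ ≠ 0) {ℓ : ℕ} (hℓ : ℓ.Prime) (hℓl : ℓ ≠ lam)
    (hgood : W.IsGoodPrimeFor ℓ) {A : ValuationSubring ℚ̄} (hA : A.LiesOverPrime ℓ)
    {σ : ℚ̄ ≃ₐ[ℚ] ℚ̄} (hσ : A.IsFrobeniusAt σ ℓ) :
    haveI := EC.isElliptic_map_rat hΔ
    LinearMap.charpoly ((EC.tateRep (W.map (Int.castRingHom ℚ)) lam).ρ σ) =
      X ^ 2 - C ((W.apOfModel ℓ : ℤ_[lam])) * X + C ((ℓ : ℤ_[lam])) := by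
  haveI := EC.isElliptic_map_rat hΔ
  have hdvd : ∀ n, ¬ ℓ ∣ lam ^ n := fun n h =>
    hℓl ((Nat.prime_dvd_prime_iff_eq hℓ hlam.out).mp (hℓ.dvd_of_dvd_pow h))
  refine charpoly_of_trace_det (EC.tateRepBasis (W.map (Int.castRingHom ℚ)) lam) _
    ((EC.tateRep_trace_eq_iff _ lam σ _).mpr fun n => ?_)
    ((EC.tateRep_det_eq_iff _ lam σ _).mpr fun n => ?_)
  · rcases eq_or_ne n 0 with rfl | hn
    · haveI : Subsingleton (ZMod (lam ^ 0)) := by rw [pow_zero]; infer_instance
      exact Subsingleton.elim _ _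
    · rw [map_intCast]
      exact EC.galoisTrace_frobenius W hℓ hA hgood hσ (Nat.one_lt_pow hn hlam.out.one_lt) (hdvd n)
  · rcases eq_or_ne n 0 with rfl | hn
    · haveI : Subsingleton (ZMod (lam ^ 0)) := by rw [pow_zero]; infer_instance
      exact Subsingleton.elim _ _
    · rw [map_natCast]
      exact EC.det_frobenius_torsion W hℓ hA hgood hσ (Nat.one_lt_pow hn hlam.out.one_lt) (hdvd n)

theorem tateRep_isUnipotentOnInertiaAt (hΔ : W.Δ ≠ 0) (hss : W.IsSemistableModel) {q : ℕ}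
    (hq : q.Prime) (hql : q ≠ lam) :
    haveI := EC.isElliptic_map_rat hΔ
    (EC.tateRep (W.map (Int.castRingHom ℚ)) lam).IsUnipotentOnInertiaAt q := by
  haveI := EC.isElliptic_map_rat hΔ
  by_cases hbad : (q : ℤ) ∣ W.Δ
  · exact EC.tateRep_isUnipotentOnInertiaAt_mult W lam hq hql hΔ hbad (hss q hq hbad)
  · intro A hA σ hσ
    have h1 : (EC.tateRep (W.map (Int.castRingHom ℚ)) lam).ρ σ = 1 := by
      refine (EC.tateRep_ρ_eq_one_iff _ lam σ).mpr fun n P => ?_
      exact EC.galoisRepUnramifiedAt_of_isGoodPrimeFor W hq hbad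
        (fun h => hql ((Nat.prime_dvd_prime_iff_eq hq hlam.out).mp (hq.dvd_of_dvd_pow h))) A hA σ hσ P
    rw [h1]
    exact LinearMap.charpoly_one.trans (by
      rw [(EC.tateRep (W.map (Int.castRingHom ℚ)) lam).finrank_eq])

theorem hasTateRep (hΔ : W.Δ ≠ 0) (hss : W.IsSemistableModel) : HasTateRep W lam := by
  haveI := EC.isElliptic_map_rat hΔ
  exact ⟨EC.tateRep (W.map (Int.castRingHom ℚ)) lam,
    fun ℓ hℓ hℓl hgood A hA σ hσ => tateRep_charpoly_frobenius W lam hΔ hℓ hℓl hgood hA hσ,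
    fun q hq hql => tateRep_isUnipotentOnInertiaAt W lam hΔ hss hq hql⟩

end Fermat.Agent.BadPrime
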