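import Fermat.Agent.BadPrime.GaussModelData

/-!
# Hypotheses on the level `M` used by the two-component model
-/

set_option autoImplicit false
set_option synthInstance.maxHeartbeats 400000

noncomputable section

open ModularCurve

namespace Fermat.Agent.BadPrime

open Fermat.Agent.Reduction Fermat.Agent.Modular

variable {L : Type*} [Field L] [Algebra ℚ L] (A : ValuationSubring L) (q M : ℕ) [NeZero M]

/-- Reduction of the chart of level `M` is onto the affine ring of the special fibre. -/
def ChartOnto (b : Bool) : Prop :=
  ∀ x ∈ chartP (IsLocalRing.ResidueField A) M q b, ∃ f ∈ chartB A M b,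
    HasGaussRed (IsLocalRing.residue A) (f : LaurentSeries L)
      (x : LaurentSeries (IsLocalRing.ResidueField A))

variable (k : Type*) [Field k] [Fact q.Prime] [CharP k q]

/-- The affine ring of one component is generated by elements on which the geometric Frobenius is
the `q`-th power map. -/
def HasRationalGenerators (b : Bool) : Prop :=
  ∃ G : Finset (chartP k M q b),
    Algebra.adjoin k (G : Set (chartP k M q b)) = ⊤ ∧ ∀ g ∈ G, chartFr k q M b g = g ^ q

/-- The affine ring of one component is finite over the coordinate ring of the line. -/
def IsFiniteChart (b : Bool) : Prop :=
  Module.Finite (Algebra.adjoin k ({chartCoordK k M b} : Set (modularFunctionFieldFullC k M)))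
    (integralClosure
      (Algebra.adjoin k ({chartCoordK k M b} : Set (modularFunctionFieldFullC k M)))
      (modularFunctionFieldFullC k M))

end Fermat.Agent.BadPrime
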