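import Fermat.Agent.BadPrime.GaussChartBasic
import Fermat.Agent.BadPrime.GaussModelProps

/-!
# The charts of the two-component model
-/

set_option autoImplicit false
set_option synthInstance.maxHeartbeats 400000
set_option linter.unusedSectionVars false
set_option maxSynthPendingDepth 3

noncomputable section

open ModularCurve Polynomial IntermediateField
open scoped IntermediateField

namespace Fermat.Agent.BadPrime

open Fermat.Agent.Reduction Fermat.Agent.Modular

variable {L : Type*} [Field L] [Algebra ℚ L] [Algebra.IsAlgebraic ℚ L] {A : ValuationSubring L}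
  [IsDiscreteValuationRing A] {q : ℕ} [Fact q.Prime] [CharP (IsLocalRing.ResidueField A) q]
  {M : ℕ} [NeZero M] {b : Bool} {w : FL (M * q) L →ₐ[L] FL (M * q) L}

theorem heckeAlpha_chartCoord (b : Bool) :
    heckeAlphaBar L M q (chartCoord L M b) = chartCoord L (M * q) b := by
  cases b with
  | false => exact Subtype.ext rfl
  | true =>
    simp only [chartCoord, cond_true, map_inv₀]
    exact congrArg (·⁻¹) (Subtype.ext rfl)

theorem heckeAlpha_algebraMap_chartBase (r : ChartBase A b) :
    heckeAlphaBar L M q (algebraMap (ChartBase A b) (FL M L) r) =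
      algebraMap (ChartBase A b) (FL (M * q) L) r := by
  have h : ((heckeAlphaBar L M q : FL M L →+* FL (M * q) L)).comp
      (algebraMap (ChartBase A b) (FL M L)) = algebraMap (ChartBase A b) (FL (M * q) L) := by
    refine IsLocalization.ringHom_ext (chartS A b) (Polynomial.ringHom_ext (fun a => ?_) ?_) <;>
      simp only [RingHom.comp_apply, algebraMap_chartBase_algebraMap, chartEval, coe_eval₂RingHom,
        eval₂_C, eval₂_X, RingHom.coe_coe, ValuationSubring.subtype_apply, AlgHom.commutes,
        heckeAlpha_chartCoord]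
  exact RingHom.congr_fun h r

theorem qExpand_chartCoordRed (b : Bool) :
    ModularCurve.qExpand (IsLocalRing.ResidueField A) q
      (chartCoordRed (IsLocalRing.ResidueField A) b) =
      chartCoordRed (IsLocalRing.ResidueField A) b ^ q := by
  cases b <;> simp [chartCoordRed, qExpand_jqModC_eq_pow, map_inv₀, inv_pow]

theorem hasGaussRed_w_algebraMap_chartBase (hw : IsALInvolution w) (r : ChartBase A b) :
    HasGaussRed (IsLocalRing.residue A)
      ((w (algebraMap (ChartBase A b) (FL (M * q) L) r) : FL (M * q) L) : LaurentSeries L)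
      (aeval (chartCoordRed (IsLocalRing.ResidueField A) b ^ q) (chartRed A b r)) := by
  rw [← heckeAlpha_algebraMap_chartBase, hw.alpha]
  have h := hasGaussRed_beta (IsLocalRing.residue A) (q := q)
    (hasGaussRed_algebraMap_chartBase (A := A) M r)
  rw [← qExpand_chartCoordRed, ← qExpandAlgHomC_apply, aeval_algHom_apply, qExpandAlgHomC_apply]
  exact h

theorem algebraMap_chartBase_mem_pairBv (hw : IsALInvolution w) (r : ChartBase A b) :
    algebraMap (ChartBase A b) (FL (M * q) L) r ∈ pairBv (IsLocalRing.residue A) w :=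
  (mem_pairBv _ w).2 ⟨⟨_, hasGaussRed_algebraMap_chartBase (M * q) r⟩,
    ⟨_, hasGaussRed_w_algebraMap_chartBase hw r⟩⟩

/-- Integral elements over a subring of a valuation ring lie in it. -/
theorem mem_of_isIntegral_valuationSubring {R F : Type*} [CommRing R] [Field F] [Algebra R F]
    (W : ValuationSubring F) (hR : ∀ r : R, algebraMap R F r ∈ W) {x : F} (hx : IsIntegral R x) :
    x ∈ W := by
  obtain ⟨p, hp, hpx⟩ := hx
  let f : R →+* W := (algebraMap R F).codRestrict W.toSubring hR
  have hW : IsIntegral W x := ⟨p.map f, hp.map f, by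
    rw [eval₂_map]
    exact hpx⟩
  obtain ⟨y, rfl⟩ := IsIntegrallyClosed.isIntegral_iff.1 hW
  exact y.2

theorem mem_pairBv_of_isIntegral (hw : IsALInvolution w) {x : FL (M * q) L}
    (hx : IsIntegral (ChartBase A b) x) : x ∈ pairBv (IsLocalRing.residue A) w :=
  Subring.mem_inf.2
    ⟨mem_of_isIntegral_valuationSubring _
      (fun r => (Subring.mem_inf.1 (algebraMap_chartBase_mem_pairBv hw r)).1) hx,
    mem_of_isIntegral_valuationSubring _
      (fun r => (Subring.mem_inf.1 (algebraMap_chartBase_mem_pairBv hw r)).2) hx⟩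

variable (A M b) in
/-- The Gauss ring of the fraction field of a chart, inside the field of level `Mq`. -/
def chartGauss (q : ℕ) [NeZero q] : Subring (FL (M * q) L) :=
  (chartField A b (M * q)).toSubfield.toSubring ⊓
    (gaussFL (IsLocalRing.residue A) (M * q)).toSubring

variable (ι : L →+* ℂ) (hqM : ¬ q ∣ M) (hw : IsALInvolution w)
  (hfd : HasFullResidueDegree (IsLocalRing.ResidueField A) L M)

/-- Integrality transported along a ring homomorphism into a subring. -/
theorem isIntegral_of_isIntegralElem {R F : Type*} [CommRing R] [CommRing F] (S : Subring F)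
    (f : R →+* F) (hf : ∀ r, f r ∈ S) {x : F} (hx : f.IsIntegralElem x) : IsIntegral S x := by
  obtain ⟨p, hp, hpx⟩ := hx
  refine ⟨p.map (f.codRestrict S hf), hp.map _, ?_⟩
  rw [eval₂_map]
  exact hpx

theorem isIntegralElem_map {R F F' : Type*} [CommRing R] [CommRing F] [CommRing F']
    {f : R →+* F} (g : F →+* F') {x : F} (hx : f.IsIntegralElem x) :
    (g.comp f).IsIntegralElem (g x) := by
  obtain ⟨p, hp, hpx⟩ := hx
  exact ⟨p, hp, by rw [← hom_eval₂, hpx, map_zero]⟩

theorem heckeAlpha_gaussJ_mem_chartGauss {c : L⟮jL M L⟯}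
    (hc : c ∈ gaussJ (IsLocalRing.residue A) M) :
    heckeAlphaBar L M q (c : FL M L) ∈ chartGauss A M b q := by
  refine Subring.mem_inf.2 ⟨adjoin_jL_le_chartField (A := A) (b := b) (M * q) ?_, ?_⟩
  · have hmap : (L⟮jL M L⟯).map (heckeAlphaBar L M q) = L⟮jL (M * q) L⟯ := by
      rw [IntermediateField.adjoin_map, Set.image_singleton]
      exact congrArg (fun y => L⟮y⟯) (Subtype.ext rfl)
    rw [← hmap]
    exact ⟨_, c.2, rfl⟩
  · obtain ⟨g, hg⟩ := (mem_gaussFL _).1 hc
    exact (mem_gaussFL _).2 ⟨g, hasGaussRed_alpha _ hg⟩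

include hfd in
theorem isIntegral_heckeAlpha_gaussFL {g : FL M L} (hg : g ∈ gaussFL (IsLocalRing.residue A) M) :
    IsIntegral (chartGauss A M b q) (heckeAlphaBar L M q g) := by
  let G0 := gaussJ (IsLocalRing.residue A) M
  letI : Algebra G0 (FL M L) :=
    ((algebraMap L⟮jL M L⟯ (FL M L)).comp G0.subtype).toAlgebra
  have : IsScalarTower G0 L⟮jL M L⟯ (FL M L) := IsScalarTower.of_algebraMap_eq fun _ => rfl
  have h := isIntegralElem_map (heckeAlphaBar L M q).toRingHom
    (isIntegral_gaussFL (π := IsLocalRing.residue A) IsLocalRing.residue_surjective hfd hg :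
      (algebraMap G0 (FL M L)).IsIntegralElem g)
  exact isIntegral_of_isIntegralElem _ _ (fun c => heckeAlpha_gaussJ_mem_chartGauss c.2) h

attribute [local instance] alphaAlgebra

include ι hqM hw hfd in
/-- An element integral at both vertical primes is integral over the Gauss ring of the chart
field. -/
theorem isIntegral_chartGauss {x : FL (M * q) L} (hx : x ∈ pairBv (IsLocalRing.residue A) w) :
    IsIntegral (chartGauss A M b q) x := by
  let G := gaussFL (IsLocalRing.residue A) M
  letI : Algebra G (FL (M * q) L) :=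
    ((algebraMap (FL M L) (FL (M * q) L)).comp G.subtype).toAlgebra
  have : IsScalarTower G (FL M L) (FL (M * q) L) := IsScalarTower.of_algebraMap_eq fun _ => rfl
  have hxG : (algebraMap G (FL (M * q) L)).IsIntegralElem x :=
    isIntegral_pairBv (IsLocalRing.residue A) ι hqM hw hx
  refine isIntegral_trans (A := integralClosure (chartGauss A M b q) (FL (M * q) L)) x ?_
  exact isIntegral_of_isIntegralElem
    (integralClosure (chartGauss A M b q) (FL (M * q) L)).toSubring _
    (fun g : G => isIntegral_heckeAlpha_gaussFL hfd (SetLike.coe_mem g)) hxG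

include ι hqM hw hfd in
theorem saturated_chartB {ϖ : A} (hϖ : Irreducible ϖ) {x : FL (M * q) L}
    (hx : x ∈ pairBv (IsLocalRing.residue A) w)
    (hπx : chartPi A b ϖ • x ∈ chartB A (M * q) b) : x ∈ chartB A (M * q) b := by
  set K0 := FractionRing (ChartBase A b)
  have := finiteDimensional_chartFieldAlgebra (A := A) (b := b) (M * q) ι
  set c := algebraMap (ChartBase A b) K0 (chartPi A b ϖ)
  have hc0 : c ≠ 0 := (map_ne_zero_iff _ (IsFractionRing.injective _ _)).2
    (prime_chartPi hϖ).ne_zero
  let W : ValuationSubring K0 :=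
    (gaussFL (IsLocalRing.residue A) (M * q)).comap (algebraMap K0 (FL (M * q) L))
  have hxK : IsIntegral K0 x := IsIntegral.of_finite K0 x
  -- `x` is integral over `W`
  have hxW : IsIntegral W x := by
    obtain ⟨p, hp, hpx⟩ := isIntegral_chartGauss (b := b) ι hqM hw hfd hx
    have hl : ∀ g : chartGauss A M b q, ∃ d : W, algebraMap K0 (FL (M * q) L) (d : K0) = g := by
      intro g
      obtain ⟨h1, h2⟩ := Subring.mem_inf.1 g.2
      obtain ⟨d, hd⟩ := (mem_chartField (M * q)).1 h1
      exact ⟨⟨d, show algebraMap K0 (FL (M * q) L) d ∈ gaussFL (IsLocalRing.residue A) (M * q) from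
        hd ▸ h2⟩, hd⟩
    have hlift : p.map (algebraMap (chartGauss A M b q) (FL (M * q) L)) ∈
        Polynomial.lifts (algebraMap W (FL (M * q) L)) := by
      refine (Polynomial.lifts_iff_coeff_lifts _).2 fun i => ?_
      obtain ⟨d, hd⟩ := hl (p.coeff i)
      exact ⟨d, by rw [coeff_map]; exact hd⟩
    obtain ⟨P, hP, -, hPm⟩ := Polynomial.lifts_and_natDegree_eq_and_monic hlift (hp.map _)
    refine ⟨P, hPm, ?_⟩
    rw [← eval_map, hP, eval_map]
    exact hpx
  have hmin : minpoly K0 x = (minpoly W x).map (algebraMap W K0) :=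
    minpoly.isIntegrallyClosed_eq_field_fractions' K0 hxW
  -- the minimal polynomial of `π x`
  set y := chartPi A b ϖ • x with hy
  have hy' : y = algebraMap K0 (FL (M * q) L) c * x := by
    rw [hy, Algebra.smul_def, ← IsScalarTower.algebraMap_apply]
  have hT : scaleRoots (minpoly K0 x) c = minpoly K0 y := by
    refine minpoly.unique K0 y ((monic_scaleRoots_iff c).2 (minpoly.monic hxK)) ?_ fun Q hQ hQy => ?_
    · rw [hy']; exact scaleRoots_aeval_eq_zero (minpoly.aeval K0 x)
    · rw [degree_scaleRoots]
      refine le_trans (minpoly.min K0 x ((monic_scaleRoots_iff c⁻¹).2 hQ) ?_)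
        (le_of_eq (degree_scaleRoots _))
      have h := scaleRoots_aeval_eq_zero (r := c⁻¹) hQy
      rwa [hy', ← mul_assoc, ← map_mul, inv_mul_cancel₀ hc0, map_one, one_mul] at h
  have hyR : minpoly K0 y = (minpoly (ChartBase A b) y).map (algebraMap (ChartBase A b) K0) :=
    minpoly.isIntegrallyClosed_eq_field_fractions' K0 hπx
  -- the coefficients are in the base ring
  have hlift : minpoly K0 x ∈ Polynomial.lifts (algebraMap (ChartBase A b) K0) := by
    refine (Polynomial.lifts_iff_coeff_lifts _).2 fun i => ?_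
    have h1 : algebraMap K0 (FL (M * q) L) ((minpoly K0 x).coeff i) ∈
        gaussFL (IsLocalRing.residue A) (M * q) := by
      rw [hmin, coeff_map]
      exact ((minpoly W x).coeff i).2
    have h2 : (minpoly K0 x).coeff i * c ^ ((minpoly K0 x).natDegree - i) =
        algebraMap (ChartBase A b) K0 ((minpoly (ChartBase A b) y).coeff i) := by
      rw [← coeff_scaleRoots, hT, hyR, coeff_map]
    obtain ⟨g, hg⟩ := (mem_gaussFL _).1 h1
    obtain ⟨r, hr⟩ := mem_range_of_mul_pow (b := b) (M * q) hϖ ((minpoly K0 x).natDegree - i) hg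
      ((minpoly (ChartBase A b) y).coeff i) (by
        rw [IsScalarTower.algebraMap_apply (ChartBase A b) K0 (FL (M * q) L) (chartPi A b ϖ),
          IsScalarTower.algebraMap_apply (ChartBase A b) K0 (FL (M * q) L)
            ((minpoly (ChartBase A b) y).coeff i), ← map_pow, ← map_mul, h2])
    exact ⟨r, (algebraMap K0 (FL (M * q) L)).injective
      (by rw [← IsScalarTower.algebraMap_apply, hr])⟩
  obtain ⟨P, hP, -, hPm⟩ := Polynomial.lifts_and_natDegree_eq_and_monic hlift (minpoly.monic hxK)
  exact ⟨P, hPm, by
    rw [← aeval_def, ← aeval_map_algebraMap K0, hP, minpoly.aeval]⟩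

theorem coe_aeval_chartCoordK (p : (IsLocalRing.ResidueField A)[X]) (e : ℕ) :
    ((aeval (chartCoordK (IsLocalRing.ResidueField A) M b ^ e) p :
        modularFunctionFieldFullC (IsLocalRing.ResidueField A) M) :
      LaurentSeries (IsLocalRing.ResidueField A)) =
      aeval (chartCoordRed (IsLocalRing.ResidueField A) b ^ e) p := by
  rw [← coe_chartCoordK _ M b, ← IntermediateField.coe_pow,
    ← IntermediateField.coe_val, ← aeval_algHom_apply]

theorem pairRd_algebraMap_chartBase (r : ChartBase A b)
    (h : algebraMap (ChartBase A b) (FL (M * q) L) r ∈ pairBv (IsLocalRing.residue A) w) :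
    pairRd A ι hqM hw hfd ⟨_, h⟩ = chartIncl (IsLocalRing.ResidueField A) q M b
      (algebraMap (IsLocalRing.ResidueField A)[X] _ (chartRed A b r)) := by
  set k := IsLocalRing.ResidueField A
  set t : chartP k M q b := ⟨_, chartCoordK_mem k q M b⟩
  show _ = chartIncl k q M b (aeval (R := k) ((t, t ^ q) : chartP k M q b × chartP k M q b)
    (chartRed A b r))
  rw [aeval_prod_apply]
  refine Prod.ext (Subtype.ext ?_) (Subtype.ext ?_)
  · rw [coe_pairRd_fst]
    refine (hasGaussRed_pairRed1 _ w _).unique ?_
    rw [show ((chartIncl k q M b (aeval t (chartRed A b r), aeval (t ^ q) (chartRed A b r))).1) =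
      aeval (chartCoordK k M b ^ 1) (chartRed A b r) by
        rw [pow_one]; exact (aeval_algHom_apply (chartP k M q b).val t _).symm,
      coe_aeval_chartCoordK, pow_one]
    exact hasGaussRed_algebraMap_chartBase (M * q) r
  · rw [coe_pairRd_snd]
    refine (hasGaussRed_pairRed2 _ w _).unique ?_
    rw [show ((chartIncl k q M b (aeval t (chartRed A b r), aeval (t ^ q) (chartRed A b r))).2) =
      aeval (chartCoordK k M b ^ q) (chartRed A b r) from
        (aeval_algHom_apply (chartP k M q b).val (t ^ q) _).symm,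
      coe_aeval_chartCoordK]
    exact hasGaussRed_w_algebraMap_chartBase hw r

/-- Both residues of an element integral over the chart lie in the affine ring of the fibre. -/
theorem pairRd_mem_range (x : pairBv (IsLocalRing.residue A) w)
    (hx : (x : FL (M * q) L) ∈ chartB A (M * q) b) :
    pairRd A ι hqM hw hfd x ∈ (chartIncl (IsLocalRing.ResidueField A) q M b).range := by
  set k := IsLocalRing.ResidueField A
  obtain ⟨p, hp, hpx⟩ := hx
  let e : ChartBase A b →+* pairBv (IsLocalRing.residue A) w :=
    (algebraMap (ChartBase A b) (FL (M * q) L)).codRestrict _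
      fun r => algebraMap_chartBase_mem_pairBv hw r
  have h0 : p.eval₂ e x = 0 := by
    refine Subtype.val_injective ?_
    show (pairBv (IsLocalRing.residue A) w).subtype _ = _
    rw [hom_eval₂]
    exact hpx
  have key : ∀ pr : (modularFunctionFieldFullC k M × modularFunctionFieldFullC k M) →+*
      modularFunctionFieldFullC k M,
      (∀ r : ChartBase A b, pr (pairRd A ι hqM hw hfd (e r)) ∈ Algebra.adjoin k
        ({chartCoordK k M b} : Set (modularFunctionFieldFullC k M))) →
      pr (pairRd A ι hqM hw hfd x) ∈ chartP k M q b := by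
    intro pr hpr
    let f : ChartBase A b →+* Algebra.adjoin k
        ({chartCoordK k M b} : Set (modularFunctionFieldFullC k M)) :=
      ((pr.comp ((pairRd A ι hqM hw hfd).comp e))).codRestrict
        (Algebra.adjoin k ({chartCoordK k M b} : Set (modularFunctionFieldFullC k M))).toSubring hpr
    rw [mem_chartP]
    refine ⟨p.map f, hp.map f, ?_⟩
    have h1 := congrArg (pr.comp (pairRd A ι hqM hw hfd)) h0
    rw [map_zero, hom_eval₂] at h1
    rw [eval₂_map]
    exact h1
  have hmem : ∀ n : ℕ, ∀ s : k[X], aeval (chartCoordK k M b ^ n) s ∈ Algebra.adjoin k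
      ({chartCoordK k M b} : Set (modularFunctionFieldFullC k M)) := fun n s => by
    have := (Algebra.adjoin k ({chartCoordK k M b} : Set (modularFunctionFieldFullC k M)))
    rw [show aeval (chartCoordK k M b ^ n) s = aeval (chartCoordK k M b) (expand k n s) from
      (expand_aeval n s _).symm]
    exact aeval_mem_adjoin_singleton k _
  have hr : ∀ r : ChartBase A b, pairRd A ι hqM hw hfd (e r) = chartIncl k q M b
      (algebraMap k[X] _ (chartRed A b r)) :=
    fun r => pairRd_algebraMap_chartBase ι hqM hw hfd r _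
  refine ⟨(⟨_, key (RingHom.fst _ _) fun r => ?_⟩, ⟨_, key (RingHom.snd _ _) fun r => ?_⟩), rfl⟩
  · rw [hr]
    show ((chartP k M q b).val (aeval (R := k) (_ : chartP k M q b × chartP k M q b) _).1) ∈ _
    rw [aeval_prod_apply, ← aeval_algHom_apply, ← pow_one ((chartP k M q b).val _)]
    exact hmem 1 _
  · rw [hr]
    show ((chartP k M q b).val (aeval (R := k) (_ : chartP k M q b × chartP k M q b) _).2) ∈ _
    rw [aeval_prod_apply, ← aeval_algHom_apply, map_pow]
    exact hmem q _

variable (ϖ : A) (hϖ : Irreducible ϖ)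

/-- A chart of the two-component model. -/
def gaussChart (b : Bool) :
    Chart (gaussVertical A ι hqM hw hfd ϖ hϖ) (ChartBase A b) (IsLocalRing.ResidueField A)
      (chartP (IsLocalRing.ResidueField A) M q b × chartP (IsLocalRing.ResidueField A) M q b) where
  red := chartRed A b
  red_surjective := chartRed_surjective
  π := chartPi A b ϖ
  algebraMap_π := algebraMap_chartPi (M * q) ϖ
  prime_π := prime_chartPi hϖ
  red_eq_zero := chartRed_eq_zero hϖ
  isUnit_one_add := isUnit_one_add_chartPi hϖ
  algebraMap_injective := algebraMap_chartBase_injective (M * q)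
  B := chartB A (M * q) b
  B_le _ hx := mem_pairBv_of_isIntegral hw hx
  rootClosed x m hm hx := IsIntegral.of_pow (Nat.pos_of_ne_zero hm) hx
  saturated x hx hπx := saturated_chartB ι hqM hw hfd hϖ hx hπx
  exists_mul_mem := exists_mul_mem_chartB (M * q) ι
  finite_B := finite_chartB (M * q) ι
  ι := chartIncl (IsLocalRing.ResidueField A) q M b
  ι_injective x y h :=
    Prod.ext (Subtype.ext (congrArg Prod.fst h)) (Subtype.ext (congrArg Prod.snd h))
  ι_rootClosed := by
    rintro y m hm ⟨z, hz⟩
    exact ⟨(⟨y.1, IsIntegral.of_pow (Nat.pos_of_ne_zero hm)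
        (show IsIntegral _ ((y ^ m).1) from hz ▸ z.1.2)⟩,
      ⟨y.2, IsIntegral.of_pow (Nat.pos_of_ne_zero hm)
        (show IsIntegral _ ((y ^ m).2) from hz ▸ z.2.2)⟩), rfl⟩
  rd_algebraMap r := pairRd_algebraMap_chartBase ι hqM hw hfd r _
  rd_mem x hx := pairRd_mem_range ι hqM hw hfd x hx

end Fermat.Agent.BadPrime
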