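import Fermat.Agent.BadPrime.GaussTwoBasic
import Fermat.Agent.EichlerShimura.LaurentDescent
import Fermat.Agent.Reduction.Series

/-!
# Descent of Gauss reductions along an extension of the constants

If a combination over `Lb` of elements `yᵢ` of the function field over `L` reduces to a series
`b` over the residue field `k` of `L`, then so does a combination over `L`.
-/

set_option autoImplicit false
set_option synthInstance.maxHeartbeats 400000

noncomputable section

open ModularCurve

namespace Fermat.Agent.BadPrime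

open Fermat.Agent.Reduction Fermat.Agent.Modular
open Fermat.Agent.EichlerShimura (coeffApply coeffApply_coeff coeffApply_coeffMap_mul)

variable {L Lb k kb : Type*} [Field L] [Field Lb] [Field k] [Field kb] {AL : ValuationSubring L}
  {A : ValuationSubring Lb} {πL : AL →+* k} {π : A →+* kb} {ι : L →+* Lb} {κ : k →+* kb}

/-- A compatible extension of constants commutes with Gauss reduction. -/
theorem HasGaussRed.map_coeff (hA : ∀ a, a ∈ AL → ι a ∈ A)
    (hκ : ∀ a : AL, π ⟨ι a, hA a a.2⟩ = κ (πL a)) {f : LaurentSeries L} {g : LaurentSeries k}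
    (h : HasGaussRed πL f g) : HasGaussRed π (coeffMap ι f) (coeffMap κ g) := by
  obtain ⟨a, b, hb, e₁, e₂⟩ := h
  let ιA : AL →+* A := (ι.comp AL.subtype).codRestrict A.toSubring fun x => hA x x.2
  have h₁ : ∀ z : LaurentSeries AL, coeffMap A.subtype (coeffMap ιA z) =
      coeffMap ι (coeffMap AL.subtype z) := fun z => by
    rw [coeffMap_coeffMap, coeffMap_coeffMap]; rfl
  have h₂ : ∀ z : LaurentSeries AL, coeffMap π (coeffMap ιA z) = coeffMap κ (coeffMap πL z) :=
    fun z => by
      rw [coeffMap_coeffMap, coeffMap_coeffMap]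
      exact coeffMap_congr (RingHom.ext hκ) z
  refine ⟨coeffMap ιA a, coeffMap ιA b, ?_, by rw [h₁, h₁, ← map_mul, e₁],
    by rw [h₂, h₂, ← map_mul, e₂]⟩
  rw [h₂]
  intro h0
  exact hb (HahnSeries.ext (funext fun i => κ.injective (by
    simpa using congrArg (fun z : LaurentSeries kb => z.coeff i) h0)))

theorem coeffApply_sum {R S : Type*} [AddCommMonoid R] [AddCommMonoid S] (φ : R →+ S)
    {α : Type*} (s : Finset α) (x : α → HahnSeries ℤ R) :
    coeffApply φ (∑ a ∈ s, x a) = ∑ a ∈ s, coeffApply φ (x a) := by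
  classical
  induction s using Finset.induction_on with
  | empty =>
    ext n
    simp [coeffApply_coeff]
  | insert a s ha ih =>
    rw [Finset.sum_insert ha, Finset.sum_insert ha, EichlerShimura.coeffApply_add, ih]

theorem coeffApply_C (φ : kb →+ k) (c : kb) :
    coeffApply φ (HahnSeries.C c : LaurentSeries kb) = HahnSeries.C (φ c) := by
  ext n
  rw [coeffApply_coeff, HahnSeries.C_apply, HahnSeries.C_apply, HahnSeries.coeff_single,
    HahnSeries.coeff_single, apply_ite φ, map_zero]

/-- Series over `k` independent over `k` stay independent over an extension of `k`. -/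
theorem indep_coeffMap {α : Type*} [Fintype α] (κ : k →+* kb) {g : α → LaurentSeries k}
    (hg : ∀ a : α → k, ∑ i, HahnSeries.C (a i) * g i = 0 → a = 0) (a : α → kb)
    (h : ∑ i, HahnSeries.C (a i) * coeffMap κ (g i) = 0) : a = 0 := by
  classical
  let := κ.toAlgebra
  funext i
  refine (Module.forall_dual_apply_eq_zero_iff k (a i)).1 fun φ => congrFun (hg (fun j => φ (a j)) ?_) i
  have h2 := congrArg (coeffApply φ.toAddMonoidHom) h
  rw [coeffApply_sum] at h2
  have h0 : coeffApply φ.toAddMonoidHom (0 : LaurentSeries kb) = 0 := by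
    ext n; simp [coeffApply_coeff]
  rw [h0] at h2
  rw [← h2]
  refine Finset.sum_congr rfl fun j _ => ?_
  rw [mul_comm (HahnSeries.C (a j)), coeffApply_coeffMap_mul κ _ (fun c l => ?_), coeffApply_C,
    mul_comm]
  · rfl
  · show φ (c • l) = c * φ l
    rw [map_smul, smul_eq_mul]

variable [Algebra ℚ L] [Algebra.IsAlgebraic ℚ L] [IsLocalHom π] [IsLocalHom πL]

/-- Descent of a lift of `b`. -/
theorem exists_combination_hasGaussRed (hA : ∀ a, a ∈ AL → ι a ∈ A)
    (hκ : ∀ a : AL, π ⟨ι a, hA a a.2⟩ = κ (πL a)) (hπL : Function.Surjective πL) {M : ℕ}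
    {n : ℕ} (y : Fin n → LaurentSeries L) (hy : ∀ i, y i ∈ FL M L) (d : Fin n → Lb)
    {b : LaurentSeries k}
    (hb : HasGaussRed π (∑ i, HahnSeries.C (d i) * coeffMap ι (y i)) (coeffMap κ b)) :
    ∃ c : Fin n → L, HasGaussRed πL (∑ i, HahnSeries.C (c i) * y i) b := by
  classical
  have hgen := laurentBaseChange_full_eq_adjoin L M
  have hle : ∀ x ∈ Algebra.adjoin L (levelGens L M), x ∈ FL M L := fun x hx => by
    rw [FL, hgen]
    exact IntermediateField.algebra_adjoin_le_adjoin L _ hx
  have hfrac : ∀ i, ∃ r s : LaurentSeries L, r ∈ Algebra.adjoin L (levelGens L M) ∧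
      s ∈ Algebra.adjoin L (levelGens L M) ∧ s ≠ 0 ∧ y i * s = r := by
    intro i
    rcases eq_or_ne (y i) 0 with h0 | h0
    · exact ⟨0, 1, zero_mem _, one_mem _, one_ne_zero, by rw [h0, zero_mul]⟩
    have hy' : y i ∈ IntermediateField.adjoin L (levelGens L M) := hgen ▸ hy i
    obtain ⟨r, hr, s, hs, e⟩ := IntermediateField.mem_adjoin_iff_div.1 hy'
    have hs0 : s ≠ 0 := fun h => h0 (by rw [e, h, div_zero])
    exact ⟨r, s, hr, hs, hs0, by rw [e, div_mul_cancel₀ _ hs0]⟩
  choose r s hr hs hs0 hrs using hfrac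
  set S : LaurentSeries L := ∏ i, s i with hS
  have hS0 : S ≠ 0 := Finset.prod_ne_zero_iff.2 fun i _ => hs0 i
  have hSmem : S ∈ Algebra.adjoin L (levelGens L M) := Subalgebra.prod_mem _ fun i _ => hs i
  have hySmem : ∀ i, y i * S ∈ Algebra.adjoin L (levelGens L M) := fun i => by
    rw [hS, ← Finset.mul_prod_erase _ _ (Finset.mem_univ i), ← mul_assoc, hrs i]
    exact mul_mem (hr i) (Subalgebra.prod_mem _ fun j _ => hs j)
  obtain ⟨c₀, hc₀, s', hs', hs'π⟩ := isScalable_of_bounded (π := πL) (A := AL) (hle _ hSmem)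
    (isBoundedSeries_of_mem_adjoin hSmem) hS0
  set S' : LaurentSeries L := HahnSeries.C c₀ * S with hS'
  have hS'0 : S' ≠ 0 :=
    mul_ne_zero (fun h => hc₀ (HahnSeries.C_injective (h.trans (map_zero _).symm))) hS0
  let yS : Fin n → FL M L := fun i => ⟨y i * S, hle _ (hySmem i)⟩
  set V : Submodule L (FL M L) := Submodule.span L (Set.range yS) with hV
  haveI : FiniteDimensional L V := FiniteDimensional.span_of_finite L (Set.finite_range yS)
  have hVmem : ∀ f ∈ V, (f : LaurentSeries L) ∈ Algebra.adjoin L (levelGens L M) ∧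
      ∃ c : Fin n → L, (f : LaurentSeries L) = ∑ i, HahnSeries.C (c i) * (y i * S) := by
    intro f hf
    obtain ⟨c, hc⟩ := (Submodule.mem_span_range_iff_exists_fun L).1 hf
    have e : (f : LaurentSeries L) = ∑ i, HahnSeries.C (c i) * (y i * S) := by
      rw [← hc, AddSubmonoidClass.coe_finsetSum]
      exact Finset.sum_congr rfl fun i _ => coeff_algebra_smul _ _ _
    refine ⟨?_, c, e⟩
    rw [e]
    refine Subalgebra.sum_mem _ fun i _ => mul_mem ?_ (hySmem i)
    rw [C_eq_algebraMap]
    exact Subalgebra.algebraMap_mem _ _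
  obtain ⟨v, z, hv, hvz, hind⟩ := exists_basis_indepReduction (A := AL) (π := πL) V fun f hf hf0 =>
    isScalable_of_bounded f.2 (isBoundedSeries_of_mem_adjoin (hVmem f hf).1)
      fun h => hf0 (Subtype.ext h)
  -- the normalised family
  set w : Fin (Module.finrank L V) → LaurentSeries L := fun j => (v j : LaurentSeries L) / S' with hw
  set g : Fin (Module.finrank L V) → LaurentSeries k := fun j =>
    coeffMap πL (z j) / coeffMap πL s' with hg
  have hwg : ∀ j, HasGaussRed πL (w j) (g j) := fun j =>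
    ⟨z j, s', hs'π, by rw [hs', hvz j]; exact div_mul_cancel₀ _ hS'0, div_mul_cancel₀ _ hs'π⟩
  have hgind : ∀ a : Fin (Module.finrank L V) → k, ∑ j, HahnSeries.C (a j) * g j = 0 → a = 0 := by
    intro a ha
    refine hind a ?_
    have := congrArg (fun x => x * coeffMap πL s') ha
    simp only [Finset.sum_mul, zero_mul, hg, mul_assoc, div_mul_cancel₀ _ hs'π] at this
    exact this
  -- `y` in terms of `w` and conversely
  let v' : Fin (Module.finrank L V) → V := fun j => ⟨v j, hv j⟩
  have hli : LinearIndependent L v' := Fintype.linearIndependent_iff.2 fun a ha j => by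
    refine congrFun (eq_zero_of_indep hind a ?_) j
    have h1 : ∑ l, a l • v l = (0 : FL M L) := by
      have := congrArg (fun x : V => (x : FL M L)) ha
      simp only [v', Submodule.coe_sum, Submodule.coe_smul, Submodule.coe_zero] at this
      exact this
    rw [← ZeroMemClass.coe_zero (FL M L), ← h1, AddSubmonoidClass.coe_finsetSum]
    simp only [coeff_algebra_smul, hvz]
  have hspan := hli.span_eq_top_of_card_eq_finrank' (Fintype.card_fin _)
  have hyw : ∀ i, ∃ a : Fin (Module.finrank L V) → L, y i = ∑ j, HahnSeries.C (a j) * w j := by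
    intro i
    have hmem : (⟨yS i, Submodule.subset_span ⟨i, rfl⟩⟩ : V) ∈ Submodule.span L (Set.range v') :=
      hspan ▸ Submodule.mem_top
    obtain ⟨a, ha⟩ := (Submodule.mem_span_range_iff_exists_fun L).1 hmem
    have ha' := congrArg (fun x : V => ((x : FL M L) : LaurentSeries L)) ha
    simp only [v', Submodule.coe_sum, Submodule.coe_smul, AddSubmonoidClass.coe_finsetSum,
      coeff_algebra_smul, yS] at ha'
    refine ⟨fun j => c₀ * a j, mul_right_cancel₀ hS'0 ?_⟩
    simp only [Finset.sum_mul, hw, map_mul, mul_assoc, div_mul_cancel₀ _ hS'0]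
    rw [← Finset.mul_sum, ha', hS']
    ring
  choose a ha using hyw
  have hwy : ∀ j, ∃ c : Fin n → L, w j = ∑ i, HahnSeries.C (c i) * y i := by
    intro j
    obtain ⟨c, hc⟩ := (hVmem _ (hv j)).2
    refine ⟨fun i => c₀⁻¹ * c i, mul_right_cancel₀ hS'0 ?_⟩
    rw [hw]
    simp only [Finset.sum_mul, div_mul_cancel₀ _ hS'0]
    rw [hc]
    refine Finset.sum_congr rfl fun i _ => ?_
    have e1 : HahnSeries.C c₀⁻¹ * HahnSeries.C c₀ = (1 : LaurentSeries L) := by
      rw [← map_mul, inv_mul_cancel₀ hc₀, map_one]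
    rw [map_mul, hS']
    linear_combination (-(HahnSeries.C (c i) * y i * S)) * e1
  choose c hc using hwy
  -- the coefficients over `Lb` are integral
  set e : Fin (Module.finrank L V) → Lb := fun j => ∑ i, d i * ι (a i j) with he
  have hx : ∑ i, HahnSeries.C (d i) * coeffMap ι (y i) =
      ∑ j, HahnSeries.C (e j) * coeffMap ι (w j) := by
    simp only [he, ha, map_sum, map_mul, Finset.mul_sum, Finset.sum_mul, mul_assoc]
    rw [Finset.sum_comm]
    simp [HahnSeries.C_apply]
  rw [hx] at hb
  have hwg' := fun j => (hwg j).map_coeff hA hκ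
  have heA : ∀ j, e j ∈ A := hb.coeff_mem hwg' (indep_coeffMap κ hgind)
  have hred : coeffMap κ b = ∑ j, HahnSeries.C (π ⟨e j, heA j⟩) * coeffMap κ (g j) := by
    refine hb.unique ?_
    generalize (Finset.univ : Finset (Fin (Module.finrank L V))) = t
    induction t using Finset.induction_on with
    | empty => simpa using hasGaussRed_zero
    | insert j t hj ih =>
      rw [Finset.sum_insert hj, Finset.sum_insert hj]
      exact ((hasGaussRed_C (π := π) ⟨e j, heA j⟩).mul (hwg' j)).add ih
  -- a retraction of `κ`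
  let := κ.toAlgebra
  obtain ⟨φ, hφ⟩ : ∃ φ : kb →ₗ[k] k, φ 1 = 1 := by
    obtain ⟨φ, hφ⟩ : ∃ φ : kb →ₗ[k] k, φ 1 ≠ 0 := by
      by_contra hno
      push Not at hno
      exact one_ne_zero ((Module.forall_dual_apply_eq_zero_iff k (1 : kb)).1 hno)
    exact ⟨(φ 1)⁻¹ • φ, by simp [hφ]⟩
  have hlin : ∀ (l : k) (m : kb), φ.toAddMonoidHom (κ l * m) = l * φ.toAddMonoidHom m := fun l m => by
    show φ (l • m) = l * φ m
    rw [map_smul, smul_eq_mul]
  have hbsum : b = ∑ j, HahnSeries.C (φ (π ⟨e j, heA j⟩)) * g j := by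
    have h2 := congrArg (coeffApply φ.toAddMonoidHom) hred
    rw [coeffApply_sum, ← mul_one (coeffMap κ b), coeffApply_coeffMap_mul κ _ hlin,
      ← map_one (HahnSeries.C (Γ := ℤ) (R := kb)), coeffApply_C] at h2
    simp only [LinearMap.toAddMonoidHom_coe, hφ, map_one, mul_one] at h2
    rw [h2]
    refine Finset.sum_congr rfl fun j _ => ?_
    rw [mul_comm, coeffApply_coeffMap_mul κ _ hlin, coeffApply_C, mul_comm]
    rfl
  choose p hp using fun j => hπL (φ (π ⟨e j, heA j⟩))
  refine ⟨fun i => ∑ j, (p j : L) * c j i, ?_⟩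
  have : ∑ i, HahnSeries.C (∑ j, (p j : L) * c j i) * y i =
      ∑ j, HahnSeries.C (p j : L) * w j := by
    simp only [hc, map_sum, map_mul, Finset.mul_sum, Finset.sum_mul, mul_assoc]
    rw [Finset.sum_comm]
  rw [this, hbsum]
  simp only [← hp]
  generalize (Finset.univ : Finset (Fin (Module.finrank L V))) = t
  induction t using Finset.induction_on with
  | empty => simpa using hasGaussRed_zero
  | insert j t hj ih =>
    rw [Finset.sum_insert hj, Finset.sum_insert hj]
    exact ((hasGaussRed_C (π := πL) (p j)).mul (hwg j)).add ih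

end Fermat.Agent.BadPrime
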