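import Fermat.Agent.BadPrime.GaussTwo
import Mathlib.RingTheory.Norm.Defs
import Mathlib.LinearAlgebra.Matrix.Block

/-!
# The residue of the norm from level `Mq` to level `M`

If `f` has residues `g₁`, `g₂` at the two vertical components, its norm has residue
`g₁ * g₂^σ`, with `σ` the Frobenius twist of the coefficients.
-/

set_option autoImplicit false
set_option synthInstance.maxHeartbeats 400000
set_option linter.unusedSectionVars false

noncomputable section

open ModularCurve IntermediateField
open scoped IntermediateField Matrix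

namespace Fermat.Agent.BadPrime

open Fermat.Agent.Reduction Fermat.Agent.Modular

section Matrix

variable {k : Type*} [Field k] {q : ℕ} [Fact q.Prime] [CharP k q]

/-- A matrix representing, on the powers of `t`, the multiplication by `g` over the dilated series
has determinant the Frobenius twist of `g`. -/
theorem det_eq_frobTwist {t g : LaurentSeries k} (ht : t ≠ 0) (hord : t.order = -1)
    (N : Matrix (Fin q) (Fin q) (LaurentSeries k))
    (h : ∀ j, ∑ i, ModularCurve.qExpand k q (N i j) * t ^ (i : ℕ) = g * t ^ (j : ℕ)) :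
    N.det = frobTwist (q := q) g := by
  classical
  have : CharP (LaurentSeries k) q :=
    charP_of_injective_algebraMap (algebraMap k (LaurentSeries k)).injective q
  let Φ : (Fin q → LaurentSeries k) → LaurentSeries k := fun v =>
    ∑ i, ModularCurve.qExpand k q (v i) * t ^ (i : ℕ)
  have hΦ : ∀ v, Φ (N *ᵥ v) = g * Φ v := by
    intro v
    simp only [Φ, Matrix.mulVec, dotProduct, map_sum, map_mul, Finset.sum_mul, Finset.mul_sum]
    rw [Finset.sum_comm]
    refine Finset.sum_congr rfl fun j _ => ?_
    rw [show g * (ModularCurve.qExpand k q (v j) * t ^ (j : ℕ)) =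
      ModularCurve.qExpand k q (v j) * (g * t ^ (j : ℕ)) by ring, ← h j, Finset.mul_sum]
    exact Finset.sum_congr rfl fun i _ => by ring
  have hpow : ∀ n : ℕ, ∀ v, Φ ((N ^ n) *ᵥ v) = g ^ n * Φ v := by
    intro n
    induction n with
    | zero => intro v; simp
    | succ n ih =>
      intro v
      rw [pow_succ', ← Matrix.mulVec_mulVec, hΦ, ih, pow_succ']
      ring
  have hinj : ∀ v w, Φ v = Φ w → v = w := fun v w hvw => sub_eq_zero.1
    (eq_zero_of_sum_qExpand_mul_pow ht hord (v - w) (by
      simp only [Pi.sub_apply, map_sub, sub_mul, Finset.sum_sub_distrib]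
      exact sub_eq_zero.2 hvw))
  have hNq : N ^ q = Matrix.scalar (Fin q) (frobTwist (q := q) g) := by
    refine Matrix.ext_of_mulVec_single fun j => hinj _ _ ?_
    rw [hpow, ← qExpand_frobTwist]
    simp only [Φ, Finset.mul_sum, Matrix.scalar_apply, Matrix.mulVec_single_one, Matrix.col_apply,
      Matrix.diagonal_apply]
    refine Finset.sum_congr rfl fun i _ => ?_
    rcases eq_or_ne i j with rfl | hij
    · simp
    · simp [hij]
  apply frobenius_inj (LaurentSeries k) q
  rw [frobenius_def, frobenius_def, ← Matrix.det_pow, hNq, Matrix.scalar_apply, Matrix.det_diagonal,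
    Finset.prod_const, Finset.card_univ, Fintype.card_fin]

end Matrix

variable {L k : Type*} [Field L] [Field k] [Algebra ℚ L] [Algebra.IsAlgebraic ℚ L]
  {A : ValuationSubring L} (π : A →+* k) [IsLocalHom π]
  {q : ℕ} [Fact q.Prime] [CharP k q] {M : ℕ} [NeZero M]
  {w : FL (M * q) L →ₐ[L] FL (M * q) L}

attribute [local instance] alphaAlgebra

/-- The residue of the norm. -/
theorem hasGaussRed_norm_pairBv (ι : L →+* ℂ) (hqM : ¬ q ∣ M) (hw : IsALInvolution w)
    (f : pairBv π w) :
    HasGaussRed π ((Algebra.norm (FL M L) (f : FL (M * q) L) : FL M L) : LaurentSeries L)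
      (pairRed1 π w f * frobTwist (q := q) (pairRed2 π w f)) := by
  classical
  have := finiteDimensional_alphaAlgebra (L := L) ι hqM
  have hcard : Fintype.card (Option (Fin q)) = Module.finrank (FL M L) (FL (M * q) L) := by
    rw [Fintype.card_option, Fintype.card_fin, finrank_alphaAlgebra ι hqM]
  let b := basisOfLinearIndependentOfCardEqFinrank
    (linearIndependent_of_jointlyIndependent (pairBasis_jointlyIndependent π hw)) hcard
  have hb : ∀ i, b i = pairBasis L q M i := fun i => by
    simp [b]
  have hy : ∀ j, (f : FL (M * q) L) * pairBasis L q M j ∈ pairBv π w := fun j =>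
    mul_mem f.2 ((forall_mem_pairV π).1 fun b => pairBasis_mem π hw j b)
  choose c hc hsum using fun j => exists_coeff_pairBv π ι hqM hw (hy j)
  have hmat : Algebra.leftMulMatrix b (f : FL (M * q) L) = Matrix.of fun i j => c j i := by
    ext i j
    rw [Algebra.leftMulMatrix_eq_repr_mul, Matrix.of_apply, hb, ← hsum j]
    rw [show ∑ i, algebraMap (FL M L) (FL (M * q) L) (c j i) * pairBasis L q M i =
      ∑ i, c j i • b i by simp only [Algebra.smul_def, hb], b.repr_sum_self]
  let G := gaussFL π M
  let ρ := gaussRed π (FL M L) (exists_scalable_quotient A π M)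
  let C : Matrix (Option (Fin q)) (Option (Fin q)) G := Matrix.of fun i j => ⟨c j i, hc j i⟩
  let R : Matrix (Option (Fin q)) (Option (Fin q)) (LaurentSeries k) := C.map ρ
  have hnorm : Algebra.norm (FL M L) (f : FL (M * q) L) = ((C.det : G) : FL M L) := by
    rw [Algebra.norm_eq_matrix_det b, hmat]
    exact (G.subtype.map_det C).symm
  have hcol : ∀ j, R none j * pairDelta k q =
      pairRed1 π w f * j.elim (pairDelta k q) (fun _ => 0) ∧
      (∑ i, ModularCurve.qExpand k q (R (some i) j) * jqModC k ^ (i : ℕ)) * pairDelta k q =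
      pairRed2 π w f * j.elim 0 (fun i => jqModC k ^ (i : ℕ) * pairDelta k q) := by
    intro j
    obtain ⟨h1, h2⟩ := hasGaussRed_sum_pairBasis π hw (c := c j) (g := fun i => R i j)
      fun i => hasGaussRed_gaussRed π (FL M L) (exists_scalable_quotient A π M) ⟨c j i, hc j i⟩
    rw [hsum j, IntermediateField.coe_mul] at h1
    rw [hsum j, map_mul, IntermediateField.coe_mul] at h2
    exact ⟨h1.unique ((hasGaussRed_pairRed1 π w f).mul (hasGaussRed_pairBasis π j)),
      h2.unique ((hasGaussRed_pairRed2 π w f).mul (hasGaussRed_w_pairBasis π hw j))⟩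
  have hδ := pairDelta_ne_zero (k := k) (q := q)
  have h00 : R none none = pairRed1 π w f := mul_right_cancel₀ hδ (hcol none).1
  have h0j : ∀ j, R none (some j) = 0 := fun j => by
    simpa [hδ] using (hcol (some j)).1
  have hi0 : ∀ i, R (some i) none = 0 := by
    intro i
    have h := (hcol none).2
    simp only [Option.elim_none, mul_zero, mul_eq_zero, hδ, or_false] at h
    exact congrFun (eq_zero_of_sum_qExpand_mul_pow (jqModC_ne_zero_of_nontrivial k) order_jqModC
      _ h) i
  let N : Matrix (Fin q) (Fin q) (LaurentSeries k) := Matrix.of fun i j => R (some i) (some j)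
  have hN : N.det = frobTwist (q := q) (pairRed2 π w f) := by
    refine det_eq_frobTwist (jqModC_ne_zero_of_nontrivial k) order_jqModC N fun j => ?_
    refine mul_right_cancel₀ hδ ?_
    rw [mul_assoc (pairRed2 π w f)]
    exact (hcol (some j)).2
  have hR : R.det = pairRed1 π w f * frobTwist (q := q) (pairRed2 π w f) := by
    have he : R.submatrix (Equiv.optionEquivSumPUnit (Fin q)).symm
        (Equiv.optionEquivSumPUnit (Fin q)).symm =
        Matrix.fromBlocks N 0 0 (Matrix.of fun _ _ : PUnit.{1} => R none none) := by
      ext (i | i) (j | j) <;> simp [N, h0j, hi0]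
    rw [← Matrix.det_submatrix_equiv_self (Equiv.optionEquivSumPUnit (Fin q)).symm R, he,
      Matrix.det_fromBlocks_zero₂₁, hN, Matrix.det_unique (n := PUnit.{1}), Matrix.of_apply, h00,
      mul_comm]
  rw [hnorm, ← hR, show R.det = ρ C.det from (ρ.map_det C).symm]
  exact hasGaussRed_gaussRed π (FL M L) (exists_scalable_quotient A π M) C.det

end Fermat.Agent.BadPrime
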