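import Fermat.Prelude.Def_ModularCurve_ArithmeticGalois
import Fermat.Prelude.Def_ModularCurve_HeckeOperator
import Fermat.Prelude.Def_EllipticCurve_FrobeniusTrace

/-!
# The two geometric statements at a prime exactly dividing the level

These are the only facts about the bad reduction of `X₀(Mq)`, `q ∤ M`, used for the local
behaviour at `q` of the Galois representations (S34, S35).
-/

set_option autoImplicit false

open ModularCurve AlgebraicCurve

namespace Fermat.Agent.BadPrime

/-- Inertia at a place over `q` acts on the prime-to-`q` torsion of `J₀(Mq)` by unipotents of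
level two. -/
def InertiaUnipotentTorsion (M q : ℕ) : Prop :=
  ∀ A : ValuationSubring (AlgebraicClosure ℚ), A.LiesOverPrime q →
    ∀ σ ∈ A.inertiaSubgroupIn ℚ, ∀ n : ℕ, ¬ q ∣ n → ∀ x : JZero (M * q), n • x = 0 →
      σ • (σ • x - x) = σ • x - x

/-- On prime-to-`q` torsion classes killed by both degeneracy pushforwards to level `M`, the
square `F` of a Frobenius satisfies `(F - 1)(F - q²) = 0`. -/
def FrobeniusSqTorsion (M q : ℕ) [NeZero M] [NeZero q] : Prop :=
  ∀ A : ValuationSubring (AlgebraicClosure ℚ), A.LiesOverPrime q →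
    ∀ φ : AlgebraicClosure ℚ ≃ₐ[ℚ] AlgebraicClosure ℚ, A.IsFrobeniusAt φ q →
      ∀ n : ℕ, ¬ q ∣ n →
      ∀ (hα : (heckeAlphaBar (AlgebraicClosure ℚ) M q).toRingHom.IsIntegral)
        (hβ : (heckeBetaBar (AlgebraicClosure ℚ) M q).toRingHom.IsIntegral)
        (D : Divisor.degZero (K := AlgebraicClosure ℚ) (F := modularFunctionFieldBar (M * q))),
        n • (Pic0.mk D : JZero (M * q)) = 0 →
        Divisor.pushforwardAlong (heckeAlphaBar (AlgebraicClosure ℚ) M q) hα
            (D : Divisor (AlgebraicClosure ℚ) (modularFunctionFieldBar (M * q))) ∈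
          Divisor.principal (K := AlgebraicClosure ℚ) (F := modularFunctionFieldBar M) →
        Divisor.pushforwardAlong (heckeBetaBar (AlgebraicClosure ℚ) M q) hβ
            (D : Divisor (AlgebraicClosure ℚ) (modularFunctionFieldBar (M * q))) ∈
          Divisor.principal (K := AlgebraicClosure ℚ) (F := modularFunctionFieldBar M) →
        φ • (φ • (φ • (φ • (Pic0.mk D : JZero (M * q))) - Pic0.mk D)) =
          (q ^ 2) • (φ • (φ • (Pic0.mk D : JZero (M * q))) - Pic0.mk D)

end Fermat.Agent.BadPrime
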