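import Fermat.Agent.BadPrime.GaussPair
import Fermat.Agent.BadPrime.GaussNormResidue
import Fermat.Agent.BadPrime.GeometryStatements
import Fermat.Agent.EichlerShimura.FiniteLevelX0
import Fermat.Agent.Torsion.Constants
import Fermat.Agent.Curve.Fibre
import Fermat.Agent.Reduction.ModularData

/-!
# The two geometric statements from the core property of the two-component model
-/

set_option autoImplicit false
set_option synthInstance.maxHeartbeats 400000
set_option linter.unusedSectionVars false

noncomputable section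

open ModularCurve IntermediateField AlgebraicCurve

namespace Fermat.Agent.BadPrime

open Fermat.Agent.Reduction Fermat.Agent.Modular Fermat.Agent.EichlerShimura

local notation "Qb" => AlgebraicClosure ℚ

local instance : Algebra.IsAlgebraic ℚ (AlgebraicClosure ℚ) := AlgebraicClosure.isAlgebraic ℚ

variable {M q : ℕ} [NeZero M] [Fact q.Prime]

section Twist

variable {L : Type*} [Field L] [Algebra ℚ L] {w : FL (M * q) L →ₐ[L] FL (M * q) L}

/-- The generators are fixed by coefficientwise automorphisms. -/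
theorem toRingAut_jdElem (s : L ≃ₐ[ℚ] L) {N d : ℕ} [NeZero d] (hd : d ∣ N) :
    SemilinearAut.toRingAut (arithmeticGalois (modularFunctionFieldFull N) s) (jdElem L hd) =
      jdElem L hd :=
  Subtype.ext (coeffMap_coeffEmb s (qExpand ℚ d jq))

/-- The Atkin–Lehner involution is defined over `ℚ`. -/
theorem comp_toRingAut (hw : IsALInvolution w) (s : L ≃ₐ[ℚ] L) (x : FL (M * q) L) :
    w (SemilinearAut.toRingAut (arithmeticGalois (modularFunctionFieldFull (M * q)) s) x) =
      SemilinearAut.toRingAut (arithmeticGalois (modularFunctionFieldFull (M * q)) s) (w x) := by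
  set g := arithmeticGalois (modularFunctionFieldFull (M * q)) s with hg
  let h : FL (M * q) L →+* FL (M * q) L :=
    (SemilinearAut.toRingAut g).symm.toRingHom.comp
      ((w : FL (M * q) L →+* FL (M * q) L).comp (SemilinearAut.toRingAut g).toRingHom)
  let h' : FL (M * q) L →ₐ[L] FL (M * q) L :=
    { h with
      commutes' := fun c => by
        show (SemilinearAut.toRingAut g).symm (w (SemilinearAut.toRingAut g (algebraMap L _ c))) = _
        rw [SemilinearAut.commutes, AlgHom.commutes, ← SemilinearAut.commutes,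
          RingEquiv.symm_apply_apply] }
  have key : h' = w := by
    refine algHom_ext_jdElem (L := L) fun d hne hd => ?_
    show (SemilinearAut.toRingAut g).symm (w (SemilinearAut.toRingAut g (jdElem L hd))) = _
    rw [hg, toRingAut_jdElem, RingEquiv.symm_apply_eq]
    have hfix : ∀ {e : ℕ} (_ : NeZero e) (he : e ∣ M), ∀ (ψ : FL M L → FL (M * q) L),
        (ψ = heckeAlphaBar L M q ∨ ψ = heckeBetaBar L M q) →
        ψ (jdElem L he) = SemilinearAut.toRingAut g (ψ (jdElem L he)) := by
      intro e he' he ψ hψ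
      refine (Subtype.ext ?_).symm
      rw [hg, toRingAut_arithmeticGalois, coe_arithmeticRingAut_apply]
      rcases hψ with rfl | rfl
      · rw [coe_heckeAlphaBar, coe_jdElem, coeffMap_coeffEmb]
      · rw [coe_heckeBetaBar, coe_jdElem, coeffMap_qExpand, coeffMap_coeffEmb]
    by_cases hqd : q ∣ d
    · obtain ⟨e, rfl⟩ := hqd
      have : NeZero e := ⟨fun h => hne.out (by simp [h])⟩
      have he : e ∣ M := by
        rw [mul_comm q e] at hd
        exact Nat.dvd_of_mul_dvd_mul_right (Fact.out : q.Prime).pos hd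
      have hb : jdElem L hd = heckeBetaBar L M q (jdElem L he) := Subtype.ext (by
        rw [coe_heckeBetaBar, coe_jdElem, coe_jdElem, coeffEmb, ← coeffMap_qExpand,
          qExpand_qExpand])
      rw [hb, hw.beta]
      exact hfix _ he _ (Or.inl rfl)
    · have hd' : d ∣ M :=
        (((Fact.out : q.Prime).coprime_iff_not_dvd.2 hqd).symm).dvd_of_dvd_mul_right hd
      have ha : jdElem L hd = heckeAlphaBar L M q (jdElem L hd') := Subtype.ext rfl
      rw [ha, hw.alpha]
      exact hfix _ hd' _ (Or.inr rfl)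
  have := congrArg (fun f => SemilinearAut.toRingAut g (f x)) key
  simpa [h', h] using this

variable {k : Type*} [Field k] [CharP k q]

/-- The coefficientwise Frobenius twist preserves the function field of a component. -/
theorem frobTwist_mem_fullC {x : LaurentSeries k} (hx : x ∈ modularFunctionFieldFullC k M) :
    frobTwist (q := q) x ∈ modularFunctionFieldFullC k M := by
  rw [modularFunctionFieldFullC] at hx ⊢
  induction hx using IntermediateField.adjoin_induction with
  | mem y hy =>
    obtain ⟨d, hd, hdM, rfl⟩ := hy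
    rw [frobTwist, coeffMap_qExpand, coeffMap_jqModC]
    exact IntermediateField.subset_adjoin k _ ⟨d, hd, hdM, rfl⟩
  | algebraMap c =>
    rw [algebraMap_laurentSeries_eq_single, frobTwist, coeffMap_single,
      ← algebraMap_laurentSeries_eq_single]
    exact IntermediateField.algebraMap_mem _ _
  | add x y _ _ hx hy => rw [map_add]; exact add_mem hx hy
  | inv x _ hx => rw [map_inv₀]; exact inv_mem hx
  | mul x y _ _ hx hy => rw [map_mul]; exact mul_mem hx hy

variable (k M q) in
/-- The Frobenius twist of the function field of a component. -/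
def componentTwist : modularFunctionFieldFullC k M →+* modularFunctionFieldFullC k M :=
  ((frobTwist (q := q)).comp (modularFunctionFieldFullC k M).toSubfield.subtype).codRestrict
    (modularFunctionFieldFullC k M).toSubfield fun x => frobTwist_mem_fullC x.2

@[simp]
theorem coe_componentTwist (x : modularFunctionFieldFullC k M) :
    (componentTwist M q k x : LaurentSeries k) = frobTwist (q := q) (x : LaurentSeries k) :=
  rfl

end Twist

section Qbar

variable (A : ValuationSubring Qb)


theorem hasFullResidueDegree (hA : A.LiesOverPrime q) (hqM : ¬ q ∣ M) :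
    HasFullResidueDegree (IsLocalRing.ResidueField A) Qb M := by
  obtain ⟨ι⟩ : Nonempty (Qb →+* ℂ) :=
    ⟨(IsAlgClosed.lift (R := ℚ) (S := Qb) (M := ℂ)).toRingHom⟩
  have h1 : jK (IsLocalRing.ResidueField A) M = jRes (IsLocalRing.ResidueField A) M := Subtype.ext rfl
  have h2 : jL M Qb = jBar M := Subtype.ext rfl
  refine ⟨?_, finiteDimensional_FL M ι, ?_⟩
  · rw [h1]; exact Curve.finiteDimensional_adjoin (transcendental_jRes M (IsLocalRing.ResidueField A))
  · rw [h1, h2]; exact finrank_jRes M hqM A hA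

variable {A} {w : FL (M * q) Qb →ₐ[Qb] FL (M * q) Qb}

/-- The core property of the two-component model at `A`. -/
def CoreProperty (A : ValuationSubring Qb) (w : FL (M * q) Qb →ₐ[Qb] FL (M * q) Qb) (n : ℕ) :
    Prop :=
  (∀ s ∈ A.inertiaSubgroupIn ℚ, (gaussPair (IsLocalRing.residue A) M q w).ActsAsPower n 1
      (arithmeticGalois (modularFunctionFieldFull (M * q)) s)) ∧
    ∀ φ : Qb ≃ₐ[ℚ] Qb, A.IsFrobeniusAt φ q →
      (gaussPair (IsLocalRing.residue A) M q w).ActsAsPower n (q ^ 2)
        (arithmeticGalois (modularFunctionFieldFull (M * q)) φ *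
          arithmeticGalois (modularFunctionFieldFull (M * q)) φ)

variable [CharP (IsLocalRing.ResidueField A) q]

theorem residuesInLevel (hA : A.LiesOverPrime q) (hqM : ¬ q ∣ M) (hw : IsALInvolution w) :
    ResiduesInLevel (IsLocalRing.residue A) M q w := by
  intro f g g' hg hg'
  obtain ⟨ι⟩ : Nonempty (Qb →+* ℂ) :=
    ⟨(IsAlgClosed.lift (R := ℚ) (S := Qb) (M := ℂ)).toRingHom⟩
  let x : pairBv (IsLocalRing.residue A) w :=
    ⟨f, (mem_pairBv _ w).2 ⟨⟨g, hg⟩, ⟨g', hg'⟩⟩⟩
  obtain ⟨h1, h2⟩ := pairRed_mem_fullC (IsLocalRing.residue A) ι hqM hw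
    IsLocalRing.residue_surjective (hasFullResidueDegree A hA hqM) x
  rw [(hasGaussRed_pairRed1 _ w x).unique hg] at h1
  rw [(hasGaussRed_pairRed2 _ w x).unique hg'] at h2
  exact ⟨h1, h2⟩

/-- Inertia does not move residues. -/
theorem res_smul_inertia (hw : IsALInvolution w) {s : Qb ≃ₐ[ℚ] Qb}
    (hs : s ∈ A.inertiaSubgroupIn ℚ) {f : FL (M * q) Qb}
    {a b : modularFunctionFieldFullC (IsLocalRing.ResidueField A) M}
    (h : (gaussPair (IsLocalRing.residue A) M q w).Res f a b) :
    (gaussPair (IsLocalRing.residue A) M q w).Res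
      (SemilinearAut.toRingAut (arithmeticGalois (modularFunctionFieldFull (M * q)) s) f) a b := by
  have hsA : ∀ x, x ∈ A → s.toRingEquiv x ∈ A := fun x hx =>
    (EC.residue_apply_eq_of_mem_inertia A hs hx).1
  have hα : ∀ x : A, IsLocalRing.residue A ⟨s.toRingEquiv x, hsA x x.2⟩ =
      (RingEquiv.refl (IsLocalRing.ResidueField A)) (IsLocalRing.residue A x) := fun x =>
    (EC.residue_apply_eq_of_mem_inertia A hs x.2).2
  have e : ∀ g : LaurentSeries (IsLocalRing.ResidueField A), coeffMap ((RingEquiv.refl (IsLocalRing.ResidueField A) : (IsLocalRing.ResidueField A) ≃+* (IsLocalRing.ResidueField A)) : (IsLocalRing.ResidueField A) →+* (IsLocalRing.ResidueField A)) g = g :=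
    fun g => coeffMap_id g
  refine ⟨?_, ?_⟩
  · have := h.1.coeffMap_auto hsA hα
    rwa [e] at this
  · rw [comp_toRingAut hw]
    have := h.2.coeffMap_auto hsA hα
    rwa [e] at this

/-- A Frobenius element twists residues. -/
theorem res_smul_frobenius (hA : A.LiesOverPrime q) (hw : IsALInvolution w) {s : Qb ≃ₐ[ℚ] Qb}
    (hs : A.IsFrobeniusAt s q) {f : FL (M * q) Qb}
    {a b : modularFunctionFieldFullC (IsLocalRing.ResidueField A) M}
    (h : (gaussPair (IsLocalRing.residue A) M q w).Res f a b) :
    (gaussPair (IsLocalRing.residue A) M q w).Res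
      (SemilinearAut.toRingAut (arithmeticGalois (modularFunctionFieldFull (M * q)) s) f)
      (componentTwist M q (IsLocalRing.ResidueField A) a) (componentTwist M q (IsLocalRing.ResidueField A) b) := by
  haveI := EC.isAlgClosed_residueField A
  have hsA : ∀ x, x ∈ A → s.toRingEquiv x ∈ A := fun x hx =>
    (EC.residue_apply_eq_of_isFrobeniusAt A hs hx).1
  have hα : ∀ x : A, IsLocalRing.residue A ⟨s.toRingEquiv x, hsA x x.2⟩ =
      (frobeniusEquiv (IsLocalRing.ResidueField A) q) (IsLocalRing.residue A x) := fun x =>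
    (EC.residue_apply_eq_of_isFrobeniusAt A hs x.2).2
  have e : ∀ g : LaurentSeries (IsLocalRing.ResidueField A),
      coeffMap ((frobeniusEquiv (IsLocalRing.ResidueField A) q : (IsLocalRing.ResidueField A) ≃+* (IsLocalRing.ResidueField A)) : (IsLocalRing.ResidueField A) →+* (IsLocalRing.ResidueField A)) g = frobTwist (q := q) g :=
    fun g => coeffMap_congr (RingHom.ext fun x => rfl) g
  refine ⟨?_, ?_⟩
  · have := h.1.coeffMap_auto hsA hα
    rwa [e, ← coe_componentTwist] at this
  · rw [comp_toRingAut hw]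
    have := h.2.coeffMap_auto hsA hα
    rwa [e, ← coe_componentTwist] at this

/-- The norm along the second degeneracy map is the first one after `w`. -/
theorem normAlong_beta (hw : IsALInvolution w) (f : FL (M * q) Qb) :
    normAlong (heckeBetaBar Qb M q) f = normAlong (heckeAlphaBar Qb M q) (w f) := by
  let e : FL (M * q) Qb ≃+* FL (M * q) Qb :=
    RingEquiv.ofRingHom (w : FL (M * q) Qb →+* FL (M * q) Qb)
      (w : FL (M * q) Qb →+* FL (M * q) Qb) (RingHom.ext hw.invol) (RingHom.ext hw.invol)
  have h := @Algebra.norm_eq_of_equiv_equiv (FL M Qb) (FL (M * q) Qb) (FL M Qb) (FL (M * q) Qb)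
    _ _ _ _ (algebraAlong (heckeBetaBar Qb M q)) (algebraAlong (heckeAlphaBar Qb M q))
    (RingEquiv.refl _) e
    (RingHom.ext fun x => (hw.beta x).symm) f
  simpa [normAlong, e] using h

/-- An `n`-th root of a function with nonzero residue has residue an `n`-th root. -/
theorem exists_root_residue (hA : A.LiesOverPrime q) (hqM : ¬ q ∣ M) {n : ℕ} (hn : n ≠ 0)
    {H : FL M Qb} {r : LaurentSeries (IsLocalRing.ResidueField A)}
    (h : HasGaussRed (IsLocalRing.residue A) ((H ^ n : FL M Qb) : LaurentSeries Qb) r) :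
    ∃ g : modularFunctionFieldFullC (IsLocalRing.ResidueField A) M, (g : LaurentSeries (IsLocalRing.ResidueField A)) ^ n = r := by
  have hH : H ∈ gaussFL (IsLocalRing.residue A) M := by
    rw [← ValuationSubring.valuation_le_one_iff]
    have h1 : H ^ n ∈ gaussFL (IsLocalRing.residue A) M := (mem_gaussFL _).2 ⟨r, h⟩
    rw [← ValuationSubring.valuation_le_one_iff, map_pow] at h1
    exact (pow_le_one_iff_of_nonneg zero_le hn).1 h1
  obtain ⟨g, hg⟩ := (mem_gaussFL _).1 hH
  refine ⟨⟨g, hasGaussRed_mem_fullC IsLocalRing.residue_surjective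
    (hasFullResidueDegree A hA hqM) hg⟩, ?_⟩
  rw [IntermediateField.coe_pow] at h
  exact (hg.pow n).unique h

/-- The residue of a norm that is an `n`-th power. -/
theorem exists_pow_eq_of_norm_alpha (hA : A.LiesOverPrime q) (hqM : ¬ q ∣ M)
    (hw : IsALInvolution w) {n : ℕ} (hn : n ≠ 0) {f : FL (M * q) Qb}
    {a b : modularFunctionFieldFullC (IsLocalRing.ResidueField A) M}
    (h : (gaussPair (IsLocalRing.residue A) M q w).Res f a b) {H : FL M Qb}
    (hH : normAlong (heckeAlphaBar Qb M q) f = H ^ n) :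
    ∃ g : modularFunctionFieldFullC (IsLocalRing.ResidueField A) M, g ^ n = a * componentTwist M q (IsLocalRing.ResidueField A) b := by
  obtain ⟨ι⟩ : Nonempty (Qb →+* ℂ) :=
    ⟨(IsAlgClosed.lift (R := ℚ) (S := Qb) (M := ℂ)).toRingHom⟩
  let x : pairBv (IsLocalRing.residue A) w :=
    ⟨f, (mem_pairBv _ w).2 ⟨⟨_, h.1⟩, ⟨_, h.2⟩⟩⟩
  have h1 := hasGaussRed_norm_pairBv (IsLocalRing.residue A) ι hqM hw x
  rw [(hasGaussRed_pairRed1 _ w x).unique h.1, (hasGaussRed_pairRed2 _ w x).unique h.2] at h1
  have h2 : HasGaussRed (IsLocalRing.residue A) ((H ^ n : FL M Qb) : LaurentSeries Qb)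
      ((a : LaurentSeries (IsLocalRing.ResidueField A)) * frobTwist (q := q) (b : LaurentSeries (IsLocalRing.ResidueField A))) := by
    rw [← hH]; exact h1
  obtain ⟨g, hg⟩ := exists_root_residue hA hqM hn h2
  refine ⟨g, Subtype.ext ?_⟩
  rw [IntermediateField.coe_pow, hg, IntermediateField.coe_mul, coe_componentTwist]

theorem inertiaUnipotent_of_core (hA : A.LiesOverPrime q) (hqM : ¬ q ∣ M)
    (hw : IsALInvolution w) {n : ℕ} (hn : n ≠ 0) (hcore : CoreProperty A w n)
    {s : Qb ≃ₐ[ℚ] Qb} (hs : s ∈ A.inertiaSubgroupIn ℚ) (x : JZero (M * q)) (hx : n • x = 0) :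
    s • (s • x - x) = s • x - x := by
  haveI := isFunctionField1_modularFunctionFieldBar (M * q)
  exact PairResidue.smul_smul_sub (gaussPair (IsLocalRing.residue A) M q w) hn
    (canNormalise hw.alpha hw.beta IsLocalRing.residue_surjective hA hw.invol
      (residuesInLevel hA hqM hw) hn)
    (fun h => res_smul_inertia hw hs h) (hcore.1 s hs) x hx

theorem frobeniusSq_of_core (hA : A.LiesOverPrime q) (hqM : ¬ q ∣ M)
    (hw : IsALInvolution w) {n : ℕ} (hn : n ≠ 0) (hcore : CoreProperty A w n)
    {φ : Qb ≃ₐ[ℚ] Qb} (hφ : A.IsFrobeniusAt φ q)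
    (hα : (heckeAlphaBar Qb M q).toRingHom.IsIntegral)
    (hβ : (heckeBetaBar Qb M q).toRingHom.IsIntegral)
    (D : Divisor.degZero (K := Qb) (F := modularFunctionFieldBar (M * q)))
    (hD : n • (Pic0.mk D : JZero (M * q)) = 0)
    (hDα : Divisor.pushforwardAlong (heckeAlphaBar Qb M q) hα
      (D : Divisor Qb (modularFunctionFieldBar (M * q))) ∈
        Divisor.principal (K := Qb) (F := modularFunctionFieldBar M))
    (hDβ : Divisor.pushforwardAlong (heckeBetaBar Qb M q) hβ
      (D : Divisor Qb (modularFunctionFieldBar (M * q))) ∈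
        Divisor.principal (K := Qb) (F := modularFunctionFieldBar M)) :
    φ • (φ • (φ • (φ • (Pic0.mk D : JZero (M * q))) - Pic0.mk D)) =
      (q ^ 2) • (φ • (φ • (Pic0.mk D : JZero (M * q))) - Pic0.mk D) := by
  haveI := isFunctionField1_modularFunctionFieldBar (M * q)
  haveI := isFunctionField1_modularFunctionFieldBar M
  refine PairResidue.smul_smul_smul_smul_sub (gaussPair (IsLocalRing.residue A) M q w) hn
    (canNormalise hw.alpha hw.beta IsLocalRing.residue_surjective hA hw.invol
      (residuesInLevel hA hqM hw) hn)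
    (componentTwist M q (IsLocalRing.ResidueField A)) (fun h => res_smul_frobenius hA hw hφ h)
    (fun a b _ _ => exists_res hw.alpha hw.beta IsLocalRing.residue_surjective hw.invol a b)
    (hcore.2 φ hφ) hα hβ (Curve.finiteAlong _) (Curve.finiteAlong _)
    (Curve.normFormulaAlong _ _) (Curve.normFormulaAlong _ _) Torsion.constantsAreConstant
    (fun h _ _ H hH => exists_pow_eq_of_norm_alpha hA hqM hw hn h hH)
    (fun {f a b} h _ _ H hH => ?_) D hD hDα hDβ
  rw [normAlong_beta hw] at hH
  obtain ⟨g, hg⟩ := exists_pow_eq_of_norm_alpha hA hqM hw hn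
    (f := w f) (a := b) (b := a) ⟨h.2, by rw [hw.invol]; exact h.1⟩ hH
  exact ⟨g, by rw [hg, mul_comm]⟩

end Qbar

/-- The two statements from the core property at every place and exponent prime to `q`. -/
theorem inertiaUnipotentTorsion_of_core (hqM : ¬ q ∣ M)
    (hcore : ∀ (A : ValuationSubring Qb), A.LiesOverPrime q → ∀ n : ℕ, ¬ q ∣ n →
      ∀ w : FL (M * q) Qb →ₐ[Qb] FL (M * q) Qb, IsALInvolution w → CoreProperty A w n) :
    InertiaUnipotentTorsion M q := by
  intro A hA s hs n hn x hx
  obtain ⟨ι⟩ : Nonempty (Qb →+* ℂ) :=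
    ⟨(IsAlgClosed.lift (R := ℚ) (S := Qb) (M := ℂ)).toRingHom⟩
  obtain ⟨w, hw⟩ := exists_isALInvolution ι hqM
  haveI := EC.charP_residueField A Fact.out hA
  exact inertiaUnipotent_of_core hA hqM hw (fun h => hn (by rw [h]; exact dvd_zero q)) (hcore A hA n hn w hw)
    hs x hx

theorem frobeniusSqTorsion_of_core [NeZero q] (hqM : ¬ q ∣ M)
    (hcore : ∀ (A : ValuationSubring Qb), A.LiesOverPrime q → ∀ n : ℕ, ¬ q ∣ n →
      ∀ w : FL (M * q) Qb →ₐ[Qb] FL (M * q) Qb, IsALInvolution w → CoreProperty A w n) :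
    FrobeniusSqTorsion M q := by
  intro A hA φ hφ n hn hα hβ D hD hDα hDβ
  obtain ⟨ι⟩ : Nonempty (Qb →+* ℂ) :=
    ⟨(IsAlgClosed.lift (R := ℚ) (S := Qb) (M := ℂ)).toRingHom⟩
  obtain ⟨w, hw⟩ := exists_isALInvolution ι hqM
  haveI := EC.charP_residueField A Fact.out hA
  exact frobeniusSq_of_core hA hqM hw (fun h => hn (by rw [h]; exact dvd_zero q)) (hcore A hA n hn w hw) hφ
    hα hβ D hD hDα hDβ

end Fermat.Agent.BadPrime
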