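import Fermat.Agent.EichlerShimura.PlaceDescent
import Mathlib.FieldTheory.PrimitiveElement
import Mathlib.FieldTheory.Perfect
import Mathlib.Algebra.Polynomial.FieldDivision

/-!
# Constant extensions are unramified

For `ι : k →ₐ[ℚ] L` a place of `L·F_k` lies over a place of `F_k` with ramification index one.
-/

set_option autoImplicit false

noncomputable section

open Polynomial AlgebraicCurve ModularCurve
open Fermat.Agent.Curve
open Fermat.Agent.EichlerShimura (bcHom bcHom_algebraMap exists_over)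

namespace Fermat.Agent.BadPrime

variable {k L : Type*} [Field k] [Field L] [Algebra ℚ k] [Algebra ℚ L]
variable {F₀ : IntermediateField ℚ (LaurentSeries ℚ)} {ι : k →ₐ[ℚ] L}

local notation "F_k" => laurentBaseChange k F₀
local notation "F_L" => laurentBaseChange L F₀

variable [IsFunctionField1 k (laurentBaseChange k F₀)]

/-- The `L`-algebra generated by the functions of `F_k` regular at `w`. -/
def regularSpan (ι : k →ₐ[ℚ] L) (w : Place k F_k) : Subalgebra L F_L :=
  Algebra.adjoin L (bcHom F₀ ι '' (w.toValuationSubring : Set F_k))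

omit [IsFunctionField1 k (laurentBaseChange k F₀)] in
theorem bcHom_mem_regularSpan {w : Place k F_k} {z : F_k} (hz : z ∈ w.toValuationSubring) :
    bcHom F₀ ι z ∈ regularSpan ι w :=
  Algebra.subset_adjoin ⟨z, hz, rfl⟩

omit [IsFunctionField1 k (laurentBaseChange k F₀)] in
theorem exists_div_regularSpan (w : Place k F_k) (x : F_L) :
    ∃ a ∈ regularSpan ι w, ∃ b ∈ regularSpan ι w, b ≠ 0 ∧ x * b = a := by
  obtain ⟨t, ht0, ht⟩ := exists_uniformizer w
  obtain ⟨x, hx⟩ := x
  -- the quotients form a subfield containing the generators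
  let R := regularSpan ι w
  have hT : bcHom F₀ ι t ∈ R := bcHom_mem_regularSpan (mem_of_ord_nonneg w (by omega))
  let S : Subfield F_L :=
    { carrier := {x | ∃ a ∈ R, ∃ b ∈ R, b ≠ 0 ∧ x * b = a}
      mul_mem' := by
        rintro x y ⟨a, ha, b, hb, hb0, h⟩ ⟨a', ha', b', hb', hb0', h'⟩
        exact ⟨_, mul_mem ha ha', _, mul_mem hb hb', mul_ne_zero hb0 hb0', by
          rw [← h, ← h']; ring⟩
      one_mem' := ⟨1, one_mem R, 1, one_mem R, one_ne_zero, one_mul 1⟩
      add_mem' := by
        rintro x y ⟨a, ha, b, hb, hb0, h⟩ ⟨a', ha', b', hb', hb0', h'⟩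
        exact ⟨_, add_mem (mul_mem ha hb') (mul_mem ha' hb), _, mul_mem hb hb',
          mul_ne_zero hb0 hb0', by rw [← h, ← h']; ring⟩
      zero_mem' := ⟨0, zero_mem R, 1, one_mem R, one_ne_zero, by rw [zero_mul]⟩
      neg_mem' := by
        rintro x ⟨a, ha, b, hb, hb0, h⟩
        exact ⟨-a, neg_mem ha, b, hb, hb0, by rw [← h, neg_mul]⟩
      inv_mem' := by
        rintro x ⟨a, ha, b, hb, hb0, h⟩
        rcases eq_or_ne x 0 with rfl | hx
        · exact ⟨0, zero_mem R, 1, one_mem R, one_ne_zero, by rw [inv_zero, zero_mul]⟩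
        · exact ⟨b, hb, a, ha, by rw [← h]; exact mul_ne_zero hx hb0, by
            rw [← h, ← mul_assoc, inv_mul_cancel₀ hx, one_mul]⟩ }
  suffices h : (⟨x, hx⟩ : F_L) ∈ S from h
  have hle : (laurentBaseChange L F₀).toSubfield ≤ S.map (laurentBaseChange L F₀).val.toRingHom := by
    intro y hy
    have hy' := mem_laurentBaseChange_iff.mp hy
    refine Subfield.closure_le.mpr ?_ hy'
    rintro _ (⟨c, rfl⟩ | ⟨z, hz, rfl⟩)
    · exact ⟨algebraMap L F_L c,
        ⟨algebraMap L F_L c, R.algebraMap_mem c, 1, one_mem R, one_ne_zero, mul_one _⟩, rfl⟩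
    · set zk : F_k := ⟨coeffEmb k z, coeffEmb_mem_laurentBaseChange k hz⟩
      refine ⟨bcHom F₀ ι zk, ?_, EichlerShimura.coeffMap_coeffEmb_base ι z⟩
      rcases le_or_gt 0 (w.ord zk) with h | h
      · exact ⟨_, bcHom_mem_regularSpan (mem_of_ord_nonneg w h), 1, one_mem R, one_ne_zero,
          mul_one _⟩
      · refine ⟨bcHom F₀ ι (zk * t ^ (-w.ord zk).toNat), bcHom_mem_regularSpan
          (mem_of_ord_nonneg w ?_), bcHom F₀ ι t ^ (-w.ord zk).toNat, pow_mem hT _,
          pow_ne_zero _ ((_root_.map_ne_zero _).mpr ht0), by rw [map_mul, map_pow]⟩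
        have hz0 : zk ≠ 0 := fun e => by simp [e] at h
        rw [w.ord_mul hz0 (pow_ne_zero _ ht0), ord_pow, ht]
        omega
  obtain ⟨y, hy, hyx⟩ := hle hx
  rwa [show (⟨x, hx⟩ : F_L) = y from Subtype.ext hyx.symm]

set_option maxHeartbeats 1000000 in
/-- A constant extension is unramified. -/
theorem ramification_eq_one [CharZero k] {v : Place L F_L} {w : Place k F_k} {e : ℤ}
    [Module.Finite k w.ResidueField]
    (he : 0 < e) (h : ∀ f : F_k, v.ord (bcHom F₀ ι f) = e * w.ord f) : e = 1 := by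
  obtain ⟨t, ht0, ht⟩ := exists_uniformizer w
  set T := bcHom F₀ ι t with hTdef
  have hT0 : T ≠ 0 := (_root_.map_ne_zero _).mpr ht0
  have hTe : v.ord T = e := by rw [hTdef, h, ht, mul_one]
  let R := regularSpan ι w
  have hTR : T ∈ R := bcHom_mem_regularSpan (mem_of_ord_nonneg w (by omega))
  have hR0 : ∀ a ∈ R, OrdGE v 0 a := by
    intro a ha
    induction ha using Algebra.adjoin_induction with
    | mem x hx =>
      obtain ⟨z, hz, rfl⟩ := hx
      exact ordGE_of_le_ord (by rw [h]; exact mul_nonneg he.le (ord_nonneg_of_mem w hz))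
    | algebraMap c => exact ordGE_algebraMap v c
    | add x y _ _ hx hy => exact hx.add hy
    | mul x y _ _ hx hy => simpa using hx.mul hy
  -- the residue field of `w` is generated by one element `θ`
  obtain ⟨θ, hθ⟩ := Field.exists_primitive_element k w.ResidueField
  obtain ⟨θ₀, rfl⟩ := IsLocalRing.residue_surjective θ
  set θ := IsLocalRing.residue w.toValuationSubring θ₀ with hθdef
  have hθint : IsIntegral k θ := Algebra.IsIntegral.isIntegral θ
  -- functions of `F_k` regular and vanishing at `w` are multiples of `t`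
  have hvanish : ∀ z : w.toValuationSubring, IsLocalRing.residue _ z = 0 →
      ∃ r ∈ R, bcHom F₀ ι (z : F_k) = T * r := by
    intro z hz
    have hz1 : (z : F_k) = 0 ∨ 0 < w.ord z := by
      rcases eq_or_ne (z : F_k) 0 with h0 | h0
      · exact Or.inl h0
      refine Or.inr (lt_of_le_of_ne (ord_nonneg_of_mem w z.2) fun h1 => ?_)
      exact (IsLocalRing.residue_ne_zero_iff_isUnit z).mpr ((isUnit_iff_ord_eq_zero w z).mpr
        ⟨h0, h1.symm⟩) hz
    refine ⟨bcHom F₀ ι (z / t), bcHom_mem_regularSpan ?_, by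
      rw [map_div₀, mul_div_cancel₀ _ hT0]⟩
    rcases hz1 with h0 | h0
    · rw [h0, zero_div]; exact zero_mem _
    · refine mem_of_ord_nonneg w ?_
      rw [ord_div w (fun e => by simp [e] at h0) ht0, ht]
      omega
  -- evaluation at the lift of `θ`
  let ev : L[X] →ₐ[L] F_L := aeval (bcHom F₀ ι (θ₀ : F_k))
  have hev : ∀ P : k[X], ev (P.map (ι : k →+* L)) =
      bcHom F₀ ι ((aeval θ₀ P : w.toValuationSubring) : F_k) := by
    intro P
    induction P using Polynomial.induction_on' with
    | add P Q hP hQ =>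
      rw [Polynomial.map_add, map_add, map_add, hP, hQ, AddMemClass.coe_add, map_add]
    | monomial i c =>
      rw [map_monomial, aeval_monomial, aeval_monomial, MulMemClass.coe_mul, map_mul,
        SubmonoidClass.coe_pow, map_pow]
      exact congrArg (· * _) (bcHom_algebraMap F₀ ι c).symm
  have hevR : ∀ P : L[X], ev P ∈ R := by
    intro P
    induction P using Polynomial.induction_on' with
    | add P Q hP hQ => rw [map_add]; exact add_mem hP hQ
    | monomial i c =>
      rw [aeval_monomial]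
      exact mul_mem (R.algebraMap_mem c) (pow_mem (bcHom_mem_regularSpan θ₀.2) i)
  have hres : ∀ P : k[X], IsLocalRing.residue _ (aeval θ₀ P : w.toValuationSubring) = aeval θ P :=
    fun P => (aeval_algHom_apply
      (IsScalarTower.toAlgHom k w.toValuationSubring w.ResidueField) θ₀ P).symm
  -- every element of `R` is a polynomial in the lift modulo `T`
  have hmodT : ∀ a ∈ R, ∃ P : L[X], ∃ r ∈ R, a = ev P + T * r := by
    intro a ha
    induction ha using Algebra.adjoin_induction with
    | mem x hx =>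
      obtain ⟨z, hz, rfl⟩ := hx
      obtain ⟨P, hP⟩ : ∃ P : k[X], aeval θ P = IsLocalRing.residue _ (⟨z, hz⟩ : w.toValuationSubring) := by
        have hmem : IsLocalRing.residue _ (⟨z, hz⟩ : w.toValuationSubring) ∈
            Algebra.adjoin k {θ} := by
          rw [← IntermediateField.adjoin_simple_toSubalgebra_of_isAlgebraic hθint.isAlgebraic, hθ]
          trivial
        rwa [Algebra.adjoin_singleton_eq_range_aeval] at hmem
      obtain ⟨r, hr, hzr⟩ := hvanish (⟨z, hz⟩ - aeval θ₀ P) (by rw [map_sub, hres, hP, sub_self])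
      refine ⟨P.map (ι : k →+* L), r, hr, ?_⟩
      rw [hev, ← hzr, AddSubgroupClass.coe_sub, map_sub, add_sub_cancel]
    | algebraMap c => exact ⟨C c, 0, zero_mem R, by rw [mul_zero, add_zero]; exact (aeval_C _ c).symm⟩
    | add x y _ _ hx hy =>
      obtain ⟨P, r, hr, rfl⟩ := hx
      obtain ⟨Q, s, hs, rfl⟩ := hy
      exact ⟨P + Q, r + s, add_mem hr hs, by rw [map_add]; ring⟩
    | mul x y _ _ hx hy =>
      obtain ⟨P, r, hr, rfl⟩ := hx
      obtain ⟨Q, s, hs, rfl⟩ := hy
      exact ⟨P * Q, ev P * s + r * ev Q + r * (T * s),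
        add_mem (add_mem (mul_mem (hevR P) hs) (mul_mem hr (hevR Q)))
          (mul_mem hr (mul_mem hTR hs)), by rw [map_mul]; ring⟩
  -- the minimal polynomial of `θ` over `L` is squarefree and vanishes modulo `T`
  set G := (minpoly k θ).map (ι : k →+* L) with hG
  have hGsep : G.Separable := ((minpoly.irreducible hθint).separable).map
  obtain ⟨r₀, hr₀, hG0⟩ : ∃ r ∈ R, ev G = T * r := by
    rw [hG, hev]
    exact hvanish _ (by rw [hres, minpoly.aeval])
  -- non-units of `R` at `v` become multiples of `T` after multiplying by a unit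
  have hstep : ∀ a ∈ R, a ≠ 0 → 0 < v.ord a →
      ∃ ε : F_L, ε ∈ R ∧ ε ≠ 0 ∧ v.ord ε = 0 ∧ ∃ r ∈ R, ε * a = T * r := by
    intro a ha ha0 hapos
    obtain ⟨P, r, hr, rfl⟩ := hmodT a ha
    classical
    set d := EuclideanDomain.gcd P G with hd
    obtain ⟨P₁, hP₁⟩ := EuclideanDomain.gcd_dvd_left P G
    obtain ⟨q, hq⟩ := EuclideanDomain.gcd_dvd_right P G
    rw [← hd] at hP₁ hq
    obtain ⟨u, s, hus⟩ := Separable.isCoprime (hq ▸ hGsep)
    have hT1 : ∀ y ∈ R, OrdGE v 1 (T * y) := fun y hy => by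
      simpa using ((ordGE_of_le_ord (show (1 : ℤ) ≤ v.ord T by omega)).mul (hR0 y hy))
    have hd1 : OrdGE v 1 (ev d) := by
      have hP1 : OrdGE v 1 (ev P) := by
        have := (ordGE_of_le_ord (show (1 : ℤ) ≤ v.ord (ev P + T * r) by omega)).sub (hT1 r hr)
        rwa [add_sub_cancel_right] at this
      rw [hd, EuclideanDomain.gcd_eq_gcd_ab, map_add, map_mul, map_mul, hG0]
      refine OrdGE.add ?_ ?_
      · simpa using hP1.mul (hR0 _ (hevR (EuclideanDomain.gcdA P G)))
      · rw [mul_assoc]; exact hT1 _ (mul_mem hr₀ (hevR _))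
    have hud : OrdGE v 1 (-(ev u * ev d)) := by
      simpa using ((hR0 _ (hevR u)).mul hd1).neg
    have hone : ev (s * q) = 1 + -(ev u * ev d) := by
      rw [← map_mul, ← sub_eq_add_neg, eq_sub_iff_add_eq, ← map_add, add_comm, hus, map_one]
    have hunit : ev (s * q) ≠ 0 ∧ v.ord (ev (s * q)) = 0 := by
      rw [hone]
      rcases (ordGE_iff v).mp hud with h0 | h0
      · rw [h0, add_zero]; exact ⟨one_ne_zero, v.ord_one⟩
      · refine ⟨fun hz => ?_, ?_⟩
        · rw [eq_neg_of_add_eq_zero_right hz, Curve.ord_neg, v.ord_one] at h0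
          omega
        · rw [ord_add_eq_of_lt v one_ne_zero (by rw [v.ord_one]; omega), v.ord_one]
    refine ⟨ev (s * q), hevR _, hunit.1, hunit.2,
      ev (s * P₁) * r₀ + ev (s * q) * r, add_mem (mul_mem (hevR _) hr₀) (mul_mem (hevR _) hr), ?_⟩
    have hPG : ev (s * q) * ev P = ev (s * P₁) * ev G := by
      rw [← map_mul, ← map_mul]
      congr 1
      rw [hP₁, hq]; ring
    rw [mul_add, hPG, hG0]
    ring
  -- hence `e` divides the order of every element of `R`
  have hdvd : ∀ (N : ℕ), ∀ a ∈ R, a ≠ 0 → v.ord a ≤ N → e ∣ v.ord a := by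
    intro N
    induction N using Nat.strong_induction_on with
    | _ N ih =>
      intro a ha ha0 haN
      rcases eq_or_lt_of_le ((hR0 a ha).le_ord ha0) with h0 | hpos
      · rw [← h0]; exact dvd_zero e
      obtain ⟨ε, hεR, hε0, hεord, r, hr, hεa⟩ := hstep a ha ha0 hpos
      have hr0 : r ≠ 0 := fun e' => mul_ne_zero hε0 ha0 (by rw [hεa, e', mul_zero])
      have hord := congrArg v.ord hεa
      rw [v.ord_mul hε0 ha0, v.ord_mul hT0 hr0, hεord, hTe, zero_add] at hord
      have hr_nonneg : 0 ≤ v.ord r := (hR0 r hr).le_ord hr0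
      have hlt : (v.ord r).toNat < N := by omega
      rw [hord]
      exact dvd_add dvd_rfl (ih _ hlt r hr hr0 (by omega))
  obtain ⟨π, hπ0, hπ⟩ := exists_uniformizer v
  obtain ⟨a, ha, b, hb, hb0, hab⟩ := exists_div_regularSpan (ι := ι) w π
  have ha0 : a ≠ 0 := by rw [← hab]; exact mul_ne_zero hπ0 hb0
  have hord := congrArg v.ord hab
  rw [v.ord_mul hπ0 hb0, hπ] at hord
  have h1 : e ∣ (1 : ℤ) := by
    have hda := hdvd _ a ha ha0 (Int.self_le_toNat _)
    have hdb := hdvd _ b hb hb0 (Int.self_le_toNat _)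
    rw [← hord] at hda
    simpa using dvd_sub hda hdb
  exact Int.eq_one_of_dvd_one he.le h1

variable [IsFunctionField1 L (laurentBaseChange L F₀)]

/-- Divisibility of all orders descends along a constant extension. -/
theorem ord_dvd_of_bcHom [CharZero k] {n : ℤ} {f : F_k}
    (h : ∀ v : Place L F_L, n ∣ v.ord (bcHom F₀ ι f)) (w : Place k F_k) : n ∣ w.ord f := by
  have : Module.Finite k w.ResidueField := Curve.finite_residueField w
  obtain ⟨v, e, he, hv⟩ := exists_over (ι := ι) w
  have := h v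
  rwa [hv, ramification_eq_one he hv, one_mul] at this

end Fermat.Agent.BadPrime
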