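import Fermat.Agent.BadPrime.JacobianKummer
import Fermat.Agent.BadPrime.JacobianUnramified
import Fermat.Agent.EichlerShimura.FiniteLevelX0
import Mathlib.FieldTheory.Galois.Basic
import Mathlib.FieldTheory.Normal.Closure

/-!
# Kummer functions over number fields

Functions on `X₀(N)` over `ℚ̄` are defined over number fields, compatibly with the Galois action;
Kummer functions of torsion classes have all their orders divisible by `n` there.
-/

set_option autoImplicit false

noncomputable section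

open AlgebraicCurve ModularCurve
open Fermat.Agent.EichlerShimura (bcHom coe_bcHom bcHom_algebraMap bcHom_injective)

namespace Fermat.Agent.BadPrime

set_option synthInstance.maxHeartbeats 200000
set_option maxHeartbeats 2000000

local notation "ℚ̄" => AlgebraicClosure ℚ
local notation "Γℚ" => (AlgebraicClosure ℚ ≃ₐ[ℚ] AlgebraicClosure ℚ)

local instance : Algebra.IsAlgebraic ℚ ℚ̄ := AlgebraicClosure.isAlgebraic ℚ

variable (F₀ : IntermediateField ℚ (LaurentSeries ℚ))

/-- The inclusion of a subfield of `ℚ̄`, for the canonical `ℚ`-algebra structures. -/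
def levelVal (k : IntermediateField ℚ ℚ̄) : k →ₐ[ℚ] ℚ̄ := (algebraMap k ℚ̄).toRatAlgHom

@[simp]
theorem levelVal_apply (k : IntermediateField ℚ ℚ̄) (a : k) : levelVal k a = (a : ℚ̄) := rfl

/-- The inclusion of subfields of `ℚ̄`, for the canonical `ℚ`-algebra structures. -/
def subfieldIncl {k k' : IntermediateField ℚ ℚ̄} (h : k ≤ k') : k →ₐ[ℚ] k' :=
  (IntermediateField.inclusion h).toRingHom.toRatAlgHom

theorem bcHom_inclusion {k k' : IntermediateField ℚ ℚ̄} (h : k ≤ k')
    (x : laurentBaseChange k F₀) :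
    bcHom F₀ (levelVal k') (bcHom F₀ (subfieldIncl h) x) = bcHom F₀ (levelVal k) x := by
  refine Subtype.ext ?_
  show coeffMap (levelVal k' : k' →+* ℚ̄)
      (coeffMap (subfieldIncl h : k →+* k') (x : LaurentSeries k)) =
    coeffMap (levelVal k : k →+* ℚ̄) (x : LaurentSeries k)
  rw [coeffMap_coeffMap]
  exact coeffMap_congr (RingHom.ext fun _ => rfl) _

theorem range_bcHom_mono {k k' : IntermediateField ℚ ℚ̄} (h : k ≤ k') :
    Set.range (bcHom F₀ (levelVal k)) ⊆ Set.range (bcHom F₀ (levelVal k')) := by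
  rintro _ ⟨x, rfl⟩
  exact ⟨_, bcHom_inclusion F₀ h x⟩

theorem algebraMap_mem_range_bcHom {k : IntermediateField ℚ ℚ̄} {c : ℚ̄} (hc : c ∈ k) :
    algebraMap ℚ̄ (laurentBaseChange ℚ̄ F₀) c ∈ Set.range (bcHom F₀ (levelVal k)) :=
  ⟨algebraMap k _ ⟨c, hc⟩, bcHom_algebraMap F₀ (levelVal k) _⟩

/-- Every function is defined over every number field containing a suitable one. -/
theorem exists_descend (f : laurentBaseChange ℚ̄ F₀) :
    ∃ k₀ : IntermediateField ℚ ℚ̄, FiniteDimensional ℚ k₀ ∧
      ∀ k : IntermediateField ℚ ℚ̄, k₀ ≤ k → f ∈ Set.range (bcHom F₀ (levelVal k)) := by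
  obtain ⟨x, hx⟩ := f
  suffices h : ∃ k₀ : IntermediateField ℚ ℚ̄, FiniteDimensional ℚ k₀ ∧
      ∀ k : IntermediateField ℚ ℚ̄, k₀ ≤ k →
        x ∈ (bcHom F₀ (levelVal k)).fieldRange.map (laurentBaseChange ℚ̄ F₀).val.toRingHom by
    obtain ⟨k₀, hk₀, h⟩ := h
    refine ⟨k₀, hk₀, fun k hk => ?_⟩
    obtain ⟨_, ⟨z, rfl⟩, hz⟩ := h k hk
    exact ⟨z, Subtype.ext hz⟩
  have hf := mem_laurentBaseChange_iff.mp hx
  clear hx
  induction hf using Subfield.closure_induction with
  | mem y hy =>
    rcases hy with ⟨a, rfl⟩ | ⟨z, hz, rfl⟩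
    · refine ⟨IntermediateField.adjoin ℚ {a}, IntermediateField.adjoin.finiteDimensional
        (Algebra.IsAlgebraic.isAlgebraic a).isIntegral, fun k hk => ?_⟩
      exact ⟨algebraMap ℚ̄ _ a, algebraMap_mem_range_bcHom F₀
        (hk (IntermediateField.mem_adjoin_simple_self ℚ a)), rfl⟩
    · refine ⟨⊥, inferInstance, fun k _ => ?_⟩
      exact ⟨_, ⟨⟨coeffEmb k z, coeffEmb_mem_laurentBaseChange k hz⟩, rfl⟩,
        EichlerShimura.coeffMap_coeffEmb_base (levelVal k) z⟩
  | one => exact ⟨⊥, inferInstance, fun k _ => one_mem _⟩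
  | add x y _ _ hx hy =>
    obtain ⟨a, ha, hx⟩ := hx
    obtain ⟨b, hb, hy⟩ := hy
    exact ⟨a ⊔ b, IntermediateField.finiteDimensional_sup a b, fun k hk =>
      add_mem (hx k (le_sup_left.trans hk)) (hy k (le_sup_right.trans hk))⟩
  | neg x _ hx =>
    obtain ⟨a, ha, hx⟩ := hx
    exact ⟨a, ha, fun k hk => neg_mem (hx k hk)⟩
  | inv x _ hx =>
    obtain ⟨a, ha, hx⟩ := hx
    exact ⟨a, ha, fun k hk => inv_mem (hx k hk)⟩
  | mul x y _ _ hx hy =>
    obtain ⟨a, ha, hx⟩ := hx
    obtain ⟨b, hb, hy⟩ := hy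
    exact ⟨a ⊔ b, IntermediateField.finiteDimensional_sup a b, fun k hk =>
      mul_mem (hx k (le_sup_left.trans hk)) (hy k (le_sup_right.trans hk))⟩

/-- A finite extension is contained in a finite Galois one. -/
theorem exists_isGalois_ge (k₀ : IntermediateField ℚ ℚ̄) [FiniteDimensional ℚ k₀] :
    ∃ k : IntermediateField ℚ ℚ̄, k₀ ≤ k ∧ FiniteDimensional ℚ k ∧ IsGalois ℚ k := by
  refine ⟨IntermediateField.normalClosure ℚ k₀ ℚ̄, IntermediateField.le_normalClosure k₀,
    inferInstance, ?_⟩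
  have : IsAlgClosure ℚ ℚ̄ := ⟨inferInstance, inferInstance⟩
  have : Normal ℚ ℚ̄ := IsAlgClosure.normal ℚ ℚ̄
  have : Normal ℚ (IntermediateField.normalClosure ℚ k₀ ℚ̄) := normalClosure.normal ℚ k₀ ℚ̄
  exact IsGalois.mk

/-- Finitely many functions are defined over one Galois number field containing a given one. -/
theorem exists_galois_descend (k₀ : IntermediateField ℚ ℚ̄) [FiniteDimensional ℚ k₀]
    (s : Finset (laurentBaseChange ℚ̄ F₀)) :
    ∃ k : IntermediateField ℚ ℚ̄, k₀ ≤ k ∧ FiniteDimensional ℚ k ∧ IsGalois ℚ k ∧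
      ∀ f ∈ s, f ∈ Set.range (bcHom F₀ (levelVal k)) := by
  classical
  suffices h : ∃ k₁ : IntermediateField ℚ ℚ̄, FiniteDimensional ℚ k₁ ∧ k₀ ≤ k₁ ∧
      ∀ f ∈ s, f ∈ Set.range (bcHom F₀ (levelVal k₁)) by
    obtain ⟨k₁, hk₁, h01, h⟩ := h
    obtain ⟨k, hk, hkfin, hgal⟩ := exists_isGalois_ge k₁
    exact ⟨k, h01.trans hk, hkfin, hgal, fun f hf => range_bcHom_mono F₀ hk (h f hf)⟩
  induction s using Finset.induction with
  | empty => exact ⟨k₀, inferInstance, le_rfl, fun f hf => by simp at hf⟩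
  | insert a s ha ih =>
    obtain ⟨k₁, hk₁, h01, h⟩ := ih
    obtain ⟨ka, hka, hf⟩ := exists_descend F₀ a
    refine ⟨k₁ ⊔ ka, IntermediateField.finiteDimensional_sup k₁ ka, h01.trans le_sup_left,
      fun f hfs => ?_⟩
    rcases Finset.mem_insert.mp hfs with rfl | hfs
    · exact hf _ le_sup_right
    · exact range_bcHom_mono F₀ le_sup_left (h f hfs)

/-- The Galois action restricts to the field of definition. -/
theorem smul_bcHom (k : IntermediateField ℚ ℚ̄) [Normal ℚ k] (σ : Γℚ)
    (x : laurentBaseChange k F₀) :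
    arithmeticGalois F₀ σ • bcHom F₀ (levelVal k) x =
      bcHom F₀ (levelVal k) (arithmeticGalois F₀ (σ.restrictNormal k) • x) := by
  refine Subtype.ext ?_
  rw [coe_arithmeticGalois_smul, coe_bcHom, coe_bcHom, coe_arithmeticGalois_smul, coeffMap_coeffMap,
    coeffMap_coeffMap]
  exact coeffMap_congr (RingHom.ext fun a => (σ.restrictNormal_commutes k a).symm) _

/-- An automorphism fixing `k` fixes the functions defined over `k`. -/
theorem smul_bcHom_of_fixes (k : IntermediateField ℚ ℚ̄) {σ : Γℚ} (hσ : ∀ a ∈ k, σ a = a)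
    (x : laurentBaseChange k F₀) :
    arithmeticGalois F₀ σ • bcHom F₀ (levelVal k) x = bcHom F₀ (levelVal k) x :=
  EichlerShimura.arithmeticGalois_bcHom F₀ (levelVal k) (fun a => hσ a a.2) x

section Modular

variable (N : ℕ) [NeZero N]

/-- The function field of `X₀(N)` over a subfield of `ℚ̄`. -/
theorem isFunctionField1_level (k : IntermediateField ℚ ℚ̄) :
    Curve.IsFunctionField1 k (laurentBaseChange k (modularFunctionFieldFull N)) := by
  let ι : k →+* ℂ :=
    (IsAlgClosed.lift (R := ℚ) (S := AlgebraicClosure ℚ) (M := ℂ)).toRingHom.comp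
      (levelVal k).toRingHom
  exact Curve.IsFunctionField1.of_finite_adjoin (Modular.transcendental_jL N ι)
    (Modular.finiteDimensional_FL N ι)

variable {N}

/-- Orders divisible by `n` over `ℚ̄` are divisible by `n` over the field of definition. -/
theorem ord_dvd_level {k : IntermediateField ℚ ℚ̄} {n : ℤ}
    {f : laurentBaseChange k (modularFunctionFieldFull N)}
    (h : ∀ v : Place ℚ̄ (modularFunctionFieldBar N),
      n ∣ v.ord (bcHom (modularFunctionFieldFull N) (levelVal k) f))
    (w : Place k (laurentBaseChange k (modularFunctionFieldFull N))) : n ∣ w.ord f := by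
  have := isFunctionField1_level N k
  have := EichlerShimura.isFunctionField1_modularFunctionFieldBar N
  exact ord_dvd_of_bcHom h w

/-- A torsion class has a Kummer function over every large enough number field, with all orders
divisible by `n` there. -/
theorem exists_kummer_descend {n : ℕ} {x : JZero N} (hx : n • x = 0) :
    ∃ k₀ : IntermediateField ℚ ℚ̄, FiniteDimensional ℚ k₀ ∧ ∀ k : IntermediateField ℚ ℚ̄, k₀ ≤ k →
      ∃ f : laurentBaseChange k (modularFunctionFieldFull N),
        IsKummerFun n x (bcHom (modularFunctionFieldFull N) (levelVal k) f) ∧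
        ∀ w : Place k (laurentBaseChange k (modularFunctionFieldFull N)), (n : ℤ) ∣ w.ord f := by
  obtain ⟨g, hg⟩ := exists_isKummerFun hx
  obtain ⟨k₀, hk₀, h⟩ := exists_descend (modularFunctionFieldFull N) g
  refine ⟨k₀, hk₀, fun k hk => ?_⟩
  obtain ⟨f, rfl⟩ := h k hk
  exact ⟨f, hg, ord_dvd_level hg.dvd_ord⟩

omit [NeZero N] in
/-- The Galois action on Kummer functions over a Galois number field. -/
theorem IsKummerFun.smul_level {n : ℕ} {x : JZero N} {k : IntermediateField ℚ ℚ̄} [Normal ℚ k]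
    {f : laurentBaseChange k (modularFunctionFieldFull N)}
    (hf : IsKummerFun n x (bcHom (modularFunctionFieldFull N) (levelVal k) f)) (σ : Γℚ) :
    IsKummerFun n (σ • x) (bcHom (modularFunctionFieldFull N) (levelVal k)
      (arithmeticGalois (modularFunctionFieldFull N) (σ.restrictNormal k) • f)) := by
  rw [← smul_bcHom (modularFunctionFieldFull N) k σ f]
  exact hf.smul _

end Modular

end Fermat.Agent.BadPrime
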