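import Fermat.Agent.BadPrime.GaussModelData
import Mathlib.GroupTheory.MonoidLocalization.UniqueFactorization
import Mathlib.RingTheory.Polynomial.Basic
import Mathlib.RingTheory.Polynomial.UniqueFactorization
import Mathlib.RingTheory.Localization.Submodule
import Mathlib.RingTheory.PrincipalIdealDomain

/-!
# The base ring of a chart

`A[X]` localised at the polynomials reducing to `1`: a factorial noetherian domain in which the
uniformiser of `A` is a prime contained in the Jacobson radical.
-/

set_option autoImplicit false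
set_option synthInstance.maxHeartbeats 400000
set_option linter.unusedSectionVars false

noncomputable section

open ModularCurve Polynomial

namespace Fermat.Agent.BadPrime

open Fermat.Agent.Reduction Fermat.Agent.Modular

variable {L : Type*} [Field L] [Algebra ℚ L] {A : ValuationSubring L} {b : Bool}

theorem chartS_le_nonZeroDivisors : chartS A b ≤ nonZeroDivisors A[X] := fun r hr =>
  mem_nonZeroDivisors_of_ne_zero fun h => by
    rw [mem_chartS, h, map_zero] at hr
    exact zero_ne_one hr

instance : IsDomain (ChartBase A b) :=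
  IsLocalization.isDomain_localization chartS_le_nonZeroDivisors

theorem chartRed_surjective : Function.Surjective (chartRed A b) := fun p => by
  obtain ⟨r, hr⟩ := Polynomial.map_surjective _ IsLocalRing.residue_surjective p
  exact ⟨algebraMap A[X] (ChartBase A b) r, by rw [chartRed_algebraMap]; exact hr⟩

variable [IsDiscreteValuationRing A] {ϖ : A} (hϖ : Irreducible ϖ)

variable (A b ϖ) in
/-- The uniformiser in the base ring of a chart. -/
def chartPi : ChartBase A b := algebraMap A[X] (ChartBase A b) (C ϖ)

include hϖ in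
theorem redPoly_eq_zero_iff (r : A[X]) : redPoly A r = 0 ↔ C ϖ ∣ r := by
  rw [Polynomial.C_dvd_iff_dvd_coeff]
  simp only [Polynomial.ext_iff, coe_mapRingHom, coeff_map, coeff_zero,
    IsLocalRing.residue_eq_zero_iff, hϖ.maximalIdeal_eq, Ideal.mem_span_singleton]

include hϖ in
theorem chartRed_eq_zero (r : ChartBase A b) : chartRed A b r = 0 ↔ chartPi A b ϖ ∣ r := by
  obtain ⟨x, s, rfl⟩ := IsLocalization.exists_mk'_eq (chartS A b) r
  have h1 : chartRed A b (IsLocalization.mk' (ChartBase A b) x s) = redPoly A x := by
    refine (IsLocalization.lift_mk'_spec _ _ _ _).2 ?_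
    rw [(mem_chartS A).1 s.2, one_mul]
  rw [h1, redPoly_eq_zero_iff hϖ]
  constructor
  · rintro ⟨y, rfl⟩
    exact ⟨IsLocalization.mk' _ y s, by rw [chartPi, IsLocalization.mul_mk'_eq_mk'_of_mul]⟩
  · rintro ⟨y, hy⟩
    rw [← redPoly_eq_zero_iff hϖ, ← h1, hy, map_mul, chartPi, chartRed_algebraMap,
      (redPoly_eq_zero_iff hϖ _).2 dvd_rfl, zero_mul]

include hϖ in
theorem prime_chartPi : Prime (chartPi A b ϖ) := by
  have hne : chartPi A b ϖ ≠ 0 := fun h => by
    have := IsLocalization.injective (ChartBase A b) (M := chartS A b) chartS_le_nonZeroDivisors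
      (h.trans (map_zero _).symm)
    exact hϖ.ne_zero (C_eq_zero.1 this)
  refine ⟨hne, fun hu => ?_, fun x y hxy => ?_⟩
  · have := hu.map (chartRed A b)
    rw [(chartRed_eq_zero hϖ _).2 dvd_rfl] at this
    exact not_isUnit_zero this
  · rw [← chartRed_eq_zero hϖ, map_mul, mul_eq_zero] at hxy
    exact hxy.imp (chartRed_eq_zero hϖ x).1 (chartRed_eq_zero hϖ y).1

include hϖ in
theorem isUnit_one_add_chartPi (r : ChartBase A b) : IsUnit (1 + chartPi A b ϖ * r) := by
  obtain ⟨x, s, rfl⟩ := IsLocalization.exists_mk'_eq (chartS A b) r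
  have hmem : (s : A[X]) + C ϖ * x ∈ chartS A b := by
    rw [mem_chartS, map_add, map_mul, (mem_chartS A).1 s.2,
      (redPoly_eq_zero_iff hϖ _).2 dvd_rfl, zero_mul, add_zero]
  have h : (1 + chartPi A b ϖ * IsLocalization.mk' (ChartBase A b) x s) *
      algebraMap A[X] (ChartBase A b) s =
      algebraMap A[X] (ChartBase A b) ((s : A[X]) + C ϖ * x) := by
    rw [add_mul, one_mul, mul_assoc, IsLocalization.mk'_spec, map_add, map_mul, chartPi]
  refine isUnit_of_mul_isUnit_left (y := algebraMap A[X] (ChartBase A b) s) ?_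
  rw [h]
  exact IsLocalization.map_units _ ⟨_, hmem⟩

variable (N : ℕ) [NeZero N]

theorem algebraMap_chartBase_algebraMap (r : A[X]) :
    algebraMap (ChartBase A b) (FL N L) (algebraMap A[X] (ChartBase A b) r) = chartEval A N b r :=
  IsLocalization.lift_eq _ r

theorem algebraMap_chartPi (ϖ : A) :
    algebraMap (ChartBase A b) (FL N L) (chartPi A b ϖ) = algebraMap L (FL N L) (ϖ : L) := by
  rw [chartPi, algebraMap_chartBase_algebraMap, chartEval, coe_eval₂RingHom, eval₂_C]
  rfl

theorem hasGaussRed_algebraMap_chartBase (r : ChartBase A b) :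
    HasGaussRed (IsLocalRing.residue A)
      ((algebraMap (ChartBase A b) (FL N L) r : FL N L) : LaurentSeries L)
      (aeval (chartCoordRed (IsLocalRing.ResidueField A) b) (chartRed A b r)) := by
  obtain ⟨x, s, rfl⟩ := IsLocalization.exists_mk'_eq (chartS A b) r
  have h := congrArg (algebraMap (ChartBase A b) (FL N L))
    (IsLocalization.mk'_spec (ChartBase A b) x s)
  rw [map_mul, algebraMap_chartBase_algebraMap, algebraMap_chartBase_algebraMap] at h
  have h' := congrArg (chartRed A b) (IsLocalization.mk'_spec (ChartBase A b) x s)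
  rw [map_mul, chartRed_algebraMap, chartRed_algebraMap, (mem_chartS A).1 s.2, mul_one] at h'
  rw [eq_div_of_mul_eq (chartEval_ne_zero A N s) h, h', IntermediateField.coe_div,
    div_eq_mul_inv]
  have hs := hasGaussRed_chartEval A N b (s : A[X])
  rw [(mem_chartS A).1 s.2, map_one] at hs
  simpa using (hasGaussRed_chartEval A N b x).mul (hs.inv one_ne_zero)

end Fermat.Agent.BadPrime
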