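import Fermat.Agent.Curve.Approximation
import Fermat.Agent.Curve.Degree
import Fermat.Agent.BadPrime.GaussChartRing
import Fermat.Agent.Modular.Degree
import Mathlib.RingTheory.Localization.Integral
import Mathlib.RingTheory.Localization.Algebra
import Mathlib.Algebra.Polynomial.Lifts

/-!
# Orders divisible by `n` give powers at horizontal primes

Let `A` be a domain with fraction field `L`, `R` a localisation of `A[X]`, mapped to a function
field `F` over `L` through a transcendental `t`.  If all orders of `g` are divisible by `n`, then at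
every prime `p` of `R` not dividing a nonzero constant, `g` is an `n`-th power up to a unit of the
integral closure of `R`.
-/

set_option autoImplicit false

noncomputable section

open Polynomial AlgebraicCurve

namespace Fermat.Agent.BadPrime

section Generic

variable {A L F : Type*} [CommRing A] [IsDomain A] [Field L] [Algebra A L] [IsFractionRing A L]
  [Field F] [Algebra L F]

/-- Denominators of integrality over `L[t]` are constants of `A`. -/
theorem exists_const_mul_isIntegralElem {t x : F}
    (hx : IsIntegral (Algebra.adjoin L ({t} : Set F)) x) :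
    ∃ a : A, a ≠ 0 ∧ RingHom.IsIntegralElem
      ((aeval t).toRingHom.comp (mapRingHom (algebraMap A L)))
      (algebraMap L F (algebraMap A L a) * x) := by
  let := (aeval t : L[X] →ₐ[L] F).toRingHom.toAlgebra
  let := ((aeval t : L[X] →ₐ[L] F).toRingHom.comp (mapRingHom (algebraMap A L))).toAlgebra
  let := Polynomial.algebra A L
  have : IsLocalization ((nonZeroDivisors A).map (C : A →+* A[X])) L[X] :=
    Polynomial.isLocalization _ _
  have : IsScalarTower A[X] L[X] F := IsScalarTower.of_algebraMap_eq fun _ => rfl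
  have hxL : IsIntegral L[X] x := by
    obtain ⟨P, hP, hPx⟩ := hx
    let f : L[X] →+* Algebra.adjoin L ({t} : Set F) :=
      (aeval (⟨t, Algebra.self_mem_adjoin_singleton L t⟩ :
        Algebra.adjoin L ({t} : Set F))).toRingHom
    have hf : Function.Surjective f := by
      rintro ⟨y, hy⟩
      rw [Algebra.adjoin_singleton_eq_range_aeval] at hy
      obtain ⟨Q, rfl⟩ := hy
      exact ⟨Q, Subtype.ext (by simp [f, Polynomial.aeval_subalgebra_coe])⟩
    have hcomp : (algebraMap (Algebra.adjoin L ({t} : Set F)) F).comp f =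
        algebraMap L[X] F := by
      refine RingHom.ext fun Q => ?_
      show ((aeval (⟨t, Algebra.self_mem_adjoin_singleton L t⟩ :
        Algebra.adjoin L ({t} : Set F)) Q : Algebra.adjoin L ({t} : Set F)) : F) = aeval t Q
      simp [Polynomial.aeval_subalgebra_coe]
    obtain ⟨P', hP', -, hm⟩ := Polynomial.lifts_and_degree_eq_and_monic
      ((Polynomial.mem_lifts _).2 (Polynomial.map_surjective f hf P)) hP
    refine ⟨P', hm, ?_⟩
    rw [← hcomp, ← Polynomial.eval₂_map, hP']
    exact hPx
  obtain ⟨⟨_, a, ha, rfl⟩, h⟩ :=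
    IsIntegral.exists_multiple_integral_of_isLocalization ((nonZeroDivisors A).map (C : A →+* A[X]))
      x hxL
  refine ⟨a, nonZeroDivisors.ne_zero ha, ?_⟩
  rw [Submonoid.smul_def, Algebra.smul_def] at h
  have e : algebraMap A[X] F (C a) = algebraMap L F (algebraMap A L a) := by
    show aeval t ((C a).map (algebraMap A L)) = _
    rw [Polynomial.map_C, aeval_C]
  rw [e] at h
  exact h

variable [Curve.IsFunctionField1 L F]

/-- Evaluation of polynomials at a place where `t` is finite. -/
def evalPlace (w : Place L F) {t : F} (ht : t ∈ w.toValuationSubring) :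
    L[X] →+* w.toValuationSubring :=
  (aeval t).toRingHom.codRestrict w.toValuationSubring.toSubring fun Q => by
    induction Q using Polynomial.induction_on' with
    | add P Q hP hQ =>
      show aeval t (P + Q) ∈ w.toValuationSubring
      rw [map_add]; exact add_mem hP hQ
    | monomial i c =>
      show aeval t (monomial i c) ∈ w.toValuationSubring
      rw [aeval_monomial]
      exact mul_mem (w.algebraMap_mem' c) (pow_mem ht i)

/-- The prime of `L[t]` below a place where `t` is finite. -/
def placeCentre (w : Place L F) {t : F} (ht : t ∈ w.toValuationSubring) : Ideal L[X] :=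
  (IsLocalRing.maximalIdeal w.toValuationSubring).comap (evalPlace w ht)

omit [Curve.IsFunctionField1 L F] in
theorem mem_placeCentre {w : Place L F} {t : F} {ht : t ∈ w.toValuationSubring} {Q : L[X]} :
    Q ∈ placeCentre w ht ↔ aeval t Q = 0 ∨ 0 < w.ord (aeval t Q) :=
  Curve.mem_maximalIdeal_iff

theorem placeCentre_ne_bot (w : Place L F) {t : F} (ht : t ∈ w.toValuationSubring) :
    placeCentre w ht ≠ ⊥ := by
  have := Curve.finite_residueField w
  obtain ⟨Q, hQ0, hQ⟩ := (IsAlgebraic.of_finite L
    (IsLocalRing.residue w.toValuationSubring ⟨t, ht⟩) :)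
  intro h
  refine hQ0 (Ideal.mem_bot.1 (h ▸ ?_))
  rw [placeCentre, Ideal.mem_comap, ← IsLocalRing.residue_eq_zero_iff, ← hQ]
  have e : (IsLocalRing.residue w.toValuationSubring).comp (evalPlace w ht) =
      (aeval (IsLocalRing.residue w.toValuationSubring ⟨t, ht⟩)).toRingHom := by
    refine Polynomial.ringHom_ext (fun c => ?_) ?_
    · simp only [RingHom.comp_apply, AlgHom.toRingHom_eq_coe, RingHom.coe_coe, aeval_C]
      refine congrArg (IsLocalRing.residue w.toValuationSubring) (Subtype.ext ?_)
      show aeval t (C c) = algebraMap L F c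
      rw [aeval_C]
    · simp only [RingHom.comp_apply, AlgHom.toRingHom_eq_coe, RingHom.coe_coe, aeval_X]
      refine congrArg (IsLocalRing.residue w.toValuationSubring) (Subtype.ext ?_)
      show aeval t (X : L[X]) = t
      rw [aeval_X]
  exact RingHom.congr_fun e Q

/-- Multiplying by a polynomial prime to `P` makes a function finite over `P` finite over all of
`L[t]`. -/
theorem exists_notMem_isIntegral {t f : F} {P : Ideal L[X]} [hP : P.IsPrime]
    (hf : ∀ (w : Place L F) (ht : t ∈ w.toValuationSubring), placeCentre w ht = P →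
      f ∈ w.toValuationSubring) :
    ∃ Q : L[X], Q ∉ P ∧ IsIntegral (Algebra.adjoin L ({t} : Set F)) (aeval t Q * f) := by
  classical
  have hfin : {w : Place L F | t ∈ w.toValuationSubring ∧ f ∉ w.toValuationSubring}.Finite :=
    (Curve.finite_ord_ne_zero f).subset fun w hw hz =>
      hw.2 (Curve.mem_of_ord_nonneg w hz.ge)
  have hchoose : ∀ w ∈ hfin.toFinset, ∃ Q : L[X], Q ∉ P ∧
      ∃ ht : t ∈ w.toValuationSubring, Q ∈ placeCentre w ht := by
    intro w hw
    obtain ⟨ht, hfw⟩ := hfin.mem_toFinset.1 hw
    by_contra hno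
    push Not at hno
    have hle : placeCentre w ht ≤ P := fun Q hQ => by
      by_contra hQP
      exact hno Q hQP ht hQ
    have hprime : (placeCentre w ht).IsPrime := Ideal.IsPrime.comap _
    have hmax := IsPrime.to_maximal_ideal (placeCentre_ne_bot w ht)
    exact hfw (hf w ht (hmax.eq_of_le hP.ne_top hle))
  choose! Q hQP hQ using hchoose
  refine ⟨∏ w ∈ hfin.toFinset, Q w ^ (-w.ord f).toNat, ?_, ?_⟩
  · intro h
    obtain ⟨w, hw, hmem⟩ := (Ideal.IsPrime.prod_mem_iff).1 h
    exact hQP w hw (hP.mem_of_pow_mem _ hmem)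
  · refine (Curve.isIntegral_adjoin_iff _ _).2 fun v hv => ?_
    have htv : t ∈ v.toValuationSubring := hv t rfl
    have hev : ∀ R : L[X], aeval t R ∈ v.toValuationSubring := fun R => (evalPlace v htv R).2
    by_cases hfv : f ∈ v.toValuationSubring
    · exact mul_mem (hev _) hfv
    have hvS : v ∈ hfin.toFinset := hfin.mem_toFinset.2 ⟨htv, hfv⟩
    rw [map_prod, ← Finset.mul_prod_erase _ _ hvS, mul_right_comm]
    refine mul_mem ?_ (prod_mem fun w _ => hev _)
    rw [map_pow]
    obtain ⟨_, hQv⟩ := hQ v hvS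
    rcases mem_placeCentre.1 hQv with h0 | hpos
    · by_cases he : (-v.ord f).toNat = 0
      · exact absurd (Curve.mem_of_ord_nonneg v (by omega)) hfv
      · rw [h0, zero_pow he, zero_mul]; exact zero_mem _
    · have hf0 : f ≠ 0 := fun h => hfv (h ▸ zero_mem _)
      have hQ0 : aeval t (Q v) ≠ 0 := fun h => by rw [h, Place.ord_zero] at hpos; omega
      refine Curve.mem_of_ord_nonneg v ?_
      rw [v.ord_mul (pow_ne_zero _ hQ0) hf0, Curve.ord_pow]
      have h1 : ((-v.ord f).toNat : ℤ) * 1 ≤ ((-v.ord f).toNat : ℤ) * v.ord (aeval t (Q v)) :=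
        mul_le_mul_of_nonneg_left hpos (by positivity)
      omega

variable {R : Type*} [CommRing R] [Algebra A[X] R] [Algebra R F] (S : Submonoid A[X])
  [IsLocalization S R]

include S in
/-- At a prime of the base not dividing a nonzero constant, a function with orders divisible by `n`
is an `n`-th power up to a unit of the integral closure. -/
theorem exists_smul_isIntegral_of_dvd_ord {t : F} (htr : Transcendental L t)
    (hev : ∀ r : A[X], algebraMap R F (algebraMap A[X] R r) = aeval t (r.map (algebraMap A L)))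
    {n : ℕ} {g : F} (hg : ∀ w : Place L F, (n : ℤ) ∣ w.ord g) {p : R} (hp : Prime p)
    (hpA : ∀ a : A, a ≠ 0 → ¬ p ∣ algebraMap A[X] R (C a)) :
    ∃ (u : F) (s : R), u ≠ 0 ∧ ¬ p ∣ s ∧ IsIntegral R (s • (u ^ n * g)) ∧
      IsIntegral R (s • (u ^ n * g)⁻¹) := by
  classical
  rcases eq_or_ne g 0 with rfl | hg0
  · refine ⟨1, 1, one_ne_zero, fun h => hp.not_isUnit (isUnit_of_dvd_one h), ?_, ?_⟩ <;>
      simp [isIntegral_zero]
  let := Polynomial.algebra A L
  have hloc : IsLocalization ((nonZeroDivisors A).map (C : A →+* A[X])) L[X] :=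
    Polynomial.isLocalization _ _
  have hpr : (Ideal.span {p} : Ideal R).IsPrime := (Ideal.span_singleton_prime hp.ne_zero).2 hp
  set p₀ : Ideal A[X] := (Ideal.span {p}).comap (algebraMap A[X] R) with hp₀
  have hmem₀ : ∀ r : A[X], r ∈ p₀ ↔ p ∣ algebraMap A[X] R r := fun r => by
    rw [hp₀, Ideal.mem_comap, Ideal.mem_span_singleton]
  have hp₀prime : p₀.IsPrime := Ideal.IsPrime.comap _
  have hdisj : Disjoint (((nonZeroDivisors A).map (C : A →+* A[X]) : Submonoid A[X]) : Set A[X])
      (p₀ : Set A[X]) := by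
    rw [Set.disjoint_left]
    rintro _ ⟨a, ha, rfl⟩ h
    exact hpA a (nonZeroDivisors.ne_zero ha) ((hmem₀ _).1 h)
  set P : Ideal L[X] := p₀.map (algebraMap A[X] L[X]) with hPdef
  have hP : P.IsPrime :=
    IsLocalization.isPrime_of_isPrime_disjoint _ L[X] p₀ hp₀prime hdisj
  have hcomap : P.comap (algebraMap A[X] L[X]) = p₀ :=
    IsLocalization.under_map_of_isPrime_disjoint _ L[X] hp₀prime hdisj
  -- a nonzero element of `P`
  obtain ⟨x₀, s₀, hx₀⟩ := IsLocalization.exists_mk'_eq S p
  have hx₀0 : x₀ ≠ 0 := by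
    rintro rfl
    exact hp.ne_zero (by rw [← hx₀, IsLocalization.mk'_zero])
  have hx₀mem : x₀ ∈ p₀ := (hmem₀ _).2 ⟨algebraMap A[X] R s₀, by
    rw [← hx₀, IsLocalization.mk'_spec]⟩
  have hQ₀ : x₀.map (algebraMap A L) ∈ P := Ideal.mem_map_of_mem _ hx₀mem
  have hQ₀0 : x₀.map (algebraMap A L) ≠ 0 :=
    (Polynomial.map_ne_zero_iff (IsFractionRing.injective A L)).2 hx₀0
  have hne : aeval t (x₀.map (algebraMap A L)) ≠ 0 := fun h =>
    hQ₀0 (transcendental_iff.1 htr _ h)
  -- the places over `P`
  have hfinP : {w : Place L F | ∃ ht : t ∈ w.toValuationSubring, placeCentre w ht = P}.Finite :=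
    (Curve.finite_ord_ne_zero (aeval t (x₀.map (algebraMap A L)))).subset fun w ⟨ht, hw⟩ => by
      rcases mem_placeCentre.1 (hw ▸ hQ₀ : x₀.map (algebraMap A L) ∈ placeCentre w ht) with h | h
      · exact absurd h hne
      · exact (ne_of_gt h)
  obtain ⟨u, hu0, hu⟩ := Curve.exists_forall_ord_eq hfinP.toFinset fun w => -(w.ord g / n)
  have hh0 : u ^ n * g ≠ 0 := mul_ne_zero (pow_ne_zero _ hu0) hg0
  have hord : ∀ (w : Place L F) (ht : t ∈ w.toValuationSubring), placeCentre w ht = P →
      w.ord (u ^ n * g) = 0 := fun w ht hw => by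
    rw [w.ord_mul (pow_ne_zero _ hu0) hg0, Curve.ord_pow,
      hu w (hfinP.mem_toFinset.2 ⟨ht, hw⟩), mul_neg, Int.mul_ediv_cancel' (hg w), neg_add_cancel]
  have key : ∀ f : F, (∀ (w : Place L F) (ht : t ∈ w.toValuationSubring), placeCentre w ht = P →
      f ∈ w.toValuationSubring) → ∃ s : R, ¬ p ∣ s ∧ IsIntegral R (s • f) := by
    intro f hf
    obtain ⟨Q, hQP, hint⟩ := exists_notMem_isIntegral hf
    obtain ⟨⟨Q', ⟨_, a', ha', rfl⟩⟩, hQ'⟩ :=
      IsLocalization.surj ((nonZeroDivisors A).map (C : A →+* A[X])) Q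
    obtain ⟨a, ha, m, hm, hroot⟩ := exists_const_mul_isIntegralElem (A := A) hint
    have hQ'' : Q * C (algebraMap A L a') = Q'.map (algebraMap A L) := by
      rw [← Polynomial.map_C]; exact hQ'
    refine ⟨algebraMap A[X] R (C a * Q'), fun h => ?_, ?_⟩
    · rcases hp₀prime.mem_or_mem ((hmem₀ _).2 h) with h | h
      · exact hpA a ha ((hmem₀ _).1 h)
      · have h' : Q * C (algebraMap A L a') ∈ P := hQ'' ▸ Ideal.mem_map_of_mem _ h
        rcases hP.mem_or_mem h' with h' | h'
        · exact hQP h'
        · exact hP.ne_top (P.eq_top_of_isUnit_mem h' (isUnit_C.2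
            (IsUnit.mk0 _ ((map_ne_zero_iff _ (IsFractionRing.injective A L)).2
              (nonZeroDivisors.ne_zero ha')))))
    · have h1 : IsIntegral R (algebraMap L F (algebraMap A L a) * (aeval t Q * f)) := by
        refine ⟨m.map (algebraMap A[X] R), hm.map _, ?_⟩
        rw [eval₂_map]
        have e : (algebraMap R F).comp (algebraMap A[X] R) =
            (aeval t).toRingHom.comp (mapRingHom (algebraMap A L)) := RingHom.ext hev
        rw [e]
        exact hroot
      have h2 : IsIntegral R (algebraMap R F (algebraMap A[X] R (C a')) *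
          (algebraMap L F (algebraMap A L a) * (aeval t Q * f))) := isIntegral_algebraMap.mul h1
      convert h2 using 1
      rw [Algebra.smul_def, hev, hev, Polynomial.map_mul, ← hQ'', Polynomial.map_C,
        Polynomial.map_C, map_mul, map_mul, aeval_C, aeval_C]
      ring
  obtain ⟨s, hs, hsi⟩ := key (u ^ n * g) fun w ht hw =>
    Curve.mem_of_ord_nonneg w (hord w ht hw).ge
  obtain ⟨s', hs', hsi'⟩ := key (u ^ n * g)⁻¹ fun w ht hw =>
    Curve.mem_of_ord_nonneg w (by rw [w.ord_inv, hord w ht hw, neg_zero])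
  refine ⟨u, s * s', hu0, fun h => (hp.dvd_or_dvd h).elim hs hs', ?_, ?_⟩
  · rw [mul_comm s s', mul_smul, Algebra.smul_def s']
    exact isIntegral_algebraMap.mul hsi
  · rw [mul_smul, Algebra.smul_def s]
    exact isIntegral_algebraMap.mul hsi'

end Generic

section Chart

open Fermat.Agent.Reduction Fermat.Agent.Modular

variable {L : Type*} [Field L] [Algebra ℚ L] {A : ValuationSubring L} {b : Bool}
  {N : ℕ} [NeZero N]

theorem transcendental_chartCoord (ι : L →+* ℂ) (N : ℕ) [NeZero N] (b : Bool) :
    Transcendental L (chartCoord L N b) := by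
  cases b with
  | false => exact transcendental_jL N ι
  | true =>
    show Transcendental L (jL N L)⁻¹
    exact fun h => transcendental_jL N ι (by simpa using h.inv)

theorem chartEval_eq_aeval (r : A[X]) :
    chartEval A N b r = aeval (chartCoord L N b) (r.map (algebraMap A L)) := by
  rw [aeval_def, eval₂_map]
  rfl

variable [IsDiscreteValuationRing A] {ϖ : A}

/-- In a chart of the model, a function with orders divisible by `n` is an `n`-th power up to a
unit at every horizontal prime. -/
theorem isPowerAtHorizontal_of_dvd_ord (ι : L →+* ℂ) (hϖ : Irreducible ϖ)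
    [Curve.IsFunctionField1 L (FL N L)] {k K P : Type*} [Field k] [CommRing K] [CommRing P]
    [Algebra k[X] P] {V : Vertical (FL N L) K} (c : Chart V (ChartBase A b) k P)
    (hB : c.B = chartB A N b) (hπ : c.π = chartPi A b ϖ) {n : ℕ} {g : FL N L}
    (hg : ∀ w : Place L (FL N L), (n : ℤ) ∣ w.ord g) : c.IsPowerAtHorizontal n g := by
  intro p hp hne
  rw [hπ] at hne
  rw [hB]
  refine exists_smul_isIntegral_of_dvd_ord (chartS A b) (transcendental_chartCoord ι N b)
    (fun r => by rw [algebraMap_chartBase_algebraMap, chartEval_eq_aeval]) hg hp fun a ha hdvd => ?_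
  obtain ⟨m, v, rfl⟩ := IsDiscreteValuationRing.eq_unit_mul_pow_irreducible ha hϖ
  rw [map_mul, map_pow, map_mul, map_pow] at hdvd
  rcases hp.dvd_or_dvd hdvd with h | h
  · exact hp.not_isUnit (isUnit_of_dvd_unit h
      ((v.isUnit.map (C : A →+* A[X])).map (algebraMap A[X] (ChartBase A b))))
  · exact hne (hp.associated_of_dvd (prime_chartPi hϖ) (hp.dvd_of_dvd_pow h))

/-- The function field of `X₀(N)` over a field embedding in `ℂ`. -/
theorem isFunctionField1_FL (ι : L →+* ℂ) (N : ℕ) [NeZero N] :
    Curve.IsFunctionField1 L (FL N L) :=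
  Curve.IsFunctionField1.of_finite_adjoin (transcendental_jL N ι) (finiteDimensional_FL N ι)

end Chart

end Fermat.Agent.BadPrime
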