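import Fermat.Agent.EC.Red.ResidueQbar
import Fermat.Agent.Galois.Frobenius
import Mathlib.NumberTheory.NumberField.Basic
import Mathlib.RingTheory.DedekindDomain.AdicValuation
import Mathlib.RingTheory.Valuation.Discrete.Basic
import Mathlib.FieldTheory.Perfect

/-!
# Places of number fields

A valuation subring of a number field over a prime is a discrete valuation ring with finite
residue field.
-/

set_option autoImplicit false

noncomputable section

open NumberField IsDedekindDomain

namespace Fermat.Agent.BadPrime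

variable {K : Type*} [Field K] [NumberField K] {A : ValuationSubring K} {q : ℕ}

/-- The ring of integers lies in every valuation subring. -/
theorem coe_ringOfIntegers_mem (A : ValuationSubring K) (x : 𝓞 K) : (x : K) ∈ A :=
  Fermat.Agent.Galois.mem_valuationSubring_of_isIntegral_int A x.2

/-- The ring of integers inside a valuation subring. -/
def ringOfIntegersToPlace (A : ValuationSubring K) : 𝓞 K →+* A :=
  (algebraMap (𝓞 K) K).codRestrict A.toSubring fun x => coe_ringOfIntegers_mem A x

/-- The centre of a valuation subring on the ring of integers. -/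
def centre (A : ValuationSubring K) : Ideal (𝓞 K) :=
  (IsLocalRing.maximalIdeal A).comap (ringOfIntegersToPlace A)

instance (A : ValuationSubring K) : (centre A).IsPrime :=
  Ideal.IsPrime.comap _

theorem centre_ne_bot (hq : q.Prime) (hA : A.LiesOverPrime q) : centre A ≠ ⊥ := by
  intro h
  obtain ⟨hm, hmax⟩ := ValuationSubring.mem_nonunits_iff_exists_mem_maximalIdeal.1 hA
  have hmem : ((q : 𝓞 K)) ∈ centre A := by
    rw [centre, Ideal.mem_comap, map_natCast]
    exact hmax
  rw [h, Ideal.mem_bot] at hmem
  exact hq.ne_zero (by exact_mod_cast hmem)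

/-- The centre as a height one prime. -/
def centrePrime (hq : q.Prime) (hA : A.LiesOverPrime q) : HeightOneSpectrum (𝓞 K) :=
  ⟨centre A, inferInstance, centre_ne_bot hq hA⟩

theorem isUnit_of_notMem_centre {d : 𝓞 K} (hd : d ∉ centre A) :
    IsUnit (ringOfIntegersToPlace A d) := by
  by_contra h
  exact hd h

theorem valuationSubring_centre_le (hq : q.Prime) (hA : A.LiesOverPrime q) :
    ((centrePrime hq hA).valuation K).valuationSubring ≤ A := by
  intro x hx
  obtain ⟨n, ⟨d, hd⟩, hnd⟩ := (centrePrime hq hA).exists_primeCompl_mul_eq_of_integer x hx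
  obtain ⟨u, hu⟩ := (isUnit_of_notMem_centre (A := A) hd).exists_right_inv
  have hu' : algebraMap (𝓞 K) K d * (u : K) = 1 := congrArg Subtype.val hu
  rw [show x = algebraMap (𝓞 K) K n * (u : K) by
    rw [← hnd, mul_assoc, hu', mul_one]]
  exact mul_mem (coe_ringOfIntegers_mem A n) u.2

theorem exists_eq_div (hq : q.Prime) (hA : A.LiesOverPrime q) (x : A) :
    ∃ n d : 𝓞 K, d ∉ centre A ∧
      x * ringOfIntegersToPlace A d = ringOfIntegersToPlace A n := by
  have hne : A ≠ ⊤ := by
    intro h
    obtain ⟨hm, hmax⟩ := ValuationSubring.mem_nonunits_iff_exists_mem_maximalIdeal.1 hA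
    subst h
    exact hmax (IsUnit.of_mul_eq_one ⟨(q : K)⁻¹, trivial⟩
      (Subtype.ext (mul_inv_cancel₀ (Nat.cast_ne_zero.2 hq.ne_zero))))
  set v := centrePrime hq hA
  have hle := valuationSubring_centre_le hq hA
  have hxv : v.valuation K (x : K) ≤ 1 := by
    by_contra hgt
    rw [not_le] at hgt
    apply hne
    refine SetLike.ext fun y => ⟨fun _ => trivial, fun _ => ?_⟩
    rcases eq_or_ne y 0 with rfl | hy
    · exact A.zero_mem
    obtain ⟨m, hm⟩ : ∃ m : ℕ, v.valuation K y ≤ v.valuation K ((x : K) ^ m) := by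
      obtain ⟨m, hm⟩ := MulArchimedean.arch (v.valuation K y) hgt
      exact ⟨m, by rwa [map_pow]⟩
    have hx0 : (x : K) ≠ 0 := fun h => by simp [h] at hgt
    have hy' : y / (x : K) ^ m ∈ (v.valuation K).valuationSubring := by
      rw [Valuation.mem_valuationSubring_iff, map_div₀]
      exact div_le_one_of_le₀ hm zero_le
    rw [← div_mul_cancel₀ y (pow_ne_zero m hx0)]
    exact A.mul_mem _ _ (hle hy') (pow_mem x.2 m)
  obtain ⟨n, ⟨d, hd⟩, hnd⟩ := v.exists_primeCompl_mul_eq_of_integer (x : K) hxv
  exact ⟨n, d, hd, Subtype.ext hnd⟩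

theorem valuationSubring_centre_eq (hq : q.Prime) (hA : A.LiesOverPrime q) :
    ((centrePrime hq hA).valuation K).valuationSubring = A := by
  refine le_antisymm (valuationSubring_centre_le hq hA) fun x hx => ?_
  obtain ⟨n, d, hd, h⟩ := exists_eq_div hq hA ⟨x, hx⟩
  have h' : x * algebraMap (𝓞 K) K d = algebraMap (𝓞 K) K n := congrArg Subtype.val h
  rw [Valuation.mem_valuationSubring_iff]
  have h1 : (centrePrime hq hA).valuation K (algebraMap (𝓞 K) K d) = 1 := by
    rw [HeightOneSpectrum.valuation_of_algebraMap,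
      (centrePrime hq hA).intValuation_eq_one_iff_mem_primeCompl]
    exact hd
  have h2 := congrArg ((centrePrime hq hA).valuation K) h'
  rw [map_mul, h1, mul_one] at h2
  rw [h2]
  exact (centrePrime hq hA).valuation_le_one n

theorem isDiscreteValuationRing_place (hq : q.Prime) (hA : A.LiesOverPrime q) :
    IsDiscreteValuationRing A := by
  haveI : IsPrincipalIdealRing A := by
    rw [← valuationSubring_centre_eq hq hA,
      ← HeightOneSpectrum.valuationSubringAtPrime_eq_valuationSubring]
    infer_instance
  refine { not_a_field' := fun h => ?_ }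
  obtain ⟨hm, hmax⟩ := ValuationSubring.mem_nonunits_iff_exists_mem_maximalIdeal.1 hA
  rw [h, Ideal.mem_bot] at hmax
  exact Nat.cast_ne_zero.2 hq.ne_zero (congrArg Subtype.val hmax : (q : K) = 0)

theorem finite_residueField_place (hq : q.Prime) (hA : A.LiesOverPrime q) :
    Finite (IsLocalRing.ResidueField A) := by
  let r := (IsLocalRing.residue A).comp (ringOfIntegersToPlace A)
  have hker : RingHom.ker r = centre A := by
    rw [← RingHom.comap_ker, IsLocalRing.ker_residue]
    rfl
  haveI : Finite (𝓞 K ⧸ RingHom.ker r) := by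
    rw [hker]
    exact Ideal.finiteQuotientOfFreeOfNeBot _ (centre_ne_bot hq hA)
  haveI : Finite r.range := Finite.of_equiv _ r.quotientKerEquivRange.toEquiv
  refine Finite.of_surjective (α := r.range × r.range)
    (fun p => (p.1 : IsLocalRing.ResidueField A) * (p.2 : IsLocalRing.ResidueField A)⁻¹)
    fun y => ?_
  obtain ⟨x, rfl⟩ := IsLocalRing.residue_surjective y
  obtain ⟨n, d, hd, h⟩ := exists_eq_div hq hA x
  refine ⟨⟨⟨r n, n, rfl⟩, ⟨r d, d, rfl⟩⟩, ?_⟩
  have hrd : r d ≠ 0 := fun h0 => hd (by
    rw [← hker, RingHom.mem_ker]; exact h0)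
  show r n * (r d)⁻¹ = _
  rw [eq_comm, ← div_eq_mul_inv, eq_div_iff hrd]
  show IsLocalRing.residue A x * IsLocalRing.residue A _ = IsLocalRing.residue A _
  rw [← map_mul, h]

end Fermat.Agent.BadPrime
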