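import Fermat.Agent.BadPrime.CoreModel
import Fermat.Agent.BadPrime.GaussChart
import Fermat.Agent.BadPrime.GaussDescent
import Fermat.Agent.BadPrime.GaussTorsion
import Fermat.Agent.BadPrime.JacobianDescent
import Fermat.Agent.BadPrime.JacobianHorizontal
import Fermat.Agent.BadPrime.NumberPlace
import Fermat.Agent.BadPrime.ChartOnto

/-!
# The core property from the instances of the two-component model over number fields
-/

set_option autoImplicit false
set_option synthInstance.maxHeartbeats 400000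
set_option linter.unusedSectionVars false
set_option linter.style.haveILetI false
set_option maxSynthPendingDepth 3

noncomputable section

open ModularCurve IntermediateField AlgebraicCurve
open Fermat.Agent.EichlerShimura (bcHom coe_bcHom bcHom_algebraMap bcHom_injective)

namespace Fermat.Agent.BadPrime

/-- Shortcut for a slow instance search; reducibly the instance that search finds. -/
local instance (priority := high) algebraLaurentShortcutCoreAssembly (K : Type*) [Field K]
    (S : IntermediateField K (LaurentSeries K)) : Algebra K S :=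
  inferInstance

open Fermat.Agent.Reduction Fermat.Agent.Modular

section Level

variable {L : Type*} [Field L] [Algebra ℚ L] [Algebra.IsAlgebraic ℚ L] {A : ValuationSubring L}
  [IsDiscreteValuationRing A] {q : ℕ} [Fact q.Prime] [CharP (IsLocalRing.ResidueField A) q]
  {M : ℕ} [NeZero M] (ι : L →+* ℂ) (hqM : ¬ q ∣ M)
  {w : FL (M * q) L →ₐ[L] FL (M * q) L} (hw : IsALInvolution w)
  (hfd : HasFullResidueDegree (IsLocalRing.ResidueField A) L M)
  (ϖ : A) (hϖ : Irreducible ϖ)

/-- The instances of the two-component model used for an automorphism `s` acting on both glueing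
quotients by `y ↦ y ^ m`. -/
def LevelModels (s : L ≃ₐ[ℚ] L) (m : ℕ) : Prop :=
  ∃ (G : GlobalModel (gaussVertical A ι hqM hw hfd ϖ hϖ) A)
    (_ : Expansion G L)
    (H0 : Chart.TwoComponent (gaussChart ι hqM hw hfd ϖ hϖ false) q
      (chartFr (IsLocalRing.ResidueField A) q M false))
    (H1 : Chart.TwoComponent (gaussChart ι hqM hw hfd ϖ hϖ true) q
      (chartFr (IsLocalRing.ResidueField A) q M true))
    (_ : ChartLink (gaussChart ι hqM hw hfd ϖ hϖ false) G.B0)
    (_ : ChartLink (gaussChart ι hqM hw hfd ϖ hϖ true) G.B1)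
    (σ0 : Chart.Semilinear (gaussChart ι hqM hw hfd ϖ hϖ false)
      (chartFr (IsLocalRing.ResidueField A) q M false))
    (σ1 : Chart.Semilinear (gaussChart ι hqM hw hfd ϖ hϖ true)
      (chartFr (IsLocalRing.ResidueField A) q M true)),
    σ0.toAut = arithmeticRingAut (modularFunctionFieldFull (M * q)) s ∧
    σ1.toAut = arithmeticRingAut (modularFunctionFieldFull (M * q)) s ∧
    (∀ y, Ideal.Quotient.mk (glueIdeal H0.graphs) (σ0.φ y) =
      Ideal.Quotient.mk (glueIdeal H0.graphs) y ^ m) ∧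
    ∀ y, Ideal.Quotient.mk (glueIdeal H1.graphs) (σ1.φ y) =
      Ideal.Quotient.mk (glueIdeal H1.graphs) y ^ m

/-- Over the number field: `s g = g ^ m` up to constants and `n`-th powers. -/
theorem exists_pow_mul_eq_of_levelModels [Finite (IsLocalRing.ResidueField A)]
    [UniqueFactorizationMonoid (ChartBase A false)] [IsNoetherianRing (ChartBase A false)]
    [UniqueFactorizationMonoid (ChartBase A true)] [IsNoetherianRing (ChartBase A true)]
    {s : L ≃ₐ[ℚ] L} {m n : ℕ} (hs : LevelModels ι hqM hw hfd ϖ hϖ s m) (hn : ¬ q ∣ n)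
    {g : FL (M * q) L} (h1 : HasGaussRed (IsLocalRing.residue A) (g : LaurentSeries L) 1)
    (h2 : HasGaussRed (IsLocalRing.residue A) ((w g : FL (M * q) L) : LaurentSeries L) 1)
    (hord : ∀ v : Place L (FL (M * q) L), (n : ℤ) ∣ v.ord g)
    (hord' : ∀ v : Place L (FL (M * q) L),
      (n : ℤ) ∣ v.ord (arithmeticRingAut (modularFunctionFieldFull (M * q)) s g)) :
    ∃ (u : FL (M * q) L) (a : L), u ≠ 0 ∧
      u ^ n * (arithmeticRingAut (modularFunctionFieldFull (M * q)) s g * (g ^ m)⁻¹) =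
        algebraMap L (FL (M * q) L) a := by
  obtain ⟨G, E, H0, H1, l0, l1, σ0, σ1, h0, h1', hm0, hm1⟩ := hs
  have hn0 : n ≠ 0 := fun h => hn (by rw [h]; exact dvd_zero q)
  have hu : IsUnit (n : A) := by
    refine isUnit_of_map_unit (IsLocalRing.residue A) _ (isUnit_iff_ne_zero.2 ?_)
    rw [map_natCast, Ne, CharP.cast_eq_zero_iff _ q]
    exact hn
  obtain ⟨ν, hν⟩ := hu.exists_right_inv
  haveI := isFunctionField1_FL ι (M * q)
  haveI : CharZero L := charZero_of_injective_algebraMap (algebraMap ℚ L).injective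
  have hi1 := h1.inv one_ne_zero
  have hi2 := h2.inv one_ne_zero
  rw [inv_one] at hi1 hi2
  have hmem : g ∈ (gaussVertical A ι hqM hw hfd ϖ hϖ).Bv :=
    (mem_pairBv (IsLocalRing.residue A) w).2 ⟨⟨_, h1⟩, ⟨_, h2⟩⟩
  have hg : (gaussChart ι hqM hw hfd ϖ hϖ false).IsNormalised g := by
    refine ⟨⟨hmem, Prod.ext (Subtype.ext ?_) (Subtype.ext ?_)⟩, ?_⟩
    · show pairRed1 (IsLocalRing.residue A) w ⟨g, hmem⟩ = _
      exact ((hasGaussRed_pairRed1 _ w ⟨g, hmem⟩).unique h1).trans rfl
    · show pairRed2 (IsLocalRing.residue A) w ⟨g, hmem⟩ = _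
      exact ((hasGaussRed_pairRed2 _ w ⟨g, hmem⟩).unique h2).trans rfl
    · refine (mem_pairBv (IsLocalRing.residue A) w).2 ⟨⟨1, ?_⟩, ⟨1, ?_⟩⟩
      · rw [IntermediateField.coe_inv]; exact hi1
      · rw [map_inv₀, IntermediateField.coe_inv]; exact hi2
  have hh : ∀ (b : Bool) (x : FL (M * q) L), (∀ v : Place L (FL (M * q) L), (n : ℤ) ∣ v.ord x) →
      (gaussChart ι hqM hw hfd ϖ hϖ b).IsPowerAtHorizontal n x := fun b x hx =>
    isPowerAtHorizontal_of_dvd_ord ι hϖ (gaussChart ι hqM hw hfd ϖ hϖ b) rfl rfl hx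
  have hden : ∀ x : L, ∃ (e : ℕ) (y : A),
      algebraMap A L (ϖ ^ e) * x = algebraMap A L y := by
    intro x
    obtain ⟨a, b, hb, rfl⟩ := IsFractionRing.div_surjective (A := A) x
    obtain ⟨e, v, hev⟩ :=
      IsDiscreteValuationRing.eq_unit_mul_pow_irreducible (nonZeroDivisors.ne_zero hb) hϖ
    refine ⟨e, a * ↑v⁻¹, ?_⟩
    have hb0 : algebraMap A L b ≠ 0 := by
      simpa using nonZeroDivisors.ne_zero hb
    rw [mul_div_assoc', div_eq_iff hb0, ← map_mul, ← map_mul]
    congr 1
    rw [hev, mul_assoc a, ← mul_assoc (↑v⁻¹ : A), Units.inv_mul, one_mul, mul_comm]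
  obtain ⟨u, a, hu0, hua⟩ := exists_pow_mul_eq_const E H0 H1 l0 l1 σ0 σ1 (h0.trans h1'.symm)
    (o := ϖ) rfl hϖ.ne_zero hden hn0 hν hm0 hm1 hg (hh false g hord)
    (hh false _ (fun v => by rw [h0]; exact hord' v)) (hh true g hord)
    (hh true _ (fun v => by rw [h0]; exact hord' v))
  rw [h0] at hua
  exact ⟨u, a, hu0, hua⟩

end Level

section Descent

local notation "Qb" => AlgebraicClosure ℚ

local instance : Algebra.IsAlgebraic ℚ (AlgebraicClosure ℚ) := AlgebraicClosure.isAlgebraic ℚ

/-- Ring homomorphisms out of the function field agreeing on constants and generators are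
equal. -/
theorem ringHom_ext_FL {L : Type*} [Field L] [Algebra ℚ L] {N : ℕ} [NeZero N] {E : Type*}
    [Field E] {f g : FL N L →+* E} (hc : ∀ c : L, f (algebraMap L _ c) = g (algebraMap L _ c))
    (hgen : ∀ (d : ℕ) (_ : NeZero d) (hd : d ∣ N), f (jdElem L hd) = g (jdElem L hd)) : f = g := by
  refine RingHom.ext fun x => ?_
  obtain ⟨x, hx⟩ := x
  have hx' : x ∈ IntermediateField.adjoin L (levelGens L N) :=
    laurentBaseChange_full_eq_adjoin L N ▸ hx
  suffices h : ∀ h : x ∈ FL N L, f ⟨x, h⟩ = g ⟨x, h⟩ from h hx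
  clear hx
  induction hx' using IntermediateField.adjoin_induction with
  | mem y hy =>
    obtain ⟨_, ⟨d, hd, hdN, rfl⟩, rfl⟩ := hy
    exact fun h => hgen d hd hdN
  | algebraMap c => exact fun h => hc c
  | add x y hx hy ihx ihy =>
    intro h
    have hx2 : x ∈ FL N L := (laurentBaseChange_full_eq_adjoin L N).ge hx
    have hy2 : y ∈ FL N L := (laurentBaseChange_full_eq_adjoin L N).ge hy
    rw [show (⟨x + y, h⟩ : FL N L) = ⟨x, hx2⟩ + ⟨y, hy2⟩ from rfl, map_add, map_add, ihx hx2,
      ihy hy2]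
  | inv x hx ihx =>
    intro h
    have hx2 : x ∈ FL N L := (laurentBaseChange_full_eq_adjoin L N).ge hx
    rw [show (⟨x⁻¹, h⟩ : FL N L) = (⟨x, hx2⟩ : FL N L)⁻¹ from Subtype.ext (by simp), map_inv₀,
      map_inv₀, ihx hx2]
  | mul x y hx hy ihx ihy =>
    intro h
    have hx2 : x ∈ FL N L := (laurentBaseChange_full_eq_adjoin L N).ge hx
    have hy2 : y ∈ FL N L := (laurentBaseChange_full_eq_adjoin L N).ge hy
    rw [show (⟨x * y, h⟩ : FL N L) = ⟨x, hx2⟩ * ⟨y, hy2⟩ from rfl, map_mul, map_mul, ihx hx2,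
      ihy hy2]

variable {q : ℕ} [Fact q.Prime] {M : ℕ} [NeZero M]

/-- Base change commutes with the Atkin–Lehner involutions. -/
theorem bcHom_involution {L L' : Type*} [Field L] [Algebra ℚ L] [Field L'] [Algebra ℚ L']
    (j : L →ₐ[ℚ] L') {w : FL (M * q) L →ₐ[L] FL (M * q) L} (hw : IsALInvolution w)
    {w' : FL (M * q) L' →ₐ[L'] FL (M * q) L'} (hw' : IsALInvolution w') (x : FL (M * q) L) :
    bcHom (modularFunctionFieldFull (M * q)) j (w x) =
      w' (bcHom (modularFunctionFieldFull (M * q)) j x) := by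
  set B := bcHom (modularFunctionFieldFull (M * q)) j with hB
  have key : B.comp (w : FL (M * q) L →+* FL (M * q) L) =
      (w' : FL (M * q) L' →+* FL (M * q) L').comp B := by
    refine ringHom_ext_FL (fun c => ?_) fun d hne hd => ?_
    · simp only [RingHom.comp_apply, RingHom.coe_coe, AlgHom.commutes, hB, bcHom_algebraMap]
    show B (w (jdElem L hd)) = w' (B (jdElem L hd))
    have hjd : ∀ {N e : ℕ} [NeZero N] [NeZero e] (he : e ∣ N),
        bcHom (modularFunctionFieldFull N) j (jdElem L he) = jdElem L' he := fun he =>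
      Subtype.ext (EichlerShimura.coeffMap_coeffEmb_base j _)
    have hα : ∀ y : FL M L, B (heckeAlphaBar L M q y) =
        heckeAlphaBar L' M q (bcHom (modularFunctionFieldFull M) j y) := fun y => by
      refine Subtype.ext ?_
      rw [hB, coe_bcHom, coe_heckeAlphaBar, coe_heckeAlphaBar, coe_bcHom]
    have hβ : ∀ y : FL M L, B (heckeBetaBar L M q y) =
        heckeBetaBar L' M q (bcHom (modularFunctionFieldFull M) j y) := fun y => by
      refine Subtype.ext ?_
      rw [hB, coe_bcHom, coe_heckeBetaBar, coe_heckeBetaBar, coe_bcHom, coeffMap_qExpand]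
    by_cases hqd : q ∣ d
    · obtain ⟨e, rfl⟩ := hqd
      have : NeZero e := ⟨fun h => hne.out (by simp [h])⟩
      have he : e ∣ M := by
        rw [mul_comm q e] at hd
        exact Nat.dvd_of_mul_dvd_mul_right (Fact.out : q.Prime).pos hd
      have hb : jdElem L hd = heckeBetaBar L M q (jdElem L he) := Subtype.ext (by
        rw [coe_heckeBetaBar, coe_jdElem, coe_jdElem, coeffEmb, ← coeffMap_qExpand,
          qExpand_qExpand])
      rw [hb, hw.beta, hα, hβ, hw'.beta]
    · have hd' : d ∣ M :=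
        (((Fact.out : q.Prime).coprime_iff_not_dvd.2 hqd).symm).dvd_of_dvd_mul_right hd
      have ha : jdElem L hd = heckeAlphaBar L M q (jdElem L hd') := Subtype.ext rfl
      rw [ha, hw.alpha, hα, hβ, hw'.alpha]
  exact RingHom.congr_fun key x

/-- A residue `1` descends. -/
theorem hasGaussRed_one_descend {L L' k k' : Type*} [Field L] [Algebra ℚ L]
    [Algebra.IsAlgebraic ℚ L] [Field L'] [Algebra ℚ L'] [Field k] [Field k'] {N : ℕ} [NeZero N]
    {AL : ValuationSubring L} {A : ValuationSubring L'} {πL : AL →+* k} [IsLocalHom πL]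
    {π : A →+* k'} (j : L →ₐ[ℚ] L') (hA : ∀ a, a ∈ AL → (j : L →+* L') a ∈ A) (κ : k →+* k')
    (hκ : ∀ a : AL, π ⟨(j : L →+* L') a, hA a a.2⟩ = κ (πL a)) {x : FL N L}
    (h : HasGaussRed π ((bcHom (modularFunctionFieldFull N) j x : FL N L') : LaurentSeries L')
      1) : HasGaussRed πL (x : LaurentSeries L) 1 := by
  have hinj : Function.Injective (coeffMap κ) := fun a b hab => HahnSeries.ext (funext fun i =>
    κ.injective (by simpa using congrArg (fun z : LaurentSeries k' => z.coeff i) hab))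
  rw [coe_bcHom] at h
  rcases (gaussFL πL N).mem_or_inv_mem x with hx | hx
  · obtain ⟨g, hg⟩ := (mem_gaussFL πL).1 hx
    have := (hg.map_coeff hA hκ).unique h
    rw [← map_one (coeffMap κ)] at this
    rwa [hinj this] at hg
  · obtain ⟨g, hg⟩ := (mem_gaussFL πL).1 hx
    rw [IntermediateField.coe_inv] at hg
    have h' := (hg.map_coeff hA hκ).mul h
    rw [mul_one, map_inv₀] at h'
    have hx0 : (x : LaurentSeries L) ≠ 0 := fun h0 => by
      rw [h0, map_zero] at h
      exact one_ne_zero (h.unique hasGaussRed_zero)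
    rw [inv_mul_cancel₀ ((map_ne_zero _).2 hx0)] at h'
    have hg1 : g = 1 := hinj ((h'.unique hasGaussRed_one).trans (map_one _).symm)
    subst hg1
    have := hg.inv one_ne_zero
    rwa [inv_one, inv_inv] at this

variable {A : ValuationSubring Qb}

/-- The core property for one automorphism, from the instances over number fields. -/
theorem actsAsPower_of_levelModels (hA : A.LiesOverPrime q) (hqM : ¬ q ∣ M)
    {w : FL (M * q) Qb →ₐ[Qb] FL (M * q) Qb} (hw : IsALInvolution w) {n m : ℕ} (hn : ¬ q ∣ n)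
    {σ : Qb ≃ₐ[ℚ] Qb}
    (hσ : ∀ x, ∀ hx : x ∈ A, ∃ h : σ x ∈ A,
      IsLocalRing.residue A ⟨σ x, h⟩ = IsLocalRing.residue A ⟨x, hx⟩ ^ m)
    (hmodels : ∀ (L : IntermediateField ℚ Qb) [FiniteDimensional ℚ L]
      [Algebra.IsAlgebraic ℚ L] (AL : ValuationSubring L) [IsDiscreteValuationRing AL]
      [CharP (IsLocalRing.ResidueField AL) q] [Finite (IsLocalRing.ResidueField AL)],
      AL = A.comap (algebraMap L Qb) → ∀ (ι : L →+* ℂ)
      (wL : FL (M * q) L →ₐ[L] FL (M * q) L) (hwL : IsALInvolution wL)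
      (hfd : HasFullResidueDegree (IsLocalRing.ResidueField AL) L M)
      (ϖ : AL) (hϖ : Irreducible ϖ) (s : L ≃ₐ[ℚ] L),
      (∀ a : AL, ∃ h : s (a : L) ∈ AL,
        IsLocalRing.residue AL ⟨s (a : L), h⟩ = IsLocalRing.residue AL a ^ m) →
      LevelModels ι hqM hwL hfd ϖ hϖ s m) :
    (gaussPair (IsLocalRing.residue A) M q w).ActsAsPower n m
      (arithmeticGalois (modularFunctionFieldFull (M * q)) σ) := by
  intro g hg hord
  rw [gaussPair_res, OneMemClass.coe_one] at hg
  obtain ⟨k₀, hk₀, hdesc⟩ := exists_descend (modularFunctionFieldFull (M * q)) g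
  obtain ⟨k, hk, hfin, hgal⟩ := exists_isGalois_ge k₀
  obtain ⟨f, rfl⟩ := hdesc k hk
  haveI : NumberField k := { }
  set AL := A.comap (algebraMap k Qb) with hALdef
  have hAL : AL.LiesOverPrime q := liesOverPrime_of_le (L := k) A hA fun a ha => ha
  haveI := isDiscreteValuationRing_place (Fact.out : q.Prime) hAL
  haveI := finite_residueField_place (Fact.out : q.Prime) hAL
  haveI : CharP (IsLocalRing.ResidueField AL) q := EC.charP_residueField AL Fact.out hAL
  obtain ⟨hA', κ, hκ⟩ := exists_residueEmbedding (L₀ := k) A AL hALdef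
  let ι : k →+* ℂ :=
    (IsAlgClosed.lift (R := ℚ) (S := Qb) (M := ℂ)).toRingHom.comp (levelVal k).toRingHom
  obtain ⟨wL, hwL⟩ := exists_isALInvolution (L := k) (q := q) (M := M) ι hqM
  have hfd := hasFullResidueDegree_comap (L₀ := k) M hqM A hA AL hALdef
  obtain ⟨ϖ, hϖ⟩ := IsDiscreteValuationRing.exists_irreducible AL
  have hA'' : ∀ a, a ∈ AL → (levelVal k : k →+* Qb) a ∈ A := fun a ha => ha
  have h1 : HasGaussRed (IsLocalRing.residue AL) (f : LaurentSeries k) 1 :=
    hasGaussRed_one_descend (levelVal k) hA'' κ (fun a => hκ a) hg.1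
  have h2 : HasGaussRed (IsLocalRing.residue AL) ((wL f : FL (M * q) k) : LaurentSeries k) 1 := by
    refine hasGaussRed_one_descend (levelVal k) hA'' κ (fun a => hκ a) ?_
    rw [bcHom_involution (levelVal k) hwL hw]
    exact hg.2
  have hord1 := ord_dvd_level (n := (n : ℤ)) hord
  have hsm := smul_bcHom (modularFunctionFieldFull (M * q)) k σ f
  have hord2 := ord_dvd_level (k := k) (n := (n : ℤ))
    (f := arithmeticGalois (modularFunctionFieldFull (M * q)) (σ.restrictNormal k) • f) fun v => by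
      rw [← hsm]
      have h := SemilinearAut.ord_smul (arithmeticGalois (modularFunctionFieldFull (M * q)) σ)
        ((arithmeticGalois (modularFunctionFieldFull (M * q)) σ)⁻¹ • v)
        (bcHom (modularFunctionFieldFull (M * q)) (levelVal k) f)
      rw [smul_inv_smul] at h
      rw [h]
      exact hord _
  have hres : ∀ a : AL, ∃ h : σ.restrictNormal k (a : k) ∈ AL,
      IsLocalRing.residue AL ⟨σ.restrictNormal k (a : k), h⟩ = IsLocalRing.residue AL a ^ m := by
    intro a
    obtain ⟨h, he⟩ := hσ (algebraMap k Qb (a : k)) a.2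
    have hc : algebraMap k Qb (σ.restrictNormal k (a : k)) = σ (algebraMap k Qb (a : k)) :=
      σ.restrictNormal_commutes k (a : k)
    have hmem : σ.restrictNormal k (a : k) ∈ AL := by
      show algebraMap k Qb _ ∈ A
      rw [hc]; exact h
    refine ⟨hmem, κ.injective ?_⟩
    rw [map_pow, ← hκ, ← hκ]
    refine Eq.trans (congrArg _ (Subtype.ext hc)) he
  obtain ⟨u, c, hu, huc⟩ := exists_pow_mul_eq_of_levelModels ι hqM hwL hfd ϖ hϖ
    (hmodels k AL hALdef ι wL hwL hfd ϖ hϖ _ hres) hn h1 h2 hord1 hord2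
  set B := bcHom (modularFunctionFieldFull (M * q)) (levelVal k) with hB
  refine ⟨B u, levelVal k c, (map_ne_zero B).2 hu, ?_⟩
  have hfm : B f ^ m ≠ 0 := by
    refine pow_ne_zero m fun h0 => one_ne_zero (hg.1.unique ?_)
    rw [h0]
    exact hasGaussRed_zero
  have hσf : SemilinearAut.toRingAut (arithmeticGalois (modularFunctionFieldFull (M * q)) σ) (B f) =
      B (arithmeticRingAut (modularFunctionFieldFull (M * q)) (σ.restrictNormal k) f) := hsm
  rw [hσf, ← bcHom_algebraMap, ← huc, map_mul, map_mul, map_inv₀, map_pow, map_pow, mul_assoc,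
    inv_mul_cancel_right₀ hfm]

/-- The core property, from the instances over number fields for `m = 1` and `m = q ^ 2`. -/
theorem coreProperty_of_levelModels (hA : A.LiesOverPrime q) (hqM : ¬ q ∣ M)
    {w : FL (M * q) Qb →ₐ[Qb] FL (M * q) Qb} (hw : IsALInvolution w) {n : ℕ} (hn : ¬ q ∣ n)
    (hmodels : ∀ m : ℕ, (m = 1 ∨ m = q ^ 2) → ∀ (L : IntermediateField ℚ Qb)
      [FiniteDimensional ℚ L] [Algebra.IsAlgebraic ℚ L] (AL : ValuationSubring L)
      [IsDiscreteValuationRing AL] [CharP (IsLocalRing.ResidueField AL) q]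
      [Finite (IsLocalRing.ResidueField AL)],
      AL = A.comap (algebraMap L Qb) → ∀ (ι : L →+* ℂ)
      (wL : FL (M * q) L →ₐ[L] FL (M * q) L) (hwL : IsALInvolution wL)
      (hfd : HasFullResidueDegree (IsLocalRing.ResidueField AL) L M)
      (ϖ : AL) (hϖ : Irreducible ϖ) (s : L ≃ₐ[ℚ] L),
      (∀ a : AL, ∃ h : s (a : L) ∈ AL,
        IsLocalRing.residue AL ⟨s (a : L), h⟩ = IsLocalRing.residue AL a ^ m) →
      LevelModels ι hqM hwL hfd ϖ hϖ s m) :
    CoreProperty A w n := by
  refine ⟨fun s hs => actsAsPower_of_levelModels hA hqM hw hn (fun x hx => ?_)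
    (hmodels 1 (Or.inl rfl)), fun φ hφ => ?_⟩
  · obtain ⟨h, he⟩ := EC.residue_apply_eq_of_mem_inertia A hs hx
    exact ⟨h, by rw [pow_one]; exact he⟩
  · rw [← map_mul]
    refine actsAsPower_of_levelModels hA hqM hw hn (fun x hx => ?_) (hmodels _ (Or.inr rfl))
    obtain ⟨h, he⟩ := EC.residue_apply_eq_of_isFrobeniusAt A hφ hx
    obtain ⟨h', he'⟩ := EC.residue_apply_eq_of_isFrobeniusAt A hφ h
    refine ⟨h', ?_⟩
    rw [show IsLocalRing.residue A ⟨(φ * φ) x, h'⟩ = IsLocalRing.residue A ⟨φ (φ x), h'⟩ from rfl,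
      he', he, ← pow_mul, sq]

end Descent

end Fermat.Agent.BadPrime
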