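import Fermat.Agent.BadPrime.GaussChartRing

/-!
# The base ring of a chart is a noetherian factorial domain
-/

set_option autoImplicit false
set_option synthInstance.maxHeartbeats 400000

noncomputable section

open Polynomial

namespace Fermat.Agent.BadPrime

variable {L : Type*} [Field L] {A : ValuationSubring L} [IsDiscreteValuationRing A]
  {b : Bool}

theorem isNoetherianRing_chartBase : IsNoetherianRing (ChartBase A b) :=
  IsLocalization.isNoetherianRing (chartS A b) _ inferInstance

theorem uniqueFactorizationMonoid_chartBase : UniqueFactorizationMonoid (ChartBase A b) :=
  inferInstance

instance : IsNoetherianRing (ChartBase A b) := isNoetherianRing_chartBase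

end Fermat.Agent.BadPrime
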