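import Fermat.Agent.BadPrime.Glue

/-!
# From approximate roots to a root

If some finitely generated module contains, for every `k`, an `n`-th root of `h` modulo `π ^ k`,
then `h` is a constant times an `n`-th power.  No completion is used: with `θ = q d/dq` a root
is a solution of the *linear* equation `n H θ A + A θ H = 0`.
-/

set_option autoImplicit false
set_option linter.unusedSectionVars false

noncomputable section

namespace Fermat.Agent.BadPrime

section Euler

variable {L : Type*} [Field L]

/-- The operator `q d/dq` on Laurent series. -/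
def eulerD : LaurentSeries L →ₗ[L] LaurentSeries L where
  toFun f :=
    { coeff := fun i => (i : L) * f.coeff i
      isPWO_support' := f.isPWO_support.mono fun i hi => by
        simp only [Function.mem_support, HahnSeries.mem_support] at hi ⊢
        exact fun h => hi (by rw [h, mul_zero]) }
  map_add' f g := by ext i; simp [mul_add]
  map_smul' a f := by ext i; simp [mul_left_comm]

@[simp]
theorem eulerD_coeff (f : LaurentSeries L) (i : ℤ) : (eulerD f).coeff i = (i : L) * f.coeff i :=
  rfl

theorem eulerD_mul (f g : LaurentSeries L) : eulerD (f * g) = eulerD f * g + f * eulerD g := by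
  ext i
  have hf : (eulerD f).support ⊆ f.support := fun j hj h => hj (by simp [h])
  have hg : (eulerD g).support ⊆ g.support := fun j hj h => hj (by simp [h])
  rw [eulerD_coeff, HahnSeries.coeff_add, HahnSeries.coeff_mul,
    HahnSeries.coeff_mul_left' f.isPWO_support hf, HahnSeries.coeff_mul_right' g.isPWO_support hg,
    Finset.mul_sum, ← Finset.sum_add_distrib]
  refine Finset.sum_congr rfl fun x hx => ?_
  have hxi : x.1 + x.2 = i := (Finset.mem_antidiagonal.mp hx).2.2
  rw [eulerD_coeff, eulerD_coeff, ← hxi]
  push_cast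
  ring

theorem eulerD_one : eulerD (1 : LaurentSeries L) = 0 := by
  ext i
  rw [eulerD_coeff, HahnSeries.coeff_one]
  split_ifs with h <;> simp [h]

theorem eulerD_pow (f : LaurentSeries L) (m : ℕ) :
    eulerD (f ^ (m + 1)) = (m + 1 : ℕ) * f ^ m * eulerD f := by
  induction m with
  | zero => simp
  | succ m ih => rw [pow_succ, eulerD_mul, ih]; push_cast; ring

theorem eulerD_eq_zero [CharZero L] {f : LaurentSeries L} (h : eulerD f = 0) :
    f = HahnSeries.single 0 (f.coeff 0) := by
  ext i
  rcases eq_or_ne i 0 with rfl | hi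
  · simp
  · rw [HahnSeries.coeff_single_of_ne hi]
    have := congrArg (fun g => HahnSeries.coeff g i) h
    simpa [hi] using this

end Euler

section Linear

variable {O L F : Type*} [CommRing O] [IsDomain O] [IsPrincipalIdealRing O] [Field L] [Algebra O L]
  [IsFractionRing O L] [AddCommGroup F] [Module L F] [Module O F] [IsScalarTower O L F]

/-- A linear equation with arbitrarily good integral approximate solutions in a finite lattice has
a nonzero solution. -/
theorem exists_ne_zero_of_approx {o : O} (_ho0 : o ≠ 0)
    (hden : ∀ x : L, ∃ (e : ℕ) (y : O), algebraMap O L (o ^ e) * x = algebraMap O L y)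
    (M : Submodule O F) (hM : M.FG) (D : F →ₗ[L] (ℤ → L))
    (happ : ∀ k : ℕ, ∃ a ∈ M, (∀ b ∈ M, a ≠ o • b) ∧
      ∀ i : ℤ, ∃ y : O, D a i = algebraMap O L (o ^ k * y)) :
    ∃ a : F, a ≠ 0 ∧ D a = 0 := by
  classical
  by_contra hcon
  simp only [not_exists, not_and] at hcon
  have : Module.Finite O M := Module.Finite.iff_fg.mpr hM
  have hinj : ∀ a : F, D a = 0 → a = 0 := fun a ha => by_contra fun h => hcon a h ha
  have : Module.IsTorsionFree O M := Module.isTorsionFree_iff_smul_eq_zero.mpr fun c x h => by
    rcases eq_or_ne c 0 with rfl | hc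
    · exact Or.inl rfl
    · refine Or.inr (Subtype.ext ?_)
      have h' : algebraMap O L c • (x : F) = 0 := by
        rw [algebraMap_smul]; exact congrArg Subtype.val h
      exact (smul_eq_zero.mp h').resolve_left
        ((map_ne_zero_iff _ (IsFractionRing.injective O L)).mpr hc)
  obtain ⟨r, e⟩ := Module.basisOfFiniteTypeTorsionFree' (R := O) (M := M)
  -- the basis is independent over `L`
  have hli : LinearIndependent L (fun i => (e i : F)) :=
    (LinearIndependent.iff_fractionRing O L).mp (e.linearIndependent.map' M.subtype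
      (Submodule.ker_subtype M))
  let f : (Fin r → L) →ₗ[L] (ℤ → L) := D.comp (Fintype.linearCombination L fun i => (e i : F))
  have hf : Function.Injective f := by
    rw [← LinearMap.ker_eq_bot, LinearMap.ker_eq_bot']
    intro c hc
    have h1 := hinj _ hc
    funext i
    exact Fintype.linearIndependent_iff.mp hli c h1 i
  -- finitely many coordinates suffice
  obtain ⟨s, hs⟩ : ∃ s : Finset ℤ, LinearMap.ker
      ((LinearMap.funLeft L L ((↑) : s → ℤ)).comp f) = ⊥ := by
    obtain ⟨s, -, hs⟩ := (InvImage.wf (fun s : Finset ℤ =>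
      Module.finrank L (LinearMap.ker ((LinearMap.funLeft L L ((↑) : s → ℤ)).comp f)))
      (Nat.lt_wfRel.wf)).has_min Set.univ ⟨∅, trivial⟩
    refine ⟨s, (Submodule.eq_bot_iff _).mpr fun c hc => by_contra fun hc0 => ?_⟩
    obtain ⟨i, hi⟩ : ∃ i, f c i ≠ 0 := by
      by_contra h
      simp only [not_exists, not_not] at h
      exact hc0 (hf (by rw [map_zero]; exact funext h))
    refine hs (insert i s) trivial (Submodule.finrank_lt_finrank_of_lt
      (lt_of_le_of_ne (fun x hx => ?_) fun h => ?_))
    · rw [LinearMap.mem_ker] at hx ⊢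
      funext j
      exact congrFun hx ⟨j, Finset.mem_insert_of_mem j.2⟩
    · rw [← h, LinearMap.mem_ker] at hc
      exact hi (congrFun hc ⟨i, Finset.mem_insert_self i s⟩)
  obtain ⟨S, hS⟩ := ((LinearMap.funLeft L L ((↑) : s → ℤ)).comp f).exists_leftInverse_of_injective hs
  -- clear denominators in the left inverse
  choose ee ye hye using fun p : s × Fin r => hden (S (Pi.single p.1 1) p.2)
  let E := Finset.univ.sup ee
  have hSint : ∀ v : s → O, ∀ j : Fin r, ∃ z : O,
      algebraMap O L (o ^ E) * S (fun i => algebraMap O L (v i)) j = algebraMap O L z := by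
    intro v j
    refine ⟨∑ i, v i * (o ^ (E - ee (i, j)) * ye (i, j)), ?_⟩
    have hdec : (fun i => algebraMap O L (v i)) =
        ∑ i, algebraMap O L (v i) • (Pi.single i (1 : L) : s → L) := by
      funext i
      simp [Finset.sum_apply, Pi.single_apply, Algebra.smul_def]
    rw [hdec, map_sum, Finset.sum_apply, Finset.mul_sum, map_sum]
    refine Finset.sum_congr rfl fun i _ => ?_
    rw [map_smul, Pi.smul_apply, smul_eq_mul, map_mul, map_mul, ← hye (i, j)]
    have hEp : algebraMap O L (o ^ E) =
        algebraMap O L (o ^ (E - ee (i, j))) * algebraMap O L (o ^ ee (i, j)) := by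
      rw [← map_mul, ← pow_add, Nat.sub_add_cancel (Finset.le_sup (f := ee) (Finset.mem_univ _))]
    rw [hEp]
    ring
  obtain ⟨a, ha, hprim, hcong⟩ := happ (E + 1)
  choose v hv using hcong
  have hcoord : (fun i => algebraMap O L (e.repr ⟨a, ha⟩ i)) =
      S (fun i : s => algebraMap O L (o ^ (E + 1) * v i)) := by
    have h1 : f (fun i => algebraMap O L (e.repr ⟨a, ha⟩ i)) = D a := by
      show D (Fintype.linearCombination L (fun i => (e i : F)) _) = D a
      refine congrArg D ?_
      rw [Fintype.linearCombination_apply]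
      simp only [algebraMap_smul]
      simpa only [Submodule.coe_sum, Submodule.coe_smul] using
        congrArg Subtype.val (e.sum_repr ⟨a, ha⟩)
    have h2 := LinearMap.congr_fun hS (fun i => algebraMap O L (e.repr ⟨a, ha⟩ i))
    simp only [LinearMap.comp_apply, LinearMap.id_apply, h1] at h2
    rw [← h2]
    refine congrArg S (funext fun i => ?_)
    exact hv i
  have hdiv : ∀ j, ∃ z : O, e.repr ⟨a, ha⟩ j = o * z := by
    intro j
    obtain ⟨z, hz⟩ := hSint (fun i => v i) j
    refine ⟨z, IsFractionRing.injective O L ?_⟩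
    rw [congrFun hcoord j, map_mul, ← hz]
    have hsc : (fun i : s => algebraMap O L (o ^ (E + 1) * v i)) =
        algebraMap O L (o ^ (E + 1)) • fun i : s => algebraMap O L (v i) := by
      funext i; simp
    rw [hsc, map_smul, Pi.smul_apply, smul_eq_mul, pow_succ', map_mul, mul_assoc]
  choose z hz using hdiv
  refine hprim _ (e.equivFun.symm z).2 ?_
  rw [← SetLike.val_smul, ← map_smul]
  refine congrArg Subtype.val (e.equivFun.injective (funext fun j => ?_) : (⟨a, ha⟩ : M) = _)
  rw [LinearEquiv.apply_symm_apply, Pi.smul_apply, smul_eq_mul, ← hz j]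
  rfl

end Linear

section Root

variable {F K L O : Type*} [Field F] [CommRing K] [Field L] [CharZero L] [CommRing O] [IsDomain O]
  [IsPrincipalIdealRing O] [Algebra O L] [IsFractionRing O L] [Algebra L F] [Algebra O F]
  [IsScalarTower O L F] {V : Vertical F K}

/-- A series with coefficients in `O`. -/
def IsIntegralSeries (O : Type*) [CommRing O] {L : Type*} [Field L] [Algebra O L]
    (f : LaurentSeries L) : Prop :=
  ∀ i : ℤ, f.coeff i ∈ (algebraMap O L).range

theorem IsIntegralSeries.mul {f g : LaurentSeries L} (hf : IsIntegralSeries O f)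
    (hg : IsIntegralSeries O g) : IsIntegralSeries O (f * g) := fun i => by
  rw [HahnSeries.coeff_mul]
  exact sum_mem fun x _ => mul_mem (hf _) (hg _)

theorem IsIntegralSeries.eulerD {f : LaurentSeries L} (hf : IsIntegralSeries O f) :
    IsIntegralSeries O (eulerD f) := fun i => by
  rw [eulerD_coeff]
  exact mul_mem (intCast_mem _ i) (hf i)

theorem IsIntegralSeries.add {f g : LaurentSeries L} (hf : IsIntegralSeries O f)
    (hg : IsIntegralSeries O g) : IsIntegralSeries O (f + g) := fun i => by
  rw [HahnSeries.coeff_add]; exact add_mem (hf i) (hg i)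

theorem IsIntegralSeries.sub {f g : LaurentSeries L} (hf : IsIntegralSeries O f)
    (hg : IsIntegralSeries O g) : IsIntegralSeries O (f - g) := fun i => by
  rw [HahnSeries.coeff_sub]; exact sub_mem (hf i) (hg i)

theorem isIntegralSeries_natCast (m : ℕ) : IsIntegralSeries O (m : LaurentSeries L) := fun i => by
  rw [← map_natCast (HahnSeries.C (Γ := ℤ) (R := L)), HahnSeries.C_apply, HahnSeries.coeff_single]
  split_ifs
  · exact natCast_mem _ m
  · exact zero_mem _

/-- The expansion data: an `L`-algebra embedding into Laurent series, integral on the chart `B0`.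
(Integrality on all of `V.Bv` would be false.) -/
structure Expansion (G : GlobalModel V O) (L : Type*) [Field L] [Algebra O L]
    [Algebra L F] where
  /-- The expansion map. -/
  toSeries : F →ₐ[L] LaurentSeries L
  integral : ∀ x ∈ G.B0, IsIntegralSeries O (toSeries x)

omit [CharZero L] [IsDomain O] [IsPrincipalIdealRing O] [IsFractionRing O L] in
/-- A finitely generated module is carried into `B0` by a multiplier. -/
theorem exists_mul_le (G : GlobalModel V O) {M : Submodule O F} (hM : M.FG) :
    ∃ e ∈ G.B0, e ≠ 0 ∧ ∀ a ∈ M, e * a ∈ G.B0 := by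
  classical
  obtain ⟨s, rfl⟩ := hM
  induction s using Finset.induction with
  | empty =>
    refine ⟨1, one_mem _, one_ne_zero, fun a ha => ?_⟩
    rw [Finset.coe_empty, Submodule.span_empty, Submodule.mem_bot] at ha
    rw [ha, mul_zero]; exact zero_mem _
  | insert g s _ ih =>
    obtain ⟨e, he, he0, hes⟩ := ih
    obtain ⟨b, hb, hb0, hbg⟩ := G.exists_mul_mem0 g
    refine ⟨e * b, mul_mem he hb, mul_ne_zero he0 hb0, fun a ha => ?_⟩
    rw [Finset.coe_insert, Submodule.mem_span_insert] at ha
    obtain ⟨c, z, hz, rfl⟩ := ha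
    rw [show e * b * (c • g + z) = c • (e * (b * g)) + b * (e * z) by
      rw [Algebra.smul_def, Algebra.smul_def]; ring]
    exact add_mem (G.B0.smul_mem (mul_mem he hbg) c) (mul_mem hb (hes z hz))

/-- Approximate roots give a root up to a constant. -/
theorem exists_pow_mul_eq_algebraMap [Nontrivial K] {G : GlobalModel V O} (E : Expansion G L)
    {n : ℕ} (hn : n ≠ 0) {o : O} (ho : algebraMap O F o = V.π) (ho0 : o ≠ 0)
    (hden : ∀ x : L, ∃ (e : ℕ) (y : O), algebraMap O L (o ^ e) * x = algebraMap O L y)
    {h : F} (hh : h ≠ 0) (hhBv : h ∈ V.Bv) (hhinv : h⁻¹ ∈ V.Bv)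
    (happ : ∃ M : Submodule O F, M.FG ∧ ∀ k : ℕ, ∃ a ∈ M, ∃ r ∈ G.B0,
      a ^ n * h - 1 = V.π ^ (k + 1) * r) :
    ∃ (u : F) (c : L), u ≠ 0 ∧ u ^ n * h = algebraMap L F c := by
  obtain ⟨M, hM, hMk⟩ := happ
  let M' : Submodule O F := M ⊓
    { carrier := V.Bv
      zero_mem' := zero_mem _
      add_mem' := add_mem
      smul_mem' := fun c x hx => by
        rw [Algebra.smul_def]
        exact mul_mem (G.Bloc_le _ (G.Bloc.algebraMap_mem c)) hx }
  have hM' : M'.FG := by
    have : Module.Finite O M := Module.Finite.iff_fg.mpr hM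
    exact isNoetherian_submodule.mp (isNoetherian_of_isNoetherianRing_of_finite O M) M' inf_le_left
  have hL0 : ∀ m : ℕ, algebraMap O F (o ^ m) = V.π ^ m := fun m => by rw [map_pow, ho]
  -- denominators: `d * h` and `e * M` lie in `B0`
  obtain ⟨d₀, hd₀, hd₀0, hd₀h⟩ := G.exists_mul_mem0 h
  obtain ⟨e₀, he₀, he₀0, he₀M⟩ := exists_mul_le G hM
  let D : F →ₗ[L] (ℤ → L) :=
    { toFun := fun a i => ((E.toSeries e₀ * E.toSeries d₀) ^ 2 *
          ((n : LaurentSeries L) * E.toSeries h * eulerD (E.toSeries a) +
            E.toSeries a * eulerD (E.toSeries h))).coeff i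
      map_add' := fun a b => by
        funext i
        simp only [map_add, Pi.add_apply, mul_add, add_mul]
        rw [← HahnSeries.coeff_add]
        congr 1
        abel
      map_smul' := fun c a => by
        funext i
        simp only [RingHom.id_apply, Pi.smul_apply]
        rw [show E.toSeries (c • a) = HahnSeries.C c * E.toSeries a by
          rw [Algebra.smul_def, map_mul, E.toSeries.commutes]
          congr 1
          simp [HahnSeries.algebraMap_apply'], ← HahnSeries.coeff_smul, ← HahnSeries.C_mul_eq_smul]
        refine congrArg (fun f => HahnSeries.coeff f i) ?_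
        rw [show eulerD (HahnSeries.C c * E.toSeries a) =
            HahnSeries.C c * eulerD (E.toSeries a) by
          rw [HahnSeries.C_mul_eq_smul, HahnSeries.C_mul_eq_smul, map_smul]]
        ring }
  obtain ⟨a, ha0, hDa⟩ := exists_ne_zero_of_approx ho0 hden M' hM' D fun k => by
    obtain ⟨a, haM, r, hr, har⟩ := hMk k
    have hrv : r ∈ V.Bv := G.Bloc_le _ (G.B0_le hr)
    have hS : a ^ n * h ∈ V.Bv := by
      rw [show a ^ n * h = 1 + V.π ^ (k + 1) * r by rw [← har]; ring]
      exact add_mem (one_mem _) (mul_mem (pow_mem V.π_mem _) hrv)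
    have hav : a ∈ V.Bv := by
      refine V.rootClosed a n hn ?_
      rw [show a ^ n = (a ^ n * h) * h⁻¹ by rw [mul_inv_cancel_right₀ hh]]
      exact mul_mem hS hhinv
    refine ⟨a, ⟨haM, hav⟩, fun b hb hab => ?_, fun i => ?_⟩
    · have hbv : b ∈ V.Bv := hb.2
      have h1 : V.π * (V.π ^ (n - 1) * b ^ n * h - V.π ^ k * r) = 1 := by
        have hab' : a = V.π * b := by rw [hab, Algebra.smul_def, ho]
        obtain ⟨d, rfl⟩ := Nat.exists_eq_succ_of_ne_zero hn
        simp only [Nat.succ_eq_add_one, add_tsub_cancel_right] at har ⊢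
        rw [hab'] at har
        linear_combination har
      have hw : V.π ^ (n - 1) * b ^ n * h - V.π ^ k * r ∈ V.Bv :=
        sub_mem (mul_mem (mul_mem (pow_mem V.π_mem _) (pow_mem hbv _)) hhBv)
          (mul_mem (pow_mem V.π_mem _) hrv)
      have h2 : V.rd (⟨V.π, V.π_mem⟩ * ⟨_, hw⟩) = 1 := by
        rw [show (⟨V.π, V.π_mem⟩ : V.Bv) * ⟨_, hw⟩ = 1 from Subtype.ext h1, map_one]
      rw [map_mul, V.rd_π, zero_mul] at h2
      exact zero_ne_one h2
    · set A := E.toSeries a with hA
      set H := E.toSeries h with hH
      set R := E.toSeries r with hR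
      have hS' : A ^ n * H = 1 + HahnSeries.C (algebraMap O L (o ^ (k + 1))) * R := by
        have h3 : a ^ n * h = 1 + algebraMap L F (algebraMap O L (o ^ (k + 1))) * r := by
          rw [← IsScalarTower.algebraMap_apply, hL0, ← har]; ring
        have := congrArg E.toSeries h3
        rw [map_mul, map_pow, map_add, map_one, map_mul, E.toSeries.commutes] at this
        rw [this]
        congr 2
        simp [HahnSeries.algebraMap_apply']
      set c := algebraMap O L (o ^ (k + 1)) with hc
      have hθ : eulerD (HahnSeries.C c * R) = HahnSeries.C c * eulerD R := by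
        rw [HahnSeries.C_mul_eq_smul, HahnSeries.C_mul_eq_smul, map_smul]
      obtain ⟨d, rfl⟩ := Nat.exists_eq_succ_of_ne_zero hn
      simp only [Nat.succ_eq_add_one] at hS' ⊢
      have hder : ((d + 1 : ℕ) : LaurentSeries L) * A ^ d * eulerD A * H + A ^ (d + 1) * eulerD H =
          HahnSeries.C c * eulerD R := by
        have := congrArg eulerD hS'
        rwa [eulerD_mul, eulerD_pow, map_add, eulerD_one, zero_add, hθ] at this
      have hid : ((d + 1 : ℕ) : LaurentSeries L) * H * eulerD A + A * eulerD H =
          HahnSeries.C c * (A * H * eulerD R -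
            R * (((d + 1 : ℕ) : LaurentSeries L) * H * eulerD A + A * eulerD H)) := by
        linear_combination (A * H) * hder -
          (((d + 1 : ℕ) : LaurentSeries L) * H * eulerD A + A * eulerD H) * hS'
      set e := E.toSeries e₀ with he
      set d' := E.toSeries d₀ with hd'
      have hei : IsIntegralSeries O e := E.integral _ he₀
      have hdi : IsIntegralSeries O d' := E.integral _ hd₀
      have hRi : IsIntegralSeries O R := E.integral _ hr
      have hAi : IsIntegralSeries O (e * A) := by
        rw [he, hA, ← map_mul]; exact E.integral _ (he₀M a haM)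
      have hHi : IsIntegralSeries O (d' * H) := by
        rw [hd', hH, ← map_mul]; exact E.integral _ hd₀h
      -- `(e d) ^ 2 D(a)` in terms of integral series
      have hDi : IsIntegralSeries O ((e * d') ^ 2 *
          (((d + 1 : ℕ) : LaurentSeries L) * H * eulerD A + A * eulerD H)) := by
        have h4 : (e * d') ^ 2 *
            (((d + 1 : ℕ) : LaurentSeries L) * H * eulerD A + A * eulerD H) =
            ((d + 1 : ℕ) : LaurentSeries L) * (d' * H) * d' *
                (e * eulerD (e * A) - (e * A) * eulerD e) +
              e * (e * A) * (d' * eulerD (d' * H) - (d' * H) * eulerD d') := by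
          rw [eulerD_mul e A, eulerD_mul d' H]; ring
        rw [h4]
        exact ((((isIntegralSeries_natCast _).mul hHi).mul hdi).mul
          ((hei.mul hAi.eulerD).sub (hAi.mul hei.eulerD))).add
          ((hei.mul hAi).mul ((hdi.mul hHi.eulerD).sub (hHi.mul hdi.eulerD)))
      have hint : IsIntegralSeries O ((e * A) * (d' * H) * e * d' * eulerD R -
          R * ((e * d') ^ 2 *
            (((d + 1 : ℕ) : LaurentSeries L) * H * eulerD A + A * eulerD H))) :=
        ((((hAi.mul hHi).mul hei).mul hdi).mul hRi.eulerD).sub (hRi.mul hDi)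
      obtain ⟨y, hy⟩ := hint i
      refine ⟨o * y, ?_⟩
      show ((e * d') ^ 2 *
        (((d + 1 : ℕ) : LaurentSeries L) * H * eulerD A + A * eulerD H)).coeff i = _
      have hid' : (e * d') ^ 2 *
          (((d + 1 : ℕ) : LaurentSeries L) * H * eulerD A + A * eulerD H) =
          HahnSeries.C c * ((e * A) * (d' * H) * e * d' * eulerD R -
            R * ((e * d') ^ 2 *
              (((d + 1 : ℕ) : LaurentSeries L) * H * eulerD A + A * eulerD H))) := by
        linear_combination (e * d') ^ 2 * hid
      rw [hid', HahnSeries.C_mul_eq_smul, HahnSeries.coeff_smul, ← hy, hc, smul_eq_mul, ← map_mul,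
        ← mul_assoc, ← pow_succ]
  obtain ⟨d, rfl⟩ := Nat.exists_eq_succ_of_ne_zero hn
  have h0 : eulerD (E.toSeries (a ^ (d + 1) * h)) = 0 := by
    have h1 : ((d + 1 : ℕ) : LaurentSeries L) * E.toSeries h * eulerD (E.toSeries a) +
        E.toSeries a * eulerD (E.toSeries h) = 0 := by
      have h2 : (E.toSeries e₀ * E.toSeries d₀) ^ 2 *
          (((d + 1 : ℕ) : LaurentSeries L) * E.toSeries h * eulerD (E.toSeries a) +
            E.toSeries a * eulerD (E.toSeries h)) = 0 := by
        ext i; exact congrFun hDa i
      exact (mul_eq_zero.mp h2).resolve_left (pow_ne_zero 2 (mul_ne_zero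
        ((map_ne_zero _).2 he₀0) ((map_ne_zero _).2 hd₀0)))
    rw [map_mul, map_pow, eulerD_mul, eulerD_pow]
    linear_combination (E.toSeries a) ^ d * h1
  refine ⟨a, (E.toSeries (a ^ (d + 1) * h)).coeff 0, ha0, E.toSeries.toRingHom.injective ?_⟩
  show E.toSeries (a ^ (d + 1) * h) = E.toSeries (algebraMap L F _)
  rw [E.toSeries.commutes, eulerD_eq_zero h0]
  simp [HahnSeries.algebraMap_apply']

end Root

end Fermat.Agent.BadPrime
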