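import Fermat.Agent.BadPrime.RootOfUnity
import Fermat.Agent.BadPrime.Limit

/-!
# The core theorem on a two-component model

For a normalised `g` and a semilinear automorphism `σ` acting on both glueing quotients by
`y ↦ y ^ m`, the function `σ g / g ^ m` is a constant times an `n`-th power.  With `m = 1` for
inertia and `m = q ^ 2` for the square of a Frobenius, this is the key to S34 and S35.
-/

set_option autoImplicit false
set_option linter.unusedSectionVars false

noncomputable section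

open Polynomial

namespace Fermat.Agent.BadPrime

/-- A localised chart is linked to the unlocalised one by denominators reducing to one. -/
structure ChartLink {F K R k N O : Type*} [Field F] [CommRing K] [CommRing R] [Field k]
    [Algebra R F] [CommRing N] [Algebra k[X] N] [CommRing O] [Algebra O F] {V : Vertical F K}
    (c : Chart V R k N) (B : Subalgebra O F) : Prop where
  exists_den : ∀ x ∈ c.B, ∃ s : F, ∃ hs : s ∈ V.Bv,
    V.rd ⟨s, hs⟩ = 1 ∧ s ∈ B ∧ s * x ∈ B

variable {F K L O k : Type*} [Field F] [CommRing K] [Nontrivial K] [Field L] [CharZero L]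
  [CommRing O] [IsDomain O] [IsPrincipalIdealRing O] [Algebra O L] [IsFractionRing O L]
  [Algebra L F] [Algebra O F] [IsScalarTower O L F]
  [Field k] [Finite k] {q : ℕ} [Fact q.Prime] [CharP k q]
  {R : Type*} [CommRing R] [IsDomain R] [UniqueFactorizationMonoid R] [IsNoetherianRing R]
  [Algebra R F] {P : Type*} [CommRing P] [Algebra k P] [Algebra k[X] (P × P)]
  [IsScalarTower k k[X] (P × P)]
  {R' : Type*} [CommRing R'] [IsDomain R'] [UniqueFactorizationMonoid R'] [IsNoetherianRing R']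
  [Algebra R' F] {P' : Type*} [CommRing P'] [Algebra k P'] [Algebra k[X] (P' × P')]
  [IsScalarTower k k[X] (P' × P')]

/-- A root in a localised chart gives a root in the unlocalised chart, still reducing to one. -/
theorem exists_root_of_one_mem {V : Vertical F K} {c : Chart V R k (P × P)} {B : Subalgebra O F}
    (hl : ChartLink c B) {n : ℕ} (hn : n ≠ 0) {h : F}
    (h1 : (1 : P × P) ∈ c.redSubmodule (c.rootModule n hn h)) :
    ∃ a ∈ GlobalModel.roots B n h, ∃ ha : a ∈ V.Bv, V.rd ⟨a, ha⟩ = 1 := by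
  obtain ⟨a, ha, ha1⟩ := h1
  rw [map_one] at ha1
  obtain ⟨s, hs, hs1, hsB, hsx⟩ := hl.exists_den _ ((Chart.mem_rootModule c).mp ha)
  refine ⟨s * a, ?_, mul_mem hs a.2, ?_⟩
  · show (s * (a : F)) ^ n * h ∈ B
    obtain ⟨d, rfl⟩ := Nat.exists_eq_succ_of_ne_zero hn
    rw [show (s * (a : F)) ^ (d + 1) * h = s ^ d * (s * ((a : F) ^ (d + 1) * h)) by ring]
    exact mul_mem (pow_mem hsB d) hsx
  · have h2 : V.rd (⟨s, hs⟩ * ⟨(a : F), a.2⟩) = 1 := by
      rw [map_mul, hs1, one_mul]; exact ha1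
    exact h2

/-- The core theorem. -/
theorem exists_pow_mul_eq_const {V : Vertical F K} {G : GlobalModel V O} (E : Expansion G L)
    {c0 : Chart V R k (P × P)} {Fr0 : P →ₐ[k] P} (H0 : Chart.TwoComponent c0 q Fr0)
    {c1 : Chart V R' k (P' × P')} {Fr1 : P' →ₐ[k] P'} (H1 : Chart.TwoComponent c1 q Fr1)
    (l0 : ChartLink c0 G.B0) (l1 : ChartLink c1 G.B1)
    (σ0 : Chart.Semilinear c0 Fr0) (σ1 : Chart.Semilinear c1 Fr1) (hσ : σ0.toAut = σ1.toAut)
    {o : O} (ho : algebraMap O F o = V.π) (ho0 : o ≠ 0)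
    (hden : ∀ x : L, ∃ (e : ℕ) (y : O), algebraMap O L (o ^ e) * x = algebraMap O L y)
    {n : ℕ} (hn : n ≠ 0) {ν : O} (hν : (n : O) * ν = 1) {m : ℕ}
    (hm0 : ∀ y : P, Ideal.Quotient.mk (glueIdeal H0.graphs) (σ0.φ y) =
      Ideal.Quotient.mk (glueIdeal H0.graphs) y ^ m)
    (hm1 : ∀ y : P', Ideal.Quotient.mk (glueIdeal H1.graphs) (σ1.φ y) =
      Ideal.Quotient.mk (glueIdeal H1.graphs) y ^ m)
    {g : F} (hg : c0.IsNormalised g)
    (hh0 : c0.IsPowerAtHorizontal n g) (hh0' : c0.IsPowerAtHorizontal n (σ0.toAut g))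
    (hh1 : c1.IsPowerAtHorizontal n g) (hh1' : c1.IsPowerAtHorizontal n (σ0.toAut g)) :
    ∃ (u : F) (a : L), u ≠ 0 ∧ u ^ n * (σ0.toAut g * (g ^ m)⁻¹) = algebraMap L F a := by
  have hg1 : c1.IsNormalised g := ⟨hg.exists_rd, hg.inv_mem⟩
  have e0 := σ0.one_mem_rootModule (n := n) (hn := hn) H0 hm0 hg hh0 hh0'
  have e1 := σ1.one_mem_rootModule (n := n) (hn := hn) H1 hm1 hg1 hh1 (hσ ▸ hh1')
  rw [← hσ] at e1
  obtain ⟨a0, ha0, ha0v⟩ := exists_root_of_one_mem l0 hn e0
  obtain ⟨a1, ha1, ha1v⟩ := exists_root_of_one_mem l1 hn e1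
  set h := σ0.toAut g * (g ^ m)⁻¹ with hh
  have hN : c0.IsNormalised h := (σ0.isNormalised hg).mul (hg.pow m).inv
  obtain ⟨hhBv, hh1v⟩ := hN.exists_rd
  exact exists_pow_mul_eq_algebraMap E hn ho ho0 hden hN.ne_zero hhBv hN.inv_mem
    (G.exists_approximate_roots hn hν hN.ne_zero hhBv ha0 ha0v ha1 ha1v hh1v)

end Fermat.Agent.BadPrime
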