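import Fermat.Agent.BadPrime.GaussChartBasic
import Fermat.Agent.Curve.RiemannRoch
import Mathlib.RingTheory.Polynomial.IntegralNormalization

/-!
# Charts before localisation

`chartB0 A N b` is the integral closure of `A[t]` in the function field, `chartB0Loc A N` that of
`A[t, 1/t]`.
-/

set_option autoImplicit false
set_option synthInstance.maxHeartbeats 400000
set_option linter.unusedSectionVars false
set_option maxSynthPendingDepth 3

noncomputable section

open ModularCurve Polynomial AlgebraicCurve

namespace Fermat.Agent.BadPrime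

open Fermat.Agent.Reduction Fermat.Agent.Modular

section Generic

variable {O F : Type*} [CommRing O] [Field F] [Algebra O F]

/-- An element integral over `O[t, 1/t]` becomes integral over `O[t]` after multiplication by a
power of `t`. -/
theorem exists_pow_mul_isIntegral {t : F} (ht : t ≠ 0) {x : F}
    (hx : IsIntegral (Algebra.adjoin O ({t, t⁻¹} : Set F)) x) :
    ∃ i : ℕ, IsIntegral (Algebra.adjoin O ({t} : Set F)) (t ^ i * x) := by
  classical
  obtain ⟨p, hp, hpx⟩ := hx
  set S := Algebra.adjoin O ({t} : Set F) with hS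
  have htS : t ∈ S := Algebra.self_mem_adjoin_singleton O t
  -- elements of `O[t, 1/t]` land in `O[t]`
  have hden : ∀ z ∈ Algebra.adjoin O ({t, t⁻¹} : Set F), ∃ i : ℕ, t ^ i * z ∈ S := by
    intro z hz
    induction hz using Algebra.adjoin_induction with
    | mem v hv =>
      rcases hv with rfl | rfl
      · exact ⟨0, by simpa using htS⟩
      · exact ⟨1, by rw [pow_one, mul_inv_cancel₀ ht]; exact one_mem _⟩
    | algebraMap c => exact ⟨0, by simp [S.algebraMap_mem c]⟩
    | add u v _ _ hu hv =>
      obtain ⟨i, hi⟩ := hu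
      obtain ⟨j, hj⟩ := hv
      refine ⟨i + j, ?_⟩
      rw [show t ^ (i + j) * (u + v) = t ^ j * (t ^ i * u) + t ^ i * (t ^ j * v) by ring]
      exact add_mem (mul_mem (pow_mem htS j) hi) (mul_mem (pow_mem htS i) hj)
    | mul u v _ _ hu hv =>
      obtain ⟨i, hi⟩ := hu
      obtain ⟨j, hj⟩ := hv
      refine ⟨i + j, ?_⟩
      rw [show t ^ (i + j) * (u * v) = (t ^ i * u) * (t ^ j * v) by ring]
      exact mul_mem hi hj
  choose e he using fun k => hden (p.coeff k : F) (p.coeff k).2
  let i := p.support.sup e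
  set P := p.map (algebraMap (Algebra.adjoin O ({t, t⁻¹} : Set F)) F) with hP
  have hPm : P.Monic := hp.map _
  have hlift : P.scaleRoots (t ^ i) ∈ Polynomial.lifts (algebraMap S F) := by
    refine (Polynomial.lifts_iff_coeff_lifts _).2 fun k => ?_
    rw [coeff_scaleRoots]
    suffices h : P.coeff k * (t ^ i) ^ (P.natDegree - k) ∈ S from ⟨⟨_, h⟩, rfl⟩
    by_cases hk : k ∈ p.support
    · rcases lt_or_ge k P.natDegree with hlt | hge
      · obtain ⟨d, hd⟩ := Nat.exists_eq_add_of_le (show 1 ≤ P.natDegree - k by omega)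
        obtain ⟨r, hr⟩ := Nat.exists_eq_add_of_le (Finset.le_sup (f := e) hk : e k ≤ i)
        rw [hd, hP, coeff_map, pow_add, pow_one, show i = e k + r from hr, pow_add]
        rw [show algebraMap (Algebra.adjoin O ({t, t⁻¹} : Set F)) F (p.coeff k) *
            (t ^ e k * t ^ r * (t ^ e k * t ^ r) ^ d) =
            (t ^ e k * (p.coeff k : F)) * (t ^ r * (t ^ e k * t ^ r) ^ d) by
          rw [show algebraMap (Algebra.adjoin O ({t, t⁻¹} : Set F)) F (p.coeff k) =
            (p.coeff k : F) from rfl]
          ring]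
        exact mul_mem (he k) (mul_mem (pow_mem htS r)
          (pow_mem (mul_mem (pow_mem htS _) (pow_mem htS _)) d))
      · rw [Nat.sub_eq_zero_of_le hge, pow_zero, mul_one]
        rcases hge.eq_or_lt with h | h
        · rw [← h, coeff_natDegree, hPm.leadingCoeff]; exact one_mem _
        · rw [coeff_eq_zero_of_natDegree_lt h]; exact zero_mem _
    · rw [hP, coeff_map, Polynomial.notMem_support_iff.1 hk, map_zero, zero_mul]
      exact zero_mem _
  obtain ⟨Q, hQ, -, hQm⟩ := Polynomial.lifts_and_natDegree_eq_and_monic hlift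
    ((monic_scaleRoots_iff _).2 hPm)
  refine ⟨i, Q, hQm, ?_⟩
  rw [← Polynomial.eval_map, hQ, Polynomial.eval_eq_smeval, ← Polynomial.eval_eq_smeval]
  have h0 : P.eval x = 0 := by rw [hP, Polynomial.eval_map]; exact hpx
  exact scaleRoots_eval₂_eq_zero (RingHom.id F) (p := P) (s := t ^ i) h0

/-- Finitely many coefficient functionals detect a finite-dimensional space of series. -/
theorem exists_finset_coeff {L : Type*} [Field L] (V : Submodule L (LaurentSeries L))
    [FiniteDimensional L V] :
    ∃ s : Finset ℤ, ∀ f ∈ V, (∀ i ∈ s, HahnSeries.coeff f i = 0) → f = 0 := by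
  classical
  let K : Finset ℤ → Submodule L V := fun s =>
    { carrier := {f | ∀ i ∈ s, HahnSeries.coeff (f : LaurentSeries L) i = 0}
      zero_mem' := fun i _ => rfl
      add_mem' := fun {f g} hf hg i hi => by
        rw [Submodule.coe_add, HahnSeries.coeff_add, hf i hi, hg i hi, add_zero]
      smul_mem' := fun c f hf i hi => by
        rw [Submodule.coe_smul, HahnSeries.coeff_smul, hf i hi, smul_zero] }
  obtain ⟨s, -, hs⟩ := (InvImage.wf (fun s : Finset ℤ => Module.finrank L (K s))
    (Nat.lt_wfRel.wf)).has_min Set.univ ⟨∅, trivial⟩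
  refine ⟨s, fun f hf hfs => by_contra fun hf0 => ?_⟩
  obtain ⟨i, hi⟩ : ∃ i, HahnSeries.coeff f i ≠ 0 := by
    by_contra h
    simp only [not_exists, not_not] at h
    exact hf0 (HahnSeries.ext (funext h))
  refine hs (insert i s) trivial (Submodule.finrank_lt_finrank_of_lt (lt_of_le_of_ne
    (fun g hg k hk => hg k (Finset.mem_insert_of_mem hk)) fun h => ?_))
  have : (⟨f, hf⟩ : V) ∈ K (insert i s) := h ▸ hfs
  exact hi (this i (Finset.mem_insert_self i s))

end Generic

variable {L : Type*} [Field L] [Algebra ℚ L] {A : ValuationSubring L} {b : Bool}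
  {N : ℕ} [NeZero N]

variable (A N) in
/-- The overlap of the two charts: the integral closure of `A[t, 1/t]`. -/
def chartB0Loc : Subalgebra A (FL N L) :=
  (integralClosure (Algebra.adjoin A
    ({chartCoord L N false, (chartCoord L N false)⁻¹} : Set (FL N L))) (FL N L)).restrictScalars A

theorem chartEval_eq_aevalA (r : A[X]) : chartEval A N b r = aeval (chartCoord L N b) r := rfl

/-- Integrality over `A[t]`, read off the polynomial ring. -/
theorem mem_chartB0_iff {x : FL N L} :
    x ∈ chartB0 A N b ↔ (chartEval A N b).IsIntegralElem x := by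
  let f : A[X] →+* Algebra.adjoin A ({chartCoord L N b} : Set (FL N L)) :=
    (chartEval A N b).codRestrict
      (Algebra.adjoin A ({chartCoord L N b} : Set (FL N L))).toSubring fun r => by
        rw [chartEval_eq_aevalA]; exact aeval_mem_adjoin_singleton A _
  constructor
  · rintro ⟨p, hp, hpx⟩
    have hf : Function.Surjective f := by
      rintro ⟨y, hy⟩
      rw [Algebra.adjoin_singleton_eq_range_aeval] at hy
      obtain ⟨Q, rfl⟩ := hy
      exact ⟨Q, Subtype.ext rfl⟩
    obtain ⟨P, hP, -, hPm⟩ := Polynomial.lifts_and_degree_eq_and_monic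
      ((Polynomial.mem_lifts _).2 (Polynomial.map_surjective f hf p)) hp
    refine ⟨P, hPm, ?_⟩
    rw [← hP, eval₂_map] at hpx
    exact hpx
  · rintro ⟨p, hp, hpx⟩
    exact ⟨p.map f, hp.map f, by rw [eval₂_map]; exact hpx⟩

theorem algebraMap_comp_chartBase :
    (algebraMap (ChartBase A b) (FL N L)).comp (algebraMap A[X] (ChartBase A b)) =
      chartEval A N b :=
  IsLocalization.lift_comp (M := chartS A b) (g := chartEval A N b)
    fun y => isUnit_iff_ne_zero.2 (chartEval_ne_zero A N y)

theorem chartB0_le_chartB {x : FL N L} (hx : x ∈ chartB0 A N b) : x ∈ chartB A N b := by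
  obtain ⟨p, hp, hpx⟩ := mem_chartB0_iff.1 hx
  refine ⟨p.map (algebraMap A[X] (ChartBase A b)), hp.map _, ?_⟩
  rw [eval₂_map, algebraMap_comp_chartBase]
  exact hpx

theorem chartCoord_true : chartCoord L N true = (chartCoord L N false)⁻¹ := rfl

theorem chartB0_le_loc (b : Bool) : chartB0 A N b ≤ chartB0Loc A N := by
  intro x hx
  have hle : Algebra.adjoin A ({chartCoord L N b} : Set (FL N L)) ≤
      Algebra.adjoin A {chartCoord L N false, (chartCoord L N false)⁻¹} := by
    refine Algebra.adjoin_mono (Set.singleton_subset_iff.2 ?_)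
    cases b
    · exact Set.mem_insert _ _
    · rw [chartCoord_true]; exact Set.mem_insert_of_mem _ rfl
  obtain ⟨p, hp, hpx⟩ := hx
  refine ⟨p.map (Subalgebra.inclusion hle).toRingHom, hp.map _, ?_⟩
  rw [eval₂_map]
  exact hpx

theorem chartCoord_mem_chartB0 (b : Bool) : chartCoord L N b ∈ chartB0 A N b :=
  mem_chartB0_iff.2 ⟨X - C X, monic_X_sub_C X, by
    rw [eval₂_sub, eval₂_X, eval₂_C, chartEval_eq_aevalA, aeval_X, sub_self]⟩

theorem chartB0_rootClosed {x : FL N L} {m : ℕ} (hm : m ≠ 0) (hx : x ^ m ∈ chartB0 A N b) :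
    x ∈ chartB0 A N b :=
  IsIntegral.of_pow (Nat.pos_of_ne_zero hm) hx

theorem chartB0Loc_rootClosed {x : FL N L} {m : ℕ} (hm : m ≠ 0) (hx : x ^ m ∈ chartB0Loc A N) :
    x ∈ chartB0Loc A N :=
  IsIntegral.of_pow (Nat.pos_of_ne_zero hm) hx

theorem chartCoord_ne_zero (ι : L →+* ℂ) (b : Bool) : chartCoord L N b ≠ 0 := by
  have h : jL N L ≠ 0 := fun h => transcendental_jL N ι (h ▸ isAlgebraic_zero)
  cases b
  · exact h
  · exact inv_ne_zero h

theorem exists_pow_mul_mem_chartB0 (ι : L →+* ℂ) (b : Bool) {x : FL N L}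
    (hx : x ∈ chartB0Loc A N) : ∃ i : ℕ, chartCoord L N b ^ i * x ∈ chartB0 A N b := by
  refine exists_pow_mul_isIntegral (chartCoord_ne_zero ι b) ?_
  cases b
  · exact hx
  · rw [chartCoord_true, inv_inv, Set.pair_comm]; exact hx

variable [IsDiscreteValuationRing A]

/-- An element of the localised base which becomes a polynomial after multiplication by a power
of the uniformiser is a polynomial. -/
theorem mem_range_of_pi_pow_mul {ϖ : A} (hϖ : Irreducible ϖ) (e : ℕ) {r : ChartBase A b}
    (h : chartPi A b ϖ ^ e * r ∈ Set.range (algebraMap A[X] (ChartBase A b))) :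
    r ∈ Set.range (algebraMap A[X] (ChartBase A b)) := by
  induction e generalizing r with
  | zero => simpa using h
  | succ e ih =>
    obtain ⟨P, hP⟩ := h
    have h0 : redPoly A P = 0 := by
      rw [← chartRed_algebraMap A b, hP, map_mul, map_pow,
        (chartRed_eq_zero hϖ _).2 dvd_rfl, zero_pow e.succ_ne_zero, zero_mul]
    obtain ⟨P', rfl⟩ := (redPoly_eq_zero_iff hϖ P).1 h0
    refine ih ⟨P', mul_left_cancel₀ (prime_chartPi (b := b) hϖ).ne_zero ?_⟩
    rw [← mul_assoc, ← pow_succ', ← hP, map_mul]
    rfl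

section Frac

variable (ι : L →+* ℂ)

include ι in
/-- `A[t]`-integral elements: finiteness, denominators, saturation. -/
theorem chartB0_properties {ϖ : A} (hϖ : Irreducible ϖ) :
    (∃ s : Finset (FL N L), ∀ x ∈ chartB0 A N b,
      x ∈ Submodule.span (Algebra.adjoin A ({chartCoord L N b} : Set (FL N L)))
        (s : Set (FL N L))) ∧
    (∀ x : FL N L, ∃ c ∈ chartB0 A N b, c ≠ 0 ∧ c * x ∈ chartB0 A N b) ∧
    (∀ x ∈ chartB A N b, algebraMap L (FL N L) (ϖ : L) * x ∈ chartB0 A N b →
      x ∈ chartB0 A N b) := by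
  classical
  let K0 := FractionRing (ChartBase A b)
  let : Algebra A[X] (FL N L) := (chartEval A N b).toAlgebra
  have ht : IsScalarTower A[X] (ChartBase A b) (FL N L) :=
    IsScalarTower.of_algebraMap_eq fun r => (algebraMap_chartBase_algebraMap N r).symm
  have : FaithfulSMul A[X] K0 := (faithfulSMul_iff_algebraMap_injective _ _).2 (by
    rw [IsScalarTower.algebraMap_eq A[X] (ChartBase A b) K0]
    exact (IsFractionRing.injective (ChartBase A b) K0).comp
      (IsLocalization.injective (ChartBase A b) (chartS_le_nonZeroDivisors (A := A) (b := b))))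
  have hK : IsFractionRing A[X] K0 := IsFractionRing.of_field A[X] K0 fun z => by
    obtain ⟨r, r', hr', rfl⟩ := IsFractionRing.div_surjective (ChartBase A b) z
    obtain ⟨u, v, rfl⟩ := IsLocalization.exists_mk'_eq (chartS A b) r
    obtain ⟨u', v', rfl⟩ := IsLocalization.exists_mk'_eq (chartS A b) r'
    refine ⟨u * v', u' * v, ?_⟩
    have h1 := congrArg (algebraMap (ChartBase A b) K0)
      (IsLocalization.mk'_spec (ChartBase A b) u v)
    have h2 := congrArg (algebraMap (ChartBase A b) K0)
      (IsLocalization.mk'_spec (ChartBase A b) u' v')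
    rw [map_mul, ← IsScalarTower.algebraMap_apply, ← IsScalarTower.algebraMap_apply] at h1 h2
    have hne : ∀ w : chartS A b, algebraMap A[X] K0 (w : A[X]) ≠ 0 := fun w =>
      (map_ne_zero_iff _ (FaithfulSMul.algebraMap_injective A[X] K0)).2
        (nonZeroDivisors.ne_zero (chartS_le_nonZeroDivisors w.2))
    rw [map_mul, map_mul, ← h1, ← h2]
    rw [mul_assoc, mul_assoc, mul_comm (algebraMap A[X] K0 (v'.1)) (algebraMap A[X] K0 (v.1)),
      mul_div_mul_right _ _ (mul_ne_zero (hne v) (hne v'))]
  have htK : IsScalarTower A[X] K0 (FL N L) := IsScalarTower.of_algebraMap_eq fun r => by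
    rw [IsScalarTower.algebraMap_apply A[X] (ChartBase A b) K0,
      ← IsScalarTower.algebraMap_apply (ChartBase A b) K0 (FL N L),
      ← IsScalarTower.algebraMap_apply A[X] (ChartBase A b) (FL N L)]
  have := finiteDimensional_chartFieldAlgebra (A := A) (b := b) N ι
  have : CharZero K0 := charZero_fractionRing N
  have hinj : Function.Injective (algebraMap A[X] (FL N L)) := by
    rw [IsScalarTower.algebraMap_eq A[X] (ChartBase A b) (FL N L)]
    exact (algebraMap_chartBase_injective N).comp
      (IsLocalization.injective (ChartBase A b) (chartS_le_nonZeroDivisors (A := A) (b := b)))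
  have hfaith : FaithfulSMul A[X] (FL N L) := (faithfulSMul_iff_algebraMap_injective _ _).2 hinj
  have hmem : ∀ x : FL N L, x ∈ chartB0 A N b ↔ IsIntegral A[X] x := fun x => mem_chartB0_iff
  refine ⟨?_, fun x => ?_, fun x hx hπx => ?_⟩
  · have hfin : Module.Finite A[X] (integralClosure A[X] (FL N L)) :=
      IsIntegralClosure.finite A[X] K0 (FL N L) (integralClosure A[X] (FL N L))
    obtain ⟨s, hs⟩ := hfin.fg_top
    refine ⟨s.image (fun g : integralClosure A[X] (FL N L) => (g : FL N L)), fun x hx => ?_⟩
    have hx' : (⟨x, (hmem x).1 hx⟩ : integralClosure A[X] (FL N L)) ∈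
        Submodule.span A[X] (s : Set (integralClosure A[X] (FL N L))) := hs ▸ trivial
    obtain ⟨c, -, hc⟩ := Submodule.mem_span_finset.1 hx'
    have hx'' : x = ∑ g ∈ s, chartEval A N b (c g) * (g : FL N L) := by
      have h := congrArg Subtype.val hc
      rw [AddSubmonoidClass.coe_finsetSum] at h
      exact h.symm.trans (Finset.sum_congr rfl fun g _ => rfl)
    rw [hx'']
    refine Submodule.sum_mem _ fun g hg => ?_
    have hc' : chartEval A N b (c g) ∈ Algebra.adjoin A ({chartCoord L N b} : Set (FL N L)) := by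
      rw [chartEval_eq_aevalA]; exact aeval_mem_adjoin_singleton A _
    have := Submodule.smul_mem _ (⟨_, hc'⟩ : Algebra.adjoin A ({chartCoord L N b} : Set (FL N L)))
      (Submodule.subset_span (R := Algebra.adjoin A ({chartCoord L N b} : Set (FL N L)))
        (Finset.mem_coe.2 (Finset.mem_image_of_mem
          (fun g : integralClosure A[X] (FL N L) => (g : FL N L)) hg)))
    exact this
  · have halg : IsAlgebraic A[X] x :=
      (IsFractionRing.isAlgebraic_iff A[X] K0 (FL N L)).2 (IsIntegral.of_finite _ x).isAlgebraic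
    obtain ⟨y, hy, hint⟩ := halg.exists_integral_multiple
    refine ⟨algebraMap A[X] (FL N L) y, (hmem _).2 isIntegral_algebraMap,
      (map_ne_zero_iff _ hinj).2 hy, (hmem _).2 ?_⟩
    rwa [← Algebra.smul_def]
  · set c := algebraMap (ChartBase A b) K0 (chartPi A b ϖ) with hc
    have hxR : IsIntegral (ChartBase A b) x := hx
    have hxK : IsIntegral K0 x := IsIntegral.of_finite K0 x
    set y := algebraMap L (FL N L) (ϖ : L) * x with hy
    have hy' : y = algebraMap K0 (FL N L) c * x := by
      rw [hy, hc, ← IsScalarTower.algebraMap_apply, algebraMap_chartPi]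
    have hc0 : c ≠ 0 := (map_ne_zero_iff _ (IsFractionRing.injective _ _)).2
      (prime_chartPi hϖ).ne_zero
    have hyX : IsIntegral A[X] y := (hmem _).1 hπx
    have hT : scaleRoots (minpoly K0 x) c = minpoly K0 y := by
      refine minpoly.unique K0 y ((monic_scaleRoots_iff c).2 (minpoly.monic hxK)) ?_
        fun Q hQ hQy => ?_
      · rw [hy']; exact scaleRoots_aeval_eq_zero (minpoly.aeval K0 x)
      · rw [degree_scaleRoots]
        refine le_trans (minpoly.min K0 x ((monic_scaleRoots_iff c⁻¹).2 hQ) ?_)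
          (le_of_eq (degree_scaleRoots _))
        have h := scaleRoots_aeval_eq_zero (r := c⁻¹) hQy
        rwa [hy', ← mul_assoc, ← map_mul, inv_mul_cancel₀ hc0, map_one, one_mul] at h
    have hxm := minpoly.isIntegrallyClosed_eq_field_fractions' K0 hxR
    have hym := minpoly.isIntegrallyClosed_eq_field_fractions' K0 hyX
    have hlift : minpoly (ChartBase A b) x ∈
        Polynomial.lifts (algebraMap A[X] (ChartBase A b)) := by
      refine (Polynomial.lifts_iff_coeff_lifts _).2 fun i => ?_
      refine mem_range_of_pi_pow_mul hϖ ((minpoly K0 x).natDegree - i) ⟨(minpoly A[X] y).coeff i, ?_⟩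
      apply IsFractionRing.injective (ChartBase A b) K0
      rw [← IsScalarTower.algebraMap_apply, ← coeff_map, ← hym, ← hT, coeff_scaleRoots,
        map_mul, map_pow, ← hc, ← coeff_map, ← hxm, mul_comm]
    obtain ⟨P, hP, -, hPm⟩ := Polynomial.lifts_and_natDegree_eq_and_monic hlift (minpoly.monic hxR)
    exact (hmem x).2 ⟨P, hPm, by
      rw [← aeval_def, ← aeval_map_algebraMap (ChartBase A b), hP, minpoly.aeval]⟩

end Frac

end Fermat.Agent.BadPrime
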