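import Fermat.Agent.BadPrime.GaussTwoBasic

/-!
# The two vertical components of `X₀(Mq)` in characteristic `q`

`w` exchanges the two degeneracy maps; the two vertical valuations are the Gauss valuation and its
pullback by `w`.  We compute the residues of their intersection and of the norm to level `M`.
-/

set_option autoImplicit false
set_option synthInstance.maxHeartbeats 400000
set_option linter.unusedSectionVars false

noncomputable section

open ModularCurve IntermediateField
open scoped IntermediateField

namespace Fermat.Agent.BadPrime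

open Fermat.Agent.Reduction Fermat.Agent.Modular

variable {L k : Type*} [Field L] [Field k] [Algebra ℚ L] [Algebra.IsAlgebraic ℚ L]
  {A : ValuationSubring L} (π : A →+* k) [IsLocalHom π]
  {q : ℕ} [Fact q.Prime] [CharP k q] {M : ℕ} [NeZero M]

/-- An involution exchanging the two degeneracy maps. -/
structure IsALInvolution (w : FL (M * q) L →ₐ[L] FL (M * q) L) : Prop where
  alpha : ∀ x, w (heckeAlphaBar L M q x) = heckeBetaBar L M q x
  beta : ∀ x, w (heckeBetaBar L M q x) = heckeAlphaBar L M q x
  invol : ∀ x, w (w x) = x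

omit [Algebra.IsAlgebraic ℚ L] in
theorem exists_isALInvolution (ι : L →+* ℂ) (hqM : ¬ q ∣ M) :
    ∃ w : FL (M * q) L →ₐ[L] FL (M * q) L, IsALInvolution w :=
  (exists_atkinLehner_involution q M ι hqM).imp fun _ h => ⟨h.1, h.2.1, h.2.2⟩

variable (w : FL (M * q) L →ₐ[L] FL (M * q) L)

/-- The vertical valuation of the other component. -/
abbrev gaussW : ValuationSubring (FL (M * q) L) :=
  (gaussFL π (M * q)).comap (w : FL (M * q) L →+* FL (M * q) L)

/-- The semilocal ring of the two vertical components. -/
def pairBv : Subring (FL (M * q) L) := (gaussFL π (M * q)).toSubring ⊓ (gaussW π w).toSubring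

theorem mem_gaussFL {N : ℕ} [NeZero N] {x : FL N L} :
    x ∈ gaussFL π N ↔ ∃ g, HasGaussRed π (x : LaurentSeries L) g :=
  mem_gaussRing π (FL N L) (exists_scalable_quotient A π N)

theorem mem_gaussW {x : FL (M * q) L} : x ∈ gaussW π w ↔ w x ∈ gaussFL π (M * q) :=
  ValuationSubring.mem_comap

theorem mem_pairBv {x : FL (M * q) L} :
    x ∈ pairBv π w ↔ (∃ g, HasGaussRed π (x : LaurentSeries L) g) ∧
      ∃ g, HasGaussRed π ((w x : FL (M * q) L) : LaurentSeries L) g := by
  rw [pairBv, Subring.mem_inf, ValuationSubring.mem_toSubring, ValuationSubring.mem_toSubring,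
    mem_gaussW, mem_gaussFL, mem_gaussFL]

/-- Residue map of the first component. -/
def pairRed1 : pairBv π w →+* LaurentSeries k where
  toFun x := ((mem_pairBv π w).1 x.2).1.choose
  map_zero' := HasGaussRed.unique ((mem_pairBv π w).1 (pairBv π w).zero_mem).1.choose_spec
    hasGaussRed_zero
  map_one' := HasGaussRed.unique ((mem_pairBv π w).1 (pairBv π w).one_mem).1.choose_spec
    hasGaussRed_one
  map_add' f g := HasGaussRed.unique ((mem_pairBv π w).1 (f + g).2).1.choose_spec
    (((mem_pairBv π w).1 f.2).1.choose_spec.add ((mem_pairBv π w).1 g.2).1.choose_spec)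
  map_mul' f g := HasGaussRed.unique ((mem_pairBv π w).1 (f * g).2).1.choose_spec
    (((mem_pairBv π w).1 f.2).1.choose_spec.mul ((mem_pairBv π w).1 g.2).1.choose_spec)

theorem hasGaussRed_pairRed1 (x : pairBv π w) :
    HasGaussRed π ((x : FL (M * q) L) : LaurentSeries L) (pairRed1 π w x) :=
  ((mem_pairBv π w).1 x.2).1.choose_spec

theorem exists_hasGaussRed_w (x : pairBv π w) :
    ∃ g, HasGaussRed π ((w x : FL (M * q) L) : LaurentSeries L) g :=
  ((mem_pairBv π w).1 x.2).2

/-- Residue map of the second component. -/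
def pairRed2 : pairBv π w →+* LaurentSeries k where
  toFun x := (exists_hasGaussRed_w π w x).choose
  map_zero' := HasGaussRed.unique (exists_hasGaussRed_w π w 0).choose_spec
    (by rw [ZeroMemClass.coe_zero, map_zero, ZeroMemClass.coe_zero]; exact hasGaussRed_zero)
  map_one' := HasGaussRed.unique (exists_hasGaussRed_w π w 1).choose_spec
    (by rw [OneMemClass.coe_one, map_one, OneMemClass.coe_one]; exact hasGaussRed_one)
  map_add' f g := HasGaussRed.unique (exists_hasGaussRed_w π w (f + g)).choose_spec
    (by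
      rw [AddMemClass.coe_add, map_add, IntermediateField.coe_add]
      exact (exists_hasGaussRed_w π w f).choose_spec.add (exists_hasGaussRed_w π w g).choose_spec)
  map_mul' f g := HasGaussRed.unique (exists_hasGaussRed_w π w (f * g)).choose_spec
    (by
      rw [MulMemClass.coe_mul, map_mul, IntermediateField.coe_mul]
      exact (exists_hasGaussRed_w π w f).choose_spec.mul (exists_hasGaussRed_w π w g).choose_spec)

theorem hasGaussRed_pairRed2 (x : pairBv π w) :
    HasGaussRed π ((w x : FL (M * q) L) : LaurentSeries L) (pairRed2 π w x) :=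
  (exists_hasGaussRed_w π w x).choose_spec

variable (L k q M) in
/-- `j(z) - j(qz)^q` and `j(qz)^i (j(qz) - j(z)^q)`. -/
def pairBasis : Option (Fin q) → FL (M * q) L
  | none => heckeAlphaBar L M q (jL M L) - heckeBetaBar L M q (jL M L) ^ q
  | some i => heckeBetaBar L M q (jL M L) ^ (i : ℕ) *
      (heckeBetaBar L M q (jL M L) - heckeAlphaBar L M q (jL M L) ^ q)

variable (k q) in
/-- `j̄ - j̄^(q²)`. -/
def pairDelta : LaurentSeries k := jqModC k - jqModC k ^ (q * q)

theorem pairDelta_ne_zero : pairDelta k q ≠ 0 := by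
  intro h
  refine transcendental_iff.1 (transcendental_jqModC (k := k))
    (Polynomial.X - Polynomial.X ^ (q * q)) (by simpa [pairDelta] using h) |> fun h0 => ?_
  have := congrArg (fun p : Polynomial k => p.coeff 1) h0
  have hq : 1 ≠ q * q := by
    have := (Fact.out : q.Prime).two_le
    nlinarith
  simp [Polynomial.coeff_X_pow, hq] at this

omit [Algebra ℚ L] [Algebra.IsAlgebraic ℚ L] [IsLocalHom π] in
theorem qExpand_jqModC_eq_pow : ModularCurve.qExpand k q (jqModC k) = jqModC k ^ q := by
  rw [pow_char_eq_qExpand, coeffMap_jqModC]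

theorem hasGaussRed_alpha {x : FL M L} {g : LaurentSeries k}
    (h : HasGaussRed π (x : LaurentSeries L) g) :
    HasGaussRed π ((heckeAlphaBar L M q x : FL (M * q) L) : LaurentSeries L) g := by
  rw [coe_heckeAlphaBar]
  exact h

theorem hasGaussRed_beta {x : FL M L} {g : LaurentSeries k}
    (h : HasGaussRed π (x : LaurentSeries L) g) :
    HasGaussRed π ((heckeBetaBar L M q x : FL (M * q) L) : LaurentSeries L)
      (ModularCurve.qExpand k q g) := by
  rw [coe_heckeBetaBar]
  exact h.qExpand q

theorem hasGaussRed_sub {f f' : LaurentSeries L} {g g' : LaurentSeries k}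
    (h : HasGaussRed π f g) (h' : HasGaussRed π f' g') : HasGaussRed π (f - f') (g - g') := by
  rw [sub_eq_add_neg, sub_eq_add_neg]
  exact h.add h'.neg

theorem hasGaussRed_pairBasis (i : Option (Fin q)) :
    HasGaussRed π ((pairBasis L q M i : FL (M * q) L) : LaurentSeries L)
      (i.elim (pairDelta k q) fun _ => 0) := by
  have ha := hasGaussRed_alpha π (q := q) (hasGaussRed_jL (π := π) (L := L) M)
  have hb := hasGaussRed_beta π (q := q) (hasGaussRed_jL (π := π) (L := L) M)
  rw [qExpand_jqModC_eq_pow] at hb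
  cases i with
  | none =>
    simp only [pairBasis, AddSubgroupClass.coe_sub, IntermediateField.coe_pow, Option.elim_none,
      pairDelta, pow_mul]
    exact hasGaussRed_sub π ha (hb.pow q)
  | some i =>
    simp only [pairBasis, IntermediateField.coe_mul, AddSubgroupClass.coe_sub,
      IntermediateField.coe_pow, Option.elim_some]
    have h := (hb.pow (i : ℕ)).mul (hasGaussRed_sub π hb (ha.pow q))
    rwa [sub_self, mul_zero] at h

variable {w}

theorem hasGaussRed_w_pairBasis (hw : IsALInvolution w) (i : Option (Fin q)) :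
    HasGaussRed π ((w (pairBasis L q M i) : FL (M * q) L) : LaurentSeries L)
      (i.elim 0 fun i => jqModC k ^ (i : ℕ) * pairDelta k q) := by
  have ha := hasGaussRed_alpha π (q := q) (hasGaussRed_jL (π := π) (L := L) M)
  have hb := hasGaussRed_beta π (q := q) (hasGaussRed_jL (π := π) (L := L) M)
  rw [qExpand_jqModC_eq_pow] at hb
  cases i with
  | none =>
    simp only [pairBasis, map_sub, map_pow, hw.alpha, hw.beta, AddSubgroupClass.coe_sub,
      IntermediateField.coe_pow, Option.elim_none]
    have h := hasGaussRed_sub π hb (ha.pow q)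
    rwa [sub_self] at h
  | some i =>
    simp only [pairBasis, map_mul, map_sub, map_pow, hw.alpha, hw.beta, IntermediateField.coe_mul,
      AddSubgroupClass.coe_sub, IntermediateField.coe_pow, Option.elim_some, pairDelta, pow_mul]
    exact (ha.pow (i : ℕ)).mul (hasGaussRed_sub π ha (hb.pow q))

variable (L q M) in
/-- The function field of level `Mq` as an algebra over level `M`, by the first degeneracy map. -/
abbrev alphaAlgebra : Algebra (FL M L) (FL (M * q) L) :=
  (heckeAlphaBar L M q).toRingHom.toAlgebra

attribute [local instance] alphaAlgebra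

theorem algebraMap_alpha (x : FL M L) :
    algebraMap (FL M L) (FL (M * q) L) x = heckeAlphaBar L M q x := rfl

variable (w) in
/-- The two valuations. -/
def pairV : Bool → ValuationSubring (FL (M * q) L) :=
  fun b => cond b (gaussW π w) (gaussFL π (M * q))

theorem forall_mem_pairV {x : FL (M * q) L} :
    (∀ b, x ∈ pairV π w b) ↔ x ∈ pairBv π w :=
  ⟨fun h => Subring.mem_inf.2 ⟨h false, h true⟩,
    fun h => Bool.rec (Subring.mem_inf.1 h).1 (Subring.mem_inf.1 h).2⟩

theorem pairV_nonunits {x : FL (M * q) L} (b : Bool) :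
    x ∈ (pairV π w b).nonunits ↔
      HasGaussRed π ((cond b (w x) x : FL (M * q) L) : LaurentSeries L) 0 := by
  cases b with
  | false => exact mem_nonunits_gaussRing π (FL (M * q) L) (exists_scalable_quotient A π (M * q))
  | true =>
    rw [cond_true,
      ← mem_nonunits_gaussRing π (FL (M * q) L) (exists_scalable_quotient A π (M * q))]
    rcases eq_or_ne x 0 with rfl | hx
    · rw [map_zero]; exact iff_of_true (zero_mem _) (zero_mem _)
    have hx' : w x ≠ 0 := (map_ne_zero w).2 hx
    show x ∈ (gaussW π w).nonunits ↔ _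
    rw [ValuationSubring.mem_nonunits_iff, ValuationSubring.mem_nonunits_iff,
      ← not_le, ← not_le, not_iff_not, ← inv_le_one₀ (zero_lt_iff.2 ((map_ne_zero _).2 hx)),
      ← inv_le_one₀ (zero_lt_iff.2 ((map_ne_zero _).2 hx')), ← map_inv₀, ← map_inv₀,
      ValuationSubring.valuation_le_one_iff, ValuationSubring.valuation_le_one_iff,
      mem_gaussW, map_inv₀]

theorem pairV_mem (hw : IsALInvolution w) : ∀ b, ∀ g ∈ gaussFL π M,
    algebraMap (FL M L) (FL (M * q) L) g ∈ pairV π w b := by
  intro b g hg
  obtain ⟨gb, hgb⟩ := (mem_gaussFL π).1 hg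
  cases b with
  | false =>
    rw [show pairV π w false = gaussFL π (M * q) from rfl, mem_gaussFL, algebraMap_alpha]
    exact ⟨gb, hasGaussRed_alpha π hgb⟩
  | true =>
    rw [show pairV π w true = gaussW π w from rfl, mem_gaussW, mem_gaussFL, algebraMap_alpha,
      hw.alpha]
    exact ⟨_, hasGaussRed_beta π hgb⟩

theorem pairV_hnu (hw : IsALInvolution w) : ∀ b, ∀ g ∈ (gaussFL π M).nonunits,
    algebraMap (FL M L) (FL (M * q) L) g ∈ (pairV π w b).nonunits := by
  intro b g hg
  rw [pairV_nonunits]
  rw [mem_nonunits_gaussRing] at hg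
  cases b with
  | false =>
    rw [cond_false, algebraMap_alpha]
    exact hasGaussRed_alpha π hg
  | true =>
    rw [cond_true, algebraMap_alpha, hw.alpha]
    simpa using hasGaussRed_beta π (q := q) hg

theorem pairBasis_mem (hw : IsALInvolution w) : ∀ i b, pairBasis L q M i ∈ pairV π w b :=
  fun i b => Bool.rec ((mem_gaussFL π).2 ⟨_, hasGaussRed_pairBasis π i⟩)
    ((mem_gaussW π w).2 ((mem_gaussFL π).2 ⟨_, hasGaussRed_w_pairBasis π hw i⟩)) b

/-- Reductions of a combination of the basis, at both components. -/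
theorem hasGaussRed_sum_pairBasis (hw : IsALInvolution w) {c : Option (Fin q) → FL M L}
    {g : Option (Fin q) → LaurentSeries k}
    (hg : ∀ i, HasGaussRed π (c i : LaurentSeries L) (g i)) :
    HasGaussRed π ((∑ i, algebraMap (FL M L) (FL (M * q) L) (c i) * pairBasis L q M i :
        FL (M * q) L) : LaurentSeries L) (g none * pairDelta k q) ∧
      HasGaussRed π ((w (∑ i, algebraMap (FL M L) (FL (M * q) L) (c i) * pairBasis L q M i) :
        FL (M * q) L) : LaurentSeries L)
        ((∑ i, ModularCurve.qExpand k q (g (some i)) * jqModC k ^ (i : ℕ)) * pairDelta k q) := by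
  have h1 : ∀ s : Finset (Option (Fin q)), HasGaussRed π
      ((∑ i ∈ s, algebraMap (FL M L) (FL (M * q) L) (c i) * pairBasis L q M i :
        FL (M * q) L) : LaurentSeries L) (∑ i ∈ s, g i * i.elim (pairDelta k q) fun _ => 0) := by
    intro s
    induction s using Finset.cons_induction with
    | empty =>
      rw [Finset.sum_empty, Finset.sum_empty, ZeroMemClass.coe_zero]
      exact hasGaussRed_zero
    | cons j s hj ih =>
      rw [Finset.sum_cons, Finset.sum_cons, IntermediateField.coe_add, IntermediateField.coe_mul]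
      exact ((hasGaussRed_alpha π (hg j)).mul (hasGaussRed_pairBasis π j)).add ih
  have h2 : ∀ s : Finset (Option (Fin q)), HasGaussRed π
      ((w (∑ i ∈ s, algebraMap (FL M L) (FL (M * q) L) (c i) * pairBasis L q M i) :
        FL (M * q) L) : LaurentSeries L)
      (∑ i ∈ s, ModularCurve.qExpand k q (g i) *
        i.elim 0 fun i => jqModC k ^ (i : ℕ) * pairDelta k q) := by
    intro s
    induction s using Finset.cons_induction with
    | empty =>
      rw [Finset.sum_empty, Finset.sum_empty, map_zero, ZeroMemClass.coe_zero]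
      exact hasGaussRed_zero
    | cons j s hj ih =>
      rw [Finset.sum_cons, Finset.sum_cons, map_add, map_mul, algebraMap_alpha, hw.alpha,
        IntermediateField.coe_add, IntermediateField.coe_mul]
      exact ((hasGaussRed_beta π (hg j)).mul (hasGaussRed_w_pairBasis π hw j)).add ih
  refine ⟨?_, ?_⟩
  · convert h1 Finset.univ using 1
    rw [Fintype.sum_option]
    simp
  · convert h2 Finset.univ using 1
    rw [Fintype.sum_option, Finset.sum_mul]
    simp [mul_assoc]

theorem pairBasis_jointlyIndependent (hw : IsALInvolution w) :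
    JointlyIndependent (gaussFL π M) (pairV π w) (pairBasis L q M) := by
  intro c hc hnu
  choose g hg using fun i => (mem_gaussFL π).1 (hc i)
  obtain ⟨h1, h2⟩ := hasGaussRed_sum_pairBasis π hw hg
  have e1 := h1.unique ((pairV_nonunits π false).1 (hnu false))
  have e2 := h2.unique ((pairV_nonunits π true).1 (hnu true))
  rw [mul_eq_zero, or_iff_left pairDelta_ne_zero] at e1 e2
  have hj : (jqModC k).order = -1 := order_jqModC
  have hall := eq_zero_of_sum_qExpand_mul_pow (jqModC_ne_zero_of_nontrivial k) hj
    (fun i => g (some i)) e2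
  intro i
  rw [mem_nonunits_gaussRing]
  have hi := hg i
  cases i with
  | none => rwa [e1] at hi
  | some i => rwa [show g (some i) = 0 from congrFun hall i] at hi

variable (ι : L →+* ℂ) (hqM : ¬ q ∣ M)

include ι hqM in
theorem finrank_alphaAlgebra :
    Module.finrank (FL M L) (FL (M * q) L) = q + 1 := by
  rw [← finrank_heckeAlpha_fieldRange q M ι hqM]
  exact Algebra.finrank_eq_of_equiv_equiv
    (AlgEquiv.ofInjectiveField (heckeAlphaBar L M q)).toRingEquiv (RingEquiv.refl _)
    (RingHom.ext fun _ => rfl)

include ι hqM in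
theorem finiteDimensional_alphaAlgebra : FiniteDimensional (FL M L) (FL (M * q) L) :=
  Module.finite_of_finrank_pos (by rw [finrank_alphaAlgebra ι hqM]; omega)

include ι hqM in
theorem exists_coeff_pairBv (hw : IsALInvolution w) {x : FL (M * q) L} (hx : x ∈ pairBv π w) :
    ∃ c : Option (Fin q) → FL M L, (∀ i, c i ∈ gaussFL π M) ∧
      ∑ i, algebraMap (FL M L) (FL (M * q) L) (c i) * pairBasis L q M i = x := by
  have := finiteDimensional_alphaAlgebra (L := L) ι hqM
  exact exists_coeff_of_forall_mem (pairV_hnu π hw) (pairBasis_jointlyIndependent π hw)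
    (by rw [Fintype.card_option, Fintype.card_fin, finrank_alphaAlgebra ι hqM])
    ((forall_mem_pairV π).2 hx)

include ι hqM in
theorem pairRed_mem_fullC (hw : IsALInvolution w) (hπ : Function.Surjective π)
    (h : HasFullResidueDegree k L M) (x : pairBv π w) :
    pairRed1 π w x ∈ modularFunctionFieldFullC k M ∧
      pairRed2 π w x ∈ modularFunctionFieldFullC k M := by
  obtain ⟨c, hc, hsum⟩ := exists_coeff_pairBv π ι hqM hw x.2
  choose g hg using fun i => (mem_gaussFL π).1 (hc i)
  obtain ⟨h1, h2⟩ := hasGaussRed_sum_pairBasis π hw hg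
  rw [hsum] at h1 h2
  rw [(hasGaussRed_pairRed1 π w x).unique h1, (hasGaussRed_pairRed2 π w x).unique h2]
  have hmem : ∀ i, g i ∈ modularFunctionFieldFullC k M := fun i =>
    hasGaussRed_mem_fullC hπ h (hg i)
  have hj : jqModC k ∈ modularFunctionFieldFullC k M := jqModC_mem_full k M
  have hd : pairDelta k q ∈ modularFunctionFieldFullC k M := sub_mem hj (pow_mem hj _)
  exact ⟨mul_mem (hmem none) hd,
    mul_mem (sum_mem fun i _ => mul_mem (qExpand_mem_fullC (hmem _)) (pow_mem hj _)) hd⟩

include ι hqM in
theorem isIntegral_pairBv (hw : IsALInvolution w) [Algebra (gaussFL π M) (FL (M * q) L)]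
    [IsScalarTower (gaussFL π M) (FL M L) (FL (M * q) L)]
    {x : FL (M * q) L} (hx : x ∈ pairBv π w) : IsIntegral (gaussFL π M) x := by
  have := finiteDimensional_alphaAlgebra (L := L) ι hqM
  exact isIntegral_of_forall_mem (pairV_mem π hw) (pairV_hnu π hw)
    (pairBasis_jointlyIndependent π hw) (pairBasis_mem π hw)
    (by rw [Fintype.card_option, Fintype.card_fin, finrank_alphaAlgebra ι hqM])
    ((forall_mem_pairV π).2 hx)

/-- The kernel of the residue map of the two components. -/
theorem exists_eq_mul_of_pairRed_eq_zero {ϖ : A} (hπϖ : π ϖ = 0)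
    (hϖ : ∀ a : A, π a = 0 → ϖ ∣ a) (hϖ0 : ϖ ≠ 0) (x : pairBv π w)
    (h1 : pairRed1 π w x = 0) (h2 : pairRed2 π w x = 0) :
    ∃ y : pairBv π w, (x : FL (M * q) L) = algebraMap L (FL (M * q) L) (ϖ : L) * y := by
  have hC : (algebraMap L (FL (M * q) L) (ϖ : L)) ≠ 0 :=
    (map_ne_zero _).2 fun h => hϖ0 (Subtype.ext h)
  have key : ∀ z : FL (M * q) L, HasGaussRed π (z : LaurentSeries L) 0 →
      (algebraMap L (FL (M * q) L) (ϖ : L))⁻¹ * z ∈ gaussFL π (M * q) := by
    intro z hz
    obtain ⟨f', g', hf', he⟩ := hz.exists_eq_C_mul hπϖ hϖ hϖ0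
    refine (mem_gaussFL π).2 ⟨g', ?_⟩
    rw [IntermediateField.coe_mul, IntermediateField.coe_inv, coe_algebraMap_FL, he,
      inv_mul_cancel_left₀]
    · exact hf'
    · exact fun h0 => hϖ0 (Subtype.ext (HahnSeries.C_injective (h0.trans (map_zero _).symm)))
  refine ⟨⟨(algebraMap L (FL (M * q) L) (ϖ : L))⁻¹ * x, Subring.mem_inf.2 ⟨?_, ?_⟩⟩, ?_⟩
  · exact key _ (h1 ▸ hasGaussRed_pairRed1 π w x)
  · refine (mem_gaussW π w).2 ?_
    rw [map_mul, map_inv₀, AlgHom.commutes]
    exact key _ (h2 ▸ hasGaussRed_pairRed2 π w x)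
  · exact (mul_inv_cancel_left₀ hC _).symm

end Fermat.Agent.BadPrime
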