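import Fermat.Agent.BadPrime.GaussChartRing
import Fermat.Agent.BadPrime.GaussTwo
import Mathlib.RingTheory.PowerSeries.Ideal
import Mathlib.RingTheory.LaurentSeries
import Mathlib.RingTheory.IntegralClosure.IntegrallyClosed

/-!
# Expansions of functions integral over `A[j]`

A function of `FL N L` which is integral over `A[j]` has all its coefficients in `A`.
-/

set_option autoImplicit false
set_option synthInstance.maxHeartbeats 400000
set_option linter.unusedSectionVars false

noncomputable section

open ModularCurve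

namespace Fermat.Agent.BadPrime

open Fermat.Agent.Reduction Fermat.Agent.Modular

variable {L : Type*} [Field L] (A : ValuationSubring L)

theorem isIntegrallyClosed_laurentSeries [IsDiscreteValuationRing A] :
    IsIntegrallyClosed (LaurentSeries A) := by
  have hle : Submonoid.powers (PowerSeries.X : PowerSeries A) ≤ nonZeroDivisors (PowerSeries A) :=
    powers_le_nonZeroDivisors_of_noZeroDivisors PowerSeries.X_ne_zero
  exact isIntegrallyClosed_of_isLocalization (LaurentSeries A) _ hle

/-- A series `x` with `x * b = a` for series over `A`, integral over the series over `A`, is a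
series over `A`. -/
theorem exists_coeffMap_eq_of_isIntegralElem [IsDiscreteValuationRing A] {x : LaurentSeries L}
    {a b : LaurentSeries A} (hb : b ≠ 0) (h : x * coeffMap A.subtype b = coeffMap A.subtype a)
    (hx : (coeffMap A.subtype).IsIntegralElem x) : ∃ y, coeffMap A.subtype y = x := by
  have := isIntegrallyClosed_laurentSeries A
  have hinj : Function.Injective (coeffMap A.subtype) := coeffMap_subtype_injective
  let φ : FractionRing (LaurentSeries A) →+* LaurentSeries L :=
    IsFractionRing.lift (g := coeffMap A.subtype) hinj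
  have hφ : ∀ z, φ (algebraMap (LaurentSeries A) _ z) = coeffMap A.subtype z := fun z =>
    IsFractionRing.lift_algebraMap hinj z
  set z : FractionRing (LaurentSeries A) :=
    algebraMap (LaurentSeries A) _ a / algebraMap (LaurentSeries A) _ b with hz
  have hzx : φ z = x := by
    rw [hz, map_div₀, hφ, hφ, eq_comm,
      eq_div_iff ((map_ne_zero_iff _ hinj).2 hb), h]
  have hint : IsIntegral (LaurentSeries A) z := by
    obtain ⟨p, hp, hpx⟩ := hx
    refine ⟨p, hp, φ.injective ?_⟩
    rw [Polynomial.hom_eval₂, map_zero, hzx,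
      show φ.comp (algebraMap (LaurentSeries A) (FractionRing (LaurentSeries A))) =
        coeffMap A.subtype from RingHom.ext hφ]
    exact hpx
  obtain ⟨y, hy⟩ := IsIntegrallyClosed.isIntegral_iff.1 hint
  exact ⟨y, by rw [← hφ, hy, hzx]⟩

variable [Algebra ℚ L] [Algebra.IsAlgebraic ℚ L] {N : ℕ} [NeZero N]

/-- The expansion of a function integral over a ring of functions with coefficients in `A` has
coefficients in `A`. -/
theorem coeff_mem_of_isIntegralElem [IsDiscreteValuationRing A] {R : Type*} [CommRing R]
    {f : R →+* FL N L} (hf : ∀ r, ∃ y, coeffMap A.subtype y = (f r : LaurentSeries L))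
    {x : FL N L} (hx : f.IsIntegralElem x) (i : ℤ) : (x : LaurentSeries L).coeff i ∈ A := by
  obtain ⟨a, b, hb, h⟩ : ∃ a b : LaurentSeries A, b ≠ 0 ∧
      (x : LaurentSeries L) * coeffMap A.subtype b = coeffMap A.subtype a := by
    rcases eq_or_ne x 0 with rfl | hx0
    · exact ⟨0, 1, one_ne_zero, by rw [ZeroMemClass.coe_zero, zero_mul, map_zero]⟩
    rcases (gaussFL (IsLocalRing.residue A) N).mem_or_inv_mem x with h | h
    · obtain ⟨g, a, b, hb, e, -⟩ := (mem_gaussFL _).1 h
      exact ⟨a, b, fun h0 => hb (by rw [h0, map_zero]), e⟩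
    · obtain ⟨g, a, b, hb, e, -⟩ := (mem_gaussFL _).1 h
      rw [IntermediateField.coe_inv] at e
      have hb0 : coeffMap A.subtype b ≠ 0 := (map_ne_zero_iff _ coeffMap_subtype_injective).2
        fun h0 => hb (by rw [h0, map_zero])
      have hxs : (x : LaurentSeries L) ≠ 0 := fun h0 => hx0 (Subtype.ext h0)
      have ha0 : coeffMap A.subtype a ≠ 0 := e ▸ mul_ne_zero (inv_ne_zero hxs) hb0
      exact ⟨b, a, fun h0 => ha0 (by rw [h0, map_zero]), by rw [← e, mul_inv_cancel_left₀ hxs]⟩
  choose g hg using hf
  have hint : (coeffMap A.subtype).IsIntegralElem (x : LaurentSeries L) := by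
    obtain ⟨p, hp, hpx⟩ := hx
    have hp' : p.map ((FL N L).val.toRingHom.comp f) ∈ Polynomial.lifts (coeffMap A.subtype) :=
      (Polynomial.lifts_iff_coeff_lifts _).2 fun k =>
        ⟨g (p.coeff k), by rw [Polynomial.coeff_map]; exact hg _⟩
    obtain ⟨P, hP, -, hPm⟩ := Polynomial.lifts_and_natDegree_eq_and_monic hp' (hp.map _)
    refine ⟨P, hPm, ?_⟩
    rw [← Polynomial.eval_map, hP, Polynomial.eval_map]
    have h2 := congrArg (FL N L).val.toRingHom hpx
    rw [map_zero, Polynomial.hom_eval₂] at h2
    exact h2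
  obtain ⟨y, hy⟩ := exists_coeffMap_eq_of_isIntegralElem A hb h hint
  rw [← hy]
  exact coeff_mem_of_lift y i

/-- `j` has integral coefficients. -/
theorem exists_coeffMap_eq_jL :
    ∃ y : LaurentSeries A, coeffMap A.subtype y = (jL N L : LaurentSeries L) :=
  ⟨qExpand A 1 (jqModC A), by rw [coeffMap_jqd, qExpand_one_apply]; rfl⟩

/-- The coefficients of a function integral over `A[j]` lie in `A`. -/
theorem coeff_mem_of_mem_chartB0 [IsDiscreteValuationRing A] {x : FL N L}
    (hx : x ∈ chartB0 A N false) (i : ℤ) : (x : LaurentSeries L).coeff i ∈ A := by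
  refine coeff_mem_of_isIntegralElem A (f := algebraMap
    (Algebra.adjoin A ({chartCoord L N false} : Set (FL N L))) (FL N L)) (fun r => ?_) hx i
  obtain ⟨r, hr⟩ := r
  show ∃ y, coeffMap A.subtype y = ((r : FL N L) : LaurentSeries L)
  induction hr using Algebra.adjoin_induction with
  | mem v hv => rw [Set.mem_singleton_iff] at hv; rw [hv]; exact exists_coeffMap_eq_jL A
  | algebraMap c =>
    refine ⟨HahnSeries.C c, ?_⟩
    rw [IsScalarTower.algebraMap_apply A L (FL N L), coe_algebraMap_FL, HahnSeries.C_apply,
      coeffMap_single]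
    rfl
  | add u v _ _ hu hv =>
    obtain ⟨y, hy⟩ := hu; obtain ⟨z, hz⟩ := hv
    exact ⟨y + z, by rw [map_add, hy, hz, IntermediateField.coe_add]⟩
  | mul u v _ _ hu hv =>
    obtain ⟨y, hy⟩ := hu; obtain ⟨z, hz⟩ := hv
    exact ⟨y * z, by rw [map_mul, hy, hz, IntermediateField.coe_mul]⟩

end Fermat.Agent.BadPrime
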