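import Fermat.Agent.BadPrime.GaussChart
import Fermat.Agent.BadPrime.GaussChartBase
import Fermat.Agent.BadPrime.GaussSeries
import Fermat.Agent.BadPrime.CoreModel
import Fermat.Agent.Modular.Degree

/-!
# The global two-component model: glueing, links to the charts, expansion
-/

set_option autoImplicit false
set_option synthInstance.maxHeartbeats 400000
set_option maxHeartbeats 1000000
set_option linter.unusedSectionVars false
set_option maxSynthPendingDepth 3

noncomputable section

open ModularCurve Polynomial AlgebraicCurve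

namespace Fermat.Agent.BadPrime

open Fermat.Agent.Reduction Fermat.Agent.Modular

section Sections

variable {L : Type*} [Field L] [Algebra ℚ L] [Algebra.IsAlgebraic ℚ L] {A : ValuationSubring L}
  [IsDiscreteValuationRing A] {N : ℕ} [NeZero N]

/-- Integral elements over `A[t]` are integral at the places where `t` is. -/
theorem mem_place_of_mem_chartB0 {b : Bool} {x : FL N L} (hx : x ∈ chartB0 A N b)
    (v : Place L (FL N L)) (hv : chartCoord L N b ∈ v.toValuationSubring) :
    x ∈ v.toValuationSubring := by
  refine mem_of_isIntegral_valuationSubring _ (fun r => ?_) hx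
  obtain ⟨r, hr⟩ := r
  show r ∈ v.toValuationSubring
  induction hr using Algebra.adjoin_induction with
  | mem u hu => rw [Set.mem_singleton_iff] at hu; rw [hu]; exact hv
  | algebraMap c =>
    rw [IsScalarTower.algebraMap_apply A L (FL N L)]
    exact v.algebraMap_mem' _
  | add u w _ _ hu hw => exact add_mem hu hw
  | mul u w _ _ hu hw => exact mul_mem hu hw

/-- Sections with bounded poles form a finite module. -/
theorem chartB0_sections_fg (ι : L →+* ℂ) {e : FL N L} (he : e ≠ 0) :
    ∃ M : Submodule A (FL N L), M.FG ∧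
      ∀ x : FL N L, x ∈ M ↔ x ∈ chartB0 A N false ∧ e * x ∈ chartB0 A N true := by
  classical
  have : Curve.IsFunctionField1 L (FL N L) :=
    Curve.IsFunctionField1.of_finite_adjoin (transcendental_jL N ι) (finiteDimensional_FL N ι)
  let M : Submodule A (FL N L) := Subalgebra.toSubmodule (chartB0 A N false) ⊓
    (Subalgebra.toSubmodule (chartB0 A N true)).comap (LinearMap.mulLeft A e)
  refine ⟨M, ?_, fun x => Iff.rfl⟩
  -- the sections lie in a finite dimensional space
  let D : Divisor L (FL N L) := (Curve.divisorOf e).mapRange (fun n => |n|) abs_zero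
  have hMD : ∀ x ∈ M, x ∈ riemannRochSpace D := by
    rintro x ⟨hx0, hx1⟩
    rw [mem_riemannRochSpace_iff]
    intro v
    rcases eq_or_ne x 0 with h | h
    · exact Or.inl h
    refine Or.inr ?_
    rw [Finsupp.mapRange_apply, Curve.divisorOf_apply]
    rcases v.toValuationSubring.mem_or_inv_mem (chartCoord L N false) with ht | ht
    · have := Curve.ord_nonneg_of_mem v (mem_place_of_mem_chartB0 hx0 v ht)
      have := abs_nonneg (v.ord e)
      omega
    · have h1 := Curve.ord_nonneg_of_mem v
        (mem_place_of_mem_chartB0 (b := true) hx1 v ht : e * x ∈ v.toValuationSubring)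
      rw [LinearMap.mulLeft_apply, v.ord_mul he h] at h1
      have := le_abs_self (v.ord e)
      omega
  have : FiniteDimensional L (riemannRochSpace D) := Curve.finite_riemannRochSpace D
  let emb : FL N L →ₗ[L] LaurentSeries L :=
    { toFun := fun x => (x : LaurentSeries L)
      map_add' := fun _ _ => rfl
      map_smul' := fun c x => by
        rw [RingHom.id_apply, Algebra.smul_def, IntermediateField.coe_mul, coe_algebraMap_FL,
          HahnSeries.C_mul_eq_smul] }
  obtain ⟨s, hs⟩ := exists_finset_coeff ((riemannRochSpace D).map emb)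
  -- finitely many integral coefficients determine a section
  let Φ : M →ₗ[A] (s → A) :=
    { toFun := fun x i => ⟨((x : FL N L) : LaurentSeries L).coeff i,
        coeff_mem_of_mem_chartB0 A x.2.1 i⟩
      map_add' := fun x y => funext fun i => Subtype.ext (by
        show (((x + y : M) : FL N L) : LaurentSeries L).coeff i = _
        rw [Submodule.coe_add, IntermediateField.coe_add, HahnSeries.coeff_add]
        rfl)
      map_smul' := fun c x => funext fun i => Subtype.ext (by
        show (((c • x : M) : FL N L) : LaurentSeries L).coeff i = _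
        rw [Submodule.coe_smul, Algebra.smul_def, IntermediateField.coe_mul,
          IsScalarTower.algebraMap_apply A L (FL N L), coe_algebraMap_FL, Reduction.coeff_C_mul]
        rfl) }
  have hΦ : Function.Injective Φ := by
    refine (injective_iff_map_eq_zero Φ).2 fun x hx => Subtype.ext (Subtype.ext ?_)
    refine hs _ ⟨x, hMD x x.2, rfl⟩ fun i hi => ?_
    exact congrArg Subtype.val (congrFun hx ⟨i, hi⟩)
  have := Module.Finite.of_injective Φ hΦ
  exact Module.Finite.iff_fg.mp this

end Sections

variable {L : Type*} [Field L] [Algebra ℚ L] [Algebra.IsAlgebraic ℚ L] {A : ValuationSubring L}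
  [IsDiscreteValuationRing A] {q : ℕ} [Fact q.Prime] [CharP (IsLocalRing.ResidueField A) q]
  {M : ℕ} [NeZero M] {w : FL (M * q) L →ₐ[L] FL (M * q) L}
  (ι : L →+* ℂ) (hqM : ¬ q ∣ M) (hw : IsALInvolution w)
  (hfd : HasFullResidueDegree (IsLocalRing.ResidueField A) L M) (ϖ : A) (hϖ : Irreducible ϖ)

theorem chartCoord_mem_pairBv (hw : IsALInvolution w) (b : Bool) :
    chartCoord L (M * q) b ∈ pairBv (IsLocalRing.residue A) w :=
  mem_pairBv_of_isIntegral hw (b := b)
    (chartB0_le_chartB (chartCoord_mem_chartB0 (A := A) (N := M * q) b))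

theorem mem_pairBv_of_mem_chartB0Loc (hw : IsALInvolution w) {x : FL (M * q) L}
    (hx : x ∈ chartB0Loc A (M * q)) : x ∈ pairBv (IsLocalRing.residue A) w := by
  have hR : ∀ r ∈ Algebra.adjoin A ({chartCoord L (M * q) false,
      (chartCoord L (M * q) false)⁻¹} : Set (FL (M * q) L)),
      r ∈ pairBv (IsLocalRing.residue A) w := by
    intro r hr
    induction hr using Algebra.adjoin_induction with
    | mem u hu =>
      rcases hu with rfl | rfl
      · exact chartCoord_mem_pairBv hw false
      · exact chartCoord_mem_pairBv hw true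
    | algebraMap c =>
      rw [IsScalarTower.algebraMap_apply A L (FL (M * q) L)]
      exact algebraMap_mem_pairBv A c
    | add u v _ _ hu hv => exact add_mem hu hv
    | mul u v _ _ hu hv => exact mul_mem hu hv
  exact Subring.mem_inf.2
    ⟨mem_of_isIntegral_valuationSubring
        (R := Algebra.adjoin A ({chartCoord L (M * q) false,
          (chartCoord L (M * q) false)⁻¹} : Set (FL (M * q) L)))
        _ (fun r => (Subring.mem_inf.1 (hR r r.2)).1) hx,
      mem_of_isIntegral_valuationSubring
        (R := Algebra.adjoin A ({chartCoord L (M * q) false,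
          (chartCoord L (M * q) false)⁻¹} : Set (FL (M * q) L)))
        _ (fun r => (Subring.mem_inf.1 (hR r r.2)).2) hx⟩

include ι hqM hw hfd hϖ in
theorem saturated_chartB0 (b : Bool) {x : FL (M * q) L}
    (hx : x ∈ pairBv (IsLocalRing.residue A) w)
    (hπx : algebraMap L (FL (M * q) L) (ϖ : L) * x ∈ chartB0 A (M * q) b) :
    x ∈ chartB0 A (M * q) b := by
  refine (chartB0_properties (b := b) ι hϖ).2.2 x ?_ hπx
  refine saturated_chartB ι hqM hw hfd hϖ hx ?_
  rw [Algebra.smul_def, algebraMap_chartPi]
  exact chartB0_le_chartB hπx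

/-- The model glued from the two charts. -/
def gaussGlobal : GlobalModel (gaussVertical A ι hqM hw hfd ϖ hϖ) A where
  t := chartCoord L (M * q) false
  t_ne_zero := chartCoord_ne_zero ι false
  B0 := chartB0 A (M * q) false
  B1 := chartB0 A (M * q) true
  Bloc := chartB0Loc A (M * q)
  π_mem := ⟨ϖ, IsScalarTower.algebraMap_apply A L (FL (M * q) L) ϖ⟩
  Bloc_le _ hx := mem_pairBv_of_mem_chartB0Loc hw hx
  B0_le := chartB0_le_loc false
  B1_le := chartB0_le_loc true
  t_mem := chartCoord_mem_chartB0 false
  t_inv_mem := chartCoord_mem_chartB0 true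
  rootClosed0 _ _ hm hx := chartB0_rootClosed hm hx
  rootClosed1 _ _ hm hx := chartB0_rootClosed hm hx
  rootClosedLoc _ _ hm hx := chartB0Loc_rootClosed hm hx
  saturated0 _ hx hπx := saturated_chartB0 ι hqM hw hfd ϖ hϖ false hx hπx
  saturated1 _ hx hπx := saturated_chartB0 ι hqM hw hfd ϖ hϖ true hx hπx
  saturatedLoc _x hx hπx := by
    obtain ⟨i, hi⟩ := exists_pow_mul_mem_chartB0 ι false hπx
    have h1 : chartCoord L (M * q) false ^ i * _x ∈ chartB0 A (M * q) false :=
      saturated_chartB0 ι hqM hw hfd ϖ hϖ false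
        (mul_mem (pow_mem (chartCoord_mem_pairBv hw false) i) hx)
        (by rw [mul_left_comm]; exact hi)
    have h2 := mul_mem (pow_mem (chartB0_le_loc true
      (chartCoord_mem_chartB0 (A := A) (N := M * q) true)) i) (chartB0_le_loc false h1)
    rwa [chartCoord_true, inv_pow, inv_mul_cancel_left₀
      (pow_ne_zero _ (chartCoord_ne_zero ι false))] at h2
  exists_pow_mul_mem0 _ hx := exists_pow_mul_mem_chartB0 ι false hx
  exists_pow_mul_mem1 _ hx := exists_pow_mul_mem_chartB0 ι true hx
  finite_over_base := (chartB0_properties (b := false) ι hϖ).1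
  exists_mul_mem0 := (chartB0_properties (b := false) ι hϖ).2.1
  exists_mul_mem1 := (chartB0_properties (b := true) ι hϖ).2.1
  sections_fg _ he := chartB0_sections_fg ι he

theorem gaussGlobal_B0 : (gaussGlobal ι hqM hw hfd ϖ hϖ).B0 = chartB0 A (M * q) false := rfl

theorem gaussGlobal_B1 : (gaussGlobal ι hqM hw hfd ϖ hϖ).B1 = chartB0 A (M * q) true := rfl

theorem gaussGlobal_t : (gaussGlobal ι hqM hw hfd ϖ hϖ).t = chartCoord L (M * q) false := rfl

/-- The chart coincides with its unlocalised ring up to denominators reducing to one. -/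
theorem gaussChartLink (b : Bool) :
    ChartLink (gaussChart ι hqM hw hfd ϖ hϖ b) (chartB0 A (M * q) b) := by
  refine ⟨fun x hx => ?_⟩
  let : Algebra A[X] (FL (M * q) L) := (chartEval A (M * q) b).toAlgebra
  have : IsScalarTower A[X] (ChartBase A b) (FL (M * q) L) :=
    IsScalarTower.of_algebraMap_eq fun r => (algebraMap_chartBase_algebraMap (M * q) r).symm
  have hx' : IsIntegral (ChartBase A b) x := hx
  obtain ⟨m, hm⟩ :=
    IsIntegral.exists_multiple_integral_of_isLocalization (chartS A b) x hx'
  have hs : algebraMap (ChartBase A b) (FL (M * q) L) (algebraMap A[X] (ChartBase A b) m) ∈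
      pairBv (IsLocalRing.residue A) w := algebraMap_chartBase_mem_pairBv hw _
  refine ⟨_, hs, ?_, ?_, ?_⟩
  · show pairRd A ι hqM hw hfd ⟨_, hs⟩ = 1
    rw [pairRd_algebraMap_chartBase ι hqM hw hfd _ hs, chartRed_algebraMap,
      (mem_chartS A).1 m.2, map_one, map_one]
  · rw [algebraMap_chartBase_algebraMap, mem_chartB0_iff]
    exact ⟨X - C (m : A[X]), monic_X_sub_C _, by rw [eval₂_sub, eval₂_X, eval₂_C, sub_self]⟩
  · rw [algebraMap_chartBase_algebraMap, mem_chartB0_iff]
    rw [Submonoid.smul_def, Algebra.smul_def] at hm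
    exact hm

/-- The expansion at the cusp `∞`. -/
def gaussExpansion : Expansion (gaussGlobal ι hqM hw hfd ϖ hϖ) L where
  toSeries := (FL (M * q) L).val
  integral _x hx i := ⟨⟨_, coeff_mem_of_mem_chartB0 A hx i⟩, rfl⟩

include hϖ in
/-- Every element of `L` has a power of the uniformiser as denominator. -/
theorem exists_pow_mul_eq_algebraMap_uniformiser (x : L) :
    ∃ (e : ℕ) (y : A), algebraMap A L (ϖ ^ e) * x = algebraMap A L y := by
  rcases A.mem_or_inv_mem x with hx | hx
  · exact ⟨0, ⟨x, hx⟩, by rw [pow_zero, map_one, one_mul]; rfl⟩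
  rcases eq_or_ne x 0 with rfl | h0
  · exact ⟨0, 0, by simp⟩
  obtain ⟨e, u, hu⟩ := IsDiscreteValuationRing.eq_unit_mul_pow_irreducible
    (x := (⟨x⁻¹, hx⟩ : A)) (fun h => inv_ne_zero h0 (congrArg Subtype.val h)) hϖ
  refine ⟨e, (u⁻¹ : Aˣ), ?_⟩
  have h1 : x⁻¹ = algebraMap A L (u : A) * algebraMap A L (ϖ ^ e) := by
    rw [← map_mul, ← hu]; rfl
  have h2 : algebraMap A L ((u⁻¹ : Aˣ) : A) * algebraMap A L (u : A) = 1 := by
    rw [← map_mul, Units.inv_mul, map_one]
  calc algebraMap A L (ϖ ^ e) * x
      = algebraMap A L ((u⁻¹ : Aˣ) : A) * (x⁻¹ * x) := by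
        rw [h1]; linear_combination -(algebraMap A L (ϖ ^ e) * x) * h2
    _ = _ := by rw [inv_mul_cancel₀ h0, mul_one]

end Fermat.Agent.BadPrime
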