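import Mathlib

/-!
# Two graphs of Frobenius glued along their intersection

`P` plays the role of the affine coordinate ring of `X₀(M)` over a finite field `k` of
characteristic `q`, `Fr` of the geometric Frobenius, and `Bb ⊆ P × P` of the coordinate ring of
the special fibre of `X₀(Mq)`: a subalgebra containing `(a, Fr a)` and `(Fr a, a)` for all `a`.

We show `Bb = {(a, b) | b - Fr a ∈ J}` with `P ⧸ J` a finite reduced `k`-algebra on which the
`q²`-power map fixes the rational generators, and classify the submodules `U` of `P × P` stable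
under `Bb` whose elements have `n`-th power in `Bb`: their codimension is at least `dim (P ⧸ J)`,
with equality exactly for the rank one modules given by an `n`-th root of unity `γ` in `P ⧸ J`.
-/

set_option autoImplicit false

namespace Fermat.Agent.BadPrime

variable {k P : Type*} [Field k] [CommRing P] [Algebra k P]
  (Fr : P →ₐ[k] P) (Bb : Subalgebra k (P × P))

/-- Hypothesis: the subalgebra contains both graphs. -/
structure HasGraphs : Prop where
  left : ∀ a : P, (a, Fr a) ∈ Bb
  right : ∀ a : P, (Fr a, a) ∈ Bb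

variable {Fr Bb}

/-- The ideal of second components of elements of `Bb` with vanishing first component. -/
def glueIdeal (h : HasGraphs Fr Bb) : Ideal P where
  carrier := {c | ((0 : P), c) ∈ Bb}
  zero_mem' := Bb.zero_mem
  add_mem' := fun {x y} hx hy => by simpa using Bb.add_mem hx hy
  smul_mem' := fun a c hc => by simpa using Bb.mul_mem (h.right a) hc

theorem mem_glueIdeal (h : HasGraphs Fr Bb) (c : P) :
    c ∈ glueIdeal h ↔ ((0 : P), c) ∈ Bb := Iff.rfl

/-- Membership in `Bb` is detected by the glueing ideal. -/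
theorem mem_iff_sub_mem_glueIdeal (h : HasGraphs Fr Bb) (a b : P) :
    (a, b) ∈ Bb ↔ b - Fr a ∈ glueIdeal h := by
  rw [mem_glueIdeal]
  refine ⟨fun hab => ?_, fun hc => ?_⟩
  · simpa using Bb.sub_mem hab (h.left a)
  · simpa using Bb.add_mem (h.left a) hc

theorem frob_frob_sub_mem (h : HasGraphs Fr Bb) (a : P) : Fr (Fr a) - a ∈ glueIdeal h := by
  have h1 := (mem_iff_sub_mem_glueIdeal h (Fr a) a).mp (h.right a)
  simpa using (glueIdeal h).neg_mem h1

/-- The map `P × P → (P ⧸ J) × (P ⧸ J)` identifying `Bb` with the preimage of the diagonal. -/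
noncomputable def glueMap (h : HasGraphs Fr Bb) :
    (P × P) →ₐ[k] (P ⧸ glueIdeal h) × (P ⧸ glueIdeal h) :=
  ((Ideal.Quotient.mkₐ k (glueIdeal h)).comp (Fr.comp (AlgHom.fst k P P))).prod
    ((Ideal.Quotient.mkₐ k (glueIdeal h)).comp (AlgHom.snd k P P))

theorem glueMap_apply (h : HasGraphs Fr Bb) (x : P × P) :
    glueMap h x = (Ideal.Quotient.mk _ (Fr x.1), Ideal.Quotient.mk _ x.2) := rfl

theorem mem_iff_glueMap (h : HasGraphs Fr Bb) (x : P × P) :
    x ∈ Bb ↔ (glueMap h x).1 = (glueMap h x).2 := by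
  obtain ⟨a, b⟩ := x
  rw [glueMap_apply, mem_iff_sub_mem_glueIdeal h, eq_comm, Ideal.Quotient.eq]

theorem glueMap_surjective (h : HasGraphs Fr Bb) : Function.Surjective (glueMap h) := by
  rintro ⟨u, v⟩
  obtain ⟨a, rfl⟩ := Ideal.Quotient.mk_surjective u
  obtain ⟨b, rfl⟩ := Ideal.Quotient.mk_surjective v
  refine ⟨(Fr a, b), ?_⟩
  rw [glueMap_apply, Prod.ext_iff]
  exact ⟨(Ideal.Quotient.eq).mpr (frob_frob_sub_mem h a), rfl⟩

section Finite

variable [Finite k] {q : ℕ} [Fact q.Prime] [CharP k q] {G : Finset P}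

/-- A power of `q` which acts as the identity on the glueing quotient. -/
theorem exists_pow_eq_self (h : HasGraphs Fr Bb) (hG : Algebra.adjoin k (G : Set P) = ⊤)
    (hq : ∀ b ∈ G, Fr b = b ^ q) :
    ∃ e : ℕ, 2 ≤ e ∧ ∀ x : P ⧸ glueIdeal h, x ^ e = x := by
  have : Fintype k := Fintype.ofFinite k
  obtain ⟨f, hqp, hf⟩ := FiniteField.card k q
  refine ⟨q ^ (2 * (f : ℕ)), ?_, fun x => ?_⟩
  · exact le_trans hqp.two_le (Nat.le_self_pow (Nat.mul_ne_zero two_ne_zero f.2.ne') q)
  rcases subsingleton_or_nontrivial (P ⧸ glueIdeal h) with hs | hs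
  · exact Subsingleton.elim _ _
  have : CharP (P ⧸ glueIdeal h) q :=
    charP_of_injective_ringHom (algebraMap k (P ⧸ glueIdeal h)).injective q
  have hcard : ∀ c : k, c ^ q ^ (2 * (f : ℕ)) = c := fun c => by
    rw [mul_comm, pow_mul, ← hf]
    exact FiniteField.pow_card_pow 2 c
  let fe : (P ⧸ glueIdeal h) →ₐ[k] (P ⧸ glueIdeal h) :=
    { toRingHom := iterateFrobenius (P ⧸ glueIdeal h) q (2 * (f : ℕ))
      commutes' := fun c => by
        simp only [RingHom.toMonoidHom_eq_coe, iterateFrobenius_def, OneHom.toFun_eq_coe,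
          MonoidHom.toOneHom_coe, MonoidHom.coe_coe]
        rw [← map_pow, hcard] }
  have hgen : ∀ b ∈ G, (Ideal.Quotient.mk (glueIdeal h) b) ^ q ^ 2 =
      Ideal.Quotient.mk (glueIdeal h) b := by
    intro b hb
    rw [← map_pow, Ideal.Quotient.eq]
    have := frob_frob_sub_mem h b
    rwa [hq b hb, map_pow, hq b hb, ← pow_mul, ← pow_two] at this
  have hfe : fe = AlgHom.id k _ := by
    refine (Ideal.Quotient.algHom_ext k (AlgHom.ext_of_adjoin_eq_top hG fun b hb => ?_))
    show Ideal.Quotient.mk (glueIdeal h) b ^ q ^ (2 * (f : ℕ)) = Ideal.Quotient.mk (glueIdeal h) b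
    rw [pow_mul]
    generalize (f : ℕ) = m
    induction m with
    | zero => simp
    | succ m ih => rw [pow_succ, pow_mul, ih, hgen b hb]
  exact DFunLike.congr_fun hfe x

theorem isReduced_glueQuotient (h : HasGraphs Fr Bb) (hG : Algebra.adjoin k (G : Set P) = ⊤)
    (hq : ∀ b ∈ G, Fr b = b ^ q) : IsReduced (P ⧸ glueIdeal h) := by
  obtain ⟨e, he, hx⟩ := exists_pow_eq_self h hG hq
  refine ⟨fun x hnil => ?_⟩
  obtain ⟨m, hm⟩ := hnil
  have hiter : ∀ i : ℕ, x ^ e ^ i = x := by
    intro i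
    induction i with
    | zero => simp
    | succ i ih => rw [pow_succ, pow_mul, ih, hx]
  rw [← hiter m]
  exact pow_eq_zero_of_le (le_of_lt (Nat.lt_pow_self he)) hm

theorem finite_glueQuotient (h : HasGraphs Fr Bb) (hG : Algebra.adjoin k (G : Set P) = ⊤)
    (hq : ∀ b ∈ G, Fr b = b ^ q) : Module.Finite k (P ⧸ glueIdeal h) := by
  obtain ⟨e, he, hx⟩ := exists_pow_eq_self h hG hq
  have hint : Algebra.IsIntegral k (P ⧸ glueIdeal h) := ⟨fun x => by
    refine ⟨Polynomial.X ^ e - Polynomial.X,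
      Polynomial.monic_X_pow_sub (by simpa using (show 1 < e by omega)), ?_⟩
    simp [hx x]⟩
  have : Algebra.FiniteType k P := ⟨⟨G, hG⟩⟩
  have : Algebra.FiniteType k (P ⧸ glueIdeal h) :=
    Algebra.FiniteType.of_surjective (Ideal.Quotient.mkₐ k _) Ideal.Quotient.mk_surjective
  exact Algebra.IsIntegral.finite

end Finite

/-- Submodules of `P × P` stable under `Bb` whose elements have `n`-th power in `Bb`. -/
structure IsRootModule (Bb : Subalgebra k (P × P)) (n : ℕ) (U : Submodule k (P × P)) : Prop where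
  smul_mem : ∀ b ∈ Bb, ∀ x ∈ U, b * x ∈ U
  pow_mem : ∀ x ∈ U, x ^ n ∈ Bb

variable {n : ℕ} {U : Submodule k (P × P)}

/-- The image of a root module meets `0 × (P ⧸ J)` trivially. -/
theorem IsRootModule.fst_injective (h : HasGraphs Fr Bb) [IsReduced (P ⧸ glueIdeal h)]
    (hn : n ≠ 0) (hU : IsRootModule Bb n U) :
    Function.Injective ((LinearMap.fst k (P ⧸ glueIdeal h) (P ⧸ glueIdeal h)).comp
      (U.map (glueMap h).toLinearMap).subtype) := by
  rw [← LinearMap.ker_eq_bot, LinearMap.ker_eq_bot']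
  rintro ⟨w, x, hx, rfl⟩ hw
  have h1 : (glueMap h x).1 = 0 := hw
  have h2 := (mem_iff_glueMap h _).mp (hU.pow_mem x hx)
  rw [map_pow, Prod.pow_fst, Prod.pow_snd, h1, zero_pow hn, eq_comm] at h2
  exact Subtype.ext (Prod.ext h1 (IsNilpotent.eq_zero ⟨n, h2⟩))

/-- The kernel of the induced surjection from `(P × P) ⧸ U`. -/
theorem finrank_quotient_map_le (h : HasGraphs Fr Bb) (U : Submodule k (P × P))
    [Module.Finite k ((P × P) ⧸ U)] :
    Module.finrank k (((P ⧸ glueIdeal h) × (P ⧸ glueIdeal h)) ⧸ U.map (glueMap h).toLinearMap) ≤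
      Module.finrank k ((P × P) ⧸ U) := by
  refine LinearMap.finrank_le_finrank_of_surjective
    (f := U.mapQ (U.map (glueMap h).toLinearMap) (glueMap h).toLinearMap
      (Submodule.le_comap_map _ _)) fun y => ?_
  obtain ⟨y, rfl⟩ := Submodule.mkQ_surjective _ y
  obtain ⟨x, rfl⟩ := glueMap_surjective h y
  exact ⟨Submodule.Quotient.mk x, rfl⟩

theorem IsRootModule.finrank_le (h : HasGraphs Fr Bb) [IsReduced (P ⧸ glueIdeal h)]
    [Module.Finite k (P ⧸ glueIdeal h)] (hn : n ≠ 0) (hU : IsRootModule Bb n U)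
    [Module.Finite k ((P × P) ⧸ U)] :
    Module.finrank k (P ⧸ glueIdeal h) ≤ Module.finrank k ((P × P) ⧸ U) := by
  have h1 := LinearMap.finrank_le_finrank_of_injective (hU.fst_injective h hn)
  have h2 := (U.map (glueMap h).toLinearMap).finrank_quotient_add_finrank
  have h3 := finrank_quotient_map_le h U
  rw [Module.finrank_prod] at h2
  omega

/-- Root modules of minimal codimension are given by an `n`-th root of unity. -/
theorem IsRootModule.exists_root_of_unity (h : HasGraphs Fr Bb) [IsReduced (P ⧸ glueIdeal h)]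
    [Module.Finite k (P ⧸ glueIdeal h)] (hn : n ≠ 0) (hU : IsRootModule Bb n U)
    [Module.Finite k ((P × P) ⧸ U)]
    (hdim : Module.finrank k ((P × P) ⧸ U) ≤ Module.finrank k (P ⧸ glueIdeal h)) :
    ∃ γ : P ⧸ glueIdeal h, γ ^ n = 1 ∧
      ∀ x : P × P, x ∈ U ↔ (glueMap h x).2 = (glueMap h x).1 * γ := by
  have h1 := LinearMap.finrank_le_finrank_of_injective (hU.fst_injective h hn)
  have h2 := (U.map (glueMap h).toLinearMap).finrank_quotient_add_finrank
  have h3 := finrank_quotient_map_le h U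
  rw [Module.finrank_prod] at h2
  have hWdim : Module.finrank k (U.map (glueMap h).toLinearMap) = Module.finrank k (P ⧸ glueIdeal h) := by omega
  have hbij : Function.Bijective
      ((LinearMap.fst k (P ⧸ glueIdeal h) (P ⧸ glueIdeal h)).comp (U.map (glueMap h).toLinearMap).subtype) :=
    ⟨hU.fst_injective h hn,
      (LinearMap.injective_iff_surjective_of_finrank_eq_finrank hWdim).mp (hU.fst_injective h hn)⟩
  obtain ⟨⟨w, x₁, hx₁, rfl⟩, hw⟩ := hbij.2 1
  have hone : (glueMap h x₁).1 = 1 := hw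
  refine ⟨(glueMap h x₁).2, ?_, ?_⟩
  · have := (mem_iff_glueMap h _).mp (hU.pow_mem x₁ hx₁)
    rw [map_pow, Prod.pow_fst, Prod.pow_snd, hone, one_pow] at this
    exact this.symm
  -- elements of `(U.map (glueMap h).toLinearMap)` lie on the line of `γ`
  have hline : ∀ x ∈ U, (glueMap h x).2 = (glueMap h x).1 * (glueMap h x₁).2 := by
    intro x hx
    obtain ⟨c, hc⟩ := Ideal.Quotient.mk_surjective (glueMap h x).1
    obtain ⟨b, hb⟩ := glueMap_surjective h (Ideal.Quotient.mk _ c, Ideal.Quotient.mk _ c)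
    have hbB : b ∈ Bb := (mem_iff_glueMap h b).mpr (by rw [hb])
    have hbx : b * x₁ ∈ U := hU.smul_mem b hbB x₁ hx₁
    have := hU.fst_injective h hn
      (a₁ := ⟨_, Submodule.mem_map_of_mem (f := (glueMap h).toLinearMap) hx⟩)
      (a₂ := ⟨_, Submodule.mem_map_of_mem (f := (glueMap h).toLinearMap) hbx⟩) (by
        show (glueMap h x).1 = (glueMap h (b * x₁)).1
        rw [map_mul, Prod.fst_mul, hb, hone, mul_one, hc])
    have h4 : glueMap h x = glueMap h (b * x₁) := congrArg Subtype.val this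
    rw [h4, map_mul, Prod.fst_mul, Prod.snd_mul, hb, hone, mul_one]
  -- the kernel of the glueing map is contained in `U`
  let f := U.mapQ (U.map (glueMap h).toLinearMap) (glueMap h).toLinearMap (Submodule.le_comap_map _ _)
  have hfsurj : Function.Surjective f := fun y => by
    obtain ⟨y, rfl⟩ := Submodule.mkQ_surjective _ y
    obtain ⟨x, rfl⟩ := glueMap_surjective h y
    exact ⟨Submodule.Quotient.mk x, rfl⟩
  have hfinj : Function.Injective f :=
    (LinearMap.injective_iff_surjective_of_finrank_eq_finrank (by omega)).mpr hfsurj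
  refine fun x => ⟨hline x, fun hx => ?_⟩
  rw [← Submodule.Quotient.mk_eq_zero U]
  refine hfinj ?_
  rw [map_zero, Submodule.mapQ_apply, Submodule.Quotient.mk_eq_zero]
  obtain ⟨⟨w, x₂, hx₂, rfl⟩, hw₂⟩ := hbij.2 (glueMap h x).1
  have h5 : (glueMap h x₂).1 = (glueMap h x).1 := hw₂
  refine ⟨x₂, hx₂, ?_⟩
  show glueMap h x₂ = glueMap h x
  exact Prod.ext h5 (by rw [hline x₂ hx₂, h5, hx])

end Fermat.Agent.BadPrime
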