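import Fermat.Agent.BadPrime.Codimension
import Fermat.Agent.BadPrime.TwoGraph

/-!
# The glueing invariant of a normalised function

For a chart of the two-component model whose special fibre contains both Frobenius graphs, a
normalised `g` which is an `n`-th power at the horizontal primes has an invariant
`γ ∈ μₙ(P ⧸ J)`: multiplicative, equivariant for semilinear automorphisms, and equal to `1`
exactly when the root module of `g` contains an element reducing to `1`.
-/

set_option autoImplicit false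
set_option linter.unusedSectionVars false

open Polynomial

namespace Fermat.Agent.BadPrime.Chart

variable {R k F K P : Type*} [CommRing R] [IsDomain R] [UniqueFactorizationMonoid R]
  [IsNoetherianRing R] [Field k] [Field F] [Algebra R F] [CommRing K] [Nontrivial K]
  [CommRing P] [Algebra k P] [Algebra k[X] (P × P)] [IsScalarTower k k[X] (P × P)]
  {V : Vertical F K} (c : Chart V R k (P × P))

/-- The special fibre of the chart as a `k`-subalgebra of `P × P`. -/
def fibre : Subalgebra k (P × P) where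
  carrier := c.redSubmodule (Subalgebra.toSubmodule c.B)
  mul_mem' := by
    rintro x y ⟨a, ha, hax⟩ ⟨b, hb, hby⟩
    exact ⟨a * b, c.B.mul_mem ha hb, by rw [map_mul, hax, hby, map_mul]⟩
  add_mem' := (c.redSubmodule _).add_mem
  algebraMap_mem' r := by
    obtain ⟨r', hr'⟩ := c.red_surjective (Polynomial.C r)
    refine ⟨algebraMap R c.Bv r', c.B.algebraMap_mem r', ?_⟩
    rw [IsScalarTower.algebraMap_apply k k[X] (P × P) r, Polynomial.algebraMap_eq, ← hr']
    exact c.rd_algebraMap r'

theorem mem_fibre {x : P × P} :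
    x ∈ c.fibre ↔ x ∈ c.redSubmodule (Subalgebra.toSubmodule c.B) := Iff.rfl

/-- The standing hypotheses on the chart: both graphs lie in the special fibre, `P` is generated
by finitely many elements on which `Fr` is the `q`-th power map, and `P × P` is a free `k[X]`
module with a nondegenerate trace-like functional. -/
structure TwoComponent (c : Chart V R k (P × P)) (q : ℕ) (Fr : P →ₐ[k] P) : Prop where
  graphs : HasGraphs Fr c.fibre
  exists_generators : ∃ G : Finset P, Algebra.adjoin k (G : Set P) = ⊤ ∧ ∀ b ∈ G, Fr b = b ^ q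
  exists_form : ∃ (r : ℕ) (b : Module.Basis (Fin r) k[X] (P × P))
    (μ : (P × P) →ₗ[k[X]] k[X]), (gram (mulForm μ) b b).det ≠ 0

variable {c} [Finite k] {q : ℕ} [Fact q.Prime] [CharP k q] {Fr : P →ₐ[k] P}

theorem TwoComponent.isReduced (H : TwoComponent c q Fr) :
    IsReduced (P ⧸ glueIdeal H.graphs) := by
  obtain ⟨G, hG, hq⟩ := H.exists_generators
  exact isReduced_glueQuotient H.graphs hG hq

theorem TwoComponent.finite (H : TwoComponent c q Fr) :
    Module.Finite k (P ⧸ glueIdeal H.graphs) := by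
  obtain ⟨G, hG, hq⟩ := H.exists_generators
  exact finite_glueQuotient H.graphs hG hq

/-- The diagonal quotient map, whose kernel is the special fibre. -/
noncomputable def diffMap (H : TwoComponent c q Fr) :
    (P × P) →ₗ[k] (P ⧸ glueIdeal H.graphs) :=
  LinearMap.comp (LinearMap.snd k (P ⧸ glueIdeal H.graphs) (P ⧸ glueIdeal H.graphs) -
      LinearMap.fst k (P ⧸ glueIdeal H.graphs) (P ⧸ glueIdeal H.graphs))
    (glueMap H.graphs).toLinearMap

theorem diffMap_surjective (H : TwoComponent c q Fr) : Function.Surjective (diffMap H) := fun y => by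
  obtain ⟨x, hx⟩ := glueMap_surjective H.graphs (0, y)
  refine ⟨x, ?_⟩
  simp [diffMap, hx]

theorem ker_diffMap (H : TwoComponent c q Fr) :
    LinearMap.ker (diffMap H) =
      (c.redSubmodule (Subalgebra.toSubmodule c.B)).restrictScalars k := by
  ext x
  rw [LinearMap.mem_ker, Submodule.restrictScalars_mem, ← mem_fibre, mem_iff_glueMap H.graphs]
  simp only [diffMap, LinearMap.comp_apply, LinearMap.sub_apply, LinearMap.snd_apply,
    LinearMap.fst_apply, AlgHom.toLinearMap_apply, sub_eq_zero]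
  exact eq_comm

theorem TwoComponent.finrank_fibre_quotient (H : TwoComponent c q Fr) :
    Module.Finite k ((P × P) ⧸ c.redSubmodule (Subalgebra.toSubmodule c.B)) ∧
    Module.finrank k ((P × P) ⧸ c.redSubmodule (Subalgebra.toSubmodule c.B)) =
      Module.finrank k (P ⧸ glueIdeal H.graphs) := by
  have := H.finite
  let e : ((P × P) ⧸ c.redSubmodule (Subalgebra.toSubmodule c.B)) ≃ₗ[k]
      (P ⧸ glueIdeal H.graphs) :=
    (Submodule.Quotient.restrictScalarsEquiv k _).symm.trans
      ((Submodule.quotEquivOfEq _ _ (ker_diffMap H).symm).trans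
        ((diffMap H).quotKerEquivOfSurjective (diffMap_surjective H)))
  exact ⟨Module.Finite.equiv e.symm, e.finrank_eq⟩

variable {n : ℕ} {hn : n ≠ 0}

theorem IsNormalised.isRootModule {g : F} (hg : c.IsNormalised g) :
    IsRootModule c.fibre n ((c.redSubmodule (c.rootModule n hn g)).restrictScalars k) where
  smul_mem _ hb _ hx := c.smul_mem_redSubmodule hb hx
  pow_mem _ hx := hg.pow_mem hx

theorem IsPowerAtHorizontal.inv {g : F} (h : IsPowerAtHorizontal c n g) :
    IsPowerAtHorizontal c n g⁻¹ := by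
  intro p hp hpπ
  obtain ⟨u, s, hu, hs, h1, h2⟩ := h p hp hpπ
  refine ⟨u⁻¹, s, inv_ne_zero hu, hs, ?_, ?_⟩
  · rwa [inv_pow, ← mul_inv]
  · rwa [inv_pow, ← mul_inv, inv_inv]

theorem TwoComponent.exists_gamma (H : TwoComponent c q Fr) (hn : n ≠ 0) {g : F}
    (hg : c.IsNormalised g) (hh : IsPowerAtHorizontal c n g) :
    ∃ γ : P ⧸ glueIdeal H.graphs, γ ^ n = 1 ∧ ∀ x : P × P,
      x ∈ c.redSubmodule (c.rootModule n hn g) ↔
        (glueMap H.graphs x).2 = (glueMap H.graphs x).1 * γ := by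
  obtain ⟨r, b, μ, hμ⟩ := H.exists_form
  have := H.isReduced
  have := H.finite
  obtain ⟨hfB, hdB⟩ := H.finrank_fibre_quotient
  obtain ⟨hf, hsum⟩ := hg.finrank_quotient_add (hn := hn) hh b μ hμ
  obtain ⟨hf', -⟩ := hg.inv.finrank_quotient_add (hn := hn) hh.inv b μ hμ
  have hfk := Module.Finite.equiv
    (Submodule.Quotient.restrictScalarsEquiv k (c.redSubmodule (c.rootModule n hn g))).symm
  have hfk' := Module.Finite.equiv
    (Submodule.Quotient.restrictScalarsEquiv k (c.redSubmodule (c.rootModule n hn g⁻¹))).symm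
  have h1 := (hg.inv.isRootModule (n := n) (hn := hn)).finrank_le H.graphs hn
  have h2 := (Submodule.Quotient.restrictScalarsEquiv k
    (c.redSubmodule (c.rootModule n hn g⁻¹))).finrank_eq
  have h3 := (Submodule.Quotient.restrictScalarsEquiv k
    (c.redSubmodule (c.rootModule n hn g))).finrank_eq
  exact (hg.isRootModule (n := n) (hn := hn)).exists_root_of_unity H.graphs hn (by omega)

/-- The glueing invariant. -/
noncomputable def gamma (H : TwoComponent c q Fr) (hn : n ≠ 0) {g : F} (hg : c.IsNormalised g)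
    (hh : IsPowerAtHorizontal c n g) : P ⧸ glueIdeal H.graphs :=
  (H.exists_gamma hn hg hh).choose

variable (H : TwoComponent c q Fr) {g g' : F}

theorem gamma_pow (hg : c.IsNormalised g) (hh : IsPowerAtHorizontal c n g) :
    gamma H hn hg hh ^ n = 1 :=
  (H.exists_gamma hn hg hh).choose_spec.1

theorem mem_iff_gamma (hg : c.IsNormalised g) (hh : IsPowerAtHorizontal c n g) (x : P × P) :
    x ∈ c.redSubmodule (c.rootModule n hn g) ↔
      (glueMap H.graphs x).2 = (glueMap H.graphs x).1 * gamma H hn hg hh :=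
  (H.exists_gamma hn hg hh).choose_spec.2 x

/-- A lift of `(1, γ)`. -/
theorem exists_mem_glueMap_eq (hg : c.IsNormalised g) (hh : IsPowerAtHorizontal c n g) :
    ∃ x ∈ c.redSubmodule (c.rootModule n hn g),
      glueMap H.graphs x = (1, gamma H hn hg hh) := by
  obtain ⟨x, hx⟩ := glueMap_surjective H.graphs (1, gamma H hn hg hh)
  exact ⟨x, (mem_iff_gamma H hg hh x).mpr (by rw [hx, one_mul]), hx⟩

theorem gamma_eq_of_mem (hg : c.IsNormalised g) (hh : IsPowerAtHorizontal c n g) {x : P × P}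
    (hx : x ∈ c.redSubmodule (c.rootModule n hn g)) (h1 : (glueMap H.graphs x).1 = 1) :
    gamma H hn hg hh = (glueMap H.graphs x).2 := by
  rw [(mem_iff_gamma H hg hh x).mp hx, h1, one_mul]

theorem gamma_mul (hg : c.IsNormalised g) (hh : IsPowerAtHorizontal c n g)
    (hg' : c.IsNormalised g') (hh' : IsPowerAtHorizontal c n g')
    (hgg' : c.IsNormalised (g * g')) (hhh' : IsPowerAtHorizontal c n (g * g')) :
    gamma H hn hgg' hhh' = gamma H hn hg hh * gamma H hn hg' hh' := by
  obtain ⟨x, hx, hx'⟩ := exists_mem_glueMap_eq H (hn := hn) hg hh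
  obtain ⟨y, hy, hy'⟩ := exists_mem_glueMap_eq H (hn := hn) hg' hh'
  have hxy : (glueMap H.graphs (x * y)).1 = 1 ∧
      (glueMap H.graphs (x * y)).2 = gamma H hn hg hh * gamma H hn hg' hh' := by
    rw [map_mul, hx', hy', Prod.mk_mul_mk, one_mul]
    exact ⟨rfl, rfl⟩
  rw [gamma_eq_of_mem H hgg' hhh' (mul_mem_redSubmodule hx hy) hxy.1, hxy.2]

theorem gamma_of_eq_one (hg : c.IsNormalised g) (hh : IsPowerAtHorizontal c n g) (h : g = 1) :
    gamma H hn hg hh = 1 := by
  subst h
  have h1 : (1 : P × P) ∈ c.redSubmodule (c.rootModule n hn (1 : F)) :=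
    ⟨1, by rw [mem_rootModule]; simp [c.B.one_mem], by rw [map_one, map_one]⟩
  rw [gamma_eq_of_mem H hg hh h1 (by rw [map_one]; rfl), map_one]
  rfl

theorem gamma_eq_one_iff (hg : c.IsNormalised g) (hh : IsPowerAtHorizontal c n g) :
    gamma H hn hg hh = 1 ↔ (1 : P × P) ∈ c.redSubmodule (c.rootModule n hn g) := by
  rw [mem_iff_gamma H hg hh, map_one, Prod.snd_one, Prod.fst_one, one_mul, eq_comm]

theorem IsNormalised.mul {g g' : F} (hg : c.IsNormalised g) (hg' : c.IsNormalised g') :
    c.IsNormalised (g * g') := by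
  obtain ⟨h, h1⟩ := hg.exists_rd
  obtain ⟨h', h1'⟩ := hg'.exists_rd
  refine ⟨⟨mul_mem h h', ?_⟩, ?_⟩
  · show c.rd (⟨g, h⟩ * ⟨g', h'⟩) = 1
    rw [map_mul, h1, h1', mul_one]
  · rw [mul_inv]; exact mul_mem hg.inv_mem hg'.inv_mem

theorem isNormalised_one : c.IsNormalised (1 : F) :=
  ⟨⟨one_mem _, map_one c.rd⟩, by rw [inv_one]; exact one_mem _⟩

theorem IsNormalised.pow {g : F} (hg : c.IsNormalised g) (m : ℕ) : c.IsNormalised (g ^ m) := by
  induction m with
  | zero => rw [pow_zero]; exact isNormalised_one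
  | succ m ih => rw [pow_succ]; exact ih.mul hg

theorem isPowerAtHorizontal_one : IsPowerAtHorizontal c n (1 : F) :=
  fun p hp _ => ⟨1, 1, one_ne_zero, hp.not_dvd_one, by simp [c.B.one_mem], by simp [c.B.one_mem]⟩

theorem IsPowerAtHorizontal.mul {g g' : F} (h : IsPowerAtHorizontal c n g)
    (h' : IsPowerAtHorizontal c n g') : IsPowerAtHorizontal c n (g * g') := by
  intro p hp hpπ
  obtain ⟨u, s, hu, hs, h1, h2⟩ := h p hp hpπ
  obtain ⟨u', s', hu', hs', h1', h2'⟩ := h' p hp hpπ
  refine ⟨u * u', s * s', mul_ne_zero hu hu', fun h => (hp.dvd_or_dvd h).elim hs hs', ?_, ?_⟩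
  · rw [mul_pow, mul_mul_mul_comm, ← smul_mul_smul_comm]; exact c.B.mul_mem h1 h1'
  · rw [mul_pow, mul_mul_mul_comm, mul_inv, ← smul_mul_smul_comm]; exact c.B.mul_mem h2 h2'

theorem IsPowerAtHorizontal.pow {g : F} (h : IsPowerAtHorizontal c n g) (m : ℕ) :
    IsPowerAtHorizontal c n (g ^ m) := by
  induction m with
  | zero => rw [pow_zero]; exact isPowerAtHorizontal_one
  | succ m ih => rw [pow_succ]; exact ih.mul h

theorem gamma_pow_exponent (hg : c.IsNormalised g) (hh : IsPowerAtHorizontal c n g) (m : ℕ) :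
    gamma H hn (hg.pow m) (hh.pow m) = gamma H hn hg hh ^ m := by
  induction m with
  | zero => exact (gamma_of_eq_one H _ _ (pow_zero g)).trans (pow_zero _).symm
  | succ m ih =>
    have key : ∀ {a : F} (ha : c.IsNormalised a) (hb : IsPowerAtHorizontal c n a)
        (e : a = g ^ m * g), gamma H hn ha hb =
          gamma H hn (hg.pow m) (hh.pow m) * gamma H hn hg hh := by
      rintro a ha hb rfl
      exact gamma_mul H (hg.pow m) (hh.pow m) hg hh ha hb
    rw [key _ _ (pow_succ g m), ih, pow_succ]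

/-- A semilinear automorphism of the chart. -/
structure Semilinear (c : Chart V R k (P × P)) (Fr : P →ₐ[k] P) where
  /-- The automorphism of the function field. -/
  toAut : F ≃+* F
  mem_Bv : ∀ x ∈ V.Bv, toAut x ∈ V.Bv
  mem_B : ∀ x ∈ c.B, toAut x ∈ c.B
  /-- The induced map on one component of the special fibre. -/
  φ : P →+* P
  φ_Fr : ∀ a, φ (Fr a) = Fr (φ a)
  rd_apply : ∀ (x : V.Bv) (y : P × P), V.rd x = c.ι y →
    V.rd ⟨toAut x, mem_Bv x x.2⟩ = c.ι (φ y.1, φ y.2)

theorem Semilinear.isNormalised (σ : Semilinear c Fr) (hg : c.IsNormalised g) :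
    c.IsNormalised (σ.toAut g) := by
  obtain ⟨h, h1⟩ := hg.exists_rd
  refine ⟨⟨σ.mem_Bv g h, ?_⟩, ?_⟩
  · refine (σ.rd_apply ⟨g, h⟩ 1 (h1.trans (map_one c.ι).symm)).trans ?_
    rw [Prod.fst_one, Prod.snd_one, map_one, Prod.mk_one_one, map_one]
  · rw [← map_inv₀]; exact σ.mem_Bv _ hg.inv_mem

theorem Semilinear.map_mem (σ : Semilinear c Fr) {x : P × P}
    (hx : x ∈ c.redSubmodule (c.rootModule n hn g)) :
    (σ.φ x.1, σ.φ x.2) ∈ c.redSubmodule (c.rootModule n hn (σ.toAut g)) := by
  obtain ⟨a, ha, hax⟩ := hx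
  refine ⟨⟨σ.toAut a, σ.mem_Bv a a.2⟩, ?_, σ.rd_apply ⟨a, a.2⟩ x hax⟩
  rw [mem_rootModule] at ha ⊢
  have := σ.mem_B _ ha
  rwa [map_mul, map_pow] at this

/-- Equivariance of the invariant for a map acting on the glueing quotient as `y ↦ y ^ m`. -/
theorem Semilinear.gamma_eq_pow (σ : Semilinear c Fr) {m : ℕ}
    (hm : ∀ y : P, Ideal.Quotient.mk (glueIdeal H.graphs) (σ.φ y) =
      Ideal.Quotient.mk (glueIdeal H.graphs) y ^ m)
    (hg : c.IsNormalised g) (hh : IsPowerAtHorizontal c n g)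
    (hh' : IsPowerAtHorizontal c n (σ.toAut g)) :
    gamma H hn (σ.isNormalised hg) hh' = gamma H hn hg hh ^ m := by
  obtain ⟨x, hx, hx'⟩ := exists_mem_glueMap_eq H (hn := hn) hg hh
  rw [glueMap_apply, Prod.mk.injEq] at hx'
  have h1 : (glueMap H.graphs (σ.φ x.1, σ.φ x.2)).1 = 1 := by
    rw [glueMap_apply]
    show Ideal.Quotient.mk _ (Fr (σ.φ x.1)) = 1
    rw [← σ.φ_Fr, hm, hx'.1, one_pow]
  rw [gamma_eq_of_mem H _ hh' (σ.map_mem hx) h1, glueMap_apply]
  show Ideal.Quotient.mk _ (σ.φ x.2) = _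
  rw [hm, hx'.2]

/-- If a semilinear automorphism acts on the glueing quotient by `y ↦ y ^ m`, then `σ g / g ^ m`
has a root reducing to `1`. -/
theorem Semilinear.one_mem_rootModule (σ : Semilinear c Fr) {m : ℕ}
    (hm : ∀ y : P, Ideal.Quotient.mk (glueIdeal H.graphs) (σ.φ y) =
      Ideal.Quotient.mk (glueIdeal H.graphs) y ^ m)
    (hg : c.IsNormalised g) (hh : IsPowerAtHorizontal c n g)
    (hh' : IsPowerAtHorizontal c n (σ.toAut g)) :
    (1 : P × P) ∈ c.redSubmodule (c.rootModule n hn (σ.toAut g * (g ^ m)⁻¹)) := by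
  have hN := (σ.isNormalised hg).mul (hg.pow m).inv
  have hP := hh'.mul (hh.pow m).inv
  rw [← gamma_eq_one_iff H hN hP,
    gamma_mul H (σ.isNormalised hg) hh' (hg.pow m).inv (hh.pow m).inv hN hP,
    σ.gamma_eq_pow H hm hg hh hh', ← gamma_pow_exponent H hg hh m,
    ← gamma_mul H (hg.pow m) (hh.pow m) (hg.pow m).inv (hh.pow m).inv
      ((hg.pow m).mul (hg.pow m).inv) ((hh.pow m).mul (hh.pow m).inv)]
  exact gamma_of_eq_one H _ _ (mul_inv_cancel₀ (hg.pow m).ne_zero)

/-- The `q²`-semilinear map fixing the rational generators acts as `y ↦ y ^ q²`. -/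
theorem mk_apply_eq_pow_sq {G : Finset P} (hG : Algebra.adjoin k (G : Set P) = ⊤) (φ : P →+* P)
    (hφG : ∀ b ∈ G, φ b = b) (hFr : ∀ b ∈ G, Fr b = b ^ q)
    (hφk : ∀ a : k, φ (algebraMap k P a) = algebraMap k P (a ^ q ^ 2)) (y : P) :
    Ideal.Quotient.mk (glueIdeal H.graphs) (φ y) =
      Ideal.Quotient.mk (glueIdeal H.graphs) y ^ q ^ 2 := by
  rcases subsingleton_or_nontrivial (P ⧸ glueIdeal H.graphs) with hs | hs
  · exact Subsingleton.elim _ _
  have : CharP (P ⧸ glueIdeal H.graphs) q :=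
    charP_of_injective_ringHom (algebraMap k (P ⧸ glueIdeal H.graphs)).injective q
  refine RingHom.congr_fun (f := (Ideal.Quotient.mk (glueIdeal H.graphs)).comp φ)
    (g := (iterateFrobenius (P ⧸ glueIdeal H.graphs) q 2).comp (Ideal.Quotient.mk _)) ?_ y
  have hy : ∀ y : P, y ∈ Algebra.adjoin k (G : Set P) := fun y => hG ▸ Algebra.mem_top
  refine RingHom.ext fun y => ?_
  induction hy y using Algebra.adjoin_induction with
  | mem b hb =>
    have h1 := (Ideal.Quotient.eq).mpr (frob_frob_sub_mem H.graphs b)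
    rw [hFr b hb, map_pow, hFr b hb, ← pow_mul, map_pow, ← pow_two] at h1
    simp [iterateFrobenius_def, hφG b hb, h1]
  | algebraMap a => simp [iterateFrobenius_def, hφk, map_pow]
  | add a b _ _ ha hb => rw [map_add, map_add, ha, hb]
  | mul a b _ _ ha hb => rw [map_mul, map_mul, ha, hb]

end Fermat.Agent.BadPrime.Chart
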