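import Fermat.Agent.BadPrime.GaussChart
import Fermat.Agent.BadPrime.RootOfUnity
import Fermat.Prelude.Def_ModularCurve_ArithmeticGalois

/-!
# Galois automorphisms of the constants act semilinearly on the two-component model
-/

set_option autoImplicit false
set_option synthInstance.maxHeartbeats 400000
set_option linter.unusedSectionVars false
set_option maxSynthPendingDepth 3

noncomputable section

open ModularCurve Polynomial IntermediateField
open scoped IntermediateField

namespace Fermat.Agent.BadPrime

open Fermat.Agent.Reduction Fermat.Agent.Modular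

variable {L : Type*} [Field L] [Algebra ℚ L] {A : ValuationSubring L} [IsDiscreteValuationRing A]

/-- An automorphism mapping a discrete valuation ring into itself maps it onto itself. -/
theorem mem_iff_of_stable {σ : L ≃+* L} (hσ : ∀ a ∈ A, σ a ∈ A) {x : L} : σ x ∈ A ↔ x ∈ A := by
  refine ⟨fun h => ?_, hσ x⟩
  by_contra hx
  obtain ⟨ϖ, hϖ⟩ := IsDiscreteValuationRing.exists_irreducible A
  have hϖ0 : (ϖ : L) ≠ 0 := fun h => hϖ.ne_zero (Subtype.ext h)
  have hx0 : x ≠ 0 := fun h0 => hx (h0 ▸ A.zero_mem)
  have hxi : x⁻¹ ∈ A := (A.mem_or_inv_mem x).resolve_left hx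
  obtain ⟨n, u, hu⟩ := IsDiscreteValuationRing.eq_unit_mul_pow_irreducible
    (x := (⟨x⁻¹, hxi⟩ : A)) (fun h => inv_ne_zero hx0 (congrArg Subtype.val h)) hϖ
  have hu' : x⁻¹ = ((u : A) : L) * (ϖ : L) ^ n := congrArg Subtype.val hu
  have hn : n ≠ 0 := by
    rintro rfl
    rw [pow_zero, mul_one] at hu'
    refine hx ?_
    have h1 : ((u : A) : L) * ((↑u⁻¹ : A) : L) = 1 := congrArg Subtype.val u.mul_inv
    rw [← inv_inv x, hu', inv_eq_of_mul_eq_one_right h1]
    exact SetLike.coe_mem _
  obtain ⟨m, rfl⟩ := Nat.exists_eq_succ_of_ne_zero hn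
  have hinv : σ (ϖ : L)⁻¹ ∈ A := by
    have h1 : (ϖ : L)⁻¹ = x * (((u : A) : L) * (ϖ : L) ^ m) := by
      rw [eq_comm, ← inv_inj]
      simp only [mul_inv, inv_inv, hu', Nat.succ_eq_add_one, pow_succ]
      field_simp
    rw [h1, map_mul]
    exact mul_mem h (hσ _ (mul_mem (SetLike.coe_mem _) (pow_mem (SetLike.coe_mem _) _)))
  have hall : ∀ y : L, σ y ∈ A := by
    intro y
    rcases A.mem_or_inv_mem y with hy | hy
    · exact hσ y hy
    rcases eq_or_ne y 0 with rfl | hy0
    · exact hσ 0 A.zero_mem
    obtain ⟨e, v, hv⟩ := IsDiscreteValuationRing.eq_unit_mul_pow_irreducible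
      (x := (⟨y⁻¹, hy⟩ : A)) (fun h => inv_ne_zero hy0 (congrArg Subtype.val h)) hϖ
    have hv' : y⁻¹ = ((v : A) : L) * (ϖ : L) ^ e := congrArg Subtype.val hv
    have h1 : ((v : A) : L) * ((↑v⁻¹ : A) : L) = 1 := congrArg Subtype.val v.mul_inv
    rw [← inv_inv y, hv', mul_inv, inv_eq_of_mul_eq_one_right h1, map_mul, ← inv_pow, map_pow]
    exact mul_mem (hσ _ (SetLike.coe_mem _)) (pow_mem hinv e)
  obtain ⟨y, hy⟩ := σ.surjective (ϖ : L)⁻¹
  have h2 : (ϖ : L)⁻¹ ∈ A := hy ▸ hall y
  exact hϖ.not_isUnit (IsUnit.of_mul_eq_one ⟨_, h2⟩ (Subtype.ext (mul_inv_cancel₀ hϖ0)))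

variable (σ : L ≃ₐ[ℚ] L) (hσ : ∀ a ∈ A, σ a ∈ A)

/-- The restriction of an automorphism to the valuation ring. -/
def stableRestrict : A ≃+* A where
  toFun a := ⟨σ a, hσ a a.2⟩
  invFun a := ⟨σ.symm a, (mem_iff_of_stable (σ := σ.toRingEquiv) hσ).1
    (by simpa using a.2)⟩
  left_inv a := Subtype.ext (σ.symm_apply_apply _)
  right_inv a := Subtype.ext (σ.apply_symm_apply _)
  map_mul' a c := Subtype.ext (map_mul σ (a : L) (c : L))
  map_add' a c := Subtype.ext (map_add σ (a : L) (c : L))

/-- The induced automorphism of the residue field. -/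
def residueAut : IsLocalRing.ResidueField A ≃+* IsLocalRing.ResidueField A :=
  IsLocalRing.ResidueField.mapEquiv (stableRestrict σ hσ)

theorem residueAut_residue (a : A) :
    residueAut σ hσ (IsLocalRing.residue A a) = IsLocalRing.residue A ⟨σ a, hσ a a.2⟩ := rfl

theorem hasGaussRed_coeffMap_residueAut {f : LaurentSeries L}
    {g : LaurentSeries (IsLocalRing.ResidueField A)} (h : HasGaussRed (IsLocalRing.residue A) f g) :
    HasGaussRed (IsLocalRing.residue A) (coeffMap (σ : L →+* L) f)
      (coeffMap (residueAut σ hσ : IsLocalRing.ResidueField A →+* IsLocalRing.ResidueField A) g) :=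
  HasGaussRed.coeffMap_auto (s := σ.toRingEquiv) hσ (fun a => (residueAut_residue σ hσ a).symm) h

theorem coeffMap_coeffEmb (x : LaurentSeries ℚ) :
    coeffMap (σ : L →+* L) (coeffEmb L x) = coeffEmb L x := by
  rw [coeffEmb, coeffMap_coeffMap]
  exact coeffMap_congr (Subsingleton.elim _ _) x

variable {q : ℕ} [Fact q.Prime] {M : ℕ} [NeZero M] {w : FL (M * q) L →ₐ[L] FL (M * q) L}

theorem arithmeticRingAut_jdElem {N d : ℕ} [NeZero d] (hd : d ∣ N) :
    arithmeticRingAut (modularFunctionFieldFull N) σ (jdElem L hd) = jdElem L hd :=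
  Subtype.ext (by rw [coe_arithmeticRingAut_apply, coe_jdElem, coeffMap_coeffEmb])

/-- The involution commutes with the Galois action on constants. -/
theorem IsALInvolution.commute_arithmetic (hw : IsALInvolution w) (x : FL (M * q) L) :
    w (arithmeticRingAut (modularFunctionFieldFull (M * q)) σ x) =
      arithmeticRingAut (modularFunctionFieldFull (M * q)) σ (w x) := by
  let τ := arithmeticRingAut (modularFunctionFieldFull (M * q)) σ
  let w' : FL (M * q) L →ₐ[L] FL (M * q) L :=
    { ((τ.symm : FL (M * q) L →+* FL (M * q) L).comp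
        ((w : FL (M * q) L →+* FL (M * q) L).comp (τ : FL (M * q) L →+* FL (M * q) L))) with
      commutes' := fun c => by
        show τ.symm (w (τ (algebraMap L (FL (M * q) L) c))) = _
        rw [RingEquiv.symm_apply_eq]
        show w (arithmeticRingAut _ σ (algebraMap L _ c)) = _
        rw [arithmeticRingAut_algebraMap, AlgHom.commutes] }
  have hq : q.Prime := Fact.out
  have h : w' = w := by
    refine algHom_ext_jdElem (L := L) fun d hne hd => ?_
    show τ.symm (w (τ (jdElem L hd))) = w (jdElem L hd)
    rw [RingEquiv.symm_apply_eq]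
    show w (arithmeticRingAut _ σ (jdElem L hd)) = arithmeticRingAut _ σ (w (jdElem L hd))
    rw [arithmeticRingAut_jdElem]
    by_cases hqd : q ∣ d
    · obtain ⟨e, rfl⟩ := hqd
      have : NeZero e := ⟨fun h => hne.out (by simp [h])⟩
      have he : e ∣ M := by
        rw [mul_comm q e] at hd
        exact Nat.dvd_of_mul_dvd_mul_right hq.pos hd
      have hb : jdElem L hd = heckeBetaBar L M q (jdElem L he) := by
        refine Subtype.ext ?_
        rw [coe_heckeBetaBar, coe_jdElem, coe_jdElem, coeffEmb, ← coeffMap_qExpand,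
          qExpand_qExpand]
      rw [hb, hw.beta]
      exact (arithmeticRingAut_jdElem σ (he.trans (dvd_mul_right M q))).symm
    · have hd' : d ∣ M := ((hq.coprime_iff_not_dvd.2 hqd).symm).dvd_of_dvd_mul_right hd
      have hqd' : q * d ∣ M * q := by rw [mul_comm M q]; exact Nat.mul_dvd_mul_left q hd'
      have : NeZero (q * d) := ⟨mul_ne_zero hq.ne_zero hne.out⟩
      have ha : jdElem L hd = heckeAlphaBar L M q (jdElem L hd') := Subtype.ext rfl
      have hb : heckeBetaBar L M q (jdElem L hd') = jdElem L hqd' := by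
        refine Subtype.ext ?_
        rw [coe_heckeBetaBar, coe_jdElem, coe_jdElem, coeffEmb, ← coeffMap_qExpand,
          qExpand_qExpand]
      rw [ha, hw.alpha, hb, arithmeticRingAut_jdElem]
  have := AlgHom.congr_fun h x
  exact (RingEquiv.symm_apply_eq τ).1 this

theorem coeffMap_auto_mem_fullC {k : Type*} [Field k] (α : k →+* k) {x : LaurentSeries k}
    (hx : x ∈ modularFunctionFieldFullC k M) : coeffMap α x ∈ modularFunctionFieldFullC k M := by
  rw [modularFunctionFieldFullC] at hx ⊢
  induction hx using IntermediateField.adjoin_induction with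
  | mem y hy =>
    refine IntermediateField.subset_adjoin k _ ?_
    have hy' := hy
    obtain ⟨d, hd, -, rfl⟩ := hy
    rwa [coeffMap_qExpand, coeffMap_jqModC]
  | algebraMap c =>
    rw [algebraMap_laurentSeries_eq_single, coeffMap_single, ← algebraMap_laurentSeries_eq_single]
    exact IntermediateField.algebraMap_mem _ _
  | add x y _ _ hx hy => rw [map_add]; exact add_mem hx hy
  | inv x _ hx => rw [map_inv₀]; exact inv_mem hx
  | mul x y _ _ hx hy => rw [map_mul]; exact mul_mem hx hy

/-- The coefficientwise action on `k(X₀(M))`. -/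
def coeffK {k : Type*} [Field k] (α : k →+* k) :
    modularFunctionFieldFullC k M →+* modularFunctionFieldFullC k M :=
  ((coeffMap α).comp (modularFunctionFieldFullC k M).val.toRingHom).codRestrict _
    fun x => coeffMap_auto_mem_fullC α x.2

theorem coe_coeffK {k : Type*} [Field k] (α : k →+* k) (x : modularFunctionFieldFullC k M) :
    (coeffK α x : LaurentSeries k) = coeffMap α (x : LaurentSeries k) := rfl

theorem coeffK_chartCoordK {k : Type*} [Field k] (α : k →+* k) (b : Bool) :
    coeffK α (chartCoordK k M b) = chartCoordK k M b := by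
  refine Subtype.ext ?_
  rw [coe_coeffK, coe_chartCoordK]
  cases b <;> simp [chartCoordRed, coeffMap_jqModC, map_inv₀]

theorem coeffK_mem_adjoin {k : Type*} [Field k] (α : k →+* k) {b : Bool}
    {x : modularFunctionFieldFullC k M}
    (hx : x ∈ Algebra.adjoin k ({chartCoordK k M b} : Set (modularFunctionFieldFullC k M))) :
    coeffK α x ∈ Algebra.adjoin k ({chartCoordK k M b} : Set (modularFunctionFieldFullC k M)) := by
  induction hx using Algebra.adjoin_induction with
  | mem y hy =>
    rw [Set.mem_singleton_iff.1 hy, coeffK_chartCoordK]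
    exact Algebra.self_mem_adjoin_singleton k _
  | algebraMap c =>
    convert Subalgebra.algebraMap_mem _ (α c) using 1
    refine Subtype.ext ?_
    rw [coe_coeffK]
    show coeffMap α (algebraMap k (LaurentSeries k) c) = algebraMap k (LaurentSeries k) (α c)
    rw [algebraMap_laurentSeries_eq_single, algebraMap_laurentSeries_eq_single, coeffMap_single]
  | add x y _ _ hx hy => rw [map_add]; exact add_mem hx hy
  | mul x y _ _ hx hy => rw [map_mul]; exact mul_mem hx hy

theorem coeffK_mem_chartP {k : Type*} [Field k] (α : k →+* k) {b : Bool}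
    {x : modularFunctionFieldFullC k M} (hx : x ∈ chartP k M q b) :
    coeffK α x ∈ chartP k M q b := by
  rw [mem_chartP] at hx ⊢
  obtain ⟨p, hm, hp⟩ := hx
  let S := Algebra.adjoin k ({chartCoordK k M b} : Set (modularFunctionFieldFullC k M))
  let f : S →+* S := ((coeffK α).comp S.val.toRingHom).codRestrict S.toSubring
    fun y => coeffK_mem_adjoin α y.2
  refine ⟨p.map f, hm.map f, ?_⟩
  have h := congrArg (coeffK α) hp
  rw [map_zero, hom_eval₂] at h
  rw [eval₂_map]
  exact h

/-- The coefficientwise action on one component of the special fibre. -/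
def chartPhi {k : Type*} [Field k] (α : k →+* k) (b : Bool) : chartP k M q b →+* chartP k M q b :=
  ((coeffK α).comp (chartP k M q b).val.toRingHom).codRestrict (chartP k M q b).toSubring
    fun x => coeffK_mem_chartP α x.2

theorem coe_chartPhi {k : Type*} [Field k] (α : k →+* k) (b : Bool) (x : chartP k M q b) :
    (((chartPhi α b x : chartP k M q b) : modularFunctionFieldFullC k M) : LaurentSeries k) =
      coeffMap α (((x : modularFunctionFieldFullC k M)) : LaurentSeries k) := rfl

include hσ in
theorem arithmeticRingAut_mem_chartB {b : Bool} {N : ℕ} [NeZero N] {x : FL N L}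
    (hx : x ∈ chartB A N b) :
    arithmeticRingAut (modularFunctionFieldFull N) σ x ∈ chartB A N b := by
  let τ : FL N L →+* FL N L := (arithmeticRingAut (modularFunctionFieldFull N) σ).toRingHom
  let s : A →+* A := (stableRestrict σ hσ).toRingHom
  have hS : chartS A b ≤ (chartS A b).comap (mapRingHom s) := fun r hr => by
    rw [Submonoid.mem_comap, mem_chartS]
    have h1 : redPoly A (mapRingHom s r) = (redPoly A r).map
        (residueAut σ hσ : IsLocalRing.ResidueField A →+* IsLocalRing.ResidueField A) := by
      simp only [coe_mapRingHom, Polynomial.map_map]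
      congr 1
    rw [h1, (mem_chartS A).1 hr, Polynomial.map_one]
  let σR : ChartBase A b →+* ChartBase A b := IsLocalization.map _ (mapRingHom s) hS
  have hcoord : τ (chartCoord L N b) = chartCoord L N b := by
    have hj : τ (jL N L) = jL N L :=
      Subtype.ext (show coeffMap (σ : L →+* L) (coeffEmb L jq) = _ from coeffMap_coeffEmb σ jq)
    cases b with
    | false => exact hj
    | true => simp only [chartCoord, cond_true, map_inv₀, hj]
  have hcomm : (algebraMap (ChartBase A b) (FL N L)).comp σR =
      τ.comp (algebraMap (ChartBase A b) (FL N L)) := by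
    refine IsLocalization.ringHom_ext (chartS A b) (Polynomial.ringHom_ext (fun a => ?_) ?_)
    · simp only [RingHom.comp_apply, σR, IsLocalization.map_eq, algebraMap_chartBase_algebraMap,
        chartEval, coe_mapRingHom, coe_eval₂RingHom, map_C, eval₂_C]
      exact (arithmeticRingAut_algebraMap (modularFunctionFieldFull N) σ (a : L)).symm
    · simp only [RingHom.comp_apply, σR, IsLocalization.map_eq, algebraMap_chartBase_algebraMap,
        chartEval, coe_mapRingHom, coe_eval₂RingHom, map_X, eval₂_X, hcoord]
  obtain ⟨p, hp, hpx⟩ := hx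
  refine ⟨p.map σR, hp.map σR, ?_⟩
  rw [eval₂_map, hcomm, show arithmeticRingAut (modularFunctionFieldFull N) σ x = τ x from rfl,
    ← hom_eval₂, hpx, map_zero]

variable [Algebra.IsAlgebraic ℚ L] [CharP (IsLocalRing.ResidueField A) q]

include hσ in
theorem arithmeticRingAut_mem_pairBv (hw : IsALInvolution w) {x : FL (M * q) L}
    (hx : x ∈ pairBv (IsLocalRing.residue A) w) :
    arithmeticRingAut (modularFunctionFieldFull (M * q)) σ x ∈
      pairBv (IsLocalRing.residue A) w := by
  obtain ⟨⟨g, hg⟩, h, hh⟩ := (mem_pairBv _ w).1 hx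
  refine (mem_pairBv _ w).2 ⟨⟨_, hasGaussRed_coeffMap_residueAut σ hσ hg⟩,
    ⟨coeffMap (residueAut σ hσ : IsLocalRing.ResidueField A →+* IsLocalRing.ResidueField A) h, ?_⟩⟩
  rw [hw.commute_arithmetic σ x]
  exact hasGaussRed_coeffMap_residueAut σ hσ hh

variable (ι : L →+* ℂ) (hqM : ¬ q ∣ M) (hw : IsALInvolution w)
  (hfd : HasFullResidueDegree (IsLocalRing.ResidueField A) L M) (ϖ : A) (hϖ : Irreducible ϖ)

/-- A Galois automorphism of the constants as a semilinear automorphism of a chart. -/
def gaussSemilinear (b : Bool) :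
    Chart.Semilinear (gaussChart ι hqM hw hfd ϖ hϖ b)
      (chartFr (IsLocalRing.ResidueField A) q M b) where
  toAut := arithmeticRingAut (modularFunctionFieldFull (M * q)) σ
  mem_Bv _ hx := arithmeticRingAut_mem_pairBv σ hσ hw hx
  mem_B _ hx := arithmeticRingAut_mem_chartB σ hσ hx
  φ := chartPhi (residueAut σ hσ : IsLocalRing.ResidueField A →+* IsLocalRing.ResidueField A) b
  φ_Fr a := Subtype.ext (Subtype.ext (coeffMap_qExpand _ q _))
  rd_apply x y hxy := by
    refine Prod.ext (Subtype.ext ?_) (Subtype.ext ?_)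
    · refine (hasGaussRed_pairRed1 _ w _).unique ?_
      have h := hasGaussRed_pairRed1 (IsLocalRing.residue A) w x
      rw [show pairRed1 (IsLocalRing.residue A) w x = _ from
        (coe_pairRd_fst A ι hqM hw hfd x).symm.trans
          (congrArg (fun z => ((z.1 : modularFunctionFieldFullC (IsLocalRing.ResidueField A) M) :
            LaurentSeries (IsLocalRing.ResidueField A))) hxy)] at h
      exact hasGaussRed_coeffMap_residueAut σ hσ h
    · refine (hasGaussRed_pairRed2 _ w _).unique ?_
      have h := hasGaussRed_pairRed2 (IsLocalRing.residue A) w x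
      rw [show pairRed2 (IsLocalRing.residue A) w x = _ from
        (coe_pairRd_snd A ι hqM hw hfd x).symm.trans
          (congrArg (fun z => ((z.2 : modularFunctionFieldFullC (IsLocalRing.ResidueField A) M) :
            LaurentSeries (IsLocalRing.ResidueField A))) hxy)] at h
      show HasGaussRed _ ((w (arithmeticRingAut (modularFunctionFieldFull (M * q)) σ
        (x : FL (M * q) L)) : FL (M * q) L) : LaurentSeries L) _
      rw [hw.commute_arithmetic σ]
      exact hasGaussRed_coeffMap_residueAut σ hσ h

theorem gaussSemilinear_toAut (b : Bool) :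
    (gaussSemilinear σ hσ ι hqM hw hfd ϖ hϖ b).toAut =
      arithmeticRingAut (modularFunctionFieldFull (M * q)) σ := rfl

/-- An automorphism trivial on residues acts trivially on the special fibre. -/
theorem gaussSemilinear_phi_eq_self
    (h : ∀ c, residueAut σ hσ c = c) (b : Bool)
    (y : chartP (IsLocalRing.ResidueField A) M q b) :
    (gaussSemilinear σ hσ ι hqM hw hfd ϖ hϖ b).φ y = y := by
  refine Subtype.ext (Subtype.ext ?_)
  show coeffMap _ _ = _
  rw [coeffMap_congr (g := RingHom.id _) (RingHom.ext h), coeffMap_id]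
  rfl

set_option maxHeartbeats 1000000 in
/-- A Frobenius squared acts on the glueing quotient as the `q²`-th power. -/
theorem gaussSemilinear_mk_eq_pow_sq [Finite (IsLocalRing.ResidueField A)]
    (h : ∀ c, residueAut σ hσ c = c ^ q ^ 2) (b : Bool)
    (H : Chart.TwoComponent (gaussChart ι hqM hw hfd ϖ hϖ b) q
      (chartFr (IsLocalRing.ResidueField A) q M b))
    (y : chartP (IsLocalRing.ResidueField A) M q b) :
    Ideal.Quotient.mk (glueIdeal H.graphs) ((gaussSemilinear σ hσ ι hqM hw hfd ϖ hϖ b).φ y) =
      Ideal.Quotient.mk (glueIdeal H.graphs) y ^ q ^ 2 := by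
  obtain ⟨G, hG, hFr⟩ := H.exists_generators
  refine Chart.mk_apply_eq_pow_sq H hG _ (fun g hg => ?_) hFr (fun a => ?_) y
  · refine Subtype.ext (Subtype.ext ?_)
    show coeffMap (residueAut σ hσ : IsLocalRing.ResidueField A →+* IsLocalRing.ResidueField A)
      (((g : chartP (IsLocalRing.ResidueField A) M q b) :
        modularFunctionFieldFullC (IsLocalRing.ResidueField A) M) :
        LaurentSeries (IsLocalRing.ResidueField A)) =
      (((g : chartP (IsLocalRing.ResidueField A) M q b) :
        modularFunctionFieldFullC (IsLocalRing.ResidueField A) M) :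
        LaurentSeries (IsLocalRing.ResidueField A))
    set x := ((g : modularFunctionFieldFullC (IsLocalRing.ResidueField A) M) :
      LaurentSeries (IsLocalRing.ResidueField A))
    have h1 : ModularCurve.qExpand (IsLocalRing.ResidueField A) q x = x ^ q :=
      congrArg (fun z : chartP (IsLocalRing.ResidueField A) M q b =>
        ((z : modularFunctionFieldFullC (IsLocalRing.ResidueField A) M) :
          LaurentSeries (IsLocalRing.ResidueField A))) (hFr g hg)
    rw [← qExpand_frobTwist (q := q)] at h1
    have h2 : x = frobTwist (q := q) x := qExpand_injective q h1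
    ext i
    have h3 : x.coeff i = x.coeff i ^ q := by
      conv_lhs => rw [h2]
      rw [frobTwist, coeffMap_coeff, frobenius_def]
    rw [coeffMap_coeff, RingHom.coe_coe, h, pow_two, pow_mul, ← h3, ← h3]
  · refine Subtype.ext (Subtype.ext ?_)
    show coeffMap _ (algebraMap (IsLocalRing.ResidueField A) (LaurentSeries _) a) =
      algebraMap (IsLocalRing.ResidueField A) (LaurentSeries _) (a ^ q ^ 2)
    rw [algebraMap_laurentSeries_eq_single, algebraMap_laurentSeries_eq_single, coeffMap_single,
      RingHom.coe_coe, h]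

end Fermat.Agent.BadPrime
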