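import Fermat.Agent.BadPrime.GaussChartRing
import Fermat.Agent.Mazur.Moduli.ModularPoly

/-!
# The modular equation on the two charts

`j(qz)` is integral over `A[j]`, and `1/j(qz)` is integral over `A[1/j]` localised at the special
fibre, because the constant term of the modular equation reduces to `X ^ (q + 1)`.
-/

set_option autoImplicit false
set_option synthInstance.maxHeartbeats 400000
set_option linter.unusedSectionVars false

noncomputable section

open ModularCurve Polynomial

namespace Fermat.Agent.BadPrime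

open Fermat.Agent.Reduction Fermat.Agent.Modular

section Algebra

variable {k : Type*} [Field k] {q : ℕ} [Fact q.Prime]

/-- A monic polynomial of degree `q + 1` vanishing at `(X, X ^ q)` and at `(X ^ q, X)` has constant
term `X ^ (q + 1)`. -/
theorem coeff_zero_of_two_roots {P : k[X][X]} (hm : P.Monic) (hd : P.natDegree = q + 1)
    (h1 : P.eval (X ^ q) = 0)
    (h2 : (P.map (expand k q : k[X] →+* k[X])).eval X = 0) :
    P.coeff 0 = X ^ (q + 1) := by
  have hq : q.Prime := Fact.out
  obtain ⟨Q, hQ⟩ := dvd_iff_isRoot.2 h1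
  have hQm : Q.Monic := (monic_X_sub_C _).of_mul_monic_left (hQ ▸ hm)
  have hQd : Q.natDegree = q := by
    have := congrArg natDegree hQ
    rw [hd, (monic_X_sub_C _).natDegree_mul hQm, natDegree_X_sub_C] at this
    omega
  have hQ0 : (Q.map (expand k q : k[X] →+* k[X])).eval X = 0 := by
    rw [hQ, Polynomial.map_mul, eval_mul, mul_eq_zero] at h2
    refine h2.resolve_left ?_
    rw [Polynomial.map_sub, map_X, map_C, eval_sub, eval_X, eval_C, sub_eq_zero]
    intro h
    have := congrArg natDegree h
    rw [RingHom.coe_coe, map_pow, expand_X, natDegree_X, ← pow_mul, natDegree_X_pow] at this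
    exact absurd this (by nlinarith [hq.two_le])
  rw [eval_eq_sum_range, hQm.natDegree_map, hQd, Finset.sum_range_succ,
    coeff_map, show Q.coeff q = 1 from hQd ▸ hQm.coeff_natDegree, map_one, one_mul] at hQ0
  have hc0 : Q.coeff 0 = -X := by
    ext m
    have h := congrArg (fun p : k[X] => p.coeff (q * m)) hQ0
    simp only [coeff_add, finsetSum_coeff, coeff_zero, coeff_X_pow] at h
    rw [Finset.sum_eq_single 0 ?_ (fun h0 => absurd (Finset.mem_range.2 hq.pos) h0), pow_zero,
      mul_one, coeff_map, RingHom.coe_coe, coeff_expand_mul' hq.pos] at h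
    · rw [coeff_neg, coeff_X, eq_neg_iff_add_eq_zero]
      convert h using 2
      rcases eq_or_ne m 1 with rfl | hm1
      · simp
      · rw [if_neg (Ne.symm hm1), if_neg]
        exact fun h => hm1 (mul_eq_left₀ hq.pos.ne' |>.1 h)
    · intro i hi hi0
      rw [coeff_mul_X_pow', coeff_map]
      split_ifs with hle
      · rw [RingHom.coe_coe, coeff_expand hq.pos, if_neg]
        intro hdvd
        have : q ∣ i := by
          have := Nat.dvd_sub (dvd_mul_right q m) hdvd
          rwa [Nat.sub_sub_self hle] at this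
        have hilt := Finset.mem_range.1 hi
        exact absurd (Nat.le_of_dvd (Nat.pos_of_ne_zero hi0) this) (not_le.2 hilt)
      · rfl
  rw [hQ, mul_coeff_zero, coeff_sub, coeff_X_zero, coeff_C_zero, hc0, zero_sub, neg_mul_neg,
    pow_succ]

end Algebra

variable {L : Type*} [Field L] [Algebra ℚ L] [Algebra.IsAlgebraic ℚ L]
  {A : ValuationSubring L} {q : ℕ} [Fact q.Prime] [CharP (IsLocalRing.ResidueField A) q]
  {M : ℕ} [NeZero M] {w : FL (M * q) L →ₐ[L] FL (M * q) L}

/-- Evaluation of integral polynomials at `x`. -/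
abbrev evalIntAt {R : Type*} [CommRing R] (x : R) : ℤ[X] →+* R :=
  eval₂RingHom (Int.castRingHom R) x

theorem hasGaussRed_evalIntAt {N : ℕ} [NeZero N] {k : Type*} [Field k] {π : A →+* k} {x : FL N L}
    {g : LaurentSeries k} (hx : HasGaussRed π (x : LaurentSeries L) g) (a : ℤ[X]) :
    HasGaussRed π (evalIntAt x a : LaurentSeries L) (evalIntAt g a) := by
  induction a using Polynomial.induction_on' with
  | add p q hp hq => rw [map_add, map_add, IntermediateField.coe_add]; exact hp.add hq
  | monomial i c =>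
    simp only [evalIntAt, coe_eval₂RingHom, eval₂_monomial, eq_intCast, IntermediateField.coe_mul,
      IntermediateField.coe_pow]
    have hc : HasGaussRed π ((c : FL N L) : LaurentSeries L) (c : LaurentSeries k) := by
      have := hasGaussRed_C (π := π) (c : A)
      simpa [map_intCast] using this
    exact hc.mul (hx.pow i)

theorem hasGaussRed_eval₂_evalIntAt {N : ℕ} [NeZero N] {k : Type*} [Field k] {π : A →+* k}
    {x y : FL N L} {g h : LaurentSeries k} (hx : HasGaussRed π (x : LaurentSeries L) g)
    (hy : HasGaussRed π (y : LaurentSeries L) h) (P : ℤ[X][X]) :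
    HasGaussRed π ((P.eval₂ (evalIntAt x) y : FL N L) : LaurentSeries L)
      (P.eval₂ (evalIntAt g) h) := by
  induction P using Polynomial.induction_on' with
  | add p q hp hq => rw [eval₂_add, eval₂_add, IntermediateField.coe_add]; exact hp.add hq
  | monomial i c =>
    rw [eval₂_monomial, eval₂_monomial, IntermediateField.coe_mul, IntermediateField.coe_pow]
    exact (hasGaussRed_evalIntAt hx c).mul (hy.pow i)

theorem eval₂_modularShape_fun {Φ : ℤ[X][X]} (hΦ : Mazur.Moduli.IsModularShape q Φ) :
    Φ.eval₂ (evalIntAt (heckeAlphaBar L M q (jL M L))) (heckeBetaBar L M q (jL M L)) = 0 := by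
  apply Subtype.val_injective
  rw [ZeroMemClass.coe_zero]
  show (FL (M * q) L).val _ = 0
  rw [AlgHom.coe_toRingHom .. |>.symm, hom_eval₂]
  have h := congrArg (coeffEmb L) hΦ.eval_series
  rw [map_zero, hom_eval₂] at h
  refine Eq.trans ?_ h
  congr 1
  · refine Polynomial.ringHom_ext (fun a => by simp [evalIntAt, evalAtJ]) ?_
    simp [evalIntAt, evalAtJ, jL]
  · show ModularCurve.qExpand L q (coeffEmb L jq) = coeffEmb L (qExpand ℚ q jq)
    rw [coeffEmb, coeffMap_qExpand]

/-- The modular equation read through the involution. -/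
theorem eval₂_modularShape_fun_swap {Φ : ℤ[X][X]} (hΦ : Mazur.Moduli.IsModularShape q Φ)
    (hw : IsALInvolution w) :
    Φ.eval₂ (evalIntAt (heckeBetaBar L M q (jL M L))) (heckeAlphaBar L M q (jL M L)) = 0 := by
  have h := congrArg (w : FL (M * q) L →+* FL (M * q) L) (eval₂_modularShape_fun (M := M) hΦ)
  rw [map_zero, hom_eval₂, RingHom.coe_coe, hw.beta] at h
  refine Eq.trans ?_ h
  congr 1
  refine Polynomial.ringHom_ext (fun a => by simp [evalIntAt]) ?_
  simp [evalIntAt, hw.alpha]

theorem modularShape_coeff_zero {Φ : ℤ[X][X]} (hΦ : Mazur.Moduli.IsModularShape q Φ)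
    (hw : IsALInvolution w) :
    (Φ.coeff 0).map (Int.castRingHom (IsLocalRing.ResidueField A)) = X ^ (q + 1) := by
  set k := IsLocalRing.ResidueField A
  set π := IsLocalRing.residue A
  set P : k[X][X] := Φ.map (mapRingHom (Int.castRingHom k))
  have hev : ∀ (e : k[X] →+* k[X]) (y : k[X]),
      aeval (jqModC k) ((P.map e).eval y) =
        Φ.eval₂ (evalIntAt (aeval (jqModC k) (e X))) (aeval (jqModC k) y) := by
    intro e y
    rw [eval_map, ← AlgHom.coe_toRingHom, hom_eval₂, eval₂_map]
    congr 1
    refine Polynomial.ringHom_ext (fun a => by simp [evalIntAt]) ?_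
    simp [evalIntAt]
  have hinj : ∀ p : k[X], aeval (jqModC k) p = 0 → p = 0 :=
    transcendental_iff.1 transcendental_jqModC
  have ha := hasGaussRed_alpha π (q := q) (hasGaussRed_jL (π := π) (L := L) M)
  have hb := hasGaussRed_beta π (q := q) (hasGaussRed_jL (π := π) (L := L) M)
  rw [qExpand_jqModC_eq_pow] at hb
  have e1 := hasGaussRed_eval₂_evalIntAt ha hb Φ
  have e2 := hasGaussRed_eval₂_evalIntAt hb ha Φ
  rw [eval₂_modularShape_fun hΦ, ZeroMemClass.coe_zero] at e1
  rw [eval₂_modularShape_fun_swap hΦ hw, ZeroMemClass.coe_zero] at e2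
  have h1 : P.eval (X ^ q) = 0 := hinj _ (by
    rw [← Polynomial.map_id (p := P), hev, RingHom.id_apply, map_pow, aeval_X]
    exact e1.unique hasGaussRed_zero)
  have h2 : (P.map (expand k q : k[X] →+* k[X])).eval X = 0 := hinj _ (by
    rw [hev, RingHom.coe_coe, expand_X, map_pow, aeval_X]
    exact e2.unique hasGaussRed_zero)
  have := coeff_zero_of_two_roots (hΦ.monic.map _)
    (by rw [hΦ.monic.natDegree_map, hΦ.natDegree_eq]) h1 h2
  rwa [coeff_map] at this

/-- `j(qz)` is integral over `A[j]`. -/
theorem heckeBeta_jL_mem_chartB0 :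
    heckeBetaBar L M q (jL M L) ∈ chartB0 A (M * q) false := by
  obtain ⟨Φ, hΦ⟩ := Mazur.Moduli.exists_isModularShape (p := q)
  let S := Algebra.adjoin A ({chartCoord L (M * q) false} : Set (FL (M * q) L))
  show IsIntegral S (heckeBetaBar L M q (jL M L))
  have hS : chartCoord L (M * q) false ∈ S := Algebra.self_mem_adjoin_singleton _ _
  refine ⟨Φ.map (evalIntAt (⟨_, hS⟩ : S)), hΦ.monic.map _, ?_⟩
  rw [eval₂_map]
  refine Eq.trans ?_ (eval₂_modularShape_fun (L := L) (M := M) hΦ)
  congr 1
  refine Polynomial.ringHom_ext (fun a => by simp [evalIntAt]) ?_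
  simp only [evalIntAt, RingHom.comp_apply, coe_eval₂RingHom, eval₂_X]
  exact Subtype.ext rfl

include A in
theorem heckeBeta_jL_ne_zero : heckeBetaBar L M q (jL M L) ≠ 0 := fun h => by
  have hb := hasGaussRed_beta (IsLocalRing.residue A) (q := q)
    (hasGaussRed_jL (π := IsLocalRing.residue A) (L := L) M)
  rw [qExpand_jqModC_eq_pow, h, ZeroMemClass.coe_zero] at hb
  exact pow_ne_zero q (jqModC_ne_zero_of_nontrivial _) (hb.unique hasGaussRed_zero)

/-- `1 / j(qz)` is integral over the localised chart at `1/j`. -/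
theorem isIntegral_heckeBeta_jL_inv [IsDiscreteValuationRing A] (hw : IsALInvolution w) :
    IsIntegral (ChartBase A true) (heckeBetaBar L M q (jL M L))⁻¹ := by
  obtain ⟨Φ, hΦ⟩ := Mazur.Moduli.exists_isModularShape (p := q)
  set J := heckeAlphaBar L M q (jL M L) with hJ
  set Y := heckeBetaBar L M q (jL M L) with hY
  have hu : chartCoord L (M * q) true = J⁻¹ := by
    rw [chartCoord, cond_true]
    exact congrArg (fun x => x⁻¹) (Subtype.ext rfl)
  have hJ0 : J ≠ 0 := fun h => by
    have ha := hasGaussRed_alpha (IsLocalRing.residue A) (q := q)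
      (hasGaussRed_jL (π := IsLocalRing.residue A) (L := L) M)
    rw [← hJ, h, ZeroMemClass.coe_zero] at ha
    exact jqModC_ne_zero_of_nontrivial _ (ha.unique hasGaussRed_zero)
  have hY0 : Y ≠ 0 := heckeBeta_jL_ne_zero (A := A)
  have : Invertible J := invertibleOfNonzero hJ0
  let r : ℕ → ChartBase A true := fun i => algebraMap A[X] _
    (reflect (q + 1) ((Φ.coeff i).map (Int.castRingHom A)))
  have hdeg : ∀ i ≤ q + 1, ((Φ.coeff i).map (Int.castRingHom A)).natDegree ≤ q + 1 := by
    intro i hi
    refine natDegree_map_le.trans ?_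
    rcases Nat.eq_zero_or_pos i with rfl | hi0
    · exact hΦ.natDegree_coeff_zero
    rcases Nat.lt_or_ge i (q + 1) with hlt | hge
    · exact (hΦ.natDegree_coeff_le i hi0 (Nat.lt_succ_iff.1 hlt)).trans (Nat.le_succ q)
    · rw [show i = q + 1 by omega, show Φ.coeff (q + 1) = 1 from
        hΦ.natDegree_eq ▸ hΦ.monic.coeff_natDegree, natDegree_one]
      exact Nat.zero_le _
  have hr : ∀ i ≤ q + 1, algebraMap (ChartBase A true) (FL (M * q) L) (r i) * J ^ (q + 1) =
      evalIntAt J (Φ.coeff i) := by
    intro i hi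
    rw [algebraMap_chartBase_algebraMap, chartEval, coe_eval₂RingHom, hu, ← invOf_eq_inv,
      eval₂_reflect_mul_pow _ _ _ _ (hdeg i hi), eval₂_map]
    simp only [evalIntAt, coe_eval₂RingHom]
    congr 1
    exact RingHom.ext_int _ _
  have hunit : IsUnit (r 0) := by
    refine IsLocalization.map_units (M := chartS A true) _ ⟨_, ?_⟩
    rw [mem_chartS]
    show ((reflect (q + 1) ((Φ.coeff 0).map (Int.castRingHom A))).map (IsLocalRing.residue A)) = 1
    rw [← reflect_map, Polynomial.map_map,
      RingHom.ext_int ((IsLocalRing.residue A).comp (Int.castRingHom A))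
        (Int.castRingHom (IsLocalRing.ResidueField A)), modularShape_coeff_zero hΦ hw,
      show (X : (IsLocalRing.ResidueField A)[X]) ^ (q + 1) = C 1 * X ^ (q + 1) by simp,
      reflect_C_mul_X_pow, revAt_le le_rfl, Nat.sub_self, pow_zero, mul_one, map_one]
  obtain ⟨v, hv⟩ := hunit
  let T : (ChartBase A true)[X] := X ^ (q + 1) +
    ∑ i ∈ Finset.range (q + 1), C ((↑v⁻¹ : ChartBase A true) * r (i + 1)) * X ^ (q - i)
  refine ⟨T, ?_, ?_⟩
  · refine monic_X_pow_add ?_
    refine lt_of_le_of_lt (degree_sum_le _ _) ?_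
    rw [Finset.sup_lt_iff (WithBot.bot_lt_coe _)]
    intro i _
    refine lt_of_le_of_lt (degree_C_mul_X_pow_le _ _) ?_
    exact WithBot.coe_lt_coe.2 (Nat.lt_succ_of_le (Nat.sub_le q i))
  · have hrel : ∑ i ∈ Finset.range (q + 1 + 1),
        algebraMap (ChartBase A true) (FL (M * q) L) (r i) * Y⁻¹ ^ (q + 1 - i) = 0 := by
      have h := eval₂_modularShape_fun (L := L) (M := M) hΦ
      rw [eval₂_eq_sum_range, hΦ.natDegree_eq] at h
      refine mul_left_injective₀ (mul_ne_zero (pow_ne_zero (q + 1) hJ0) (pow_ne_zero (q + 1) hY0)) ?_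
      simp only [zero_mul, Finset.sum_mul]
      rw [← h]
      refine Finset.sum_congr rfl fun i hi => ?_
      have hi' : i ≤ q + 1 := Nat.lt_succ_iff.1 (Finset.mem_range.1 hi)
      rw [← hr i hi', ← hY, inv_pow]
      have : Y ^ (q + 1) = Y ^ (q + 1 - i) * Y ^ i := by rw [← pow_add, Nat.sub_add_cancel hi']
      rw [this]
      field_simp
    rw [Finset.sum_range_succ', Nat.sub_zero, ← hv] at hrel
    simp only [T, eval₂_add, eval₂_X_pow, eval₂_finsetSum, eval₂_mul, eval₂_C, map_mul]
    have hvv : algebraMap (ChartBase A true) (FL (M * q) L) (↑v⁻¹) *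
        algebraMap (ChartBase A true) (FL (M * q) L) ↑v = 1 := by
      rw [← map_mul, Units.inv_mul, map_one]
    simp only [mul_assoc, ← Finset.mul_sum, Nat.add_sub_add_right] at hrel ⊢
    linear_combination (algebraMap (ChartBase A true) (FL (M * q) L) (↑v⁻¹)) * hrel -
      Y⁻¹ ^ (q + 1) * hvv

end Fermat.Agent.BadPrime
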