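import Fermat.Agent.BadPrime.GaussModelProps
import Fermat.Agent.BadPrime.Codimension
import Mathlib.RingTheory.FiniteType
import Mathlib.RingTheory.Ideal.GoingUp
import Mathlib.LinearAlgebra.FreeModule.PID

/-!
# The two components of the special fibre over the line

`P × P` is finite free over `k[X]` and carries a functional inducing a nondegenerate pairing.
-/

set_option autoImplicit false
set_option synthInstance.maxHeartbeats 400000
set_option linter.unusedSectionVars false
set_option maxSynthPendingDepth 3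

noncomputable section

open ModularCurve Polynomial

namespace Fermat.Agent.BadPrime

variable {k : Type*} [Field k] {q : ℕ} [Fact q.Prime] [CharP k q] {M : ℕ} [NeZero M] {b : Bool}

variable (k q M b) in
/-- The coordinate in the affine ring of one component. -/
def chartT : chartP k M q b := ⟨_, chartCoordK_mem k q M b⟩

theorem algebraMap_chartPair (f : k[X]) :
    algebraMap k[X] (chartP k M q b × chartP k M q b) f =
      (aeval (chartT k q M b) f, aeval (chartT k q M b ^ q) f) :=
  aeval_prod_apply _ f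

theorem transcendental_chartT : Transcendental k (chartT k q M b) := by
  intro h
  have h2 : IsAlgebraic k (chartCoordRed k b) := by
    rw [← coe_chartCoordK k M b]
    exact (h.algHom (chartP k M q b).val).algHom (modularFunctionFieldFullC k M).val
  cases b with
  | false => exact transcendental_jqModC h2
  | true => exact transcendental_jqModC (IsAlgebraic.inv_iff.1 h2)

theorem aeval_chartT_eq_zero {f : k[X]} (h : aeval (chartT k q M b) f = 0) : f = 0 :=
  transcendental_iff.1 transcendental_chartT f h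

theorem aeval_chartT_pow_eq_zero {f : k[X]} (h : aeval (chartT k q M b ^ q) f = 0) : f = 0 := by
  rw [← expand_aeval] at h
  exact (expand_eq_zero (Nat.pos_of_ne_zero (NeZero.ne q))).1 (aeval_chartT_eq_zero h)

theorem isTorsionFree_chartPair :
    Module.IsTorsionFree k[X] (chartP k M q b × chartP k M q b) := by
  refine Module.isTorsionFree_iff_smul_eq_zero.2 fun f x hfx => ?_
  rcases eq_or_ne f 0 with hf | hf
  · exact Or.inl hf
  · rw [Algebra.smul_def, algebraMap_chartPair] at hfx
    have h1 := congrArg Prod.fst hfx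
    have h2 := congrArg Prod.snd hfx
    simp only [Prod.fst_mul, Prod.snd_mul, Prod.fst_zero, Prod.snd_zero, mul_eq_zero] at h1 h2
    exact Or.inr (Prod.ext (h1.resolve_left fun h => hf (aeval_chartT_eq_zero h))
      (h2.resolve_left fun h => hf (aeval_chartT_pow_eq_zero h)))

theorem isIntegral_chartPair_diag (x : chartP k M q b) :
    IsIntegral k[X] ((x, x) : chartP k M q b × chartP k M q b) := by
  set t := chartT k q M b
  let C := integralClosure k[X] (chartP k M q b × chartP k M q b)
  have hT : ((t, t) : chartP k M q b × chartP k M q b) ∈ C := by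
    refine ⟨(X - Polynomial.C X) * (X ^ q - Polynomial.C X),
      (monic_X_sub_C _).mul (monic_X_pow_sub_C _ (NeZero.ne q)), ?_⟩
    simp only [eval₂_mul, eval₂_sub, eval₂_X, eval₂_C, eval₂_X_pow, algebraMap_chartPair, aeval_X]
    ext <;> simp [t]
  let Δ : k[X] →+* C := (aeval (R := k) ((t, t) : chartP k M q b × chartP k M q b)).toRingHom.codRestrict
    C.toSubring fun f => by
      have : Algebra.adjoin k {((t, t) : chartP k M q b × chartP k M q b)} ≤ C.restrictScalars k :=
        Algebra.adjoin_le (Set.singleton_subset_iff.2 hT)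
      exact this (aeval_mem_adjoin_singleton k _)
  obtain ⟨p, hp, hpx⟩ := (mem_chartP k q M).1 x.2
  have hlift : p ∈ Polynomial.lifts ((aeval (R := k)
      (⟨_, Algebra.self_mem_adjoin_singleton k (chartCoordK k M b)⟩ :
        Algebra.adjoin k ({chartCoordK k M b} : Set (modularFunctionFieldFullC k M)))).toRingHom) := by
    refine (Polynomial.lifts_iff_coeff_lifts _).2 fun i => ?_
    obtain ⟨s, hs⟩ := (SetLike.ext_iff.1
      (Algebra.adjoin_singleton_eq_range_aeval k (chartCoordK k M b)) _).1 (p.coeff i).2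
    refine ⟨s, Subtype.ext ?_⟩
    refine Eq.trans ?_ hs
    exact (aeval_algHom_apply (Algebra.adjoin k
      ({chartCoordK k M b} : Set (modularFunctionFieldFullC k M))).val _ s).symm
  obtain ⟨P, hP, -, hPm⟩ := Polynomial.lifts_and_natDegree_eq_and_monic hlift hp
  refine isIntegral_trans (A := C) _ ⟨P.map Δ, hPm.map Δ, ?_⟩
  rw [eval₂_map]
  have h1 : P.eval₂ (aeval (R := k) t).toRingHom x = 0 := by
    apply Subtype.val_injective
    show (chartP k M q b).val.toRingHom _ = 0
    rw [hom_eval₂, ← hpx, ← hP, eval₂_map]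
    congr 1
    refine Polynomial.ringHom_ext (fun a => ?_) ?_ <;> simp [t, chartT]
  refine Prod.ext ?_ ?_
  · refine Eq.trans ?_ h1
    show (RingHom.fst _ _) _ = _
    rw [hom_eval₂]
    congr 1
    refine Polynomial.ringHom_ext (fun a => ?_) ?_ <;> simp [Δ, C]
  · refine Eq.trans ?_ h1
    show (RingHom.snd _ _) _ = _
    rw [hom_eval₂]
    congr 1
    refine Polynomial.ringHom_ext (fun a => ?_) ?_ <;> simp [Δ, C]

theorem isIntegral_chartPair (x : chartP k M q b × chartP k M q b) : IsIntegral k[X] x := by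
  have he : ∀ e : chartP k M q b × chartP k M q b, e * e = e → IsIntegral k[X] e := fun e he =>
    ⟨X ^ 2 - X, monic_X_pow_sub (by rw [degree_X]; norm_num), by
      rw [eval₂_sub, eval₂_X_pow, eval₂_X, pow_two, he, sub_self]⟩
  have h : x = (x.1, x.1) * (1, 0) + (x.2, x.2) * (0, 1) := by ext <;> simp
  rw [h]
  exact ((isIntegral_chartPair_diag _).mul (he _ (by ext <;> simp))).add
    ((isIntegral_chartPair_diag _).mul (he _ (by ext <;> simp)))

theorem finite_chartPair (hfin : ∃ G : Finset (chartP k M q b),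
      Algebra.adjoin k (G : Set (chartP k M q b)) = ⊤) :
    Module.Finite k[X] (chartP k M q b × chartP k M q b) := by
  have hP : Algebra.FiniteType k (chartP k M q b) := ⟨hfin⟩
  have : Algebra.IsIntegral k[X] (chartP k M q b × chartP k M q b) := ⟨isIntegral_chartPair⟩
  have : Algebra.FiniteType k[X] (chartP k M q b × chartP k M q b) :=
    Algebra.FiniteType.of_restrictScalars_finiteType k k[X] _
  exact Algebra.IsIntegral.finite

theorem exists_mul_eq_aeval {a : chartP k M q b} (ha : a ≠ 0) :
    ∃ (z : chartP k M q b) (s : k[X]), s ≠ 0 ∧ a * z = aeval (chartT k q M b) s := by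
  set S := Algebra.adjoin k ({chartCoordK k M b} : Set (modularFunctionFieldFullC k M))
  set P := integralClosure S (modularFunctionFieldFullC k M)
  let a' : P := ⟨a, a.2⟩
  have ha' : a' ≠ 0 := fun h => ha (Subtype.ext (congrArg Subtype.val h))
  have hint : IsIntegral S a' := integralClosure.isIntegral a'
  obtain ⟨c, hc, hc0⟩ := (Submodule.ne_bot_iff _).1
    (Ideal.comap_ne_bot_of_integral_mem ha' (Ideal.mem_span_singleton_self a') hint)
  obtain ⟨z, hz⟩ := Ideal.mem_span_singleton'.1 (Ideal.mem_comap.1 hc)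
  obtain ⟨s, hs⟩ := (SetLike.ext_iff.1
    (Algebra.adjoin_singleton_eq_range_aeval k (chartCoordK k M b)) _).1 c.2
  refine ⟨⟨z, z.2⟩, s, fun h0 => hc0 (Subtype.ext ?_), Subtype.ext ?_⟩
  · rw [← hs, h0]; simp
  · have h2 := congrArg Subtype.val hz
    simp only [MulMemClass.coe_mul] at h2 ⊢
    rw [mul_comm, h2]
    exact hs.symm.trans (aeval_algHom_apply (chartP k M q b).val (chartT k q M b) s)

/-- A functional with nondegenerate pairing, when every nonzero element has a multiple in
`R e₁` or in `R e₂`. -/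
theorem exists_form_of_multiples {N : Type*} [CommRing N] [Algebra k[X] N] [Module.Finite k[X] N]
    [Module.IsTorsionFree k[X] N] {e₁ e₂ : N} (he₁ : e₁ ≠ 0) (he₂ : e₂ ≠ 0)
    (h : ∀ x : N, x ≠ 0 → ∃ (y : N) (s : k[X]), s ≠ 0 ∧ (y * x = s • e₁ ∨ y * x = s • e₂)) :
    ∃ (r : ℕ) (B : Module.Basis (Fin r) k[X] N) (μ : N →ₗ[k[X]] k[X]),
      (gram (Chart.mulForm μ) B B).det ≠ 0 := by
  classical
  let B := Module.finBasis k[X] N
  obtain ⟨μ, hμ₁, hμ₂⟩ : ∃ μ : N →ₗ[k[X]] k[X], μ e₁ ≠ 0 ∧ μ e₂ ≠ 0 := by
    have hex : ∀ e : N, e ≠ 0 → ∃ i, B.coord i e ≠ 0 := by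
      intro e he
      by_contra hall
      push Not at hall
      exact he (B.ext_elem fun i => by simpa using hall i)
    obtain ⟨i, hi⟩ := hex e₁ he₁
    obtain ⟨j, hj⟩ := hex e₂ he₂
    by_cases h1 : B.coord i e₂ = 0
    · by_cases h2 : B.coord j e₁ = 0
      · exact ⟨B.coord i + B.coord j, by rw [LinearMap.add_apply, h2, add_zero]; exact hi,
          by rw [LinearMap.add_apply, h1, zero_add]; exact hj⟩
      · exact ⟨B.coord j, h2, hj⟩
    · exact ⟨B.coord i, hi, h1⟩
  refine ⟨_, B, μ, fun h0 => ?_⟩
  obtain ⟨v, hv, hMv⟩ := Matrix.exists_mulVec_eq_zero_iff.2 h0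
  set x := ∑ j, v j • B j with hx
  have hx0 : x ≠ 0 := fun h =>
    hv (funext fun i => Fintype.linearIndependent_iff.1 B.linearIndependent v h i)
  have h1 : (Chart.mulForm μ).flip x = 0 := B.ext fun i => by
    have := congrFun hMv i
    simp only [Matrix.mulVec, dotProduct, gram, Matrix.of_apply, Pi.zero_apply] at this
    rw [LinearMap.flip_apply, hx, map_sum, LinearMap.zero_apply, ← this]
    exact Finset.sum_congr rfl fun j _ => by rw [map_smul, smul_eq_mul, mul_comm]
  obtain ⟨y, s, hs, hys⟩ := h x hx0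
  have h2 : μ (y * x) = 0 := LinearMap.congr_fun h1 y
  rcases hys with he | he <;> rw [he, map_smul, smul_eq_mul, mul_eq_zero] at h2
  · exact h2.elim hs hμ₁
  · exact h2.elim hs hμ₂

/-- Elements of `P × P` have multiples in `k[X] (1, 0)` or `k[X] (0, 1)`. -/
theorem exists_multiple_chartPair (x : chartP k M q b × chartP k M q b) (hx : x ≠ 0) :
    ∃ (y : chartP k M q b × chartP k M q b) (s : k[X]), s ≠ 0 ∧
      (y * x = s • ((1, 0) : chartP k M q b × chartP k M q b) ∨
        y * x = s • ((0, 1) : chartP k M q b × chartP k M q b)) := by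
  obtain ⟨x₁, x₂⟩ := x
  rcases eq_or_ne x₁ 0 with h₁ | h₁
  · have h₂ : x₂ ≠ 0 := fun h₂ => hx (by rw [h₁, h₂]; rfl)
    obtain ⟨z, s, hs, hzs⟩ := exists_mul_eq_aeval (q := q) h₂
    refine ⟨(0, z ^ q * x₂ ^ (q - 1)), s.map (frobenius k q),
      fun h => hs (Polynomial.map_injective _ (frobenius k q).injective
        (h.trans (Polynomial.map_zero _).symm)), Or.inr ?_⟩
    rw [Algebra.smul_def, algebraMap_chartPair, Prod.mk_mul_mk, Prod.mk_mul_mk, mul_zero,
      zero_mul, mul_one]
    refine congrArg (Prod.mk 0) ?_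
    rw [mul_assoc, ← pow_succ, Nat.sub_add_cancel (NeZero.one_le), ← mul_pow, mul_comm, hzs,
      ← map_pow, ← expand_aeval, ← map_frobenius_expand, map_expand, ← Polynomial.map_expand]
  · obtain ⟨z, s, hs, hzs⟩ := exists_mul_eq_aeval (q := q) h₁
    refine ⟨(z, 0), s, hs, Or.inl ?_⟩
    rw [Algebra.smul_def, algebraMap_chartPair, Prod.mk_mul_mk, Prod.mk_mul_mk, mul_one, mul_zero,
      zero_mul, mul_comm, hzs]

/-- A basis of `P × P` over `k[X]` and a functional whose pairing is nondegenerate. -/
theorem exists_form_chartPair (hfin : ∃ G : Finset (chartP k M q b),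
      Algebra.adjoin k (G : Set (chartP k M q b)) = ⊤) :
    ∃ (r : ℕ) (B : Module.Basis (Fin r) k[X] (chartP k M q b × chartP k M q b))
      (μ : (chartP k M q b × chartP k M q b) →ₗ[k[X]] k[X]),
      (gram (Chart.mulForm μ) B B).det ≠ 0 := by
  have := finite_chartPair hfin
  have := isTorsionFree_chartPair (k := k) (q := q) (M := M) (b := b)
  exact exists_form_of_multiples (by simp [Prod.ext_iff]) (by simp [Prod.ext_iff])
    exists_multiple_chartPair

end Fermat.Agent.BadPrime
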