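import Fermat.Agent.BadPrime.GaussChart
import Fermat.Agent.BadPrime.GaussModularEq
import Fermat.Agent.BadPrime.GaussPairForm
import Fermat.Agent.BadPrime.RootOfUnity

/-!
# The charts of `X₀(Mq)` have two components glued along Frobenius
-/

set_option autoImplicit false
set_option synthInstance.maxHeartbeats 400000
set_option linter.unusedSectionVars false
set_option maxSynthPendingDepth 3

noncomputable section

open ModularCurve Polynomial IntermediateField
open scoped IntermediateField

namespace Fermat.Agent.BadPrime

open Fermat.Agent.Reduction Fermat.Agent.Modular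

section Generic

/-- In an integral extension of a ring whose Jacobson radical contains `π`, `1 + π c` is a unit. -/
theorem isUnit_one_add_mul_of_isIntegral {R C : Type*} [CommRing R] [CommRing C] [Algebra R C]
    [Algebra.IsIntegral R C] {π : R} (h : ∀ r, IsUnit (1 + π * r)) (c : C) :
    IsUnit (1 + algebraMap R C π * c) := by
  by_contra hu
  obtain ⟨m, hm, hmem⟩ := exists_max_ideal_of_mem_nonunits hu
  have hmax : (m.comap (algebraMap R C)).IsMaximal :=
    Ideal.isMaximal_comap_of_isIntegral_of_isMaximal m
  have hπ : π ∈ Ideal.jacobson (⊥ : Ideal R) :=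
    Ideal.mem_jacobson_bot.2 fun y => by rw [add_comm]; exact h y
  have hπm : π ∈ m.comap (algebraMap R C) := Ideal.mem_sInf.1 hπ ⟨bot_le, hmax⟩
  refine hm.ne_top ((Ideal.eq_top_iff_one m).2 ?_)
  have := m.sub_mem hmem (m.mul_mem_right c (Ideal.mem_comap.1 hπm))
  rwa [add_sub_cancel_right] at this

end Generic

variable {L : Type*} [Field L] [Algebra ℚ L] [Algebra.IsAlgebraic ℚ L] {A : ValuationSubring L}
  [IsDiscreteValuationRing A] {q : ℕ} [Fact q.Prime] [CharP (IsLocalRing.ResidueField A) q]
  {M : ℕ} [NeZero M] {b : Bool} {w : FL (M * q) L →ₐ[L] FL (M * q) L}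
  (ι : L →+* ℂ) (hqM : ¬ q ∣ M) (hw : IsALInvolution w)
  (hfd : HasFullResidueDegree (IsLocalRing.ResidueField A) L M) (ϖ : A) (hϖ : Irreducible ϖ)

include hw in
/-- The coordinate pulled back by the second degeneracy map is integral over the chart. -/
theorem isIntegral_heckeBeta_chartCoord (b : Bool) :
    IsIntegral (ChartBase A b) (heckeBetaBar L M q (chartCoord L M b)) := by
  cases b with
  | false =>
    set C := integralClosure (ChartBase A false) (FL (M * q) L)
    have hS : ∀ s ∈ Algebra.adjoin A ({chartCoord L (M * q) false} : Set (FL (M * q) L)),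
        s ∈ C := by
      intro s hs
      induction hs using Algebra.adjoin_induction with
      | mem y hy =>
        rw [Set.mem_singleton_iff] at hy
        rw [hy]
        have h := C.algebraMap_mem (algebraMap A[X] (ChartBase A false) X)
        rwa [algebraMap_chartBase_algebraMap, chartEval, coe_eval₂RingHom, eval₂_X] at h
      | algebraMap a =>
        have h := C.algebraMap_mem (algebraMap A[X] (ChartBase A false) (Polynomial.C a))
        rwa [algebraMap_chartBase_algebraMap, chartEval, coe_eval₂RingHom, eval₂_C] at h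
      | add y z _ _ hy hz => exact C.add_mem hy hz
      | mul y z _ _ hy hz => exact C.mul_mem hy hz
    have hint : (Algebra.adjoin A
        ({chartCoord L (M * q) false} : Set (FL (M * q) L))).val.toRingHom.IsIntegralElem
        (heckeBetaBar L M q (jL M L)) := heckeBeta_jL_mem_chartB0
    show IsIntegral _ (heckeBetaBar L M q (jL M L))
    exact isIntegral_trans (A := C) _
      (isIntegral_of_isIntegralElem C.toSubring _
        (fun s : Algebra.adjoin A ({chartCoord L (M * q) false} : Set (FL (M * q) L)) => hS s s.2)
        hint)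
  | true =>
    rw [chartCoord, cond_true, map_inv₀]
    exact isIntegral_heckeBeta_jL_inv hw

include hw in
/-- The second degeneracy map carries the base of a chart into the integral closure. -/
theorem heckeBeta_algebraMap_chartBase_mem (r : ChartBase A b) :
    heckeBetaBar L M q (algebraMap (ChartBase A b) (FL M L) r) ∈ chartB A (M * q) b := by
  set C := chartB A (M * q) b
  obtain ⟨ϖ, hϖ⟩ := IsDiscreteValuationRing.exists_irreducible A
  let φ : A[X] →+* FL (M * q) L :=
    (heckeBetaBar L M q).toRingHom.comp (chartEval A M b)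
  have hC : ∀ a : A, φ (Polynomial.C a) = algebraMap (ChartBase A b) (FL (M * q) L)
      (algebraMap A[X] (ChartBase A b) (Polynomial.C a)) := by
    intro a
    show heckeBetaBar L M q (chartEval A M b (Polynomial.C a)) = _
    rw [algebraMap_chartBase_algebraMap, chartEval, chartEval, coe_eval₂RingHom, coe_eval₂RingHom,
      eval₂_C, eval₂_C]
    exact AlgHom.commutes _ _
  have hφ : ∀ p, φ p ∈ C := by
    intro p
    induction p using Polynomial.induction_on' with
    | add p r hp hr => rw [map_add]; exact C.add_mem hp hr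
    | monomial n a =>
      rw [← C_mul_X_pow_eq_monomial, map_mul, map_pow, hC]
      refine C.mul_mem (C.algebraMap_mem _) (C.pow_mem ?_ n)
      show heckeBetaBar L M q (chartEval A M b X) ∈ C
      rw [chartEval, coe_eval₂RingHom, eval₂_X]
      exact isIntegral_heckeBeta_chartCoord hw b
  obtain ⟨x, s, rfl⟩ := IsLocalization.exists_mk'_eq (chartS A b) r
  obtain ⟨g, hg⟩ := (redPoly_eq_zero_iff hϖ ((s : A[X]) - 1)).1
    (by rw [map_sub, (mem_chartS A).1 s.2, map_one, sub_self])
  have : Algebra.IsIntegral (ChartBase A b) C :=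
    inferInstanceAs (Algebra.IsIntegral (ChartBase A b)
      (integralClosure (ChartBase A b) (FL (M * q) L)))
  obtain ⟨u, hu⟩ := isUnit_one_add_mul_of_isIntegral (C := C)
    (isUnit_one_add_chartPi (A := A) (b := b) hϖ) ⟨φ g, hφ g⟩
  have hs : φ (s : A[X]) = ((u : C) : FL (M * q) L) := by
    rw [hu, show (s : A[X]) = 1 + Polynomial.C ϖ * g by rw [← hg]; ring, map_add, map_one, map_mul,
      hC]
    rfl
  have heq := congrArg (fun y => heckeBetaBar L M q (algebraMap (ChartBase A b) (FL M L) y))
    (IsLocalization.mk'_spec (ChartBase A b) x s)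
  simp only [map_mul, algebraMap_chartBase_algebraMap] at heq
  change _ * φ (s : A[X]) = φ x at heq
  rw [hs] at heq
  have h2 : ((u : C) : FL (M * q) L) * ((↑u⁻¹ : C) : FL (M * q) L) = 1 := by
    rw [← MulMemClass.coe_mul, Units.mul_inv]; rfl
  rw [← mul_one (heckeBetaBar L M q _), ← h2, ← mul_assoc, heq]
  exact C.mul_mem (hφ x) (↑u⁻¹ : C).2

/-- The first degeneracy map carries the chart of level `M` into that of level `Mq`. -/
theorem heckeAlpha_mem_chartB {f : FL M L} (hf : f ∈ chartB A M b) :
    heckeAlphaBar L M q f ∈ chartB A (M * q) b := by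
  have h := isIntegralElem_map (heckeAlphaBar L M q).toRingHom
    (hf : (algebraMap (ChartBase A b) (FL M L)).IsIntegralElem f)
  rwa [show (heckeAlphaBar L M q).toRingHom.comp (algebraMap (ChartBase A b) (FL M L)) =
    algebraMap (ChartBase A b) (FL (M * q) L) from
    RingHom.ext fun r => heckeAlpha_algebraMap_chartBase r] at h

include hw in
/-- The second degeneracy map carries the chart of level `M` into that of level `Mq`. -/
theorem heckeBeta_mem_chartB {f : FL M L} (hf : f ∈ chartB A M b) :
    heckeBetaBar L M q f ∈ chartB A (M * q) b := by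
  set C := integralClosure (ChartBase A b) (FL (M * q) L) with hC
  have hR : ∀ r, heckeBetaBar L M q (algebraMap (ChartBase A b) (FL M L) r) ∈ C :=
    fun r => heckeBeta_algebraMap_chartBase_mem hw r
  have h := isIntegralElem_map (heckeBetaBar L M q).toRingHom
    (hf : (algebraMap (ChartBase A b) (FL M L)).IsIntegralElem f)
  show IsIntegral (ChartBase A b) (heckeBetaBar L M q f)
  exact isIntegral_trans (A := C) _ (isIntegral_of_isIntegralElem C.toSubring _ hR h)

/-- The chart has two components glued along Frobenius. -/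
theorem gaussTwoComponent (b : Bool) (honto : ChartOnto A q M b)
    (hgen : HasRationalGenerators q M (IsLocalRing.ResidueField A) b)
    (_hfin : IsFiniteChart M (IsLocalRing.ResidueField A) b) :
    Chart.TwoComponent (gaussChart ι hqM hw hfd ϖ hϖ b) q
      (chartFr (IsLocalRing.ResidueField A) q M b) := by
  set k := IsLocalRing.ResidueField A
  set t : chartP k M q b := ⟨_, chartCoordK_mem k q M b⟩ with ht
  refine ⟨⟨fun a => ?_, fun a => ?_⟩, ?_, ?_⟩
  · obtain ⟨f, hf, hfa⟩ := honto a a.2
    have hmem := heckeAlpha_mem_chartB (q := q) hf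
    refine ⟨⟨_, mem_pairBv_of_isIntegral hw hmem⟩, hmem, Prod.ext (Subtype.ext ?_) (Subtype.ext ?_)⟩
    · exact (hasGaussRed_pairRed1 _ w _).unique (hasGaussRed_alpha _ hfa)
    · refine (hasGaussRed_pairRed2 _ w _).unique ?_
      show HasGaussRed _ ((w (heckeAlphaBar L M q f) : FL (M * q) L) : LaurentSeries L) _
      rw [hw.alpha]
      exact hasGaussRed_beta _ hfa
  · obtain ⟨f, hf, hfa⟩ := honto a a.2
    have hmem := heckeBeta_mem_chartB hw hf
    refine ⟨⟨_, mem_pairBv_of_isIntegral hw hmem⟩, hmem, Prod.ext (Subtype.ext ?_) (Subtype.ext ?_)⟩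
    · exact (hasGaussRed_pairRed1 _ w _).unique (hasGaussRed_beta _ hfa)
    · refine (hasGaussRed_pairRed2 _ w _).unique ?_
      show HasGaussRed _ ((w (heckeBetaBar L M q f) : FL (M * q) L) : LaurentSeries L) _
      rw [hw.beta]
      exact hasGaussRed_alpha _ hfa
  · exact hgen
  · obtain ⟨G, hG, -⟩ := hgen
    exact exists_form_chartPair ⟨G, hG⟩

end Fermat.Agent.BadPrime
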