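import Fermat.Agent.BadPrime.CoreAssembly
import Fermat.Agent.BadPrime.GaussChartUFD
import Fermat.Agent.BadPrime.GaussGlobal
import Fermat.Agent.BadPrime.GaussSemilinear
import Fermat.Agent.BadPrime.GaussTwoComponent

/-!
# The two-component model of `X₀(Mq)` gives the core property
-/

set_option autoImplicit false
set_option synthInstance.maxHeartbeats 400000
set_option linter.unusedSectionVars false
set_option linter.style.haveILetI false
set_option maxSynthPendingDepth 3

noncomputable section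

open ModularCurve IntermediateField AlgebraicCurve

namespace Fermat.Agent.BadPrime

open Fermat.Agent.Reduction Fermat.Agent.Modular

local notation "Qb" => AlgebraicClosure ℚ

variable {q : ℕ} [Fact q.Prime] {M : ℕ} [NeZero M]

/-- The instances over a number field, for `m = 1` and `m = q ^ 2`. -/
theorem levelModels_comap {A : ValuationSubring Qb} (hA : A.LiesOverPrime q)
    (hN : (q = 2 → 3 ∣ M) ∧ (q = 3 → 2 ∣ M)) (hqM : ¬ q ∣ M) {m : ℕ} (hm : m = 1 ∨ m = q ^ 2)
    (L : IntermediateField ℚ Qb) [FiniteDimensional ℚ L] [Algebra.IsAlgebraic ℚ L]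
    (AL : ValuationSubring L) [IsDiscreteValuationRing AL]
    [CharP (IsLocalRing.ResidueField AL) q] [Finite (IsLocalRing.ResidueField AL)]
    (hAL : AL = A.comap (algebraMap L Qb)) (ι : L →+* ℂ)
    (wL : FL (M * q) L →ₐ[L] FL (M * q) L) (hwL : IsALInvolution wL)
    (hfd : HasFullResidueDegree (IsLocalRing.ResidueField AL) L M) (ϖ : AL) (hϖ : Irreducible ϖ)
    (s : L ≃ₐ[ℚ] L)
    (hs : ∀ a : AL, ∃ h : s (a : L) ∈ AL,
      IsLocalRing.residue AL ⟨s (a : L), h⟩ = IsLocalRing.residue AL a ^ m) :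
    LevelModels ι hqM hwL hfd ϖ hϖ s m := by
  have hst : ∀ a ∈ AL, s a ∈ AL := fun a ha => (hs ⟨a, ha⟩).1
  have hres : ∀ c, residueAut s hst c = c ^ m := fun c => by
    obtain ⟨a, rfl⟩ := IsLocalRing.residue_surjective c
    exact (residueAut_residue s hst a).trans (hs a).2
  have h1 : ∀ b, ChartOnto AL q M b := fun b =>
    chartOnto_comap (L₀ := L) M hqM A hA AL hAL hN b
  have h2 : ∀ b, HasRationalGenerators q M (IsLocalRing.ResidueField AL) b := fun b =>
    hasRationalGenerators _ q M b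
  have h3 : ∀ b, IsFiniteChart M (IsLocalRing.ResidueField AL) b := fun b =>
    isFiniteChart _ M b
  have H := fun b => gaussTwoComponent ι hqM hwL hfd ϖ hϖ b (h1 b) (h2 b) (h3 b)
  refine ⟨gaussGlobal ι hqM hwL hfd ϖ hϖ, gaussExpansion ι hqM hwL hfd ϖ hϖ, ?_⟩
  refine ⟨H false, H true, ?_⟩
  refine ⟨gaussChartLink ι hqM hwL hfd ϖ hϖ false, gaussChartLink ι hqM hwL hfd ϖ hϖ true, ?_⟩
  refine ⟨gaussSemilinear s hst ι hqM hwL hfd ϖ hϖ false, gaussSemilinear s hst ι hqM hwL hfd ϖ hϖ true,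
    rfl, rfl, ?_, ?_⟩
  · intro y
    rcases hm with rfl | rfl
    · have e := gaussSemilinear_phi_eq_self s hst ι hqM hwL hfd ϖ hϖ
        (fun c => (hres c).trans (pow_one c)) false y
      exact (congrArg _ e).trans (pow_one _).symm
    · exact gaussSemilinear_mk_eq_pow_sq s hst ι hqM hwL hfd ϖ hϖ hres false (H false) y
  · intro y
    rcases hm with rfl | rfl
    · have e := gaussSemilinear_phi_eq_self s hst ι hqM hwL hfd ϖ hϖ
        (fun c => (hres c).trans (pow_one c)) true y
      exact (congrArg _ e).trans (pow_one _).symm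
    · exact gaussSemilinear_mk_eq_pow_sq s hst ι hqM hwL hfd ϖ hϖ hres true (H true) y

/-- The core property at every place over `q`. -/
theorem coreProperty (hN : (q = 2 → 3 ∣ M) ∧ (q = 3 → 2 ∣ M)) (hqM : ¬ q ∣ M)
    {A : ValuationSubring Qb} (hA : A.LiesOverPrime q) {n : ℕ} (hn : ¬ q ∣ n)
    {w : FL (M * q) Qb →ₐ[Qb] FL (M * q) Qb} (hw : IsALInvolution w) : CoreProperty A w n :=
  coreProperty_of_levelModels hA hqM hw hn fun _ hm L _ _ AL _ _ _ hAL ι wL hwL hfd ϖ hϖ s hs =>
    levelModels_comap hA hN hqM hm L AL hAL ι wL hwL hfd ϖ hϖ s hs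

end Fermat.Agent.BadPrime
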