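import Fermat.Agent.BadPrime.Systems
import Fermat.Agent.BadPrime.Embed
import Fermat.Agent.EichlerShimura.S30Of

/-!
# The full eigen-system of a newform over a ring of integers
-/

set_option autoImplicit false
set_option linter.style.haveILetI false

noncomputable section

open IsLocalRing CongruenceSubgroup ModularFormClass

namespace Fermat.Agent.BadPrime

/-- Extend a point of a subring of a finite `ℤ`-subring of `ℂ`, after a finite extension. -/
theorem exists_subring_extension (R₁ R₂ : Subring ℂ) (hle : R₁ ≤ R₂) [Module.Finite ℤ R₂]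
    (O' : Type) [CommRing O'] [IsDomain O'] [IsDiscreteValuationRing O']
    [IsAdicComplete (maximalIdeal O') O'] [Finite (ResidueField O')] [CharZero O']
    (iota : R₁ →+* O') :
    ∃ (O'' : Type) (_ : CommRing O'') (_ : IsDomain O'') (_ : IsDiscreteValuationRing O'')
      (_ : IsAdicComplete (maximalIdeal O'') O'')
      (_ : Finite (ResidueField O'')) (_ : CharZero O'')
      (_ : Algebra O' O'') (_ : Module.Finite O' O'') (_ : IsLocalHom (algebraMap O' O'')),
      Function.Injective (algebraMap O' O'') ∧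
      ∃ χ' : R₂ →+* O'', Function.Injective χ' ∧
        ∀ x : R₁, χ' (Subring.inclusion hle x) = algebraMap O' O'' (iota x) := by
  obtain ⟨O'', i1, i2, i3, i4, i5, i6, i7, i8, i9, hinj, χ', hχ'⟩ :=
    EichlerShimura.exists_finiteDVR_ringHom_extension R₁ R₂ (Subring.inclusion hle)
      (Subring.inclusion_injective hle) O' iota
  exact ⟨O'', i1, i2, i3, i4, i5, i6, i7, i8, i9, hinj, χ', injective_of_finite_int χ', hχ'⟩

/-- A point `iota` of the values away from `S` extends to a point of the full eigen-character of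
`g` with the same kernel, after a finite extension. -/
theorem exists_full_system {M : ℕ} [NeZero M] {g : CuspForm (Gamma0 M) 2}
    (hg : g.IsNormalizedEigenform) (S : Finset ℕ) (hMS : ∀ q : ℕ, q.Prime → q ∣ M → q ∈ S)
    (O' : Type) [CommRing O'] [IsDomain O'] [IsDiscreteValuationRing O']
    [IsAdicComplete (maximalIdeal O') O'] [Finite (ResidueField O')] [CharZero O']
    (chig : CuspForm.heckeAlgebra M 2 (↑S : Set ℕ) →+* ℂ)
    (hchig : ∀ (ℓ : ℕ) (hℓ : ℓ.Prime) (hℓM : ¬ ℓ ∣ M) (hℓS : ℓ ∉ (↑S : Set ℕ)),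
      chig (CuspForm.heckeAlgebra.T hℓ hℓM hℓS) = qCoeff g ℓ)
    (iota : chig.range →+* O') :
    ∃ φ : CuspForm.heckeAlgebra M 2 (∅ : Set ℕ) →+* ℂ,
      (∀ (ℓ : ℕ) (hℓ : ℓ.Prime) (hℓM : ¬ ℓ ∣ M),
        φ (CuspForm.heckeAlgebra.T hℓ hℓM (Set.notMem_empty ℓ)) = qCoeff g ℓ) ∧
      (∀ (q : ℕ) (hq : q.Prime) (hqM : q ∣ M),
        φ (CuspForm.heckeAlgebra.U hq hqM (Set.notMem_empty q)) = qCoeff g q) ∧
      ∃ (O'' : Type) (_ : CommRing O'') (_ : IsDomain O'') (_ : IsDiscreteValuationRing O'')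
        (_ : IsAdicComplete (maximalIdeal O'') O'')
        (_ : Finite (ResidueField O'')) (_ : CharZero O'')
        (_ : Algebra O' O'') (_ : Module.Finite O' O'') (_ : IsLocalHom (algebraMap O' O'')),
        Function.Injective (algebraMap O' O'') ∧
        ∃ χ : CuspForm.heckeAlgebra M 2 (∅ : Set ℕ) →+* O'',
          RingHom.ker χ = RingHom.ker φ ∧
          ∀ (ℓ : ℕ) (hℓ : ℓ.Prime) (hℓM : ¬ ℓ ∣ M) (hℓS : ℓ ∉ (↑S : Set ℕ)),
            χ (CuspForm.heckeAlgebra.T hℓ hℓM (Set.notMem_empty ℓ)) =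
              algebraMap O' O'' ((iota.comp chig.rangeRestrict)
                (CuspForm.heckeAlgebra.T hℓ hℓM hℓS)) := by
  obtain ⟨φ, -, hT, hU⟩ := exists_eigenChar hg (∅ : Set ℕ)
  refine ⟨φ, fun ℓ hℓ hℓM => hT ℓ hℓ hℓM _, fun q hq hqM => hU q hq hqM _, ?_⟩
  let inc : CuspForm.heckeAlgebra M 2 (↑S : Set ℕ) →ₐ[ℤ] CuspForm.heckeAlgebra M 2 (∅ : Set ℕ) :=
    Subalgebra.inclusion (CuspForm.heckeAlgebra_mono (Set.empty_subset _))
  have hagree : ∀ t, chig t = φ (inc t) := by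
    rintro ⟨t, ht⟩
    induction ht using Algebra.adjoin_induction with
    | mem x hx =>
      rcases hx with ⟨ℓ, hℓ, hℓM, hℓS, rfl⟩ | ⟨q, hqM, hq, hqS, rfl⟩
      · exact (hchig ℓ hℓ hℓM hℓS).trans (hT ℓ hℓ hℓM (Set.notMem_empty ℓ)).symm
      · exact absurd (Finset.mem_coe.mpr (hMS q hq hqM)) hqS
    | algebraMap r =>
      show chig (algebraMap ℤ _ r) = φ (inc (algebraMap ℤ _ r))
      rw [AlgHom.commutes, eq_intCast, eq_intCast, map_intCast, map_intCast]
    | add x y hx hy h1 h2 =>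
      show chig (⟨x, hx⟩ + ⟨y, hy⟩) = φ (inc (⟨x, hx⟩ + ⟨y, hy⟩))
      rw [map_add, map_add, map_add, h1, h2]
    | mul x y hx hy h1 h2 =>
      show chig (⟨x, hx⟩ * ⟨y, hy⟩) = φ (inc (⟨x, hx⟩ * ⟨y, hy⟩))
      rw [map_mul, map_mul, map_mul, h1, h2]
  have hle : chig.range ≤ φ.range := by
    rintro x ⟨t, rfl⟩
    exact ⟨inc t, (hagree t).symm⟩
  haveI := HeckeFinite.moduleFinite_heckeAlgebra M 2 (∅ : Set ℕ)
  haveI : Module.Finite ℤ φ.range :=
    Module.Finite.of_surjective φ.rangeRestrict.toIntAlgHom.toLinearMap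
      φ.rangeRestrict_surjective
  obtain ⟨O'', i1, i2, i3, i4, i5, i6, i7, i8, i9, hinj, χ', hχinj, hχ'⟩ :=
    exists_subring_extension chig.range φ.range hle O' iota
  refine ⟨O'', i1, i2, i3, i4, i5, i6, i7, i8, i9, hinj, χ'.comp φ.rangeRestrict, ?_,
    fun ℓ hℓ hℓM hℓS => ?_⟩
  · ext t
    rw [RingHom.mem_ker, RingHom.mem_ker, RingHom.comp_apply]
    refine ⟨fun h => ?_, fun h => by
      rw [show φ.rangeRestrict t = 0 from Subtype.ext h, map_zero]⟩
    have := hχinj (h.trans (map_zero χ').symm)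
    exact congrArg Subtype.val this
  · rw [RingHom.comp_apply, RingHom.comp_apply iota, ← hχ']
    congr 1
    exact Subtype.ext (hagree (CuspForm.heckeAlgebra.T hℓ hℓM hℓS)).symm

end Fermat.Agent.BadPrime
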