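import Mathlib.RingTheory.Valuation.LocalSubring
import Mathlib.RingTheory.LocalRing.ResidueField.Basic
import Mathlib.FieldTheory.Minpoly.IsIntegrallyClosed
import Mathlib.LinearAlgebra.FiniteDimensional.Lemmas
import Mathlib.Algebra.Polynomial.Lifts

/-!
# Valuations of a finite extension exhausted by residues

If `n = [F:K]` elements, integral at all the valuations `V j` of `F` above the valuation ring `G` of
`K`, have jointly independent residues, then their `G`-span is the intersection of the `V j`, so
that intersection is integral over `G`.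
-/

set_option autoImplicit false

noncomputable section

open IsLocalRing

namespace Fermat.Agent.BadPrime

section exhaust

variable {K F : Type*} [Field K] [Field F] [Algebra K F] (G : ValuationSubring K)
variable {ι J : Type*} [Fintype ι] (V : J → ValuationSubring F) (y : ι → F)

/-- The residues of the family `y` at the valuations `V` are jointly independent over the residue
field of `G`. -/
def JointlyIndependent : Prop :=
  ∀ c : ι → K, (∀ i, c i ∈ G) → (∀ j, ∑ i, algebraMap K F (c i) * y i ∈ (V j).nonunits) →
    ∀ i, c i ∈ G.nonunits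

variable {G V y} (hG : ∀ j, ∀ g ∈ G, algebraMap K F g ∈ V j)
  (hnu : ∀ j, ∀ g ∈ G.nonunits, algebraMap K F g ∈ (V j).nonunits)
  (hind : JointlyIndependent G V y)

include hnu hind in
theorem coeff_mem_of_forall_sum_mem [Nonempty J] {c : ι → K}
    (hc : ∀ j, ∑ i, algebraMap K F (c i) * y i ∈ V j) : ∀ i, c i ∈ G := by
  classical
  by_contra hcon
  push Not at hcon
  obtain ⟨i₀, hi₀⟩ := hcon
  obtain ⟨m, -, hm⟩ := Finset.exists_max_image Finset.univ (fun i => G.valuation (c i))
    ⟨i₀, Finset.mem_univ _⟩
  have hgt : 1 < G.valuation (c m) :=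
    lt_of_lt_of_le (not_le.1 fun h => hi₀ ((G.valuation_le_one_iff _).1 h))
      (hm i₀ (Finset.mem_univ _))
  have hm0 : c m ≠ 0 := fun h => by simp [h] at hgt
  have hs : (c m)⁻¹ ∈ G.nonunits := by
    rw [ValuationSubring.mem_nonunits_iff, map_inv₀]
    exact inv_lt_one_of_one_lt₀ hgt
  have hd : ∀ i, (c m)⁻¹ * c i ∈ G := fun i => by
    rw [← G.valuation_le_one_iff, map_mul, map_inv₀,
      ← inv_mul_cancel₀ (ne_of_gt (lt_trans zero_lt_one hgt))]
    exact mul_le_mul_right (hm i (Finset.mem_univ _)) _
  have := hind (fun i => (c m)⁻¹ * c i) hd (fun j => ?_) m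
  · rw [inv_mul_cancel₀ hm0] at this
    exact absurd this (by simp [ValuationSubring.mem_nonunits_iff])
  · rw [show ∑ i, algebraMap K F ((c m)⁻¹ * c i) * y i =
      algebraMap K F (c m)⁻¹ * ∑ i, algebraMap K F (c i) * y i by
        simp only [Finset.mul_sum, map_mul, mul_assoc]]
    rw [ValuationSubring.mem_nonunits_iff, map_mul]
    refine lt_of_le_of_lt (mul_le_of_le_one_right zero_le (((V j).valuation_le_one_iff _).2 (hc j))) ?_
    exact (hnu j _ hs)

include hind in
theorem linearIndependent_of_jointlyIndependent [Nonempty J] : LinearIndependent K y := by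
  refine Fintype.linearIndependent_iff.2 fun c hc i => ?_
  by_contra hi
  classical
  obtain ⟨m, -, hm⟩ := Finset.exists_max_image Finset.univ (fun i => G.valuation (c i))
    ⟨i, Finset.mem_univ _⟩
  have hm0 : c m ≠ 0 := by
    intro h0
    have := hm i (Finset.mem_univ _)
    rw [h0, map_zero, le_zero_iff, map_eq_zero] at this
    exact hi this
  have hd : ∀ i, (c m)⁻¹ * c i ∈ G := fun i => by
    rw [← G.valuation_le_one_iff, map_mul, map_inv₀,
      ← inv_mul_cancel₀ ((map_ne_zero G.valuation).2 hm0)]
    exact mul_le_mul_right (hm i (Finset.mem_univ _)) _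
  have := hind (fun i => (c m)⁻¹ * c i) hd (fun j => ?_) m
  · rw [inv_mul_cancel₀ hm0] at this
    exact absurd this (by simp [ValuationSubring.mem_nonunits_iff])
  · have h0 : ∑ i, algebraMap K F (c i) * y i = 0 := by
      simpa [Algebra.smul_def] using hc
    rw [show ∑ i, algebraMap K F ((c m)⁻¹ * c i) * y i =
      algebraMap K F (c m)⁻¹ * ∑ i, algebraMap K F (c i) * y i by
        simp only [Finset.mul_sum, map_mul, mul_assoc], h0, mul_zero]
    exact zero_mem _

variable [Nonempty J] [FiniteDimensional K F] (hy : ∀ i j, y i ∈ V j)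
  (hcard : Fintype.card ι = Module.finrank K F)

include hnu hind hcard in
/-- The intersection of the valuation rings is the `G`-span of `y`. -/
theorem exists_coeff_of_forall_mem {x : F} (hx : ∀ j, x ∈ V j) :
    ∃ c : ι → K, (∀ i, c i ∈ G) ∧ ∑ i, algebraMap K F (c i) * y i = x := by
  have hspan := LinearIndependent.span_eq_top_of_card_eq_finrank'
    (linearIndependent_of_jointlyIndependent hind) hcard
  obtain ⟨c, hc⟩ := (Submodule.mem_span_range_iff_exists_fun K).1 (hspan.ge (Submodule.mem_top (x := x)))
  simp only [Algebra.smul_def] at hc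
  exact ⟨c, coeff_mem_of_forall_sum_mem hnu hind fun j => hc ▸ hx j, hc⟩

include hG hnu hind hy hcard in
/-- An element of all the valuation rings is integral over `G`. -/
theorem isIntegral_of_forall_mem [Algebra G F] [IsScalarTower G K F] {x : F}
    (hx : ∀ j, x ∈ V j) : IsIntegral G x := by
  let M : Submodule G F := Submodule.span G (Set.range y)
  have hM : ∀ {z : F}, z ∈ M ↔ ∀ j, z ∈ V j := by
    intro z
    refine ⟨fun hz j => ?_, fun hz => ?_⟩
    · induction hz using Submodule.span_induction with
      | mem _ h => obtain ⟨i, rfl⟩ := h; exact hy i j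
      | zero => exact zero_mem _
      | add _ _ _ _ ha hb => exact add_mem ha hb
      | smul g _ _ ha =>
        rw [Algebra.smul_def, IsScalarTower.algebraMap_apply G K F]
        exact mul_mem (hG j g g.2) ha
    · obtain ⟨c, hc, rfl⟩ := exists_coeff_of_forall_mem hnu hind hcard hz
      refine Submodule.sum_mem _ fun i _ => ?_
      rw [show algebraMap K F (c i) * y i = (⟨c i, hc i⟩ : G) • y i by
        rw [Algebra.smul_def, IsScalarTower.algebraMap_apply G K F]; rfl]
      exact Submodule.smul_mem _ _ (Submodule.subset_span ⟨i, rfl⟩)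
  refine IsIntegral.of_mem_of_fg
    (Submodule.toSubalgebra M (hM.2 fun j => one_mem _)
      fun a b ha hb => hM.2 fun j => mul_mem (hM.1 ha j) (hM.1 hb j)) ?_ x (hM.2 hx)
  rw [Submodule.toSubalgebra_toSubmodule]
  exact Submodule.fg_span (Set.finite_range y)

end exhaust

section intersect

/-- Integrality over two integrally closed subrings with fraction field `K` gives integrality over
any subring containing their intersection. -/
theorem isIntegral_of_isIntegral_pair {K F : Type*} [Field K] [Field F] [Algebra K F]
    {R₁ R₂ R : Type*} [CommRing R₁] [CommRing R₂] [CommRing R] [IsDomain R₁] [IsDomain R₂]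
    [IsIntegrallyClosed R₁] [IsIntegrallyClosed R₂]
    [Algebra R₁ K] [IsFractionRing R₁ K] [Algebra R₂ K] [IsFractionRing R₂ K] [Algebra R K]
    [Algebra R₁ F] [IsScalarTower R₁ K F] [Algebra R₂ F] [IsScalarTower R₂ K F]
    [Algebra R F] [IsScalarTower R K F]
    (hR : ∀ z : K, z ∈ (algebraMap R₁ K).range → z ∈ (algebraMap R₂ K).range →
      z ∈ (algebraMap R K).range)
    {x : F} (h₁ : IsIntegral R₁ x) (h₂ : IsIntegral R₂ x) : IsIntegral R x := by
  have e₁ := minpoly.isIntegrallyClosed_eq_field_fractions' K h₁
  have e₂ := minpoly.isIntegrallyClosed_eq_field_fractions' K h₂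
  have hx : IsIntegral K x := h₁.tower_top
  have hlift : minpoly K x ∈ Polynomial.lifts (algebraMap R K) := by
    refine (Polynomial.lifts_iff_coeff_lifts _).2 fun i => ?_
    exact hR _ ⟨(minpoly R₁ x).coeff i, by rw [e₁, Polynomial.coeff_map]⟩
      ⟨(minpoly R₂ x).coeff i, by rw [e₂, Polynomial.coeff_map]⟩
  obtain ⟨p, hp, -, hpm⟩ :=
    Polynomial.lifts_and_natDegree_eq_and_monic hlift (minpoly.monic hx)
  refine ⟨p, hpm, ?_⟩
  rw [← Polynomial.aeval_def, ← Polynomial.aeval_map_algebraMap K, hp, minpoly.aeval]

end intersect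

end Fermat.Agent.BadPrime
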