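import Fermat.Agent.BadPrime.GaussField
import Fermat.Agent.BadPrime.GaussExhaust

/-!
# The Gauss valuation over the `j`-line and at a level prime to the characteristic

If `[k(j_d : d ∣ M) : k(j)] = [L(j_d : d ∣ M) : L(j)]`, reductions at level `M` lie in
`k(j_d : d ∣ M)` and the Gauss ring of level `M` is integral over the one of `L(j)`.
-/

set_option autoImplicit false

noncomputable section

open ModularCurve IntermediateField
open scoped IntermediateField

set_option synthInstance.maxHeartbeats 400000

namespace Fermat.Agent.BadPrime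

open Fermat.Agent.Reduction Fermat.Agent.Modular

variable {L k : Type*} [Field L] [Field k] [Algebra ℚ L] {A : ValuationSubring L} {π : A →+* k}

theorem transcendental_jqModC : Transcendental k (jqModC k) := by
  refine transcendental_iff.2 fun p hp => ?_
  by_contra hne
  have h := congrArg (fun z : LaurentSeries k => z.coeff (-(p.natDegree : ℤ))) hp
  rw [Polynomial.aeval_eq_sum_range] at h
  simp only [Algebra.smul_def, algebraMap_laurentSeries_eq_single, HahnSeries.coeff_sum,
    HahnSeries.coeff_single_zero_mul, HahnSeries.coeff_zero] at h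
  rw [Finset.sum_range_succ, Finset.sum_eq_zero, zero_add,
    ModularCurve.coeff_jqModC_pow_self, mul_one] at h
  · exact hne (Polynomial.leadingCoeff_eq_zero.1 h)
  · intro i hi
    rw [ModularCurve.coeff_jqModC_pow_of_lt k
      (by have := Finset.mem_range.1 hi; omega), mul_zero]

variable {M : ℕ} [NeZero M]

theorem coe_algebraMap_FL (c : L) :
    ((algebraMap L (FL M L) c : FL M L) : LaurentSeries L) = HahnSeries.C c := by
  rw [HahnSeries.C_apply, ← algebraMap_laurentSeries_eq_single]
  rfl

theorem coe_aeval_jL (p : Polynomial L) :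
    ((Polynomial.aeval (jL M L) p : FL M L) : LaurentSeries L) =
      p.eval₂ HahnSeries.C ((jL M L : FL M L) : LaurentSeries L) := by
  induction p using Polynomial.induction_on' with
  | add p q hp hq =>
    rw [map_add, Polynomial.eval₂_add, ← hp, ← hq]
    rfl
  | monomial i c =>
    rw [Polynomial.aeval_monomial, Polynomial.eval₂_monomial, IntermediateField.coe_mul,
      coe_algebraMap_FL, IntermediateField.coe_pow]

variable [IsLocalHom π]

/-- An integral polynomial in `j` reduces to the reduced polynomial in `jqModC k`. -/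
theorem hasGaussRed_aeval_jL (p : Polynomial L) (hp : ∀ i, p.coeff i ∈ A) :
    ∃ pb : Polynomial k, (∀ i, pb.coeff i = π ⟨p.coeff i, hp i⟩) ∧
      HasGaussRed π ((Polynomial.aeval (jL M L) p : FL M L) : LaurentSeries L)
        (Polynomial.aeval (jqModC k) pb) := by
  have hl : p ∈ Polynomial.lifts A.subtype :=
    (Polynomial.lifts_iff_coeff_lifts p).2 fun i => ⟨⟨_, hp i⟩, rfl⟩
  obtain ⟨P, rfl⟩ := (Polynomial.mem_lifts p).1 hl
  refine ⟨P.map π, fun i => ?_, ?_⟩
  · rw [Polynomial.coeff_map]
    congr 1
    exact Subtype.ext (Polynomial.coeff_map A.subtype i).symm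
  · rw [coe_aeval_jL, Polynomial.eval₂_map, Polynomial.aeval_def, Polynomial.eval₂_map]
    clear hp hl
    induction P using Polynomial.induction_on' with
    | add p q hp hq => rw [Polynomial.eval₂_add, Polynomial.eval₂_add]; exact hp.add hq
    | monomial i c =>
      rw [Polynomial.eval₂_monomial, Polynomial.eval₂_monomial]
      refine HasGaussRed.mul ?_ ((hasGaussRed_jL M).pow i)
      simp only [RingHom.coe_comp, Function.comp_apply, algebraMap_laurentSeries_eq_single,
        ValuationSubring.subtype_apply, ← HahnSeries.C_apply]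
      exact hasGaussRed_C c

/-- Reductions of elements of `L(j)` lie in `k(j)`. -/
theorem hasGaussRed_mem_of_mem_adjoin_jL {x : FL M L} (hx : x ∈ L⟮jL M L⟯) {g : LaurentSeries k}
    (hg : HasGaussRed π (x : LaurentSeries L) g) : g ∈ k⟮jqModC k⟯ := by
  classical
  obtain ⟨r, s, rfl⟩ := (IntermediateField.mem_adjoin_simple_iff (F := L) (α := jL M L) x).1 hx
  have hmem : ∀ pb : Polynomial k, Polynomial.aeval (jqModC k) pb ∈ k⟮jqModC k⟯ := fun pb =>
    IntermediateField.algebra_adjoin_le_adjoin k _ <| by
      rw [Algebra.adjoin_singleton_eq_range_aeval]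
      exact ⟨pb, rfl⟩
  by_cases hs : Polynomial.aeval (jL M L) s = 0
  · rw [hs, div_zero] at hg
    rw [hg.unique hasGaussRed_zero]
    exact zero_mem _
  have hs0 : s ≠ 0 := fun h => hs (by rw [h, map_zero])
  obtain ⟨i, -, hi0, hmax⟩ := exists_max (A := A) (Finset.range (s.natDegree + 1)) s.coeff
    ⟨s.natDegree, Finset.self_mem_range_succ _, Polynomial.leadingCoeff_ne_zero.2 hs0⟩
  set c : L := (s.coeff i)⁻¹
  have hc0 : c ≠ 0 := inv_ne_zero hi0
  have hs' : ∀ j, (Polynomial.C c * s).coeff j ∈ A := fun j => by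
    rw [Polynomial.coeff_C_mul, inv_mul_eq_div]
    by_cases hj : j ≤ s.natDegree
    · exact hmax j (Finset.mem_range.2 (Nat.lt_succ_of_le hj))
    · rw [Polynomial.coeff_eq_zero_of_natDegree_lt (not_le.1 hj), zero_div]
      exact A.zero_mem
  obtain ⟨sb, hsb, hsr⟩ := hasGaussRed_aeval_jL (M := M) (π := π) (Polynomial.C c * s) hs'
  have hsb0 : sb ≠ 0 := by
    intro h0
    have h1 := hsb i
    rw [h0, Polynomial.coeff_zero] at h1
    rw [show (⟨(Polynomial.C c * s).coeff i, hs' i⟩ : A) = 1 from Subtype.ext (by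
      show (Polynomial.C c * s).coeff i = 1
      rw [Polynomial.coeff_C_mul, inv_mul_cancel₀ hi0]), map_one] at h1
    exact zero_ne_one h1
  have hr : HasGaussRed π
      ((Polynomial.aeval (jL M L) (Polynomial.C c * r) : FL M L) : LaurentSeries L)
      (g * Polynomial.aeval (jqModC k) sb) := by
    have hxr : (Polynomial.aeval (jL M L) (Polynomial.C c * r) : FL M L) =
        Polynomial.aeval (jL M L) r / Polynomial.aeval (jL M L) s *
          Polynomial.aeval (jL M L) (Polynomial.C c * s) := by
      rw [map_mul, map_mul]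
      field_simp
    rw [hxr, IntermediateField.coe_mul]
    exact hg.mul hsr
  have hr' : ∀ j, (Polynomial.C c * r).coeff j ∈ A := fun j => by
    refine coeff_mem_of_hasGaussRed_aeval π (hasGaussRed_jL (π := π) (L := L) M)
      transcendental_jqModC _ (z := g * Polynomial.aeval (jqModC k) sb) ?_ j
    rw [coe_aeval_jL] at hr
    exact hr
  obtain ⟨rb, -, hrr⟩ := hasGaussRed_aeval_jL (M := M) (π := π) _ hr'
  have hne : Polynomial.aeval (jqModC k) sb ≠ 0 := fun h =>
    hsb0 (transcendental_iff.1 transcendental_jqModC sb h)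
  rw [eq_div_of_mul_eq hne (hr.unique hrr)]
  exact div_mem (hmem rb) (hmem sb)

variable [Algebra.IsAlgebraic ℚ L]

variable (π M) in
/-- The Gauss ring of level `M`. -/
abbrev gaussFL : ValuationSubring (FL M L) :=
  gaussRing π (FL M L) (exists_scalable_quotient A π M)

variable (π M) in
/-- The Gauss ring of `L(j)`. -/
abbrev gaussJ : ValuationSubring (L⟮jL M L⟯) :=
  (gaussFL π M).comap (algebraMap (L⟮jL M L⟯) (FL M L))

theorem mem_nonunits_gaussJ_iff {c : L⟮jL M L⟯} :
    c ∈ (gaussJ π M).nonunits ↔ HasGaussRed π ((c : FL M L) : LaurentSeries L) 0 := by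
  rw [← mem_nonunits_gaussRing π (FL M L) (exists_scalable_quotient A π M) (f := (c : FL M L))]
  rcases eq_or_ne c 0 with rfl | hc
  · exact iff_of_true (zero_mem _) (by exact_mod_cast zero_mem (gaussFL π M).nonunits)
  have hc' : (c : FL M L) ≠ 0 := fun h => hc (Subtype.ext h)
  rw [ValuationSubring.mem_nonunits_iff, ValuationSubring.mem_nonunits_iff, ← not_le, ← not_le,
    not_iff_not]
  constructor <;> intro h
  · have h1 : c⁻¹ ∈ gaussJ π M := by
      rw [← (gaussJ π M).valuation_le_one_iff, map_inv₀]; exact inv_le_one_of_one_le₀ h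
    have h2 : ((c : FL M L))⁻¹ ∈ gaussFL π M := h1
    rwa [← (gaussFL π M).valuation_le_one_iff, map_inv₀,
      inv_le_one₀ (zero_lt_iff.2 ((map_ne_zero _).2 hc'))] at h2
  · have h1 : ((c : FL M L))⁻¹ ∈ gaussFL π M := by
      rw [← (gaussFL π M).valuation_le_one_iff, map_inv₀]; exact inv_le_one_of_one_le₀ h
    have h2 : c⁻¹ ∈ gaussJ π M := h1
    rwa [← (gaussJ π M).valuation_le_one_iff, map_inv₀,
      inv_le_one₀ (zero_lt_iff.2 ((map_ne_zero _).2 hc))] at h2

variable (k M) in
/-- `j` in `k(j(q^d) : d ∣ M)`. -/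
def jK : modularFunctionFieldFullC k M := ⟨jqModC k, jqModC_mem_full k M⟩

/-- Full residue degree at level `M`. -/
def HasFullResidueDegree (k : Type*) [Field k] (L : Type*) [Field L] [Algebra ℚ L] (M : ℕ)
    [NeZero M] : Prop :=
  FiniteDimensional k⟮jK k M⟯ (modularFunctionFieldFullC k M) ∧
    FiniteDimensional L⟮jL M L⟯ (FL M L) ∧
    Module.finrank k⟮jK k M⟯ (modularFunctionFieldFullC k M) = Module.finrank L⟮jL M L⟯ (FL M L)

theorem exists_lift_jointlyIndependent (hπ : Function.Surjective π)
    (h : HasFullResidueDegree k L M) :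
    ∃ (ι : Type) (_ : Fintype ι) (y : ι → FL M L) (b : ι → modularFunctionFieldFullC k M),
      Fintype.card ι = Module.finrank L⟮jL M L⟯ (FL M L) ∧
      (∀ i, HasGaussRed π (y i : LaurentSeries L) (b i : LaurentSeries k)) ∧
      JointlyIndependent (gaussJ π M) (fun _ : Unit => gaussFL π M) y := by
  obtain ⟨hf, -, he⟩ := h
  let B := Module.finBasis k⟮jK k M⟯ (modularFunctionFieldFullC k M)
  choose y hy using fun i => exists_hasGaussRed_of_mem_fullC (L := L) hπ
    (g := (B i : LaurentSeries k)) (B i).2
  refine ⟨_, inferInstance, y, B, by rw [Fintype.card_fin, he], hy, fun c hc hnu i => ?_⟩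
  have hcr : ∀ i, ∃ g : k⟮jK k M⟯, HasGaussRed π ((c i : FL M L) : LaurentSeries L)
      ((g : modularFunctionFieldFullC k M) : LaurentSeries k) := by
    intro i
    obtain ⟨g, hg⟩ : ∃ g, HasGaussRed π ((c i : FL M L) : LaurentSeries L) g :=
      (mem_gaussRing π (FL M L) (exists_scalable_quotient A π M)).1 (hc i)
    have hmem := hasGaussRed_mem_of_mem_adjoin_jL (c i).2 hg
    have hmap : (k⟮jK k M⟯).map (modularFunctionFieldFullC k M).val = k⟮jqModC k⟯ := by
      rw [IntermediateField.adjoin_map, Set.image_singleton]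
      rfl
    rw [← hmap] at hmem
    obtain ⟨g', hg', rfl⟩ := hmem
    exact ⟨⟨g', hg'⟩, hg⟩
  choose g hg using hcr
  have hsum : HasGaussRed π
      ((∑ i, algebraMap (L⟮jL M L⟯) (FL M L) (c i) * y i : FL M L) : LaurentSeries L)
      ((∑ i, g i • B i : modularFunctionFieldFullC k M) : LaurentSeries k) := by
    generalize (Finset.univ : Finset (Fin _)) = s
    induction s using Finset.induction_on with
    | empty =>
      rw [Finset.sum_empty, Finset.sum_empty, ZeroMemClass.coe_zero, ZeroMemClass.coe_zero]
      exact hasGaussRed_zero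
    | insert j s hj ih =>
      rw [Finset.sum_insert hj, Finset.sum_insert hj, IntermediateField.coe_add,
        IntermediateField.coe_add, IntermediateField.coe_mul]
      refine HasGaussRed.add ?_ ih
      rw [Algebra.smul_def, IntermediateField.coe_mul]
      exact (hg j).mul (hy j)
  have h0 := hsum.unique ((mem_nonunits_gaussRing π (FL M L) (exists_scalable_quotient A π M)).1 (hnu ()))
  have hg0 := Fintype.linearIndependent_iff.1 B.linearIndependent g
    (Subtype.ext h0) i
  rw [mem_nonunits_gaussJ_iff]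
  have := hg i
  rwa [hg0] at this

variable (π M) in
theorem gaussJ_hnu : ∀ (_ : Unit), ∀ g ∈ (gaussJ π M).nonunits,
    algebraMap (L⟮jL M L⟯) (FL M L) g ∈ (gaussFL π M).nonunits := fun _ _ hg =>
  (mem_nonunits_gaussRing π (FL M L) (exists_scalable_quotient A π M)).2 (mem_nonunits_gaussJ_iff.1 hg)

/-- Reductions at level `M` lie in `k(j(q^d) : d ∣ M)`. -/
theorem hasGaussRed_mem_fullC (hπ : Function.Surjective π) (h : HasFullResidueDegree k L M)
    {f : FL M L} {g : LaurentSeries k} (hg : HasGaussRed π (f : LaurentSeries L) g) :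
    g ∈ modularFunctionFieldFullC k M := by
  obtain ⟨ι, _, y, b, hcard, hy, hind⟩ := exists_lift_jointlyIndependent hπ h
  have := h.2.1
  obtain ⟨c, hc, hsum⟩ := exists_coeff_of_forall_mem (gaussJ_hnu π M) hind hcard (x := f)
    fun _ => ⟨g, hg⟩
  choose e he using fun i => (mem_gaussRing π (FL M L) (exists_scalable_quotient A π M)).1 (hc i)
  have hmem : ∀ i, e i ∈ modularFunctionFieldFullC k M := fun i =>
    IntermediateField.adjoin_simple_le_iff.2 (jqModC_mem_full k M)
      (hasGaussRed_mem_of_mem_adjoin_jL (c i).2 (he i))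
  have h2 : HasGaussRed π (f : LaurentSeries L) (∑ i, e i * (b i : LaurentSeries k)) := by
    rw [← hsum]
    generalize (Finset.univ : Finset ι) = s
    induction s using Finset.cons_induction with
    | empty =>
      rw [Finset.sum_empty, Finset.sum_empty, ZeroMemClass.coe_zero]
      exact hasGaussRed_zero
    | cons j s hj ih =>
      rw [Finset.sum_cons, Finset.sum_cons, IntermediateField.coe_add, IntermediateField.coe_mul]
      exact ((he j).mul (hy j)).add ih
  rw [hg.unique h2]
  exact sum_mem fun i _ => mul_mem (hmem i) (b i).2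

/-- The Gauss ring of level `M` is integral over that of `L(j)`. -/
theorem isIntegral_gaussFL (hπ : Function.Surjective π) (h : HasFullResidueDegree k L M)
    [Algebra (gaussJ π M) (FL M L)] [IsScalarTower (gaussJ π M) (L⟮jL M L⟯) (FL M L)]
    {x : FL M L} (hx : x ∈ gaussFL π M) : IsIntegral (gaussJ π M) x := by
  obtain ⟨ι, _, y, b, hcard, hy, hind⟩ := exists_lift_jointlyIndependent hπ h
  have := h.2.1
  exact isIntegral_of_forall_mem (fun _ g hg => hg) (gaussJ_hnu π M) hind
    (fun i _ => ⟨_, hy i⟩) hcard fun _ => hx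

end Fermat.Agent.BadPrime
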