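import Fermat.Agent.BadPrime.GaussChartRing
import Mathlib.RingTheory.DedekindDomain.IntegralClosure
import Mathlib.RingTheory.Algebraic.Integral
import Mathlib.RingTheory.Localization.Integral
import Mathlib.RingTheory.Polynomial.ScaleRoots

/-!
# The fraction field of a chart inside the function field
-/

set_option autoImplicit false
set_option synthInstance.maxHeartbeats 400000
set_option linter.unusedSectionVars false
set_option maxSynthPendingDepth 3

noncomputable section

open ModularCurve Polynomial IntermediateField
open scoped IntermediateField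

namespace Fermat.Agent.BadPrime

open Fermat.Agent.Reduction Fermat.Agent.Modular

variable {L : Type*} [Field L] [Algebra ℚ L] {A : ValuationSubring L} [IsDiscreteValuationRing A]
  {b : Bool} (N : ℕ) [NeZero N]

theorem algebraMap_chartBase_injective :
    Function.Injective (algebraMap (ChartBase A b) (FL N L)) := by
  obtain ⟨ϖ, hϖ⟩ := IsDiscreteValuationRing.exists_irreducible A
  refine (injective_iff_map_eq_zero _).2 fun r hr => ?_
  have key : ∀ r : ChartBase A b, algebraMap (ChartBase A b) (FL N L) r = 0 →
      ∃ r', algebraMap (ChartBase A b) (FL N L) r' = 0 ∧ r = chartPi A b ϖ * r' := by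
    intro r hr
    have h := hasGaussRed_algebraMap_chartBase (A := A) N r
    rw [hr, ZeroMemClass.coe_zero] at h
    have htr : Transcendental (IsLocalRing.ResidueField A)
        (chartCoordRed (IsLocalRing.ResidueField A) b) := by
      cases b with
      | false => exact transcendental_jqModC
      | true => exact fun hal => transcendental_jqModC (IsAlgebraic.inv_iff.1 hal)
    obtain ⟨r', rfl⟩ := (chartRed_eq_zero hϖ r).1
      (transcendental_iff.1 htr _ (h.unique hasGaussRed_zero))
    refine ⟨r', ?_, rfl⟩
    rw [map_mul, algebraMap_chartPi, mul_eq_zero] at hr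
    exact hr.resolve_left ((_root_.map_ne_zero _).2 fun h => hϖ.ne_zero (Subtype.ext h))
  by_contra hne
  obtain ⟨m, x, hx, rfl⟩ := WfDvdMonoid.max_power_factor hne (prime_chartPi hϖ).irreducible
  have : algebraMap (ChartBase A b) (FL N L) x = 0 := by
    rw [map_mul, map_pow, algebraMap_chartPi, mul_eq_zero] at hr
    exact hr.resolve_left
      (pow_ne_zero _ ((_root_.map_ne_zero _).2 fun h => hϖ.ne_zero (Subtype.ext h)))
  obtain ⟨x', -, rfl⟩ := key x this
  exact hx (dvd_mul_right _ _)

instance chartFaithful : FaithfulSMul (ChartBase A b) (FL N L) :=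
  (faithfulSMul_iff_algebraMap_injective _ _).2 (algebraMap_chartBase_injective N)

instance chartFieldAlgebra : Algebra (FractionRing (ChartBase A b)) (FL N L) :=
  FractionRing.liftAlgebra _ _

instance chartFieldTower :
    IsScalarTower (ChartBase A b) (FractionRing (ChartBase A b)) (FL N L) :=
  FractionRing.isScalarTower_liftAlgebra _ _

theorem algebraMap_mem_chartField (c : L) :
    algebraMap L (FL N L) c ∈ (algebraMap (FractionRing (ChartBase A b)) (FL N L)).fieldRange := by
  have h : ∀ a : A, algebraMap L (FL N L) (a : L) ∈
      (algebraMap (FractionRing (ChartBase A b)) (FL N L)).fieldRange := fun a =>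
    ⟨algebraMap (ChartBase A b) _ (algebraMap A[X] (ChartBase A b) (C a)), by
      rw [← IsScalarTower.algebraMap_apply, algebraMap_chartBase_algebraMap, chartEval,
        coe_eval₂RingHom, eval₂_C]
      rfl⟩
  rcases A.mem_or_inv_mem c with hc | hc
  · exact h ⟨c, hc⟩
  · have := inv_mem (h ⟨c⁻¹, hc⟩)
    rwa [map_inv₀, inv_inv] at this

variable (A b) in
/-- The fraction field of a chart, as a subfield containing the constants. -/
def chartField : IntermediateField L (FL N L) :=
  { (algebraMap (FractionRing (ChartBase A b)) (FL N L)).fieldRange with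
    algebraMap_mem' := algebraMap_mem_chartField N }

theorem mem_chartField {x : FL N L} :
    x ∈ chartField A b N ↔
      ∃ c, algebraMap (FractionRing (ChartBase A b)) (FL N L) c = x := Iff.rfl

theorem adjoin_jL_le_chartField : L⟮jL N L⟯ ≤ chartField A b N := by
  rw [IntermediateField.adjoin_simple_le_iff]
  have h : chartCoord L N b ∈ chartField A b N :=
    ⟨algebraMap (ChartBase A b) _ (algebraMap A[X] (ChartBase A b) X), by
      rw [← IsScalarTower.algebraMap_apply, algebraMap_chartBase_algebraMap, chartEval,
        coe_eval₂RingHom, eval₂_X]⟩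
  cases b with
  | false => exact h
  | true =>
    have := inv_mem h
    rwa [chartCoord, cond_true, inv_inv] at this

variable (ι : L →+* ℂ)

include ι in
theorem finiteDimensional_chartFieldAlgebra :
    FiniteDimensional (FractionRing (ChartBase A b)) (FL N L) := by
  have := finiteDimensional_FL N ι
  have hle := adjoin_jL_le_chartField (A := A) (b := b) N
  let B := Module.finBasis L⟮jL N L⟯ (FL N L)
  refine ⟨Submodule.fg_def.2 ⟨Set.range B, Set.finite_range B, eq_top_iff.2 ?_⟩⟩
  intro x _
  rw [← B.sum_repr x]
  refine Submodule.sum_mem _ fun i _ => ?_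
  obtain ⟨c, hc⟩ := (mem_chartField N).1 (hle (B.repr x i).2)
  have h : (B.repr x i) • B i = c • B i := by
    rw [Algebra.smul_def, Algebra.smul_def, hc]
    rfl
  rw [h]
  exact Submodule.smul_mem _ _ (Submodule.subset_span ⟨i, rfl⟩)

theorem charZero_fractionRing (N : ℕ) [NeZero N] : CharZero (FractionRing (ChartBase A b)) :=
  have : CharZero L := charZero_of_injective_algebraMap (algebraMap ℚ L).injective
  have : CharZero (FL N L) := charZero_of_injective_algebraMap (algebraMap L (FL N L)).injective
  (algebraMap (FractionRing (ChartBase A b)) (FL N L)).charZero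

include ι in
theorem finite_chartB : Module.Finite (ChartBase A b) (chartB A N b) := by
  have := charZero_fractionRing (A := A) (b := b) N
  have := finiteDimensional_chartFieldAlgebra (A := A) (b := b) N ι
  exact IsIntegralClosure.finite (ChartBase A b) (FractionRing (ChartBase A b)) (FL N L)
    (integralClosure (ChartBase A b) (FL N L))

include ι in
theorem exists_mul_mem_chartB (x : FL N L) :
    ∃ c ∈ chartB A N b, c ≠ 0 ∧ c * x ∈ chartB A N b := by
  have := finiteDimensional_chartFieldAlgebra (A := A) (b := b) N ι
  have halg : IsAlgebraic (ChartBase A b) x :=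
    (IsFractionRing.isAlgebraic_iff (ChartBase A b) (FractionRing (ChartBase A b)) (FL N L)).2
      (IsIntegral.of_finite _ x).isAlgebraic
  obtain ⟨y, hy, hint⟩ := halg.exists_integral_multiple
  refine ⟨algebraMap (ChartBase A b) (FL N L) y, (chartB A N b).algebraMap_mem y,
    (map_ne_zero_iff _ (algebraMap_chartBase_injective N)).2 hy, ?_⟩
  rwa [← Algebra.smul_def]

/-- An element of the fraction field in the Gauss ring which becomes integral after multiplication
by a power of the uniformiser is integral. -/
theorem mem_range_of_mul_pow {ϖ : A} (hϖ : Irreducible ϖ) (e : ℕ)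
    {z : FL N L} {g : LaurentSeries (IsLocalRing.ResidueField A)}
    (hz : HasGaussRed (IsLocalRing.residue A) (z : LaurentSeries L) g) (r : ChartBase A b)
    (h : z * algebraMap (ChartBase A b) (FL N L) (chartPi A b ϖ) ^ e =
      algebraMap (ChartBase A b) (FL N L) r) :
    z ∈ Set.range (algebraMap (ChartBase A b) (FL N L)) := by
  induction e generalizing r with
  | zero => exact ⟨r, by rw [← h, pow_zero, mul_one]⟩
  | succ e ih =>
    have hred := hasGaussRed_algebraMap_chartBase (A := A) N r
    have hπ := hasGaussRed_algebraMap_chartBase (A := A) N (chartPi A b ϖ)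
    rw [(chartRed_eq_zero hϖ _).2 dvd_rfl, map_zero] at hπ
    rw [← h, IntermediateField.coe_mul, IntermediateField.coe_pow] at hred
    have h0 := hred.unique (hz.mul (hπ.pow (e + 1)))
    rw [zero_pow e.succ_ne_zero, mul_zero] at h0
    have htr : Transcendental (IsLocalRing.ResidueField A)
        (chartCoordRed (IsLocalRing.ResidueField A) b) := by
      cases b with
      | false => exact transcendental_jqModC
      | true => exact fun hal => transcendental_jqModC (IsAlgebraic.inv_iff.1 hal)
    obtain ⟨r', rfl⟩ := (chartRed_eq_zero hϖ r).1 (transcendental_iff.1 htr _ h0)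
    refine ih r' (mul_right_cancel₀ ((map_ne_zero_iff _ (algebraMap_chartBase_injective N)).2
      (prime_chartPi (b := b) hϖ).ne_zero) ?_)
    rw [mul_assoc, ← pow_succ, h, map_mul, mul_comm]

end Fermat.Agent.BadPrime
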