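import Fermat.Agent.BadPrime.GaussValuation
import Fermat.Agent.BadPrime.GaussLaurent
import Fermat.Agent.Reduction.AtkinLehner
import Fermat.Agent.Modular.Eval

/-!
# The Gauss valuation of the function field of `X₀(N)`
-/

set_option autoImplicit false

noncomputable section

open ModularCurve

namespace Fermat.Agent.BadPrime

open Fermat.Agent.Reduction Fermat.Agent.Modular

variable {L k : Type*} [Field L] [Field k] [Algebra ℚ L] {A : ValuationSubring L} {π : A →+* k}

/-- `c * x` has coefficients in `A` for some `c ∈ A`, `c ≠ 0`. -/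
def IsBoundedSeries (A : ValuationSubring L) (x : LaurentSeries L) : Prop :=
  ∃ c : A, c ≠ 0 ∧ ∀ n, (c : L) * x.coeff n ∈ A

omit [Algebra ℚ L] in
theorem IsBoundedSeries.iff_exists (x : LaurentSeries L) :
    IsBoundedSeries A x ↔ ∃ (c : A) (y : LaurentSeries A), c ≠ 0 ∧
      coeffMap A.subtype y = HahnSeries.C (c : L) * x := by
  constructor
  · rintro ⟨c, hc, h⟩
    obtain ⟨y, hy⟩ := exists_integral_lift (A := A) (x := HahnSeries.C (c : L) * x)
      (fun n => by rw [coeff_C_mul]; exact h n)
    exact ⟨c, y, hc, hy⟩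
  · rintro ⟨c, y, hc, hy⟩
    refine ⟨c, hc, fun n => ?_⟩
    rw [← coeff_C_mul, ← hy]
    exact coeff_mem_of_lift y n

omit [Algebra ℚ L] in
theorem IsBoundedSeries.mul {x y : LaurentSeries L} (hx : IsBoundedSeries A x)
    (hy : IsBoundedSeries A y) : IsBoundedSeries A (x * y) := by
  obtain ⟨c, a, hc, ha⟩ := (IsBoundedSeries.iff_exists x).1 hx
  obtain ⟨d, b, hd, hb⟩ := (IsBoundedSeries.iff_exists y).1 hy
  refine (IsBoundedSeries.iff_exists _).2 ⟨c * d, a * b, mul_ne_zero hc hd, ?_⟩
  rw [map_mul, ha, hb, MulMemClass.coe_mul, map_mul]; ring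

omit [Algebra ℚ L] in
theorem IsBoundedSeries.add {x y : LaurentSeries L} (hx : IsBoundedSeries A x)
    (hy : IsBoundedSeries A y) : IsBoundedSeries A (x + y) := by
  obtain ⟨c, a, hc, ha⟩ := (IsBoundedSeries.iff_exists x).1 hx
  obtain ⟨d, b, hd, hb⟩ := (IsBoundedSeries.iff_exists y).1 hy
  refine (IsBoundedSeries.iff_exists _).2
    ⟨c * d, HahnSeries.C d * a + HahnSeries.C c * b, mul_ne_zero hc hd, ?_⟩
  simp only [map_add, map_mul, ha, hb, MulMemClass.coe_mul, HahnSeries.C_apply, coeffMap_single,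
    ValuationSubring.subtype_apply]
  rw [mul_add, ← mul_assoc, ← mul_assoc, HahnSeries.single_mul_single, HahnSeries.single_mul_single,
    add_zero, mul_comm (d : L)]

/-- The expansion of `j(q^d)` over `L` is the image of the integral series. -/
theorem coeffMap_jqd (d : ℕ) [NeZero d] :
    coeffMap A.subtype (qExpand A d (jqModC A)) = coeffEmb L (qExpand ℚ d jq) := by
  rw [coeffMap_qExpand, coeffMap_jqModC, coeffEmb, coeffMap_qExpand, ← jqModC_rat, coeffMap_jqModC]

theorem isBoundedSeries_of_mem_levelGens {M : ℕ} {x : LaurentSeries L}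
    (hx : x ∈ levelGens L M) : IsBoundedSeries A x := by
  obtain ⟨_, ⟨d, hd, -, rfl⟩, rfl⟩ := hx
  refine ⟨1, one_ne_zero, fun n => ?_⟩
  rw [OneMemClass.coe_one, one_mul, ← coeffMap_jqd (A := A)]
  exact coeff_mem_of_lift _ n

theorem isBoundedSeries_of_mem_adjoin {M : ℕ} {x : LaurentSeries L}
    (hx : x ∈ Algebra.adjoin L (levelGens L M)) : IsBoundedSeries A x := by
  induction hx using Algebra.adjoin_induction with
  | mem v hv => exact isBoundedSeries_of_mem_levelGens hv
  | algebraMap c =>
    rcases A.mem_or_inv_mem c with hc | hc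
    · refine ⟨1, one_ne_zero, fun n => ?_⟩
      rw [OneMemClass.coe_one, one_mul, algebraMap_laurentSeries_eq_single]
      rcases eq_or_ne n 0 with rfl | hn
      · rwa [HahnSeries.coeff_single_same]
      · rw [HahnSeries.coeff_single_of_ne hn]; exact A.zero_mem
    · rcases eq_or_ne c 0 with rfl | hc0
      · exact ⟨1, one_ne_zero, fun n => by simp⟩
      refine ⟨⟨c⁻¹, hc⟩, fun h => inv_ne_zero hc0 (congrArg Subtype.val h), fun n => ?_⟩
      rw [algebraMap_laurentSeries_eq_single]
      rcases eq_or_ne n 0 with rfl | hn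
      · rw [HahnSeries.coeff_single_same, inv_mul_cancel₀ hc0]; exact A.one_mem
      · rw [HahnSeries.coeff_single_of_ne hn, mul_zero]; exact A.zero_mem
  | add u v _ _ hu hv => exact hu.add hv
  | mul u v _ _ hu hv => exact hu.mul hv

variable [Algebra.IsAlgebraic ℚ L]

/-- A bounded element of the function field is scalable. -/
theorem isScalable_of_bounded {M : ℕ} {x : LaurentSeries L} (hx : x ∈ FL M L)
    (hb : IsBoundedSeries A x) (h0 : x ≠ 0) : IsScalable A π x := by
  obtain ⟨c, hc, hint⟩ := hb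
  have hc' : (c : L) ≠ 0 := fun h => hc (Subtype.ext h)
  have hcx : HahnSeries.C (c : L) * x ∈ FL M L := by
    refine mul_mem ?_ hx
    rw [HahnSeries.C_apply, ← algebraMap_laurentSeries_eq_single]
    exact IntermediateField.algebraMap_mem _ _
  obtain ⟨e, he, y, hy, hyπ⟩ := isScalable_of_finiteCoeff (π := π)
    (finiteCoeff_of_mem_laurentBaseChange _ hcx)
    (fun n => by rw [coeff_C_mul]; exact hint n)
    (mul_ne_zero (fun h => hc' (HahnSeries.C_injective (h.trans (map_zero _).symm))) h0)
  exact ⟨e * c, mul_ne_zero he hc', y, by rw [hy, map_mul, mul_assoc], hyπ⟩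

/-- Every element of the function field is a quotient of scalable series. -/
theorem exists_scalable_quotient (A : ValuationSubring L) (π : A →+* k) (M : ℕ) :
    ∀ f ∈ FL M L, f ≠ 0 → ∃ u v : LaurentSeries L, IsScalable A π u ∧ IsScalable A π v ∧
      f * v = u := by
  intro f hf hf0
  have hgen := laurentBaseChange_full_eq_adjoin L M
  have hf' : f ∈ IntermediateField.adjoin L (levelGens L M) := hgen ▸ hf
  obtain ⟨r, hr, s, hs, rfl⟩ := IntermediateField.mem_adjoin_iff_div.1 hf'
  have hle : ∀ x ∈ Algebra.adjoin L (levelGens L M), x ∈ FL M L := fun x hx => by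
    rw [FL, hgen]
    exact IntermediateField.algebra_adjoin_le_adjoin L _ hx
  obtain ⟨hr0, hs0⟩ : r ≠ 0 ∧ s ≠ 0 := by
    rwa [Ne, div_eq_zero_iff, not_or] at hf0
  exact ⟨r, s, isScalable_of_bounded (hle r hr) (isBoundedSeries_of_mem_adjoin hr) hr0,
    isScalable_of_bounded (hle s hs) (isBoundedSeries_of_mem_adjoin hs) hs0,
    div_mul_cancel₀ r hs0⟩

omit [Algebra.IsAlgebraic ℚ L]

/-- Reduction of `j(q^d)`. -/
theorem hasGaussRed_jdL {M d : ℕ} [NeZero M] [NeZero d] (hd : d ∣ M) :
    HasGaussRed π ((jdL M L hd : FL M L) : LaurentSeries L) (qExpand k d (jqModC k)) := by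
  have := hasGaussRed_coeffMap (π := π) (qExpand A d (jqModC A))
  rw [coeffMap_jqd, coeffMap_qExpand, coeffMap_jqModC] at this
  exact this

theorem hasGaussRed_jL (M : ℕ) [NeZero M] :
    HasGaussRed π ((jL M L : FL M L) : LaurentSeries L) (jqModC k) := by
  have := hasGaussRed_jdL (π := π) (L := L) (one_dvd M)
  simpa [jdL, jL, qExpand_one_apply] using this

/-- Every element of `k(j(q^d) : d ∣ M)` is the reduction of an element of the function field. -/
theorem exists_hasGaussRed_of_mem_fullC (hπ : Function.Surjective π) {M : ℕ} [NeZero M]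
    {g : LaurentSeries k} (hg : g ∈ modularFunctionFieldFullC k M) :
    ∃ f : FL M L, HasGaussRed π (f : LaurentSeries L) g := by
  rw [modularFunctionFieldFullC] at hg
  induction hg using IntermediateField.adjoin_induction with
  | mem x hx =>
    obtain ⟨d, hd, hdM, rfl⟩ := hx
    exact ⟨jdL M L hdM, hasGaussRed_jdL hdM⟩
  | algebraMap c =>
    obtain ⟨a, rfl⟩ := hπ c
    refine ⟨algebraMap L _ (a : L), ?_⟩
    show HasGaussRed π (algebraMap L (LaurentSeries L) (a : L)) _
    rw [algebraMap_laurentSeries_eq_single, algebraMap_laurentSeries_eq_single]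
    simpa [HahnSeries.C_apply] using hasGaussRed_C (π := π) a
  | add x y _ _ hx hy =>
    obtain ⟨f, hf⟩ := hx
    obtain ⟨f', hf'⟩ := hy
    exact ⟨f + f', by simpa using hf.add hf'⟩
  | inv x _ hx =>
    rcases eq_or_ne x 0 with rfl | hx0
    · exact ⟨0, by simpa using hasGaussRed_zero⟩
    obtain ⟨f, hf⟩ := hx
    exact ⟨f⁻¹, by rw [IntermediateField.coe_inv]; exact hf.inv hx0⟩
  | mul x y _ _ hx hy =>
    obtain ⟨f, hf⟩ := hx
    obtain ⟨f', hf'⟩ := hy
    exact ⟨f * f', by simpa using hf.mul hf'⟩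

end Fermat.Agent.BadPrime
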