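import Fermat.Agent.BadPrime.PolyPairing

set_option linter.unusedSectionVars false

/-!
# Reductions of the root lattices `{a | a ^ n * g ∈ B}`

An abstract affine chart of a two-dimensional normal model: `R` is a factorial domain with a
prime `π` in its Jacobson radical and `R ⧸ π ≅ k[X]`, `B ⊆ F` the integral closure of `R`, `Bv`
the semilocal ring at the vertical primes with residue map `rd` to `K`, and `N ⊆ K` the
normalisation of the special fibre.  If `g` reduces to `1` and is an `n`-th power locally at every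
horizontal height one prime, then the lattices `I g = {a | a ^ n * g ∈ B}` satisfy
`dim N / (I g)⁻ + dim N / (I g⁻¹)⁻ = 2 dim N / B⁻`.
-/

set_option autoImplicit false

open Polynomial

namespace Fermat.Agent.BadPrime

/-- An element of a factorial domain divides another one as soon as it does locally at each of its
prime factors. -/
theorem dvd_of_forall_prime {R : Type*} [CommRing R] [IsDomain R] [UniqueFactorizationMonoid R]
    {P Q : R} (hP : P ≠ 0) (h : ∀ p : R, Prime p → p ∣ P → ∃ s : R, ¬ p ∣ s ∧ P ∣ s * Q) :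
    P ∣ Q := by
  induction P using UniqueFactorizationMonoid.induction_on_prime with
  | h₁ => exact absurd rfl hP
  | h₂ x hx => exact hx.dvd
  | h₃ a p ha hp ih =>
    have ha' : a ∣ Q := ih ha fun r hr hra => by
      obtain ⟨s, hs, hdvd⟩ := h r hr (hra.mul_left p)
      exact ⟨s, hs, (dvd_mul_left a p).trans hdvd⟩
    obtain ⟨Q', rfl⟩ := ha'
    obtain ⟨s, hs, hdvd⟩ := h p hp (dvd_mul_right p a)
    rw [show s * (a * Q') = s * Q' * a by ring, mul_dvd_mul_iff_right ha] at hdvd
    rw [mul_comm p a]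
    exact mul_dvd_mul_left a ((hp.dvd_or_dvd hdvd).resolve_left hs)

/-- Data at the vertical primes: their semilocal ring `Bv` and its residue map `rd`. -/
structure Vertical (F K : Type*) [Field F] [CommRing K] where
  /-- The semilocal ring of the vertical primes. -/
  Bv : Subring F
  /-- The uniformiser. -/
  π : F
  π_mem : π ∈ Bv
  π_ne_zero : π ≠ 0
  /-- Residue map at the vertical primes. -/
  rd : Bv →+* K
  rd_π : rd ⟨π, π_mem⟩ = 0
  rd_eq_zero : ∀ x : Bv, rd x = 0 → ∃ y : Bv, (x : F) = π * (y : F)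
  rootClosed : ∀ (x : F) (m : ℕ), m ≠ 0 → x ^ m ∈ Bv → x ∈ Bv

/-- An affine chart with reduction data. -/
structure Chart {F K : Type*} [Field F] [CommRing K] (V : Vertical F K) (R k N : Type*)
    [CommRing R] [Field k] [Algebra R F] [CommRing N] [Algebra k[X] N] where
  /-- Reduction of the base modulo `π`. -/
  red : R →+* k[X]
  red_surjective : Function.Surjective red
  /-- The uniformiser in the base. -/
  π : R
  algebraMap_π : algebraMap R F π = V.π
  prime_π : Prime π
  red_eq_zero : ∀ r : R, red r = 0 ↔ π ∣ r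
  isUnit_one_add : ∀ r : R, IsUnit (1 + π * r)
  algebraMap_injective : Function.Injective (algebraMap R F)
  /-- The affine coordinate ring. -/
  B : Subalgebra R F
  B_le : ∀ x ∈ B, x ∈ V.Bv
  rootClosed : ∀ (x : F) (m : ℕ), m ≠ 0 → x ^ m ∈ B → x ∈ B
  saturated : ∀ x ∈ V.Bv, π • x ∈ B → x ∈ B
  exists_mul_mem : ∀ x : F, ∃ b ∈ B, b ≠ 0 ∧ b * x ∈ B
  finite_B : Module.Finite R B
  /-- The normalised special fibre. -/
  ι : N →+* K
  ι_injective : Function.Injective ι
  ι_rootClosed : ∀ (y : K) (m : ℕ), m ≠ 0 → y ^ m ∈ ι.range → y ∈ ι.range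
  rd_algebraMap : ∀ r : R,
    V.rd ⟨algebraMap R F r, B_le _ (B.algebraMap_mem r)⟩ = ι (algebraMap k[X] N (red r))
  rd_mem : ∀ x : V.Bv, (x : F) ∈ B → V.rd x ∈ ι.range

variable {R k F K N : Type*} [CommRing R] [IsDomain R] [Field k] [Field F] [Algebra R F]
  [CommRing K] [CommRing N] [Algebra k[X] N] {V : Vertical F K} (c : Chart V R k N)

namespace Chart

include c in
theorem algebraMap_mem_Bv (r : R) : algebraMap R F r ∈ V.Bv :=
  c.B_le _ (c.B.algebraMap_mem r)

/-- The semilocal ring as an `R`-subalgebra. -/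
def Bv : Subalgebra R F where
  __ := V.Bv
  algebraMap_mem' r := c.algebraMap_mem_Bv r

theorem mem_Bv {x : F} : x ∈ c.Bv ↔ x ∈ V.Bv := Iff.rfl

/-- The residue map on `c.Bv`. -/
def rd : c.Bv →+* K := V.rd

theorem rd_smul (r : R) (x : c.Bv) :
    c.rd (r • x) = c.ι (algebraMap k[X] N (c.red r)) * c.rd x := by
  rw [Algebra.smul_def, map_mul]
  exact congrArg (· * c.rd x) (c.rd_algebraMap r)

theorem rd_π_smul (x : c.Bv) : c.rd (c.π • x) = 0 := by
  rw [rd_smul, (c.red_eq_zero c.π).mpr dvd_rfl, map_zero, map_zero, zero_mul]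

theorem rd_eq_zero {x : c.Bv} (hx : c.rd x = 0) : ∃ y : c.Bv, x = c.π • y := by
  obtain ⟨y, hy⟩ := V.rd_eq_zero x hx
  refine ⟨⟨y, y.2⟩, Subtype.ext ?_⟩
  rw [SetLike.val_smul, Algebra.smul_def, c.algebraMap_π]
  exact hy

/-- Reduction of an `R`-submodule of `F`, as a `k[X]`-submodule of `N`. -/
def redSubmodule (I : Submodule R F) : Submodule k[X] N where
  carrier := {x | ∃ a : c.Bv, (a : F) ∈ I ∧ c.rd a = c.ι x}
  zero_mem' := ⟨0, I.zero_mem, by rw [map_zero, map_zero]⟩
  add_mem' := by
    rintro x y ⟨a, ha, hax⟩ ⟨b, hb, hby⟩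
    exact ⟨a + b, I.add_mem ha hb, by rw [map_add, map_add, hax, hby]⟩
  smul_mem' := by
    rintro f x ⟨a, ha, hax⟩
    obtain ⟨r, rfl⟩ := c.red_surjective f
    refine ⟨r • a, I.smul_mem r ha, ?_⟩
    rw [rd_smul, hax, Algebra.smul_def, map_mul]

theorem mem_redSubmodule (I : Submodule R F) (x : N) :
    x ∈ c.redSubmodule I ↔ ∃ a : c.Bv, (a : F) ∈ I ∧ c.rd a = c.ι x := Iff.rfl

/-- A submodule to which the lifting lemmas apply. -/
structure IsLattice (I : Submodule R F) : Prop where
  le : I ≤ Subalgebra.toSubmodule c.Bv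
  fg : I.FG
  saturated : ∀ x ∈ c.Bv, c.π • x ∈ I → x ∈ I
  rd_mem : ∀ x : c.Bv, (x : F) ∈ I → c.rd x ∈ c.ι.range

variable {c} in
/-- Lifts of a basis of the reduction form a basis. -/
theorem IsLattice.exists_basis [UniqueFactorizationMonoid R] {I : Submodule R F}
    (hI : c.IsLattice I) {σ : Type*} [Fintype σ] (u : Module.Basis σ k[X] (c.redSubmodule I)) :
    ∃ v : Module.Basis σ R I, ∀ i, ∃ h : ((v i : F)) ∈ c.Bv,
      c.rd ⟨v i, h⟩ = c.ι (u i : N) := by
  classical
  choose a ha hau using fun i => (c.mem_redSubmodule I _).mp (u i).2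
  let a' : σ → I := fun i => ⟨a i, ha i⟩
  -- reduction of a linear combination
  have hcomb : ∀ f : σ → R, c.rd (∑ i, f i • a i) =
      c.ι ((∑ i, c.red (f i) • u i : c.redSubmodule I) : N) := by
    intro f
    rw [map_sum, Submodule.coe_sum, map_sum]
    refine Finset.sum_congr rfl fun i _ => ?_
    rw [rd_smul, hau, Submodule.coe_smul, Algebra.smul_def, map_mul]
  have hli : LinearIndependent R a' := by
    rw [Fintype.linearIndependent_iff]
    have key : ∀ (m : ℕ) (f : σ → R), ∑ i, f i • a i = 0 → ∀ i, c.π ^ m ∣ f i := by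
      intro m
      induction m with
      | zero => intro f _ i; rw [pow_zero]; exact one_dvd _
      | succ m ih =>
        intro f hf i
        have h0 : (∑ i, c.red (f i) • u i : c.redSubmodule I) = 0 := by
          refine Subtype.ext (c.ι_injective ?_)
          rw [← hcomb, hf, map_zero, Submodule.coe_zero, map_zero]
        have h1 := Fintype.linearIndependent_iff.mp u.linearIndependent _ h0
        choose f' hf' using fun i => (c.red_eq_zero (f i)).mp (h1 i)
        have h2 : ∑ i, f' i • a i = 0 := by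
          have h3 : c.π • ∑ i, f' i • a i = 0 := by
            rw [Finset.smul_sum, ← hf]
            exact Finset.sum_congr rfl fun i _ => by rw [smul_smul, ← hf']
          have h4 : algebraMap R F c.π * ((∑ i, f' i • a i : c.Bv) : F) = 0 := by
            rw [← Algebra.smul_def, ← SetLike.val_smul, h3, ZeroMemClass.coe_zero]
          exact Subtype.ext ((mul_eq_zero.mp h4).resolve_left
            ((map_ne_zero_iff _ c.algebraMap_injective).mpr c.prime_π.ne_zero))
        rw [hf' i, pow_succ']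
        exact mul_dvd_mul_left _ (ih f' h2 i)
    intro f hf i
    have hf' : ∑ i, f i • a i = 0 := Subtype.ext (by
      simpa [a'] using congrArg Subtype.val hf)
    by_contra hne
    obtain ⟨m, x, hx, hfx⟩ := WfDvdMonoid.max_power_factor hne c.prime_π.irreducible
    obtain ⟨y, hy⟩ := key (m + 1) f hf' i
    rw [hfx, pow_succ, mul_assoc] at hy
    exact hx ⟨y, mul_left_cancel₀ (pow_ne_zero m c.prime_π.ne_zero) hy⟩
  have hspan : ⊤ ≤ Submodule.span R (Set.range a') := by
    have : Module.Finite R I := Module.Finite.iff_fg.mpr hI.fg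
    refine Submodule.le_of_le_smul_of_le_jacobson_bot (I := Ideal.span {c.π}) Module.Finite.fg_top
      ?_ fun x _ => ?_
    · rw [Ideal.span_singleton_le_iff_mem, Ideal.mem_jacobson_bot]
      intro y
      rw [add_comm]
      exact c.isUnit_one_add y
    · rw [Submodule.mem_sup]
      let xv : c.Bv := ⟨x, hI.le x.2⟩
      obtain ⟨z, hz⟩ := hI.rd_mem xv x.2
      have hzmem : z ∈ c.redSubmodule I := ⟨xv, x.2, hz.symm⟩
      choose f hf using fun i => c.red_surjective (u.repr ⟨z, hzmem⟩ i)
      refine ⟨∑ i, f i • a' i, Submodule.sum_mem _ fun i _ =>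
        Submodule.smul_mem _ _ (Submodule.subset_span ⟨i, rfl⟩), x - ∑ i, f i • a' i, ?_,
        by abel⟩
      have h0 : c.rd (xv - ∑ i, f i • a i) = 0 := by
        rw [map_sub, hcomb, sub_eq_zero, ← hz]
        refine congrArg c.ι ?_
        simp only [hf, u.sum_repr]
      obtain ⟨y, hy⟩ := c.rd_eq_zero h0
      have hval : ((xv - ∑ i, f i • a i : c.Bv) : F) = ((x - ∑ i, f i • a' i : I) : F) := by
        simp [xv, a']
      have hyI : (y : F) ∈ I := by
        refine hI.saturated y y.2 ?_
        rw [← SetLike.val_smul, ← hy, hval]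
        exact SetLike.coe_mem _
      rw [show x - ∑ i, f i • a' i = c.π • (⟨y, hyI⟩ : I) from
        Subtype.ext (by rw [← hval, hy]; rfl)]
      exact Submodule.smul_mem_smul (Ideal.mem_span_singleton_self _) Submodule.mem_top
  refine ⟨Module.Basis.mk hli hspan, fun i => ?_⟩
  rw [Module.Basis.mk_apply]
  exact ⟨(a i).2, hau i⟩

/-- The root module `{a | a ^ n * g ∈ B}`. -/
def rootModule (n : ℕ) (hn : n ≠ 0) (g : F) : Submodule R F where
  carrier := {a | a ^ n * g ∈ c.B}
  zero_mem' := by
    show (0 : F) ^ n * g ∈ c.B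
    rw [zero_pow hn, zero_mul]; exact c.B.zero_mem
  add_mem' := by
    intro a b (ha : a ^ n * g ∈ c.B) (hb : b ^ n * g ∈ c.B)
    show (a + b) ^ n * g ∈ c.B
    rw [add_pow, Finset.sum_mul]
    refine sum_mem fun i hi => ?_
    have hi' : i ≤ n := by simpa [Nat.lt_succ_iff] using hi
    rw [show a ^ i * b ^ (n - i) * (n.choose i : F) * g =
      (n.choose i : F) * (a ^ i * b ^ (n - i) * g) by ring]
    refine mul_mem (natCast_mem _ _) (c.rootClosed _ n hn ?_)
    have key : (a ^ i * b ^ (n - i) * g) ^ n = (a ^ n * g) ^ i * (b ^ n * g) ^ (n - i) := by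
      rw [mul_pow, mul_pow, mul_pow, mul_pow, ← pow_mul, ← pow_mul, ← pow_mul, ← pow_mul,
        mul_comm i n, mul_comm (n - i) n]
      calc a ^ (n * i) * b ^ (n * (n - i)) * g ^ n
          = a ^ (n * i) * b ^ (n * (n - i)) * (g ^ i * g ^ (n - i)) := by
            rw [← pow_add, Nat.add_sub_cancel' hi']
        _ = _ := by ring
    rw [key]
    exact mul_mem (pow_mem ha i) (pow_mem hb _)
  smul_mem' := by
    intro r a (ha : a ^ n * g ∈ c.B)
    show (r • a) ^ n * g ∈ c.B
    rw [_root_.smul_pow, smul_mul_assoc]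
    exact c.B.smul_mem ha _

theorem mem_rootModule {n : ℕ} {hn : n ≠ 0} {g a : F} :
    a ∈ c.rootModule n hn g ↔ a ^ n * g ∈ c.B := Iff.rfl

theorem mul_mem_rootModule {n : ℕ} {hn : n ≠ 0} {g g' a a' : F}
    (ha : a ∈ c.rootModule n hn g) (ha' : a' ∈ c.rootModule n hn g') :
    a * a' ∈ c.rootModule n hn (g * g') := by
  rw [mem_rootModule] at *
  rw [show (a * a') ^ n * (g * g') = (a ^ n * g) * (a' ^ n * g') by ring]
  exact mul_mem ha ha'

/-- An element with reduction one whose inverse is also integral at the vertical primes. -/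
structure IsNormalised (g : F) : Prop where
  exists_rd : ∃ h : g ∈ c.Bv, c.rd ⟨g, h⟩ = 1
  inv_mem : g⁻¹ ∈ c.Bv

variable {c}

theorem IsNormalised.ne_zero [Nontrivial K] {g : F} (hg : c.IsNormalised g) : g ≠ 0 := by
  rintro rfl
  obtain ⟨h, h1⟩ := hg.exists_rd
  rw [show (⟨0, h⟩ : c.Bv) = 0 from rfl, map_zero] at h1
  exact zero_ne_one h1

theorem IsNormalised.inv [Nontrivial K] {g : F} (hg : c.IsNormalised g) :
    c.IsNormalised g⁻¹ := by
  obtain ⟨h, h1⟩ := hg.exists_rd
  refine ⟨⟨hg.inv_mem, ?_⟩, by rw [inv_inv]; exact h⟩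
  have : (⟨g, h⟩ : c.Bv) * ⟨g⁻¹, hg.inv_mem⟩ = 1 :=
    Subtype.ext (mul_inv_cancel₀ hg.ne_zero)
  have h2 := congrArg c.rd this
  rwa [map_mul, h1, one_mul, map_one] at h2

variable [Nontrivial K] {n : ℕ} {hn : n ≠ 0} {g : F}

theorem IsNormalised.rootModule_le (hg : c.IsNormalised g) :
    c.rootModule n hn g ≤ Subalgebra.toSubmodule c.Bv := by
  intro a ha
  refine V.rootClosed a n hn ?_
  rw [← mul_inv_cancel_right₀ hg.ne_zero (a ^ n)]
  exact mul_mem (c.B_le _ ha) hg.inv_mem

theorem IsNormalised.fg_rootModule [IsNoetherianRing R] (hg : c.IsNormalised g) :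
    (c.rootModule n hn g).FG := by
  obtain ⟨d, hd, hd0, hdg⟩ := c.exists_mul_mem g⁻¹
  have hle : ∀ a ∈ c.rootModule n hn g, d * a ∈ c.B := fun a ha => by
    refine c.rootClosed _ n hn ?_
    rw [show (d * a) ^ n = (a ^ n * g) * ((d * g⁻¹) * d ^ (n - 1)) by
      have hg0 := hg.ne_zero
      rw [mul_pow, ← Nat.succ_pred_eq_of_ne_zero hn]
      simp only [Nat.succ_eq_add_one, add_tsub_cancel_right, pow_succ]
      field_simp]
    exact mul_mem ha (mul_mem hdg (pow_mem hd _))
  have := c.finite_B
  let f : c.rootModule n hn g →ₗ[R] c.B :=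
    { toFun := fun a => ⟨d * a, hle a a.2⟩
      map_add' := fun a b => Subtype.ext (mul_add d (a : F) b)
      map_smul' := fun r a => Subtype.ext (mul_smul_comm r d (a : F)) }
  have hf : Function.Injective f := fun a b h =>
    Subtype.ext (mul_left_cancel₀ hd0 (congrArg Subtype.val h))
  have := Module.Finite.of_injective f hf
  exact Module.Finite.iff_fg.mp this

theorem IsNormalised.isLattice [IsNoetherianRing R] (hg : c.IsNormalised g) :
    c.IsLattice (c.rootModule n hn g) := by
  obtain ⟨h, h1⟩ := hg.exists_rd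
  refine ⟨hg.rootModule_le, hg.fg_rootModule, fun x hx hπx => ?_, fun x hx => ?_⟩
  · rw [mem_rootModule, _root_.smul_pow, smul_mul_assoc] at hπx
    rw [mem_rootModule]
    have hmem : x ^ n * g ∈ c.Bv := mul_mem (pow_mem hx n) h
    generalize x ^ n * g = y at hπx hmem
    clear hx
    induction n generalizing y with
    | zero => simpa using hπx
    | succ m ih =>
      rcases Nat.eq_zero_or_pos m with rfl | hm
      · exact c.saturated y hmem (by simpa using hπx)
      · refine c.saturated y hmem (ih (hn := hm.ne') _ ?_ (c.Bv.smul_mem hmem _))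
        rwa [smul_smul, ← pow_succ]
  · refine c.ι_rootClosed _ n hn ?_
    have : c.rd (x ^ n * ⟨g, h⟩) ∈ c.ι.range :=
      c.rd_mem _ (by simpa using (mem_rootModule c).mp hx)
    rwa [map_mul, h1, mul_one, map_pow] at this

theorem isLattice_B [IsNoetherianRing R] : c.IsLattice (Subalgebra.toSubmodule c.B) :=
  ⟨fun x hx => c.B_le x hx, Module.Finite.iff_fg.mp c.finite_B, c.saturated, c.rd_mem⟩

theorem IsNormalised.pow_mem (hg : c.IsNormalised g) {x : N}
    (hx : x ∈ c.redSubmodule (c.rootModule n hn g)) :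
    x ^ n ∈ c.redSubmodule (Subalgebra.toSubmodule c.B) := by
  obtain ⟨a, ha, hax⟩ := hx
  obtain ⟨h, h1⟩ := hg.exists_rd
  exact ⟨a ^ n * ⟨g, h⟩, by simpa using (mem_rootModule c).mp ha,
    by rw [map_mul, h1, mul_one, map_pow, hax, map_pow]⟩

theorem mul_mem_redSubmodule {g g' : F} {x y : N}
    (hx : x ∈ c.redSubmodule (c.rootModule n hn g))
    (hy : y ∈ c.redSubmodule (c.rootModule n hn g')) :
    x * y ∈ c.redSubmodule (c.rootModule n hn (g * g')) := by
  obtain ⟨a, ha, hax⟩ := hx
  obtain ⟨b, hb, hby⟩ := hy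
  exact ⟨a * b, c.mul_mem_rootModule ha hb, by rw [map_mul, hax, hby, map_mul]⟩

theorem smul_mem_redSubmodule {x b : N}
    (hb : b ∈ c.redSubmodule (Subalgebra.toSubmodule c.B))
    (hx : x ∈ c.redSubmodule (c.rootModule n hn g)) :
    b * x ∈ c.redSubmodule (c.rootModule n hn g) := by
  obtain ⟨a, ha, hax⟩ := hb
  refine (one_mul g) ▸ mul_mem_redSubmodule ⟨a, ?_, hax⟩ hx
  rw [mem_rootModule, mul_one]
  exact _root_.pow_mem (show a.1 ∈ c.B from ha) n

/-- Horizontal hypothesis: `g` is an `n`-th power up to a unit at every horizontal prime. -/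
def IsPowerAtHorizontal (c : Chart V R k N) (n : ℕ) (g : F) : Prop :=
  ∀ p : R, Prime p → ¬ Associated p c.π → ∃ (u : F) (s : R), u ≠ 0 ∧ ¬ p ∣ s ∧
    s • (u ^ n * g) ∈ c.B ∧ s • (u ^ n * g)⁻¹ ∈ c.B

theorem finrank_rootModule_eq [IsNoetherianRing R] (hg : c.IsNormalised g) :
    Module.finrank R (c.rootModule n hn g) = Module.finrank R c.B := by
  have := c.finite_B
  have : Module.Finite R (c.rootModule n hn g) := Module.Finite.iff_fg.mpr hg.fg_rootModule
  obtain ⟨d, hd, hd0, hdg⟩ := c.exists_mul_mem g⁻¹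
  obtain ⟨e, he, he0, heg⟩ := c.exists_mul_mem g
  refine le_antisymm ?_ ?_
  · have hle : ∀ a ∈ c.rootModule n hn g, d * a ∈ c.B := fun a ha => by
      refine c.rootClosed _ n hn ?_
      rw [show (d * a) ^ n = (a ^ n * g) * ((d * g⁻¹) * d ^ (n - 1)) by
        have hg0 := hg.ne_zero
        rw [mul_pow, ← Nat.succ_pred_eq_of_ne_zero hn]
        simp only [Nat.succ_eq_add_one, add_tsub_cancel_right, pow_succ]
        field_simp]
      exact mul_mem ha (mul_mem hdg (_root_.pow_mem hd _))
    exact LinearMap.finrank_le_finrank_of_injective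
      (f := ({ toFun := fun a => ⟨d * a, hle a a.2⟩
               map_add' := fun a b => Subtype.ext (mul_add d (a : F) b)
               map_smul' := fun r a => Subtype.ext (mul_smul_comm r d (a : F)) } :
        c.rootModule n hn g →ₗ[R] c.B))
      fun a b h => Subtype.ext (mul_left_cancel₀ hd0 (congrArg Subtype.val h))
  · have hle : ∀ a : c.B, e * a ∈ c.rootModule n hn g := fun a => by
      rw [mem_rootModule, show (e * (a : F)) ^ n * g = (a : F) ^ n * ((e * g) * e ^ (n - 1)) by
        rw [mul_pow, ← Nat.succ_pred_eq_of_ne_zero hn]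
        simp only [Nat.succ_eq_add_one, add_tsub_cancel_right, pow_succ]
        ring]
      exact mul_mem (_root_.pow_mem a.2 n) (mul_mem heg (_root_.pow_mem he _))
    exact LinearMap.finrank_le_finrank_of_injective
      (f := ({ toFun := fun a => ⟨e * a, hle a⟩
               map_add' := fun a b => Subtype.ext (mul_add e (a : F) b)
               map_smul' := fun r a => Subtype.ext (mul_smul_comm r e (a : F)) } :
        c.B →ₗ[R] c.rootModule n hn g))
      fun a b h => Subtype.ext (mul_left_cancel₀ he0 (congrArg Subtype.val h))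

end Chart

end Fermat.Agent.BadPrime
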