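import Fermat.Agent.BadPrime.GaussTwo
import Fermat.Agent.BadPrime.Lattice
import Mathlib.RingTheory.DiscreteValuationRing.Basic
import Mathlib.RingTheory.Localization.Basic
import Mathlib.RingTheory.IntegralClosure.Algebra.Basic

/-!
# The two-component model of `X₀(Mq)`: carriers

`A` is a discrete valuation ring of `L`, `k` its residue field.  The chart `b = false` has
coordinate `j`, the chart `b = true` has coordinate `1/j`.
-/

set_option autoImplicit false
set_option synthInstance.maxHeartbeats 400000
set_option linter.unusedSectionVars false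

noncomputable section

open ModularCurve IntermediateField Polynomial
open scoped IntermediateField

namespace Fermat.Agent.BadPrime

open Fermat.Agent.Reduction Fermat.Agent.Modular

variable {L : Type*} [Field L] [Algebra ℚ L] (A : ValuationSubring L)

/-- Reduction of the coefficients of a polynomial over `A`. -/
abbrev redPoly : A[X] →+* (IsLocalRing.ResidueField A)[X] :=
  Polynomial.mapRingHom (IsLocalRing.residue A)

/-- The denominators of a chart: polynomials reducing to `1`.  The Boolean names the chart. -/
def chartS (_b : Bool) : Submonoid A[X] where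
  carrier := {r | redPoly A r = 1}
  one_mem' := map_one _
  mul_mem' {r s} hr hs := by
    show redPoly A (r * s) = 1
    rw [map_mul, show redPoly A r = 1 from hr, show redPoly A s = 1 from hs, mul_one]

theorem mem_chartS {b : Bool} {r : A[X]} : r ∈ chartS A b ↔ redPoly A r = 1 := Iff.rfl

/-- The base ring of a chart. -/
abbrev ChartBase (b : Bool) : Type _ := Localization (chartS A b)

/-- Reduction of the base ring of a chart. -/
def chartRed (b : Bool) : ChartBase A b →+* (IsLocalRing.ResidueField A)[X] :=
  IsLocalization.lift (M := chartS A b) (g := redPoly A)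
    fun y => by rw [(mem_chartS A).1 y.2]; exact isUnit_one

theorem chartRed_algebraMap (b : Bool) (r : A[X]) :
    chartRed A b (algebraMap A[X] (ChartBase A b) r) = redPoly A r :=
  IsLocalization.lift_eq _ r

variable (L) in
/-- The coordinate of a chart at level `N`. -/
def chartCoord (N : ℕ) [NeZero N] (b : Bool) : FL N L := cond b (jL N L)⁻¹ (jL N L)

/-- The reduction of the coordinate of a chart. -/
def chartCoordRed (k : Type*) [Field k] (b : Bool) : LaurentSeries k :=
  cond b (jqModC k)⁻¹ (jqModC k)

theorem hasGaussRed_chartCoord {k : Type*} [Field k] {π : A →+* k} (N : ℕ) [NeZero N] (b : Bool) :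
    HasGaussRed π (chartCoord L N b : LaurentSeries L) (chartCoordRed k b) := by
  cases b with
  | false => exact hasGaussRed_jL N
  | true =>
    simp only [chartCoord, chartCoordRed, cond_true, IntermediateField.coe_inv]
    exact (hasGaussRed_jL N).inv (jqModC_ne_zero_of_nontrivial k)

/-- Evaluation of polynomials over `A` at the coordinate. -/
def chartEval (N : ℕ) [NeZero N] (b : Bool) : A[X] →+* FL N L :=
  Polynomial.eval₂RingHom ((algebraMap L (FL N L)).comp A.subtype) (chartCoord L N b)

theorem hasGaussRed_chartEval (N : ℕ) [NeZero N] (b : Bool) (r : A[X]) :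
    HasGaussRed (IsLocalRing.residue A) (chartEval A N b r : LaurentSeries L)
      (aeval (chartCoordRed (IsLocalRing.ResidueField A) b) (redPoly A r)) := by
  induction r using Polynomial.induction_on' with
  | add p q hp hq =>
    rw [map_add, map_add, map_add, IntermediateField.coe_add]
    exact hp.add hq
  | monomial i c =>
    rw [redPoly, chartEval, coe_mapRingHom, map_monomial, aeval_monomial, coe_eval₂RingHom,
      eval₂_monomial, IntermediateField.coe_mul, IntermediateField.coe_pow,
      algebraMap_laurentSeries_eq_single, ← HahnSeries.C_apply, RingHom.comp_apply,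
      coe_algebraMap_FL, ValuationSubring.subtype_apply]
    exact (hasGaussRed_C c).mul ((hasGaussRed_chartCoord A N b).pow i)

theorem chartEval_ne_zero (N : ℕ) [NeZero N] {b : Bool} (r : chartS A b) :
    chartEval A N b r ≠ 0 := by
  intro h
  have h1 := hasGaussRed_chartEval A N b r
  rw [h, (mem_chartS A).1 r.2, map_one, ZeroMemClass.coe_zero] at h1
  exact one_ne_zero (h1.unique hasGaussRed_zero)

/-- The structure map of a chart. -/
def chartHom (N : ℕ) [NeZero N] (b : Bool) : ChartBase A b →+* FL N L :=
  IsLocalization.lift (M := chartS A b) (g := chartEval A N b)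
    fun y => isUnit_iff_ne_zero.2 (chartEval_ne_zero A N y)

instance chartAlgebra (N : ℕ) [NeZero N] (b : Bool) : Algebra (ChartBase A b) (FL N L) :=
  (chartHom A N b).toAlgebra

/-- The affine coordinate ring of a chart. -/
def chartB (N : ℕ) [NeZero N] (b : Bool) : Subalgebra (ChartBase A b) (FL N L) :=
  integralClosure (ChartBase A b) (FL N L)

/-- The affine coordinate ring of a chart before localisation. -/
def chartB0 (N : ℕ) [NeZero N] (b : Bool) : Subalgebra A (FL N L) :=
  (integralClosure (Algebra.adjoin A ({chartCoord L N b} : Set (FL N L))) (FL N L)).restrictScalars A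

section SpecialFibre

variable (k : Type*) [Field k] (q : ℕ) (M : ℕ) [NeZero M]

/-- The coordinate on the special fibre at level `M`. -/
def chartCoordK (b : Bool) : modularFunctionFieldFullC k M := cond b (jK k M)⁻¹ (jK k M)

theorem coe_chartCoordK (b : Bool) :
    (chartCoordK k M b : LaurentSeries k) = chartCoordRed k b := by
  cases b <;> rfl

/-- The affine coordinate ring of one component of the special fibre; `q` only labels it. -/
def chartP (_q : ℕ) (b : Bool) : Subalgebra k (modularFunctionFieldFullC k M) :=
  (integralClosure (Algebra.adjoin k ({chartCoordK k M b} : Set (modularFunctionFieldFullC k M)))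
    (modularFunctionFieldFullC k M)).restrictScalars k

theorem mem_chartP {b : Bool} {x : modularFunctionFieldFullC k M} :
    x ∈ chartP k M q b ↔
      IsIntegral (Algebra.adjoin k ({chartCoordK k M b} : Set (modularFunctionFieldFullC k M))) x :=
  Iff.rfl

theorem chartCoordK_mem (b : Bool) : chartCoordK k M b ∈ chartP k M q b :=
  (mem_chartP k q M).2 (isIntegral_algebraMap
    (x := (⟨_, Algebra.self_mem_adjoin_singleton k _⟩ :
      Algebra.adjoin k ({chartCoordK k M b} : Set (modularFunctionFieldFullC k M)))))

/-- The action of `k[X]` on the special fibre: `X` acts by `(t, t ^ q)`. -/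
instance chartPairAlgebra (b : Bool) :
    Algebra k[X] (chartP k M q b × chartP k M q b) :=
  (Polynomial.aeval (R := k) ((⟨_, chartCoordK_mem k q M b⟩,
    ⟨_, chartCoordK_mem k q M b⟩ ^ q) : chartP k M q b × chartP k M q b)).toRingHom.toAlgebra

instance chartPairTower (b : Bool) :
    IsScalarTower k k[X] (chartP k M q b × chartP k M q b) :=
  IsScalarTower.of_algebraMap_eq fun c => by
    show _ = Polynomial.aeval _ (algebraMap k k[X] c)
    rw [AlgHom.commutes]

/-- The inclusion of the special fibre into the residue ring. -/
def chartIncl (b : Bool) : chartP k M q b × chartP k M q b →+*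
    modularFunctionFieldFullC k M × modularFunctionFieldFullC k M :=
  RingHom.prodMap (chartP k M q b).val.toRingHom (chartP k M q b).val.toRingHom

variable [Fact q.Prime] [CharP k q]

/-- The geometric Frobenius of `k(X₀(M))`. -/
def frobK : modularFunctionFieldFullC k M →ₐ[k] modularFunctionFieldFullC k M :=
  ((qExpandAlgHomC k q).comp (modularFunctionFieldFullC k M).val).codRestrict
    (modularFunctionFieldFullC k M).toSubalgebra fun x => qExpand_mem_fullC x.2

theorem frobK_coord (b : Bool) : frobK k q M (chartCoordK k M b) = chartCoordK k M b ^ q := by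
  refine Subtype.ext ?_
  show ModularCurve.qExpand k q ((chartCoordK k M b : LaurentSeries k)) = _
  rw [IntermediateField.coe_pow, coe_chartCoordK]
  cases b <;> simp [chartCoordRed, qExpand_jqModC_eq_pow, map_inv₀, inv_pow]

theorem frobK_mem_chartP {b : Bool} {x : modularFunctionFieldFullC k M}
    (hx : x ∈ chartP k M q b) : frobK k q M x ∈ chartP k M q b := by
  rw [mem_chartP] at hx ⊢
  have hmap : ∀ y ∈ Algebra.adjoin k ({chartCoordK k M b} : Set (modularFunctionFieldFullC k M)),
      frobK k q M y ∈
        Algebra.adjoin k ({chartCoordK k M b} : Set (modularFunctionFieldFullC k M)) := by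
    intro y hy
    have h1 : (Algebra.adjoin k ({chartCoordK k M b} : Set (modularFunctionFieldFullC k M))).map
        (frobK k q M) ≤ Algebra.adjoin k {chartCoordK k M b} := by
      rw [AlgHom.map_adjoin, Set.image_singleton, frobK_coord, Algebra.adjoin_le_iff,
        Set.singleton_subset_iff]
      exact pow_mem (Algebra.self_mem_adjoin_singleton k _) q
    exact h1 ⟨y, hy, rfl⟩
  obtain ⟨p, hm, hp⟩ := hx
  let S := Algebra.adjoin k ({chartCoordK k M b} : Set (modularFunctionFieldFullC k M))
  let f : S →+* S := (((frobK k q M).comp S.val).codRestrict S fun y => hmap y y.2).toRingHom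
  refine ⟨p.map f, hm.map f, ?_⟩
  rw [eval₂_map, show (algebraMap S (modularFunctionFieldFullC k M)).comp f =
    (frobK k q M).toRingHom.comp (algebraMap S (modularFunctionFieldFullC k M)) from rfl,
    AlgHom.toRingHom_eq_coe, show frobK k q M x = (frobK k q M : _ →+* _) x from rfl,
    ← hom_eval₂, hp, map_zero]

/-- The geometric Frobenius on one component of the special fibre. -/
def chartFr (b : Bool) : chartP k M q b →ₐ[k] chartP k M q b :=
  ((frobK k q M).comp (chartP k M q b).val).codRestrict _ fun x => frobK_mem_chartP k q M x.2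

end SpecialFibre

section Vertical

variable [Algebra.IsAlgebraic ℚ L] {q : ℕ} [Fact q.Prime] [CharP (IsLocalRing.ResidueField A) q]
  {M : ℕ} [NeZero M] (ι : L →+* ℂ) (hqM : ¬ q ∣ M)
  {w : FL (M * q) L →ₐ[L] FL (M * q) L} (hw : IsALInvolution w)
  (hfd : HasFullResidueDegree (IsLocalRing.ResidueField A) L M)

/-- The residue map at the two vertical components. -/
def pairRd : pairBv (IsLocalRing.residue A) w →+*
    modularFunctionFieldFullC (IsLocalRing.ResidueField A) M ×
      modularFunctionFieldFullC (IsLocalRing.ResidueField A) M :=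
  RingHom.prod
    ((pairRed1 (IsLocalRing.residue A) w).codRestrict _ fun x =>
      (pairRed_mem_fullC (IsLocalRing.residue A) ι hqM hw IsLocalRing.residue_surjective hfd x).1)
    ((pairRed2 (IsLocalRing.residue A) w).codRestrict _ fun x =>
      (pairRed_mem_fullC (IsLocalRing.residue A) ι hqM hw IsLocalRing.residue_surjective hfd x).2)

theorem coe_pairRd_fst (x : pairBv (IsLocalRing.residue A) w) :
    ((pairRd A ι hqM hw hfd x).1 : LaurentSeries (IsLocalRing.ResidueField A)) =
      pairRed1 (IsLocalRing.residue A) w x := rfl

theorem coe_pairRd_snd (x : pairBv (IsLocalRing.residue A) w) :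
    ((pairRd A ι hqM hw hfd x).2 : LaurentSeries (IsLocalRing.ResidueField A)) =
      pairRed2 (IsLocalRing.residue A) w x := rfl

theorem algebraMap_mem_pairBv (c : A) :
    algebraMap L (FL (M * q) L) (c : L) ∈ pairBv (IsLocalRing.residue A) w := by
  rw [mem_pairBv, AlgHom.commutes, and_self, coe_algebraMap_FL]
  exact ⟨_, hasGaussRed_C c⟩

variable [IsDiscreteValuationRing A] (ϖ : A) (hϖ : Irreducible ϖ)

include hϖ in
theorem residue_eq_zero_iff_dvd (a : A) : IsLocalRing.residue A a = 0 ↔ ϖ ∣ a := by
  rw [IsLocalRing.residue_eq_zero_iff, hϖ.maximalIdeal_eq, Ideal.mem_span_singleton]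

/-- The two vertical primes of the model of `X₀(Mq)`. -/
def gaussVertical : Vertical (FL (M * q) L)
    (modularFunctionFieldFullC (IsLocalRing.ResidueField A) M ×
      modularFunctionFieldFullC (IsLocalRing.ResidueField A) M) where
  Bv := pairBv (IsLocalRing.residue A) w
  π := algebraMap L (FL (M * q) L) (ϖ : L)
  π_mem := algebraMap_mem_pairBv A ϖ
  π_ne_zero := (_root_.map_ne_zero _).2 fun h => hϖ.ne_zero (Subtype.ext h)
  rd := pairRd A ι hqM hw hfd
  rd_π := by
    have h0 : HasGaussRed (IsLocalRing.residue A)
        ((algebraMap L (FL (M * q) L) (ϖ : L) : FL (M * q) L) : LaurentSeries L) 0 := by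
      have := hasGaussRed_C (π := IsLocalRing.residue A) ϖ
      rw [(residue_eq_zero_iff_dvd A ϖ hϖ ϖ).2 dvd_rfl, map_zero] at this
      rwa [coe_algebraMap_FL]
    refine Prod.ext (Subtype.ext ?_) (Subtype.ext ?_)
    · rw [coe_pairRd_fst]
      exact (hasGaussRed_pairRed1 _ w _).unique h0
    · rw [coe_pairRd_snd]
      refine (hasGaussRed_pairRed2 _ w _).unique ?_
      rw [AlgHom.commutes]
      exact h0
  rd_eq_zero x hx := by
    refine exists_eq_mul_of_pairRed_eq_zero (IsLocalRing.residue A)
      ((residue_eq_zero_iff_dvd A ϖ hϖ ϖ).2 dvd_rfl)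
      (fun a => (residue_eq_zero_iff_dvd A ϖ hϖ a).1) hϖ.ne_zero x ?_ ?_
    · rw [← coe_pairRd_fst A ι hqM hw hfd, hx]; rfl
    · rw [← coe_pairRd_snd A ι hqM hw hfd, hx]; rfl
  rootClosed x m hm hx := by
    have key : ∀ (W : ValuationSubring (FL (M * q) L)) (z : FL (M * q) L), z ^ m ∈ W → z ∈ W := by
      intro W z hz
      rw [← W.valuation_le_one_iff, map_pow] at hz
      rw [← W.valuation_le_one_iff]
      exact (pow_le_one_iff hm).1 hz
    obtain ⟨h1, h2⟩ := Subring.mem_inf.1 hx
    exact Subring.mem_inf.2 ⟨key _ x h1, key _ x h2⟩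

end Vertical

end Fermat.Agent.BadPrime
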