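import Fermat.Agent.Galois.Frobenius
import Mathlib.RingTheory.Polynomial.Content
import Mathlib.RingTheory.Algebraic.Integral

/-!
# Places of a field algebraic over `ℚ` have rank one
-/

set_option autoImplicit false

noncomputable section

namespace Fermat.Agent.BadPrime

open Polynomial

variable {L : Type*} [Field L] [CharZero L] [Algebra ℚ L] [Algebra.IsAlgebraic ℚ L] {A : ValuationSubring L}

/-- A nonzero element of `A` divides a nonzero integer. -/
theorem exists_intCast_eq_mul {e : L} (he : e ∈ A) (he0 : e ≠ 0) :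
    ∃ (m : ℤ) (s : L), m ≠ 0 ∧ s ∈ A ∧ (m : L) = e * s := by
  have halg : IsAlgebraic ℤ e :=
    (IsFractionRing.isAlgebraic_iff ℤ ℚ L).mpr (Algebra.IsAlgebraic.isAlgebraic e)
  obtain ⟨p, hp0, hp⟩ := halg.exists_nonzero_coeff_and_aeval_eq_zero
    (mem_nonZeroDivisors_of_ne_zero he0)
  refine ⟨p.coeff 0, -(aeval e p.divX), hp0, neg_mem ?_, ?_⟩
  · rw [aeval_eq_sum_range]
    refine sum_mem fun i _ => ?_
    rw [zsmul_eq_mul]
    exact mul_mem (intCast_mem A _) (pow_mem he i)
  · have h := congrArg (aeval e) p.X_mul_divX_add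
    rw [map_add, map_mul, aeval_X, aeval_C, hp, eq_intCast] at h
    linear_combination h

/-- A nonunit has a power divisible by `q`. -/
theorem exists_pow_eq_natCast_mul {q : ℕ} (hq : q.Prime) (hA : A.LiesOverPrime q) {a : L}
    (ha : a ∈ A.nonunits) (ha0 : a ≠ 0) : ∃ (i : ℕ) (s : L), s ∈ A ∧ a ^ i = (q : L) * s := by
  have haA : a ∈ A := A.nonunits_subset ha
  have halg : IsAlgebraic ℤ a :=
    (IsFractionRing.isAlgebraic_iff ℤ ℚ L).mpr (Algebra.IsAlgebraic.isAlgebraic a)
  obtain ⟨p, hp0, hp⟩ := halg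
  have hP : aeval a p.primPart = 0 := aeval_primPart_eq_zero hp0 hp
  have hex : ∃ i, ¬ (q : ℤ) ∣ p.primPart.coeff i := by
    by_contra h
    push Not at h
    have h1 := p.isPrimitive_primPart _ (C_dvd_iff_dvd_coeff _ _ |>.mpr h)
    rw [Int.isUnit_iff] at h1
    have := hq.two_le
    omega
  classical
  set i0 := Nat.find hex with hi0
  have hlow : ∀ i < i0, (q : ℤ) ∣ p.primPart.coeff i := fun i hi =>
    not_not.mp (Nat.find_min hex hi)
  set N := p.primPart.natDegree + 1 + i0 with hN
  have hsum : ∑ i ∈ Finset.range N, (p.primPart.coeff i : L) * a ^ i = 0 := by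
    rw [← hP, aeval_eq_sum_range' (n := N) (by omega)]
    simp [zsmul_eq_mul]
  rw [show N = i0 + (p.primPart.natDegree + 1) by omega, Finset.sum_range_add,
    Finset.sum_range_succ'] at hsum
  choose d hd using hlow
  have h1 : ∑ i ∈ Finset.range i0, (p.primPart.coeff i : L) * a ^ i =
      (q : L) * ∑ i ∈ Finset.range i0, (if h : i < i0 then (d i h : L) else 0) * a ^ i := by
    rw [Finset.mul_sum]
    refine Finset.sum_congr rfl fun i hi => ?_
    rw [dif_pos (Finset.mem_range.mp hi), hd i (Finset.mem_range.mp hi)]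
    push_cast; ring
  set S := ∑ i ∈ Finset.range i0, (if h : i < i0 then (d i h : L) else 0) * a ^ i with hS
  set R := ∑ i ∈ Finset.range p.primPart.natDegree,
    (p.primPart.coeff (i0 + (i + 1)) : L) * a ^ i with hR
  have hSA : S ∈ A := sum_mem fun i _ => by
    refine mul_mem ?_ (pow_mem haA i)
    split_ifs
    · exact intCast_mem A _
    · exact zero_mem _
  have hRA : R ∈ A := sum_mem fun i _ => mul_mem (intCast_mem A _) (pow_mem haA i)
  set u : A := (p.primPart.coeff i0 : A) + ⟨a, haA⟩ * ⟨R, hRA⟩ with hu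
  have hmax : (⟨a, haA⟩ : A) ∈ IsLocalRing.maximalIdeal A :=
    (A.coe_mem_nonunits_iff (a := ⟨a, haA⟩)).mp ha
  have hunit : IsUnit u := by
    by_contra hnu
    have h2 : (p.primPart.coeff i0 : A) ∈ IsLocalRing.maximalIdeal A := by
      have h3 : (p.primPart.coeff i0 : A) = u - ⟨a, haA⟩ * ⟨R, hRA⟩ := by rw [hu]; ring
      rw [h3]
      exact sub_mem ((IsLocalRing.mem_maximalIdeal _).mpr hnu) (Ideal.mul_mem_right _ _ hmax)
    have h4 := (A.coe_mem_nonunits_iff).mpr h2
    rw [SubringClass.coe_intCast] at h4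
    exact Nat.find_spec hex
      ((Fermat.Agent.Galois.intCast_mem_nonunits_iff A hq hA _).mp h4)
  obtain ⟨w, hw⟩ := hunit.exists_right_inv
  have hw' : (u : L) * (w : L) = 1 := congrArg Subtype.val hw
  refine ⟨i0, -(S * w), neg_mem (mul_mem hSA w.2), ?_⟩
  have hval : (u : L) = (p.primPart.coeff i0 : L) + a * R := by
    rw [hu]; push_cast; rfl
  have h5 : (q : L) * S + a ^ i0 * (u : L) = 0 := by
    rw [← hsum, h1, hval, hR, Finset.mul_sum, mul_add, Finset.mul_sum, add_zero,
      add_comm (∑ i ∈ Finset.range p.primPart.natDegree, _) ((p.primPart.coeff i0 : L) * a ^ i0)]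
    congr 1
    rw [mul_comm (a ^ i0)]
    congr 1
    rw [Finset.mul_sum]
    exact Finset.sum_congr rfl fun i _ => by ring
  linear_combination (w : L) * h5 - (a ^ i0) * hw'

/-- Rank one: powers of a nonunit are eventually below any nonzero element. -/
theorem exists_pow_mul_inv_mem_nonunits {q : ℕ} (hq : q.Prime) (hA : A.LiesOverPrime q) {a e : L}
    (ha : a ∈ A.nonunits) (he : e ≠ 0) : ∃ N : ℕ, a ^ N * e⁻¹ ∈ A.nonunits := by
  have key : ∀ {x t : L}, x ∈ A.nonunits → t ∈ A → x * t ∈ A.nonunits := fun {x t} hx ht => by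
    rw [ValuationSubring.mem_nonunits_iff] at hx ⊢
    rw [map_mul]
    exact lt_of_le_of_lt (mul_le_of_le_one_right' ((A.valuation_le_one_iff t).mpr ht)) hx
  rcases A.mem_or_inv_mem e with he' | he'
  · rcases eq_or_ne a 0 with rfl | ha0
    · exact ⟨1, by simpa using ha⟩
    obtain ⟨m, s, hm, hs, hms⟩ := exists_intCast_eq_mul he' he
    obtain ⟨i, r, hr, hri⟩ := exists_pow_eq_natCast_mul hq hA ha ha0
    obtain ⟨j, m', hm', rfl⟩ :=
      WfDvdMonoid.max_power_factor hm (Nat.prime_iff_prime_int.mp hq).irreducible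
    have hm'u : ((m' : L))⁻¹ ∈ A := by
      by_contra hn
      refine hm' ((Fermat.Agent.Galois.intCast_mem_nonunits_iff A hq hA m').mp ?_)
      rw [ValuationSubring.mem_nonunits_iff]
      rw [← A.valuation_le_one_iff, map_inv₀] at hn
      exact not_le.mp fun h => hn (inv_le_one_of_one_le₀ h)
    refine ⟨1 + i * j, ?_⟩
    have hm0 : (m' : L) ≠ 0 := by
      simp only [ne_eq, Int.cast_eq_zero]
      rintro rfl
      exact hm' (dvd_zero _)
    have : a ^ (1 + i * j) * e⁻¹ = a * (r ^ j * s * (m' : L)⁻¹) := by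
      rw [pow_add, pow_one, pow_mul, hri]
      push_cast at hms
      field_simp
      linear_combination (r ^ j) * hms
    rw [this]
    exact key ha (mul_mem (mul_mem (pow_mem hr j) hs) hm'u)
  · exact ⟨1, by rw [pow_one]; exact key ha he'⟩

end Fermat.Agent.BadPrime
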