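import Fermat.Agent.BadPrime.PairArgument
import Fermat.Agent.BadPrime.GaussTwoBasic
import Fermat.Agent.BadPrime.RankOne
import Fermat.Agent.EC.Red.ResidueQbar

/-!
# The two Gauss residues on the function field of `X₀(Mq)` over `ℚ̄`

The second residue is the first one transported by the Atkin–Lehner involution `w`; both lie in
the function field `k(j(q^d) : d ∣ M)` of the components of the special fibre.
-/

set_option autoImplicit false
set_option synthInstance.maxHeartbeats 400000
set_option linter.unusedSectionVars false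

noncomputable section

open ModularCurve IntermediateField AlgebraicCurve

namespace Fermat.Agent.BadPrime

open Fermat.Agent.Reduction Fermat.Agent.Modular

variable {L k : Type*} [Field L] [Algebra ℚ L] [Field k] {A : ValuationSubring L}
variable (π : A →+* k) (M q : ℕ) [NeZero M] [Fact q.Prime]

/-- The residues of a function integral at both valuations lie in the function field of a
component. -/
def ResiduesInLevel (w : FL (M * q) L →ₐ[L] FL (M * q) L) : Prop :=
  ∀ (f : FL (M * q) L) (g g' : LaurentSeries k), HasGaussRed π (f : LaurentSeries L) g →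
    HasGaussRed π ((w f : FL (M * q) L) : LaurentSeries L) g' →
      g ∈ modularFunctionFieldFullC k M ∧ g' ∈ modularFunctionFieldFullC k M

/-- The two residues of a function of level `M * q`. -/
def gaussPair (w : FL (M * q) L →ₐ[L] FL (M * q) L) :
    PairResidue (FL (M * q) L) (modularFunctionFieldFullC k M) where
  Res f a b := HasGaussRed π (f : LaurentSeries L) (a : LaurentSeries k) ∧
    HasGaussRed π ((w f : FL (M * q) L) : LaurentSeries L) (b : LaurentSeries k)
  mul := fun {f g a b c d} h h' => ⟨by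
    rw [IntermediateField.coe_mul, IntermediateField.coe_mul]; exact h.1.mul h'.1, by
    rw [map_mul, IntermediateField.coe_mul, IntermediateField.coe_mul]; exact h.2.mul h'.2⟩
  inv := fun {f a b} h ha hb => ⟨by
    rw [IntermediateField.coe_inv, IntermediateField.coe_inv]
    exact h.1.inv fun h0 => ha (Subtype.ext h0), by
    rw [map_inv₀, IntermediateField.coe_inv, IntermediateField.coe_inv]
    exact h.2.inv fun h0 => hb (Subtype.ext h0)⟩
  ne_zero := fun {f a b} h ha hf => ha (Subtype.ext (by
    subst hf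
    exact h.1.unique hasGaussRed_zero))
  one := ⟨hasGaussRed_one, by rw [map_one]; exact hasGaussRed_one⟩

variable {π M q}

theorem gaussPair_res {w : FL (M * q) L →ₐ[L] FL (M * q) L} {f : FL (M * q) L}
    {a b : modularFunctionFieldFullC k M} :
    (gaussPair π M q w).Res f a b ↔
      HasGaussRed π (f : LaurentSeries L) (a : LaurentSeries k) ∧
        HasGaussRed π ((w f : FL (M * q) L) : LaurentSeries L) (b : LaurentSeries k) :=
  Iff.rfl

variable [CharP k q] [IsLocalHom π] {w : FL (M * q) L →ₐ[L] FL (M * q) L}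
  (hwα : ∀ x, w (heckeAlphaBar L M q x) = heckeBetaBar L M q x)
  (hwβ : ∀ x, w (heckeBetaBar L M q x) = heckeAlphaBar L M q x)

omit [IsLocalHom π] in
include hwα in
/-- A lift of level `M`: residues `a` and `a(q^q)`. -/
theorem hasGaussRed_alpha_pair {x : FL M L} {g : LaurentSeries k}
    (h : HasGaussRed π (x : LaurentSeries L) g) :
    HasGaussRed π ((heckeAlphaBar L M q x : FL (M * q) L) : LaurentSeries L) g ∧
      HasGaussRed π ((w (heckeAlphaBar L M q x) : FL (M * q) L) : LaurentSeries L)
        (qExpand k q g) := by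
  rw [hwα, coe_heckeAlphaBar, coe_heckeBetaBar]
  exact ⟨h, h.qExpand q⟩

/-- `j(q^q) ^ q - j` is nonzero. -/
theorem qExpand_jqModC_pow_sub_ne_zero :
    qExpand k q (jqModC k) ^ q - jqModC k ≠ 0 := by
  have hq : 2 ≤ q := (Fact.out : q.Prime).two_le
  intro h
  have hj : qExpand k q (jqModC k) = jqModC k ^ q := by
    rw [pow_char_eq_qExpand, coeffMap_jqModC]
  rw [hj, ← pow_mul] at h
  refine transcendental_iff.1 (transcendental_jqModC (k := k))
    (Polynomial.X ^ (q * q) - Polynomial.X) (by simpa using h) |> fun h0 => ?_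
  have := congrArg (fun p : Polynomial k => p.coeff 1) h0
  have h1 : q * q ≠ 1 := by nlinarith
  simp [Polynomial.coeff_X_pow, Ne.symm h1] at this

omit [IsLocalHom π] in
include hwα hwβ in
/-- A function with residues `(j ^ (q²) - j, 0)`. -/
theorem exists_res_zero_snd :
    ∃ (f : FL (M * q) L) (c : modularFunctionFieldFullC k M), c ≠ 0 ∧
      (gaussPair π M q w).Res f c 0 := by
  have hj := hasGaussRed_jL (π := π) (L := L) M
  have hjq : qExpand k q (jqModC k) = jqModC k ^ q := by
    rw [pow_char_eq_qExpand, coeffMap_jqModC]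
  refine ⟨heckeBetaBar L M q (jL M L) ^ q - heckeAlphaBar L M q (jL M L),
    ⟨qExpand k q (jqModC k) ^ q - jqModC k, sub_mem
      (pow_mem (qExpand_mem_fullC (jqModC_mem_full k M)) q) (jqModC_mem_full k M)⟩,
    fun h => qExpand_jqModC_pow_sub_ne_zero (congrArg Subtype.val h), ?_, ?_⟩
  · show HasGaussRed π _ (qExpand k q (jqModC k) ^ q - jqModC k)
    rw [AddSubgroupClass.coe_sub, IntermediateField.coe_pow, coe_heckeAlphaBar,
      coe_heckeBetaBar, sub_eq_add_neg, sub_eq_add_neg]
    exact ((hj.qExpand q).pow q).add hj.neg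
  · rw [map_sub, map_pow, hwα, hwβ, AddSubgroupClass.coe_sub, IntermediateField.coe_pow,
      coe_heckeAlphaBar, coe_heckeBetaBar, ZeroMemClass.coe_zero, sub_eq_add_neg]
    have h := (hj.pow q).add (hj.qExpand q).neg
    rwa [hjq, add_neg_cancel] at h

omit [IsLocalHom π] in
include hwα hwβ in
/-- Residues can be prescribed at both valuations. -/
theorem exists_res (hπ : Function.Surjective π) (hww : ∀ x, w (w x) = x)
    (a b : modularFunctionFieldFullC k M) : ∃ u, (gaussPair π M q w).Res u a b := by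
  obtain ⟨f, c, hc, hf1, hf2⟩ := exists_res_zero_snd (π := π) hwα hwβ
  rw [ZeroMemClass.coe_zero] at hf2
  have key : ∀ a : modularFunctionFieldFullC k M, ∃ u : FL (M * q) L,
      HasGaussRed π (u : LaurentSeries L) (a : LaurentSeries k) ∧
        HasGaussRed π ((w u : FL (M * q) L) : LaurentSeries L) 0 := by
    intro a
    obtain ⟨x, hx⟩ := exists_hasGaussRed_of_mem_fullC (L := L) hπ
      (g := ((a * c⁻¹ : modularFunctionFieldFullC k M) : LaurentSeries k)) (a * c⁻¹).2
    obtain ⟨h1, h2⟩ := hasGaussRed_alpha_pair (q := q) hwα hx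
    refine ⟨heckeAlphaBar L M q x * f, ?_, ?_⟩
    · have h := h1.mul hf1
      rwa [← IntermediateField.coe_mul, ← IntermediateField.coe_mul, mul_assoc,
        inv_mul_cancel₀ hc, mul_one] at h
    · have h := h2.mul hf2
      rw [mul_zero] at h
      rwa [map_mul, IntermediateField.coe_mul]
  obtain ⟨u, hu1, hu2⟩ := key a
  obtain ⟨v, hv1, hv2⟩ := key b
  refine ⟨u + w v, ?_, ?_⟩
  · have h := hu1.add hv2
    rwa [add_zero, ← IntermediateField.coe_add] at h
  · have h := hu2.add hv1
    rw [zero_add] at h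
    rw [map_add, hww, IntermediateField.coe_add]
    exact h

section Algebraic

variable [Algebra.IsAlgebraic ℚ L]

/-- Every nonzero function has a constant multiple with nonzero residue. -/
theorem exists_C_mul_hasGaussRed {N : ℕ} [NeZero N] {f : FL N L} (hf : f ≠ 0) :
    ∃ (c : L) (g : LaurentSeries k), c ≠ 0 ∧ g ≠ 0 ∧
      HasGaussRed π ((algebraMap L (FL N L) c * f : FL N L) : LaurentSeries L) g := by
  obtain ⟨u, v, ⟨cu, hcu, y, hy, hy0⟩, ⟨cv, hcv, z, hz, hz0⟩, huv⟩ :=
    exists_scalable_quotient (k := k) A π N f f.2 fun h => hf (Subtype.ext h)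
  refine ⟨cu / cv, coeffMap π y / coeffMap π z, div_ne_zero hcu hcv, div_ne_zero hy0 hz0,
    y, z, hz0, ?_, div_mul_cancel₀ _ hz0⟩
  rw [IntermediateField.coe_mul, coe_algebraMap_FL, hy, hz, ← huv]
  have e : HahnSeries.C (cu / cv) * HahnSeries.C cv = (HahnSeries.C cu : LaurentSeries L) := by
    rw [← map_mul, div_mul_cancel₀ _ hcv]
  linear_combination ((f : LaurentSeries L) * v) * e

/-- A nonunit reduces to zero. -/
theorem map_eq_zero_of_mem_nonunits {a : L} (ha : a ∈ A.nonunits) :
    π ⟨a, A.nonunits_subset ha⟩ = 0 := by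
  by_contra h
  have hu := isUnit_of_map_unit π _ (isUnit_iff_ne_zero.2 h)
  exact (A.coe_mem_nonunits_iff (a := ⟨a, A.nonunits_subset ha⟩)).mp ha hu

include hwα hwβ in
/-- A function with residue `1` at the first valuation and of prescribed size `e` at the second,
for `e` integral. -/
theorem exists_res_one_of_mem [CharZero L] (hπ : Function.Surjective π)
    (hA : A.LiesOverPrime q) (hww : ∀ x, w (w x) = x) {e : L} (he : e ∈ A) (he0 : e ≠ 0) :
    ∃ (u z : FL (M * q) L) (r : LaurentSeries k), u ≠ 0 ∧ r ≠ 0 ∧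
      HasGaussRed π (u : LaurentSeries L) 1 ∧
      HasGaussRed π (z : LaurentSeries L) r ∧ w u = algebraMap L _ e * z := by
  by_cases heu : e⁻¹ ∈ A
  · refine ⟨1, algebraMap L _ e⁻¹, HahnSeries.C (π ⟨e⁻¹, heu⟩), one_ne_zero, fun h => ?_,
      hasGaussRed_one, ?_, by rw [map_one, ← map_mul, mul_inv_cancel₀ he0, map_one]⟩
    · have h1 : π ⟨e⁻¹, heu⟩ = 0 := HahnSeries.C_injective (h.trans (map_zero _).symm)
      have h2 : π ⟨e⁻¹, heu⟩ * π ⟨e, he⟩ = 1 := by
        rw [← map_mul, ← map_one π]
        exact congrArg π (Subtype.ext (inv_mul_cancel₀ he0))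
      rw [h1, zero_mul] at h2
      exact zero_ne_one h2
    · rw [coe_algebraMap_FL]
      exact hasGaussRed_C ⟨e⁻¹, heu⟩
  obtain ⟨y, hy1, hy2⟩ := exists_res (π := π) hwα hwβ hπ hww 1 0
  rw [OneMemClass.coe_one] at hy1
  rw [ZeroMemClass.coe_zero] at hy2
  have hy0 : y ≠ 0 := fun h => one_ne_zero (hy1.unique (h ▸ hasGaussRed_zero))
  obtain ⟨c, g, hc, hg0, hg⟩ := exists_C_mul_hasGaussRed (π := π)
    (show w y ≠ 0 from fun h => hy0 (by rw [← hww y, h, map_zero]))
  have hcA : c ∉ A := fun hc' => hg0 (hg.unique (by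
    have h := (hasGaussRed_C (π := π) ⟨c, hc'⟩).mul hy2
    rw [mul_zero] at h
    rwa [IntermediateField.coe_mul, coe_algebraMap_FL]))
  have ha : c⁻¹ ∈ A.nonunits := by
    rw [ValuationSubring.mem_nonunits_iff, map_inv₀]
    rw [← A.valuation_le_one_iff, not_le] at hcA
    exact inv_lt_one_of_one_lt₀ hcA
  obtain ⟨N, hN⟩ := exists_pow_mul_inv_mem_nonunits Fact.out hA ha he0
  have hN0 : N ≠ 0 := by
    rintro rfl
    rw [pow_zero, one_mul] at hN
    exact heu (A.nonunits_subset hN)
  set t := c⁻¹ ^ N * e⁻¹ with ht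
  set E := algebraMap L (FL (M * q) L) e with hE
  refine ⟨y ^ N + E * (1 - y ^ N),
    algebraMap L _ t * (algebraMap L _ c * w y) ^ N + (1 - (w y) ^ N), 1, ?_, one_ne_zero, ?_,
    ?_, ?_⟩
  · intro h0
    have h : HasGaussRed π ((y ^ N + E * (1 - y ^ N) : FL (M * q) L) : LaurentSeries L) 1 := by
      rw [IntermediateField.coe_add, IntermediateField.coe_mul, AddSubgroupClass.coe_sub,
        IntermediateField.coe_pow, coe_algebraMap_FL, OneMemClass.coe_one, sub_eq_add_neg]
      have h := (hy1.pow N).add ((hasGaussRed_C (π := π) ⟨e, he⟩).mul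
        (hasGaussRed_one.add (hy1.pow N).neg))
      rwa [one_pow, add_neg_cancel, mul_zero, add_zero] at h
    rw [h0, ZeroMemClass.coe_zero] at h
    exact one_ne_zero (h.unique hasGaussRed_zero)
  · rw [IntermediateField.coe_add, IntermediateField.coe_mul, AddSubgroupClass.coe_sub,
      IntermediateField.coe_pow, coe_algebraMap_FL, OneMemClass.coe_one, sub_eq_add_neg]
    have h := (hy1.pow N).add ((hasGaussRed_C (π := π) ⟨e, he⟩).mul
      (hasGaussRed_one.add (hy1.pow N).neg))
    rwa [one_pow, add_neg_cancel, mul_zero, add_zero] at h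
  · rw [IntermediateField.coe_add, IntermediateField.coe_mul, AddSubgroupClass.coe_sub,
      IntermediateField.coe_pow, IntermediateField.coe_pow, coe_algebraMap_FL,
      OneMemClass.coe_one, sub_eq_add_neg]
    have h := ((hasGaussRed_C (π := π) ⟨t, A.nonunits_subset hN⟩).mul (hg.pow N)).add
      (hasGaussRed_one.add (hy2.pow N).neg)
    rwa [map_eq_zero_of_mem_nonunits hN, map_zero, zero_mul, zero_add, zero_pow hN0, neg_zero,
      add_zero] at h
  · have h1 : E * (algebraMap L _ t * (algebraMap L _ c) ^ N) = 1 := by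
      rw [hE, ← map_pow, ← map_mul, ← map_mul, ht, ← map_one (algebraMap L (FL (M * q) L))]
      congr 1
      rw [inv_pow]
      field_simp
    rw [map_add, map_mul, map_sub, map_one, map_pow, hE, AlgHom.commutes, ← hE, mul_pow]
    linear_combination -((w y) ^ N) * h1

include hwα hwβ in
/-- A function with nonzero residue at the first valuation and of prescribed size at the
second. -/
theorem exists_res_size [CharZero L] (hπ : Function.Surjective π)
    (hA : A.LiesOverPrime q) (hww : ∀ x, w (w x) = x) {e : L} (he0 : e ≠ 0) :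
    ∃ (u z : FL (M * q) L) (r r' : LaurentSeries k), u ≠ 0 ∧ r ≠ 0 ∧ r' ≠ 0 ∧
      HasGaussRed π (u : LaurentSeries L) r ∧
      HasGaussRed π (z : LaurentSeries L) r' ∧ w u = algebraMap L _ e * z := by
  rcases A.mem_or_inv_mem e with he | he
  · obtain ⟨u, z, r, hu, hr, h1, h2, h3⟩ :=
      exists_res_one_of_mem (π := π) hwα hwβ hπ hA hww he he0
    exact ⟨u, z, 1, r, hu, one_ne_zero, hr, h1, h2, h3⟩
  · obtain ⟨u, z, r, hu, hr, h1, h2, h3⟩ :=
      exists_res_one_of_mem (π := π) hwα hwβ hπ hA hww he (inv_ne_zero he0)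
    refine ⟨u⁻¹, z⁻¹, 1⁻¹, r⁻¹, inv_ne_zero hu, by simp, inv_ne_zero hr, ?_, ?_, ?_⟩
    · rw [IntermediateField.coe_inv]; exact h1.inv one_ne_zero
    · rw [IntermediateField.coe_inv]; exact h2.inv hr
    · rw [map_inv₀ w, h3, mul_inv, map_inv₀, inv_inv]

include hwα hwβ in
/-- Every function can be normalised at both valuations by a constant and an `n`-th power. -/
theorem canNormalise [CharZero L] [IsAlgClosed L] (hπ : Function.Surjective π)
    (hA : A.LiesOverPrime q) (hww : ∀ x, w (w x) = x) (hmem : ResiduesInLevel π M q w) {n : ℕ}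
    (hn : n ≠ 0) : (gaussPair π M q w).CanNormalise n L := by
  intro f hf
  obtain ⟨c1, g1, hc1, hg1, h1⟩ := exists_C_mul_hasGaussRed (π := π) hf
  obtain ⟨c2, g2, hc2, hg2, h2⟩ := exists_C_mul_hasGaussRed (π := π)
    (show w f ≠ 0 from fun h => hf (by rw [← hww f, h, map_zero]))
  obtain ⟨e, he⟩ := IsAlgClosed.exists_pow_nat_eq (c2 / c1) (Nat.pos_of_ne_zero hn)
  have he0 : e ≠ 0 := fun h => by
    rw [h, zero_pow hn, eq_comm, div_eq_zero_iff] at he
    exact he.elim hc2 hc1
  obtain ⟨u, z, r, r', hu, hr, hr', hur, hzr, hwu⟩ :=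
    exists_res_size (π := π) hwα hwβ hπ hA hww he0
  set F1 := algebraMap L (FL (M * q) L) c1 * u ^ n * f with hF1
  have e1 : HasGaussRed π (F1 : LaurentSeries L) (r ^ n * g1) := by
    rw [hF1, show algebraMap L (FL (M * q) L) c1 * u ^ n * f =
      u ^ n * (algebraMap L _ c1 * f) by ring, IntermediateField.coe_mul,
      IntermediateField.coe_pow]
    exact (hur.pow n).mul h1
  have e2 : HasGaussRed π ((w F1 : FL (M * q) L) : LaurentSeries L) (r' ^ n * g2) := by
    have : w F1 = z ^ n * (algebraMap L _ c2 * w f) := by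
      rw [hF1, map_mul, map_mul, map_pow, hwu, AlgHom.commutes, mul_pow]
      have hce : algebraMap L (FL (M * q) L) c1 * (algebraMap L _ e) ^ n =
          algebraMap L _ c2 := by
        rw [← map_pow, ← map_mul, he, mul_div_cancel₀ _ hc1]
      linear_combination (z ^ n * w f) * hce
    rw [this, IntermediateField.coe_mul, IntermediateField.coe_pow]
    exact (hzr.pow n).mul h2
  exact ⟨c1, u, ⟨_, (hmem _ _ _ e1 e2).1⟩, ⟨_, (hmem _ _ _ e1 e2).2⟩, hc1, hu,
    fun h => mul_ne_zero (pow_ne_zero n hr) hg1 (congrArg Subtype.val h),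
    fun h => mul_ne_zero (pow_ne_zero n hr') hg2 (congrArg Subtype.val h), e1, e2⟩

end Algebraic

end Fermat.Agent.BadPrime
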