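import Fermat.Agent.Reduction.GaussNorm
import Mathlib.Algebra.Polynomial.AlgebraMap
import Mathlib.RingTheory.Algebraic.Basic

/-!
# The Gauss valuation ring of a field of Laurent series and its residue map

For `F ≤ L((q))` whose non-zero elements are quotients of series scalable with respect to
`π : A → k`, the quotients
`a / b` of integral series with `π b ≠ 0` form a valuation subring of `F`; reduction of the
coefficients is its residue map into `k((q))`.
-/

set_option autoImplicit false

noncomputable section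

open ModularCurve

namespace Fermat.Agent.BadPrime

open Fermat.Agent.Reduction

variable {L k : Type*} [Field L] [Field k] {A : ValuationSubring L} (π : A →+* k)

/-- `f` is a quotient of integral series whose denominator has non-zero reduction, with numerator
reducing to `g` times the denominator. -/
def HasGaussRed (f : LaurentSeries L) (g : LaurentSeries k) : Prop :=
  ∃ a b : LaurentSeries A, coeffMap π b ≠ 0 ∧
    f * coeffMap A.subtype b = coeffMap A.subtype a ∧ g * coeffMap π b = coeffMap π a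

variable {π}

theorem HasGaussRed.unique {f : LaurentSeries L} {g g' : LaurentSeries k}
    (h : HasGaussRed π f g) (h' : HasGaussRed π f g') : g = g' := by
  obtain ⟨a, b, hb, e₁, e₂⟩ := h
  obtain ⟨a', b', hb', e₁', e₂'⟩ := h'
  have : a * b' = a' * b := by
    apply coeffMap_subtype_injective (A := A)
    rw [map_mul, map_mul, ← e₁, ← e₁']; ring
  have h₂ := congrArg (coeffMap π) this
  rw [map_mul, map_mul, ← e₂, ← e₂'] at h₂
  exact mul_right_cancel₀ (mul_ne_zero hb hb') (by linear_combination h₂)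

theorem HasGaussRed.add {f f' : LaurentSeries L} {g g' : LaurentSeries k}
    (h : HasGaussRed π f g) (h' : HasGaussRed π f' g') : HasGaussRed π (f + f') (g + g') := by
  obtain ⟨a, b, hb, e₁, e₂⟩ := h
  obtain ⟨a', b', hb', e₁', e₂'⟩ := h'
  refine ⟨a * b' + a' * b, b * b', by rw [map_mul]; exact mul_ne_zero hb hb', ?_, ?_⟩
  · simp only [map_add, map_mul, ← e₁, ← e₁']; ring
  · simp only [map_add, map_mul, ← e₂, ← e₂']; ring

theorem HasGaussRed.mul {f f' : LaurentSeries L} {g g' : LaurentSeries k}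
    (h : HasGaussRed π f g) (h' : HasGaussRed π f' g') : HasGaussRed π (f * f') (g * g') := by
  obtain ⟨a, b, hb, e₁, e₂⟩ := h
  obtain ⟨a', b', hb', e₁', e₂'⟩ := h'
  refine ⟨a * a', b * b', by rw [map_mul]; exact mul_ne_zero hb hb', ?_, ?_⟩
  · simp only [map_mul, ← e₁, ← e₁']; ring
  · simp only [map_mul, ← e₂, ← e₂']; ring

theorem HasGaussRed.neg {f : LaurentSeries L} {g : LaurentSeries k}
    (h : HasGaussRed π f g) : HasGaussRed π (-f) (-g) := by
  obtain ⟨a, b, hb, e₁, e₂⟩ := h
  exact ⟨-a, b, hb, by simp [← e₁], by simp [← e₂]⟩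

/-- An integral series reduces coefficientwise. -/
theorem hasGaussRed_coeffMap (y : LaurentSeries A) :
    HasGaussRed π (coeffMap A.subtype y) (coeffMap π y) :=
  ⟨y, 1, by simp, by simp, by simp⟩

theorem hasGaussRed_C (c : A) : HasGaussRed π (HahnSeries.C (c : L)) (HahnSeries.C (π c)) := by
  have := hasGaussRed_coeffMap (π := π) (HahnSeries.C c)
  simpa [HahnSeries.C_apply] using this

theorem hasGaussRed_zero : HasGaussRed π (0 : LaurentSeries L) (0 : LaurentSeries k) := by
  simpa using hasGaussRed_coeffMap (π := π) (0 : LaurentSeries A)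

theorem hasGaussRed_one : HasGaussRed π (1 : LaurentSeries L) (1 : LaurentSeries k) := by
  simpa using hasGaussRed_coeffMap (π := π) (1 : LaurentSeries A)

theorem HasGaussRed.inv {f : LaurentSeries L} {g : LaurentSeries k}
    (h : HasGaussRed π f g) (hg : g ≠ 0) : HasGaussRed π f⁻¹ g⁻¹ := by
  obtain ⟨a, b, hb, e₁, e₂⟩ := h
  have ha : coeffMap π a ≠ 0 := e₂ ▸ mul_ne_zero hg hb
  have hf : f ≠ 0 := by
    rintro rfl
    rw [zero_mul] at e₁
    exact ha (by rw [coeffMap_subtype_injective (A := A) (e₁.symm.trans (map_zero _).symm),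
      map_zero])
  refine ⟨b, a, ha, ?_, ?_⟩
  · rw [← e₁, inv_mul_cancel_left₀ hf]
  · rw [← e₂, inv_mul_cancel_left₀ hg]

theorem HasGaussRed.pow {f : LaurentSeries L} {g : LaurentSeries k}
    (h : HasGaussRed π f g) (n : ℕ) : HasGaussRed π (f ^ n) (g ^ n) := by
  induction n with
  | zero => simpa using hasGaussRed_one
  | succ n ih => rw [pow_succ, pow_succ]; exact ih.mul h

/-- A constant with a Gauss reduction is integral. -/
theorem HasGaussRed.mem_of_C [IsLocalHom π] {c : L} {g : LaurentSeries k}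
    (h : HasGaussRed π (HahnSeries.C c) g) : c ∈ A := by
  obtain ⟨a, b, hb, e₁, -⟩ := h
  obtain ⟨i, hi⟩ : ∃ i, π (b.coeff i) ≠ 0 := by
    by_contra hall
    push Not at hall
    exact hb (HahnSeries.ext (funext hall))
  obtain ⟨u, hu⟩ := (isUnit_of_map_unit π _ (isUnit_iff_ne_zero.2 hi)).exists_right_inv
  have e : c * (b.coeff i : L) = (a.coeff i : L) := by
    have := congrArg (fun z : LaurentSeries L => z.coeff i) e₁
    simp only [coeff_C_mul, coeffMap_coeff] at this
    exact this
  have hu' : (b.coeff i : L) * u = 1 := congrArg Subtype.val hu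
  have : c = ((a.coeff i * u : A) : L) := by
    push_cast
    rw [← e, mul_assoc, hu', mul_one]
  rw [this]
  exact Subtype.mem _

variable [IsLocalHom π]

/-- A combination of a family with independent reductions has a reduction iff its coefficients
are integral. -/
theorem HasGaussRed.coeff_mem {ι : Type*} [Fintype ι] {f : ι → LaurentSeries L}
    {g : ι → LaurentSeries k} (hfg : ∀ i, HasGaussRed π (f i) (g i))
    (hind : ∀ a : ι → k, ∑ i, HahnSeries.C (a i) * g i = 0 → a = 0)
    {c : ι → L} {z : LaurentSeries k}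
    (h : HasGaussRed π (∑ i, HahnSeries.C (c i) * f i) z) (i : ι) : c i ∈ A := by
  classical
  by_contra hi
  obtain ⟨m, -, hm0, hm⟩ := exists_max (A := A) Finset.univ c
    ⟨i, Finset.mem_univ i, fun h0 => hi (h0 ▸ A.zero_mem)⟩
  have hmA : c m ∉ A := fun hmem => hi (by
    have := A.mul_mem _ _ (hm i (Finset.mem_univ i)) hmem
    rwa [div_mul_cancel₀ _ hm0] at this)
  have hinv : (c m)⁻¹ ∈ A := (A.mem_or_inv_mem (c m)).resolve_left hmA
  have hπ : π ⟨_, hinv⟩ = 0 := by
    by_contra hne
    obtain ⟨w, hw⟩ := (isUnit_of_map_unit π _ (isUnit_iff_ne_zero.2 hne)).exists_right_inv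
    have hw' : (c m)⁻¹ * (w : L) = 1 := congrArg Subtype.val hw
    exact hmA ((show (w : L) = c m by field_simp at hw'; exact hw') ▸ w.2)
  have hmem : ∀ j, c j / c m ∈ A := fun j => hm j (Finset.mem_univ j)
  have h₁ : HasGaussRed π (∑ j, HahnSeries.C (c j / c m) * f j)
      (∑ j, HahnSeries.C (π ⟨_, hmem j⟩) * g j) := by
    generalize (Finset.univ : Finset ι) = s
    induction s using Finset.induction_on with
    | empty => simpa using hasGaussRed_zero
    | insert j s hj ih =>
      rw [Finset.sum_insert hj, Finset.sum_insert hj]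
      exact ((hasGaussRed_C ⟨_, hmem j⟩).mul (hfg j)).add ih
  have h₂ : HasGaussRed π (∑ j, HahnSeries.C (c j / c m) * f j) (HahnSeries.C (0 : k) * z) := by
    have := (hasGaussRed_C (π := π) ⟨_, hinv⟩).mul h
    rw [hπ] at this
    convert this using 1
    rw [Finset.mul_sum]
    refine Finset.sum_congr rfl fun j _ => ?_
    rw [← mul_assoc, ← map_mul, inv_mul_eq_div]
  have := congrFun (hind _ (by rw [h₁.unique h₂, map_zero, zero_mul])) m
  rw [show (⟨_, hmem m⟩ : A) = 1 from Subtype.ext (div_self hm0), map_one] at this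
  exact one_ne_zero this

variable (π) in
/-- Powers of a series with transcendental reduction: an integral value of a polynomial has
integral coefficients. -/
theorem coeff_mem_of_hasGaussRed_aeval {t : LaurentSeries L} {tb : LaurentSeries k}
    (ht : HasGaussRed π t tb) (htr : Transcendental k tb) (p : Polynomial L)
    {z : LaurentSeries k} (h : HasGaussRed π (p.eval₂ HahnSeries.C t) z) (i : ℕ) :
    p.coeff i ∈ A := by
  classical
  by_cases hi : i ≤ p.natDegree
  · refine HasGaussRed.coeff_mem (ι := Fin (p.natDegree + 1)) (fun j => ht.pow (j : ℕ)) ?_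
      (c := fun j => p.coeff j) (z := z) ?_ ⟨i, Nat.lt_succ_of_le hi⟩
    · intro a ha
      have hli := (transcendental_iff_injective.1 htr)
      have hz : Polynomial.aeval tb (∑ j : Fin (p.natDegree + 1),
          Polynomial.monomial (j : ℕ) (a j)) = 0 := by
        rw [map_sum, ← ha]
        refine Finset.sum_congr rfl fun j _ => ?_
        rw [Polynomial.aeval_monomial, algebraMap_laurentSeries_eq_single, HahnSeries.C_apply]
      funext j
      have := congrArg (fun q : Polynomial k => q.coeff j) (hli (hz.trans (map_zero _).symm))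
      simpa [Polynomial.finsetSum_coeff, Polynomial.coeff_monomial, Fin.val_inj] using this
    · convert h using 1
      rw [Polynomial.eval₂_eq_sum_range, Fin.sum_univ_eq_sum_range
        (fun j => HahnSeries.C (p.coeff j) * t ^ j)]
  · rw [Polynomial.coeff_eq_zero_of_natDegree_lt (not_le.1 hi)]
    exact A.zero_mem

section Ring

variable (π) (F : IntermediateField L (LaurentSeries L))
variable (hF : ∀ f ∈ F, f ≠ 0 →
  ∃ u v : LaurentSeries L, IsScalable A π u ∧ IsScalable A π v ∧ f * v = u)

/-- The Gauss valuation ring of `F`. -/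
def gaussRing : ValuationSubring F where
  carrier := {f | ∃ g, HasGaussRed π (f : LaurentSeries L) g}
  zero_mem' := ⟨0, hasGaussRed_zero⟩
  one_mem' := ⟨1, hasGaussRed_one⟩
  add_mem' := fun ⟨_, h⟩ ⟨_, h'⟩ => ⟨_, h.add h'⟩
  mul_mem' := fun ⟨_, h⟩ ⟨_, h'⟩ => ⟨_, h.mul h'⟩
  neg_mem' := fun ⟨_, h⟩ => ⟨_, h.neg⟩
  mem_or_inv_mem' f := by
    rcases eq_or_ne f 0 with rfl | hf
    · exact Or.inl ⟨0, hasGaussRed_zero⟩
    have hf' : (f : LaurentSeries L) ≠ 0 := fun h => hf (Subtype.ext h)
    obtain ⟨u, v, ⟨c, hc, y, hy, hyπ⟩, ⟨d, hd, z, hz, hzπ⟩, huv⟩ := hF _ f.2 hf'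
    have hCC : ∀ e : A, coeffMap A.subtype (HahnSeries.C e) = HahnSeries.C (e : L) := fun e => by
      simp [HahnSeries.C_apply]
    rcases A.mem_or_inv_mem (d / c) with hdc | hdc
    · refine Or.inl ⟨_, HahnSeries.C (⟨_, hdc⟩ : A) * y, z, hzπ, ?_, div_mul_cancel₀ _ hzπ⟩
      rw [map_mul, hCC, hy, hz, ← huv]
      have e : HahnSeries.C (d / c) * HahnSeries.C c = (HahnSeries.C d : LaurentSeries L) := by
        rw [← map_mul, div_mul_cancel₀ _ hc]
      show _ = HahnSeries.C (d / c) * _
      linear_combination -((f : LaurentSeries L) * v) * e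
    · refine Or.inr ⟨_, HahnSeries.C (⟨_, hdc⟩ : A) * z, y, hyπ, ?_, div_mul_cancel₀ _ hyπ⟩
      rw [map_mul, hCC, hz, hy, ← huv, IntermediateField.coe_inv]
      have e : HahnSeries.C (d / c)⁻¹ * HahnSeries.C d = (HahnSeries.C c : LaurentSeries L) := by
        rw [← map_mul, inv_div, div_mul_cancel₀ _ hd]
      show _ = HahnSeries.C (d / c)⁻¹ * _
      rw [← mul_assoc (HahnSeries.C _) (HahnSeries.C _), e]
      field_simp

omit [IsLocalHom π] in
theorem mem_gaussRing {f : F} :
    f ∈ gaussRing π F hF ↔ ∃ g, HasGaussRed π (f : LaurentSeries L) g := Iff.rfl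

/-- The residue map of the Gauss valuation ring. -/
def gaussRed : gaussRing π F hF →+* LaurentSeries k where
  toFun f := ((mem_gaussRing π F hF).1 f.2).choose
  map_zero' := HasGaussRed.unique ((mem_gaussRing π F hF).1 (gaussRing π F hF).zero_mem).choose_spec
    hasGaussRed_zero
  map_one' := HasGaussRed.unique ((mem_gaussRing π F hF).1 (gaussRing π F hF).one_mem).choose_spec
    hasGaussRed_one
  map_add' f g := HasGaussRed.unique ((mem_gaussRing π F hF).1 (f + g).2).choose_spec
    (((mem_gaussRing π F hF).1 f.2).choose_spec.add ((mem_gaussRing π F hF).1 g.2).choose_spec)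
  map_mul' f g := HasGaussRed.unique ((mem_gaussRing π F hF).1 (f * g).2).choose_spec
    (((mem_gaussRing π F hF).1 f.2).choose_spec.mul ((mem_gaussRing π F hF).1 g.2).choose_spec)

omit [IsLocalHom π] in
theorem hasGaussRed_gaussRed (f : gaussRing π F hF) :
    HasGaussRed π ((f : F) : LaurentSeries L) (gaussRed π F hF f) :=
  ((mem_gaussRing π F hF).1 f.2).choose_spec

omit [IsLocalHom π] in
theorem gaussRed_eq_of_hasGaussRed {f : gaussRing π F hF} {g : LaurentSeries k}
    (h : HasGaussRed π ((f : F) : LaurentSeries L) g) : gaussRed π F hF f = g :=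
  (hasGaussRed_gaussRed π F hF f).unique h

omit [IsLocalHom π] in
theorem mem_nonunits_gaussRing {f : F} :
    f ∈ (gaussRing π F hF).nonunits ↔ HasGaussRed π (f : LaurentSeries L) 0 := by
  rw [ValuationSubring.mem_nonunits_iff_exists_mem_maximalIdeal]
  constructor
  · rintro ⟨hf, hmax⟩
    suffices gaussRed π F hF ⟨f, hf⟩ = 0 by
      rw [← this]; exact hasGaussRed_gaussRed π F hF ⟨f, hf⟩
    by_contra h0
    have hfg := hasGaussRed_gaussRed π F hF ⟨f, hf⟩
    have hinv : f⁻¹ ∈ gaussRing π F hF :=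
      ⟨_, by rw [IntermediateField.coe_inv]; exact hfg.inv h0⟩
    refine (IsLocalRing.mem_maximalIdeal _).1 hmax (IsUnit.of_mul_eq_one ⟨_, hinv⟩ (Subtype.ext ?_))
    refine mul_inv_cancel₀ fun hf0 => h0 ?_
    refine gaussRed_eq_of_hasGaussRed π F hF ?_
    subst hf0
    exact hasGaussRed_zero
  · intro h
    refine ⟨⟨0, h⟩, fun hu => ?_⟩
    have := hu.map (gaussRed π F hF)
    rw [gaussRed_eq_of_hasGaussRed π F hF (f := ⟨f, 0, h⟩) h] at this
    exact not_isUnit_zero this

omit [IsLocalHom π] in
theorem gaussRed_eq_zero_iff (f : gaussRing π F hF) :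
    gaussRed π F hF f = 0 ↔ (f : F) ∈ (gaussRing π F hF).nonunits := by
  rw [mem_nonunits_gaussRing]
  exact ⟨fun h => h ▸ hasGaussRed_gaussRed π F hF f, gaussRed_eq_of_hasGaussRed π F hF⟩

theorem algebraMap_mem_gaussRing_iff {c : L} : algebraMap L F c ∈ gaussRing π F hF ↔ c ∈ A := by
  have e : ((algebraMap L F c : F) : LaurentSeries L) = HahnSeries.C c := by
    rw [HahnSeries.C_apply, ← algebraMap_laurentSeries_eq_single]
    rfl
  rw [mem_gaussRing, e]
  exact ⟨fun ⟨_, h⟩ => h.mem_of_C, fun hc => ⟨_, hasGaussRed_C ⟨c, hc⟩⟩⟩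

end Ring

section Auto

omit [IsLocalHom π]

/-- Automorphisms of the coefficients commute with Gauss reduction. -/
theorem HasGaussRed.coeffMap_auto {s : L ≃+* L} {α : k ≃+* k} (hs : ∀ a, a ∈ A → s a ∈ A)
    (hα : ∀ a : A, π ⟨s a, hs a a.2⟩ = α (π a)) {f : LaurentSeries L} {g : LaurentSeries k}
    (h : HasGaussRed π f g) :
    HasGaussRed π (coeffMap (s : L →+* L) f) (coeffMap (α : k →+* k) g) := by
  obtain ⟨a, b, hb, e₁, e₂⟩ := h
  let sA : A →+* A := ((s : L →+* L).comp A.subtype).codRestrict A.toSubring fun x => hs x x.2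
  have h₁ : ∀ z : LaurentSeries A, coeffMap A.subtype (coeffMap sA z) =
      coeffMap (s : L →+* L) (coeffMap A.subtype z) := fun z => by
    rw [coeffMap_coeffMap, coeffMap_coeffMap]; rfl
  have h₂ : ∀ z : LaurentSeries A, coeffMap π (coeffMap sA z) =
      coeffMap (α : k →+* k) (coeffMap π z) := fun z => by
    rw [coeffMap_coeffMap, coeffMap_coeffMap]
    exact coeffMap_congr (RingHom.ext hα) z
  refine ⟨coeffMap sA a, coeffMap sA b, ?_, by rw [h₁, h₁, ← map_mul, e₁],
    by rw [h₂, h₂, ← map_mul, e₂]⟩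
  rw [h₂]
  intro h0
  refine hb (HahnSeries.ext (funext fun i => α.injective ?_))
  simpa using congrArg (fun z : LaurentSeries k => z.coeff i) h0

end Auto

end Fermat.Agent.BadPrime
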