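import Fermat.Agent.BadPrime.Lattice

/-!
# Glueing approximate roots from two charts

`B0`, `B1` are the integral closures of `O[t]`, `O[1/t]` in `F`, and `Bloc` that of `O[t, 1/t]`.
If `h` has in both charts a root modulo `π` reducing to `1`, then for every `k` some element of a
fixed finite `O`-module of sections is a root modulo `π ^ k`.
-/

set_option autoImplicit false
set_option linter.unusedSectionVars false
set_option linter.unusedVariables false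

namespace Fermat.Agent.BadPrime

variable {F K : Type*} [Field F] [CommRing K]

/-- A model glued from two affine charts. -/
structure GlobalModel (V : Vertical F K) (O : Type*) [CommRing O] [Algebra O F] where
  /-- The coordinate on the base. -/
  t : F
  t_ne_zero : t ≠ 0
  /-- The chart at finite `t`. -/
  B0 : Subalgebra O F
  /-- The chart at infinite `t`. -/
  B1 : Subalgebra O F
  /-- The overlap. -/
  Bloc : Subalgebra O F
  π_mem : ∃ o : O, algebraMap O F o = V.π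
  Bloc_le : ∀ x ∈ Bloc, x ∈ V.Bv
  B0_le : B0 ≤ Bloc
  B1_le : B1 ≤ Bloc
  t_mem : t ∈ B0
  t_inv_mem : t⁻¹ ∈ B1
  rootClosed0 : ∀ (x : F) (m : ℕ), m ≠ 0 → x ^ m ∈ B0 → x ∈ B0
  rootClosed1 : ∀ (x : F) (m : ℕ), m ≠ 0 → x ^ m ∈ B1 → x ∈ B1
  rootClosedLoc : ∀ (x : F) (m : ℕ), m ≠ 0 → x ^ m ∈ Bloc → x ∈ Bloc
  saturated0 : ∀ x ∈ V.Bv, V.π * x ∈ B0 → x ∈ B0
  saturated1 : ∀ x ∈ V.Bv, V.π * x ∈ B1 → x ∈ B1
  saturatedLoc : ∀ x ∈ V.Bv, V.π * x ∈ Bloc → x ∈ Bloc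
  exists_pow_mul_mem0 : ∀ x ∈ Bloc, ∃ i : ℕ, t ^ i * x ∈ B0
  exists_pow_mul_mem1 : ∀ x ∈ Bloc, ∃ i : ℕ, t⁻¹ ^ i * x ∈ B1
  finite_over_base : ∃ s : Finset F, ∀ x ∈ B0,
    x ∈ Submodule.span (Algebra.adjoin O ({t} : Set F)) (s : Set F)
  exists_mul_mem0 : ∀ x : F, ∃ b ∈ B0, b ≠ 0 ∧ b * x ∈ B0
  exists_mul_mem1 : ∀ x : F, ∃ b ∈ B1, b ≠ 0 ∧ b * x ∈ B1
  sections_fg : ∀ e : F, e ≠ 0 → ∃ M : Submodule O F, M.FG ∧
    ∀ x : F, x ∈ M ↔ x ∈ B0 ∧ e * x ∈ B1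

namespace GlobalModel

variable {V : Vertical F K} {O : Type*} [CommRing O] [IsNoetherianRing O] [Algebra O F]
  (G : GlobalModel V O)

/-- The root module of a chart. -/
def roots (B : Subalgebra O F) (n : ℕ) (h : F) : Set F := {a | a ^ n * h ∈ B}

theorem add_mem_roots {B : Subalgebra O F}
    (hB : ∀ (x : F) (m : ℕ), m ≠ 0 → x ^ m ∈ B → x ∈ B) {n : ℕ} (hn : n ≠ 0) {h a b : F}
    (ha : a ∈ roots B n h) (hb : b ∈ roots B n h) : a + b ∈ roots B n h := by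
  show (a + b) ^ n * h ∈ B
  rw [add_pow, Finset.sum_mul]
  refine sum_mem fun i hi => ?_
  have hi' : i ≤ n := by simpa [Nat.lt_succ_iff] using hi
  rw [show a ^ i * b ^ (n - i) * (n.choose i : F) * h =
    (n.choose i : F) * (a ^ i * b ^ (n - i) * h) by ring]
  refine mul_mem (natCast_mem _ _) (hB _ n hn ?_)
  have key : (a ^ i * b ^ (n - i) * h) ^ n = (a ^ n * h) ^ i * (b ^ n * h) ^ (n - i) := by
    rw [mul_pow, mul_pow, mul_pow, mul_pow, ← pow_mul, ← pow_mul, ← pow_mul, ← pow_mul,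
      mul_comm i n, mul_comm (n - i) n]
    calc a ^ (n * i) * b ^ (n * (n - i)) * h ^ n
        = a ^ (n * i) * b ^ (n * (n - i)) * (h ^ i * h ^ (n - i)) := by
          rw [← pow_add, Nat.add_sub_cancel' hi']
      _ = _ := by ring
  rw [key]
  exact mul_mem (pow_mem ha i) (pow_mem hb _)

theorem mul_mem_roots {B : Subalgebra O F} {n : ℕ} (hn : n ≠ 0) {h a x : F} (hx : x ∈ B)
    (ha : a ∈ roots B n h) : x * a ∈ roots B n h := by
  show (x * a) ^ n * h ∈ B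
  rw [mul_pow, mul_assoc]
  exact mul_mem (pow_mem hx n) ha

theorem roots_mono {B B' : Subalgebra O F} (hle : B ≤ B') {n : ℕ} {h a : F}
    (ha : a ∈ roots B n h) : a ∈ roots B' n h := hle ha

include G in
theorem π_pow_mem (B : Subalgebra O F) (k : ℕ) : V.π ^ k ∈ B := by
  obtain ⟨o, ho⟩ := G.π_mem
  exact pow_mem (ho ▸ B.algebraMap_mem o) k

/-- A refinement step of an approximate root. -/
theorem exists_root_mod_pow {B : Subalgebra O F} {n : ℕ} (hn : n ≠ 0)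
    (hrc : ∀ (x : F) (m : ℕ), m ≠ 0 → x ^ m ∈ B → x ∈ B) (hπ : V.π ∈ B)
    {ν : F} (hν : ν ∈ B) (hnν : (n : F) * ν = 1) {h a : F} {r : F}
    (ha : a ∈ roots B n h) (hr : r ∈ B) (har : a ^ n * h - 1 = V.π * r) (k : ℕ) :
    ∃ a' : F, a' ∈ roots B n h ∧ (∃ s ∈ B, a' ^ n * h - 1 = V.π ^ (k + 1) * s) ∧
      ∃ e ∈ B, a' = a * (1 + V.π * e) := by
  induction k with
  | zero => exact ⟨a, ha, ⟨r, hr, by rw [zero_add, pow_one]; exact har⟩, 0, zero_mem _, by ring⟩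
  | succ k ih =>
    obtain ⟨b, hb, ⟨s, hs, hbs⟩, e, he, hbe⟩ := ih
    set x := -(ν * (V.π ^ (k + 1) * s)) with hx
    have hxB : x ∈ B := neg_mem (mul_mem hν (mul_mem (pow_mem hπ _) hs))
    obtain ⟨d, hd, hd'⟩ : ∃ d ∈ B, (1 + x) ^ n = 1 + n * x + x ^ 2 * d := by
      clear hn hnν ha hb hbs hbe har hx hrc
      induction n with
      | zero => exact ⟨0, zero_mem _, by ring⟩
      | succ n ihn =>
        obtain ⟨d, hd, hd'⟩ := ihn
        refine ⟨n + d + x * d, add_mem (add_mem (natCast_mem _ _) hd) (mul_mem hxB hd), ?_⟩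
        rw [pow_succ, hd']; push_cast; ring
    refine ⟨b * (1 + x), ?_, ⟨-s ^ 2 * V.π ^ k +
        ν ^ 2 * s ^ 2 * V.π ^ k * d * (b ^ n * h), ?_, ?_⟩, e - (1 + V.π * e) * (ν * V.π ^ k * s),
      ?_, ?_⟩
    · show (b * (1 + x)) ^ n * h ∈ B
      rw [mul_pow, mul_right_comm]
      exact mul_mem hb (pow_mem (add_mem (one_mem _) hxB) n)
    · exact add_mem (mul_mem (neg_mem (pow_mem hs 2)) (pow_mem hπ _))
        (mul_mem (mul_mem (mul_mem (mul_mem (pow_mem hν 2) (pow_mem hs 2)) (pow_mem hπ _)) hd) hb)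
    · rw [mul_pow, hd']
      have h1 : b ^ n * h = 1 + V.π ^ (k + 1) * s := by rw [← hbs]; ring
      rw [show b ^ n * (1 + (n : F) * x + x ^ 2 * d) * h =
        b ^ n * h * (1 + (n : F) * x + x ^ 2 * d) by ring, h1, hx]
      linear_combination (-(V.π ^ (k + 1) * s) - (V.π ^ (k + 1) * s) ^ 2) * hnν
    · exact sub_mem he (mul_mem (add_mem (one_mem _) (mul_mem hπ he))
        (mul_mem (mul_mem hν (pow_mem hπ _)) hs))
    · rw [hbe, hx, pow_succ']; ring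

/-- Two approximate roots with residue one agree modulo `π ^ k`. -/
theorem sub_mem_pow {n : ℕ} (hn : n ≠ 0) {ν : F} (hν : ν ∈ G.Bloc) (hnν : (n : F) * ν = 1)
    {h a a' : F} (ha : a ∈ roots G.Bloc n h) (ha' : a' ∈ roots G.Bloc n h)
    (hu : ∃ e ∈ G.Bloc, a' * a ^ (n - 1) * h - 1 = V.π * e) {k : ℕ}
    (hk : ∃ r ∈ G.Bloc, a ^ n * h - 1 = V.π ^ k * r)
    (hk' : ∃ r ∈ G.Bloc, a' ^ n * h - 1 = V.π ^ k * r) :
    ∃ x, x ∈ roots G.Bloc n h ∧ a' - a = V.π ^ k * x := by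
  obtain ⟨e, he, hue⟩ := hu
  obtain ⟨r, hr, har⟩ := hk
  obtain ⟨r', hr', har'⟩ := hk'
  have hπ : V.π ∈ G.Bloc := by simpa using G.π_pow_mem G.Bloc 1
  set u := a' * a ^ (n - 1) * h with hudef
  have hu1 : u = 1 + V.π * e := by rw [← hue]; ring
  have hun : u ^ n = (a' ^ n * h) * (a ^ n * h) ^ (n - 1) := by
    obtain ⟨m, rfl⟩ := Nat.exists_eq_succ_of_ne_zero hn
    simp only [hudef, Nat.succ_eq_add_one, add_tsub_cancel_right]
    ring
  -- `u ^ n - 1 = π ^ k * z`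
  obtain ⟨z, hz, hzu⟩ : ∃ z ∈ G.Bloc, u ^ n - 1 = V.π ^ k * z := by
    obtain ⟨w, hw, hw'⟩ : ∃ w ∈ G.Bloc, (a ^ n * h) ^ (n - 1) - 1 = V.π ^ k * w := by
      refine ⟨r * ∑ i ∈ Finset.range (n - 1), (a ^ n * h) ^ i,
        mul_mem hr (sum_mem fun i _ => pow_mem ha i), ?_⟩
      rw [← mul_assoc, ← har, mul_geom_sum]
    refine ⟨r' * (a ^ n * h) ^ (n - 1) + w, add_mem (mul_mem hr' (pow_mem ha _)) hw, ?_⟩
    rw [hun, mul_add, ← hw', ← mul_assoc, ← har']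
    ring
  -- hence `u - 1` is divisible by `π ^ k`
  obtain ⟨d, hd, hd'⟩ : ∃ d ∈ G.Bloc, ∑ i ∈ Finset.range n, u ^ i = n + (u - 1) * d := by
    refine ⟨∑ i ∈ Finset.range n, ∑ j ∈ Finset.range i, u ^ j,
      sum_mem fun i _ => sum_mem fun j _ => pow_mem ?_ j, ?_⟩
    · rw [hu1]; exact add_mem (one_mem _) (mul_mem hπ he)
    · rw [Finset.mul_sum, Finset.sum_congr rfl fun i _ => mul_geom_sum u i]
      simp
  have key : ∀ l ≤ k, ∃ e' ∈ G.Bloc, u - 1 = V.π ^ l * e' := by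
    intro l hl
    induction l with
    | zero => exact ⟨u - 1, by rw [hu1]; simpa using mul_mem hπ he, by simp⟩
    | succ l ih =>
      obtain ⟨e', he', hl'⟩ := ih (Nat.le_of_succ_le hl)
      refine ⟨ν * (V.π ^ (k - (l + 1)) * z) - ν * e * e' * d, sub_mem
        (mul_mem hν (mul_mem (pow_mem hπ _) hz)) (mul_mem (mul_mem (mul_mem hν he) he') hd), ?_⟩
      have h1 : (u - 1) * (n + (u - 1) * d) = V.π ^ k * z := by
        rw [← hd', ← hzu, mul_geom_sum]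
      have h2 : V.π ^ (l + 1) * V.π ^ (k - (l + 1)) = V.π ^ k := by
        rw [← pow_add, Nat.add_sub_cancel' hl]
      calc u - 1 = ν * ((u - 1) * (n + (u - 1) * d)) - ν * ((u - 1) * ((u - 1) * d)) := by
            linear_combination (-(u - 1)) * hnν
        _ = _ := by
            rw [h1, ← h2, mul_sub]
            nth_rewrite 1 [hl']
            rw [show u - 1 = V.π * e by rw [hu1]; ring]
            ring
  obtain ⟨e', he', hek⟩ := key k le_rfl
  refine ⟨a' * (-r) + a * e', add_mem_roots G.rootClosedLoc hn ?_ (mul_comm a e' ▸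
    mul_mem_roots hn he' ha), ?_⟩
  · rw [mul_comm]; exact mul_mem_roots hn (neg_mem hr) ha'
  · calc a' - a = (a' * (1 - a ^ n * h)) + a * (u - 1) := by
          rw [hudef]
          obtain ⟨m, rfl⟩ := Nat.exists_eq_succ_of_ne_zero hn
          simp only [Nat.succ_eq_add_one, add_tsub_cancel_right]
          ring
      _ = _ := by rw [hek, show 1 - a ^ n * h = -(V.π ^ k * r) by rw [← har]; ring]; ring

/-- Root modules of `Bloc` split between the two charts. -/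
theorem exists_split {n : ℕ} (hn : n ≠ 0) {h : F} (hh : h ≠ 0) :
    ∃ m : ℕ, ∀ x ∈ roots G.Bloc n h, ∃ x0 ∈ roots G.B0 n h, ∃ x1 ∈ roots G.B1 n h,
      x = x0 + G.t ^ m * x1 := by
  classical
  obtain ⟨s, hs⟩ := G.finite_over_base
  obtain ⟨b, hb, hb0, hbh⟩ := G.exists_mul_mem0 h⁻¹
  let A := Algebra.adjoin O ({G.t} : Set F)
  have hA : ∀ x : A, (x : F) ∈ G.B0 := fun x =>
    Algebra.adjoin_le (Set.singleton_subset_iff.mpr G.t_mem) x.2
  have : IsNoetherianRing A := isNoetherianRing_of_fg ⟨{G.t}, by rw [Finset.coe_singleton]⟩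
  let I0 : Submodule A F :=
    { carrier := roots G.B0 n h
      zero_mem' := by
        show (0 : F) ^ n * h ∈ G.B0
        rw [zero_pow hn, zero_mul]; exact zero_mem _
      add_mem' := fun ha hb => add_mem_roots G.rootClosed0 hn ha hb
      smul_mem' := fun x a ha => mul_mem_roots hn (hA x) ha }
  -- `b • I0 ⊆ B0` makes it finitely generated
  have hI0 : I0.FG := by
    have hle : I0.map (LinearMap.mulLeft A b) ≤ Submodule.span A (s : Set F) := by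
      rintro _ ⟨a, ha, rfl⟩
      refine hs _ (G.rootClosed0 _ n hn ?_)
      show (b * a) ^ n ∈ G.B0
      rw [show (b * a) ^ n = (a ^ n * h) * ((b * h⁻¹) * b ^ (n - 1)) by
        rw [mul_pow, ← Nat.succ_pred_eq_of_ne_zero hn]
        simp only [Nat.succ_eq_add_one, add_tsub_cancel_right, pow_succ]
        field_simp]
      exact mul_mem ha (mul_mem hbh (pow_mem hb _))
    have := isNoetherian_span_of_finite A s.finite_toSet
    refine Submodule.fg_of_fg_map_injective (LinearMap.mulLeft A b)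
      (fun x y hxy => mul_left_cancel₀ hb0 hxy) ?_
    exact isNoetherian_submodule.mp this _ hle
  obtain ⟨gens, hgens⟩ := hI0
  have hgensI : ∀ g ∈ gens, g ∈ roots G.B0 n h := fun g hg => by
    have : g ∈ I0 := hgens ▸ Submodule.subset_span hg
    exact this
  -- each generator lands in the second chart after dividing by a power of `t`
  have he : ∀ g ∈ gens, ∃ i : ℕ, G.t⁻¹ ^ i * g ∈ roots G.B1 n h := by
    intro g hg
    obtain ⟨i, hi⟩ := G.exists_pow_mul_mem1 _ (G.B0_le (hgensI g hg))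
    refine ⟨i, ?_⟩
    show (G.t⁻¹ ^ i * g) ^ n * h ∈ G.B1
    obtain ⟨m, rfl⟩ := Nat.exists_eq_succ_of_ne_zero hn
    rw [show (G.t⁻¹ ^ i * g) ^ (m + 1) * h =
      (G.t⁻¹ ^ i) ^ m * (G.t⁻¹ ^ i * (g ^ (m + 1) * h)) by ring]
    exact mul_mem (pow_mem (pow_mem G.t_inv_mem _) _) hi
  choose! ee hee using he
  refine ⟨gens.sup ee, fun x hx => ?_⟩
  obtain ⟨i, hi⟩ := G.exists_pow_mul_mem0 _ hx
  have hxi : G.t ^ i * x ∈ I0 := by
    show (G.t ^ i * x) ^ n * h ∈ G.B0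
    obtain ⟨m, rfl⟩ := Nat.exists_eq_succ_of_ne_zero hn
    rw [show (G.t ^ i * x) ^ (m + 1) * h = (G.t ^ i) ^ m * (G.t ^ i * (x ^ (m + 1) * h)) by ring]
    exact mul_mem (pow_mem (pow_mem G.t_mem _) _) hi
  -- the set of elements that split
  let Split : Set F := {y | ∃ y0 ∈ roots G.B0 n h, ∃ y1 ∈ roots G.B1 n h,
    y = y0 + G.t ^ (gens.sup ee) * y1}
  have hadd : ∀ y y' : F, y ∈ Split → y' ∈ Split → y + y' ∈ Split := by
    rintro _ _ ⟨a, ha, b, hb, rfl⟩ ⟨a', ha', b', hb', rfl⟩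
    exact ⟨a + a', add_mem_roots G.rootClosed0 hn ha ha', b + b',
      add_mem_roots G.rootClosed1 hn hb hb', by ring⟩
  have hzero0 : (0 : F) ∈ roots G.B0 n h := by
    show (0 : F) ^ n * h ∈ G.B0
    rw [zero_pow hn, zero_mul]; exact zero_mem _
  have hzero1 : (0 : F) ∈ roots G.B1 n h := by
    show (0 : F) ^ n * h ∈ G.B1
    rw [zero_pow hn, zero_mul]; exact zero_mem _
  have hzero : (0 : F) ∈ Split := ⟨0, hzero0, 0, hzero1, by ring⟩
  -- monomials split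
  have hmono : ∀ (o : O) (j : ℕ), ∀ g ∈ gens,
      G.t⁻¹ ^ i * (algebraMap O F o * G.t ^ j * g) ∈ Split := by
    intro o j g hg
    have ht := G.t_ne_zero
    rcases le_or_gt i j with hij | hij
    · refine ⟨algebraMap O F o * G.t ^ (j - i) * g,
        mul_mem_roots hn (mul_mem (G.B0.algebraMap_mem o) (pow_mem G.t_mem _)) (hgensI g hg),
        0, hzero1, ?_⟩
      rw [mul_zero, add_zero, inv_pow]
      obtain ⟨d, rfl⟩ := Nat.exists_eq_add_of_le hij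
      rw [Nat.add_sub_cancel_left, pow_add]
      field_simp
    · refine ⟨0, hzero0, algebraMap O F o *
        G.t⁻¹ ^ ((i - j) + (gens.sup ee - ee g)) * (G.t⁻¹ ^ ee g * g),
        mul_mem_roots hn (mul_mem (G.B1.algebraMap_mem o) (pow_mem G.t_inv_mem _)) (hee g hg), ?_⟩
      obtain ⟨d, hd⟩ := Nat.exists_eq_add_of_le (Finset.le_sup (f := ee) hg)
      obtain ⟨d', rfl⟩ := Nat.exists_eq_add_of_le hij.le
      rw [zero_add, hd, Nat.add_sub_cancel_left, Nat.add_sub_cancel_left]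
      simp only [inv_pow, pow_add]
      field_simp
  -- conclude
  have hall : ∀ y ∈ I0, G.t⁻¹ ^ i * y ∈ Split := by
    intro y hy
    rw [← hgens, Submodule.mem_span_finset] at hy
    obtain ⟨f, -, rfl⟩ := hy
    rw [Finset.mul_sum]
    refine Finset.sum_induction _ (· ∈ Split) hadd hzero fun g hg => ?_
    obtain ⟨p, hp⟩ : ∃ p : Polynomial O, Polynomial.aeval G.t p = (f g : F) := by
      have h2 : (f g : F) ∈ Algebra.adjoin O ({G.t} : Set F) := (f g).2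
      rw [Algebra.adjoin_singleton_eq_range_aeval] at h2
      exact h2
    rw [show f g • g = (f g : F) * g from rfl, ← hp, Polynomial.aeval_eq_sum_range,
      Finset.sum_mul, Finset.mul_sum]
    refine Finset.sum_induction _ (· ∈ Split) hadd hzero fun j _ => ?_
    rw [Algebra.smul_def]
    exact hmono _ j g hg
  have := hall _ hxi
  rwa [← mul_assoc, ← mul_pow, inv_mul_cancel₀ G.t_ne_zero, one_pow, one_mul] at this

/-- A finitely generated module containing `B0`-roots with bounded pole order at infinity. -/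
theorem exists_sections {n : ℕ} (hn : n ≠ 0) {h : F} (hh : h ≠ 0) (m : ℕ) :
    ∃ M : Submodule O F, M.FG ∧ ∀ a : F, a ∈ roots G.B0 n h →
      G.t⁻¹ ^ m * a ∈ roots G.B1 n h → a ∈ M := by
  obtain ⟨b, hb, hb0, hbh⟩ := G.exists_mul_mem0 h⁻¹
  obtain ⟨c, hc, hc0, hch⟩ := G.exists_mul_mem1 h⁻¹
  have key : ∀ (B : Subalgebra O F), (∀ (x : F) (m : ℕ), m ≠ 0 → x ^ m ∈ B → x ∈ B) →
      ∀ {d a : F}, d ∈ B → d * h⁻¹ ∈ B → a ∈ roots B n h → d * a ∈ B := by
    intro B hrc d a hd hdh ha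
    refine hrc _ n hn ?_
    rw [show (d * a) ^ n = (a ^ n * h) * ((d * h⁻¹) * d ^ (n - 1)) by
      rw [mul_pow, ← Nat.succ_pred_eq_of_ne_zero hn]
      simp only [Nat.succ_eq_add_one, add_tsub_cancel_right, pow_succ]
      field_simp]
    exact mul_mem ha (mul_mem hdh (pow_mem hd _))
  obtain ⟨M, hM, hMmem⟩ := G.sections_fg (c * G.t⁻¹ ^ m * b⁻¹) (mul_ne_zero
    (mul_ne_zero hc0 (pow_ne_zero _ (inv_ne_zero G.t_ne_zero))) (inv_ne_zero hb0))
  refine ⟨M.map (LinearMap.mulLeft O b⁻¹), hM.map _, fun a ha ha' => ⟨b * a, ?_, ?_⟩⟩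
  · rw [SetLike.mem_coe, hMmem]
    refine ⟨key _ G.rootClosed0 hb hbh ha, ?_⟩
    rw [show c * G.t⁻¹ ^ m * b⁻¹ * (b * a) = c * (G.t⁻¹ ^ m * a) by field_simp]
    exact key _ G.rootClosed1 hc hch ha'
  · show b⁻¹ * (b * a) = a
    rw [← mul_assoc, inv_mul_cancel₀ hb0, one_mul]

/-- Main glueing result: approximate roots in one finitely generated module. -/
theorem exists_approximate_roots {n : ℕ} (hn : n ≠ 0) {ν : O} (hnν : (n : O) * ν = 1) {h : F}
    (hh : h ≠ 0) (hhBv : h ∈ V.Bv)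
    {a0 : F} (ha0 : a0 ∈ roots G.B0 n h) (ha0v : ∃ hm : a0 ∈ V.Bv, V.rd ⟨a0, hm⟩ = 1)
    {a1 : F} (ha1 : a1 ∈ roots G.B1 n h) (ha1v : ∃ hm : a1 ∈ V.Bv, V.rd ⟨a1, hm⟩ = 1)
    (hh1 : V.rd ⟨h, hhBv⟩ = 1) :
    ∃ M : Submodule O F, M.FG ∧ ∀ k : ℕ, ∃ a ∈ M, ∃ r ∈ G.B0,
      a ^ n * h - 1 = V.π ^ (k + 1) * r := by
  obtain ⟨m, hm⟩ := G.exists_split hn hh
  obtain ⟨M, hM, hMmem⟩ := G.exists_sections hn hh m
  refine ⟨M, hM, fun k => ?_⟩
  have hnνF : (n : F) * algebraMap O F ν = 1 := by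
    rw [← map_natCast (algebraMap O F), ← map_mul, hnν, map_one]
  have hπ0 : V.π ∈ G.B0 := by simpa using G.π_pow_mem G.B0 1
  have hπ1 : V.π ∈ G.B1 := by simpa using G.π_pow_mem G.B1 1
  have hπl : V.π ∈ G.Bloc := by simpa using G.π_pow_mem G.Bloc 1
  -- first order approximation
  have first : ∀ (B : Subalgebra O F), B ≤ G.Bloc → (∀ x ∈ V.Bv, V.π * x ∈ B → x ∈ B) →
      ∀ {a : F}, a ∈ roots B n h → (∃ hm : a ∈ V.Bv, V.rd ⟨a, hm⟩ = 1) →
        ∃ r ∈ B, a ^ n * h - 1 = V.π * r := by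
    intro B hle hsat a ha ⟨hav, hard⟩
    have hrd : V.rd (⟨a, hav⟩ ^ n * ⟨h, hhBv⟩ - 1) = 0 := by
      rw [map_sub, map_mul, map_pow, hard, hh1, one_pow, one_mul, map_one, sub_self]
    obtain ⟨y, hy⟩ := V.rd_eq_zero _ hrd
    have hy' : a ^ n * h - 1 = V.π * (y : F) := by
      rw [← hy]; simp
    exact ⟨y, hsat y y.2 (hy' ▸ sub_mem ha (one_mem B)), hy'⟩
  obtain ⟨r0, hr0, hr0'⟩ := first G.B0 G.B0_le G.saturated0 ha0 ha0v
  obtain ⟨r1, hr1, hr1'⟩ := first G.B1 G.B1_le G.saturated1 ha1 ha1v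
  obtain ⟨b0, hb0, ⟨s0, hs0, hbs0⟩, e0, he0, hbe0⟩ := exists_root_mod_pow hn G.rootClosed0 hπ0
    (G.B0.algebraMap_mem ν) hnνF ha0 hr0 hr0' k
  obtain ⟨b1, hb1, ⟨s1, hs1, hbs1⟩, e1, he1, hbe1⟩ := exists_root_mod_pow hn G.rootClosed1 hπ1
    (G.B1.algebraMap_mem ν) hnνF ha1 hr1 hr1' k
  -- residues of the approximations
  have hres : ∀ {a b e : F}, (∃ hm : a ∈ V.Bv, V.rd ⟨a, hm⟩ = 1) → e ∈ G.Bloc →
      b = a * (1 + V.π * e) → ∃ hm : b ∈ V.Bv, V.rd ⟨b, hm⟩ = 1 := by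
    rintro a b e ⟨hav, hard⟩ he rfl
    refine ⟨mul_mem hav (add_mem (one_mem _) (mul_mem V.π_mem (G.Bloc_le _ he))), ?_⟩
    show V.rd (⟨a, hav⟩ * (1 + ⟨V.π, V.π_mem⟩ * ⟨e, G.Bloc_le _ he⟩)) = 1
    rw [map_mul, map_add, map_mul, hard, V.rd_π, map_one, zero_mul, add_zero, mul_one]
  obtain ⟨hv0, hrd0⟩ := hres ha0v (G.B0_le he0) hbe0
  obtain ⟨hv1, hrd1⟩ := hres ha1v (G.B1_le he1) hbe1
  have hu : ∃ e ∈ G.Bloc, b1 * b0 ^ (n - 1) * h - 1 = V.π * e := by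
    have hmem : b1 * b0 ^ (n - 1) * h ∈ G.Bloc := by
      refine G.rootClosedLoc _ n hn ?_
      rw [show (b1 * b0 ^ (n - 1) * h) ^ n = (b1 ^ n * h) * (b0 ^ n * h) ^ (n - 1) by
        obtain ⟨d, rfl⟩ := Nat.exists_eq_succ_of_ne_zero hn
        simp only [Nat.succ_eq_add_one, add_tsub_cancel_right]
        ring]
      exact mul_mem (G.B1_le hb1) (pow_mem (G.B0_le hb0) _)
    have hrd : V.rd (⟨b1, hv1⟩ * ⟨b0, hv0⟩ ^ (n - 1) * ⟨h, hhBv⟩ - 1) = 0 := by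
      rw [map_sub, map_mul, map_mul, map_pow, hrd0, hrd1, hh1, one_pow, mul_one, mul_one, map_one,
        sub_self]
    obtain ⟨y, hy⟩ := V.rd_eq_zero _ hrd
    have hy' : b1 * b0 ^ (n - 1) * h - 1 = V.π * (y : F) := by
      rw [← hy]; simp
    exact ⟨y, G.saturatedLoc y y.2 (hy' ▸ sub_mem hmem (one_mem _)), hy'⟩
  obtain ⟨x, hx, hx'⟩ := G.sub_mem_pow hn (G.Bloc.algebraMap_mem ν) hnνF
    (roots_mono G.B0_le hb0) (roots_mono G.B1_le hb1) hu
    ⟨s0, G.B0_le hs0, hbs0⟩ ⟨s1, G.B1_le hs1, hbs1⟩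
  obtain ⟨x0, hx0, x1, hx1, hxx⟩ := hm x hx
  -- the glued approximation
  have hA0 : b0 + V.π ^ (k + 1) * x0 ∈ roots G.B0 n h :=
    add_mem_roots G.rootClosed0 hn hb0 (mul_mem_roots hn (G.π_pow_mem G.B0 _) hx0)
  have hA1 : G.t⁻¹ ^ m * (b0 + V.π ^ (k + 1) * x0) ∈ roots G.B1 n h := by
    have h2 : G.t⁻¹ ^ m * (b0 + V.π ^ (k + 1) * x0) =
        G.t⁻¹ ^ m * b1 + -(V.π ^ (k + 1)) * x1 := by
      have h3 : G.t⁻¹ ^ m * G.t ^ m = 1 := by
        rw [← mul_pow, inv_mul_cancel₀ G.t_ne_zero, one_pow]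
      linear_combination (-(G.t⁻¹ ^ m)) * hx' - (G.t⁻¹ ^ m * V.π ^ (k + 1)) * hxx +
        (-(V.π ^ (k + 1)) * x1) * h3
    rw [h2]
    exact add_mem_roots G.rootClosed1 hn (mul_mem_roots hn (pow_mem G.t_inv_mem m) hb1)
      (mul_mem_roots hn (neg_mem (G.π_pow_mem G.B1 _)) hx1)
  refine ⟨_, hMmem _ hA0 hA1, ?_⟩
  -- congruence of the glued approximation
  obtain ⟨d, rfl⟩ := Nat.exists_eq_succ_of_ne_zero hn
  refine ⟨s0 + ∑ i ∈ Finset.range (d + 1),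
      ((d + 1).choose (i + 1) : F) * (V.π ^ (k + 1)) ^ i *
        (b0 ^ (d - i) * x0 ^ (i + 1) * h), add_mem hs0 (sum_mem fun i hi => ?_), ?_⟩
  · refine mul_mem (mul_mem (natCast_mem _ _) (pow_mem (G.π_pow_mem _ _) _))
      (G.rootClosed0 _ (d + 1) (Nat.succ_ne_zero d) ?_)
    have hi' : i ≤ d := by simpa [Nat.lt_succ_iff] using hi
    rw [show (b0 ^ (d - i) * x0 ^ (i + 1) * h) ^ (d + 1) =
      (b0 ^ (d + 1) * h) ^ (d - i) * (x0 ^ (d + 1) * h) ^ (i + 1) by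
        have e1 : h ^ (d + 1) = h ^ (d - i) * h ^ (i + 1) := by
          rw [← pow_add]; congr 1; omega
        rw [mul_pow, mul_pow, e1]
        ring]
    exact mul_mem (pow_mem hb0 _) (pow_mem hx0 _)
  · rw [add_comm b0, add_pow, Finset.sum_range_succ', add_mul, Finset.sum_mul, mul_add,
      Finset.mul_sum, ← hbs0]
    simp only [Nat.choose_zero_right, Nat.cast_one, pow_zero, one_mul, mul_one, Nat.sub_zero,
      Nat.succ_eq_add_one]
    rw [add_sub_assoc, add_comm (b0 ^ (d + 1) * h - 1)]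
    refine congrArg (fun S => S + (b0 ^ (d + 1) * h - 1)) (Finset.sum_congr rfl fun i _ => ?_)
    rw [Nat.add_sub_add_right, mul_pow]
    ring

end GlobalModel

end Fermat.Agent.BadPrime
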