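import Fermat.Prelude.Def_AlgebraicCurve_BaseChangeGalois
import Fermat.Prelude.Def_AlgebraicCurve_Correspondence
import Fermat.Agent.Curve.Fibre

/-!
# Kummer functions of torsion classes in `Pic⁰`

`IsKummerFun n x f`: `f` has divisor `n • D` for a degree zero representative `D` of `x`.
Such `f` exists iff `n • x = 0`, is unique up to constants and `n`-th powers, is a `n`-th power up
to constants iff `x = 0`, and is compatible with sums, semilinear automorphisms and norms.
-/

set_option autoImplicit false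

noncomputable section

open AlgebraicCurve

namespace Fermat.Agent.BadPrime

variable {K F : Type*} [Field K] [Field F] [Algebra K F]

/-- `f` has divisor `n • D` for a representative `D` of `x`. -/
def IsKummerFun (n : ℕ) (x : Pic0 K F) (f : F) : Prop :=
  f ≠ 0 ∧ ∃ D : Divisor.degZero (K := K) (F := F), Pic0.mk D = x ∧
    ∀ v : Place K F, (n : ℤ) * (D : Divisor K F) v = v.ord f

theorem pic0Mk_eq_zero_iff (D : Divisor.degZero (K := K) (F := F)) :
    Pic0.mk D = 0 ↔ (D : Divisor K F) ∈ Divisor.principal (K := K) (F := F) :=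
  (QuotientAddGroup.eq_zero_iff D).trans AddSubgroup.mem_addSubgroupOf

theorem pic0Mk_neg (D : Divisor.degZero (K := K) (F := F)) : Pic0.mk (-D) = -Pic0.mk D :=
  rfl

theorem exists_isKummerFun {n : ℕ} {x : Pic0 K F} (hx : n • x = 0) :
    ∃ f, IsKummerFun n x f := by
  obtain ⟨D, rfl⟩ := Pic0.mk_surjective x
  have h : Pic0.mk (n • D) = 0 := hx
  obtain ⟨f, hf, hdiv⟩ := (pic0Mk_eq_zero_iff _).mp h
  refine ⟨f, hf, D, rfl, fun v => ?_⟩
  rw [← hdiv v, AddSubgroupClass.coe_nsmul, Finsupp.smul_apply, nsmul_eq_mul]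

namespace IsKummerFun

variable {n : ℕ} {x y : Pic0 K F} {f g : F}

theorem ne_zero (h : IsKummerFun n x f) : f ≠ 0 :=
  h.1

theorem dvd_ord (h : IsKummerFun n x f) (v : Place K F) : (n : ℤ) ∣ v.ord f :=
  let ⟨_, D, _, hD⟩ := h
  ⟨(D : Divisor K F) v, (hD v).symm⟩

theorem one : IsKummerFun n (0 : Pic0 K F) (1 : F) :=
  ⟨one_ne_zero, 0, rfl, fun v => by simp⟩

theorem mul (hf : IsKummerFun n x f) (hg : IsKummerFun n y g) :
    IsKummerFun n (x + y) (f * g) := by
  obtain ⟨hf0, D, rfl, hD⟩ := hf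
  obtain ⟨hg0, E, rfl, hE⟩ := hg
  refine ⟨mul_ne_zero hf0 hg0, D + E, rfl, fun v => ?_⟩
  rw [v.ord_mul hf0 hg0, ← hD, ← hE, AddSubgroup.coe_add, Finsupp.add_apply, mul_add]

theorem inv (hf : IsKummerFun n x f) : IsKummerFun n (-x) f⁻¹ := by
  obtain ⟨hf0, D, rfl, hD⟩ := hf
  refine ⟨inv_ne_zero hf0, -D, rfl, fun v => ?_⟩
  rw [v.ord_inv, ← hD, AddSubgroup.coe_neg, Finsupp.neg_apply, mul_neg]

theorem div (hf : IsKummerFun n x f) (hg : IsKummerFun n y g) :
    IsKummerFun n (x - y) (f / g) := by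
  rw [sub_eq_add_neg, div_eq_mul_inv]
  exact hf.mul hg.inv

/-- Semilinear automorphisms act compatibly. -/
theorem smul (hf : IsKummerFun n x f) (σ : SemilinearAut K F) :
    IsKummerFun n (σ • x) (σ • f) := by
  obtain ⟨hf0, D, rfl, hD⟩ := hf
  refine ⟨by simpa using hf0, SemilinearAut.degZeroSMulHom σ D,
    (SemilinearAut.pic0_smul_mk σ D).symm, fun v => ?_⟩
  obtain ⟨w, rfl⟩ : ∃ w, σ • w = v := ⟨σ⁻¹ • v, smul_inv_smul σ v⟩
  rw [SemilinearAut.coe_degZeroSMulHom, SemilinearAut.divisor_smul_apply_smul,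
    SemilinearAut.ord_smul, hD]

/-- Multiplying by a constant and an `n`-th power keeps the class. -/
theorem const_mul_pow (hf : IsKummerFun n x f) [HasPrincipalDivisors K F] {c : K} (hc : c ≠ 0)
    {u : F} (hu : u ≠ 0) : IsKummerFun n x (algebraMap K F c * u ^ n * f) := by
  obtain ⟨hf0, D, rfl, hD⟩ := hf
  obtain ⟨E, hE, hdeg⟩ := HasPrincipalDivisors.exists_divisor (K := K) u hu
  have hc' : algebraMap K F c ≠ 0 := (map_ne_zero _).mpr hc
  refine ⟨mul_ne_zero (mul_ne_zero hc' (pow_ne_zero n hu)) hf0,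
    D + ⟨E, Divisor.mem_degZero.mpr hdeg⟩, ?_, fun v => ?_⟩
  · rw [Pic0.mk_add, add_eq_left, pic0Mk_eq_zero_iff]
    exact ⟨u, hu, hE⟩
  · rw [v.ord_mul (mul_ne_zero hc' (pow_ne_zero n hu)) hf0, v.ord_mul hc' (pow_ne_zero n hu),
      Curve.ord_algebraMap, Curve.ord_pow, ← hD, AddSubgroup.coe_add, Finsupp.add_apply, hE]
    ring

end IsKummerFun

section FunctionField

variable [IsAlgClosed K] [Curve.IsFunctionField1 K F]

/-- A function without zeros and poles is constant. -/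
theorem exists_algebraMap_eq_of_forall_ord_eq_zero {f : F} (hf : f ≠ 0)
    (h : ∀ v : Place K F, v.ord f = 0) : ∃ c : K, c ≠ 0 ∧ algebraMap K F c = f := by
  have halg : IsAlgebraic K f := Curve.isAlgebraic_of_forall_ord_nonneg fun v => (h v).ge
  obtain ⟨c, hc⟩ := minpoly.mem_range_of_degree_eq_one (A := K) (x := f)
    (IsAlgClosed.degree_eq_one_of_irreducible K (minpoly.irreducible halg.isIntegral))
  exact ⟨c, fun e => hf (by rw [← hc, e, map_zero]), hc⟩

/-- `x = 0` iff its Kummer function is an `n`-th power up to a constant. -/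
theorem IsKummerFun.eq_zero_iff {n : ℕ} (hn : n ≠ 0) {x : Pic0 K F} {f : F}
    (hf : IsKummerFun n x f) :
    x = 0 ↔ ∃ (c : K) (u : F), c ≠ 0 ∧ u ≠ 0 ∧ f = algebraMap K F c * u ^ n := by
  obtain ⟨hf0, D, rfl, hD⟩ := hf
  constructor
  · intro h
    obtain ⟨u, hu, hE⟩ := (pic0Mk_eq_zero_iff D).mp h
    obtain ⟨c, hc, hce⟩ := exists_algebraMap_eq_of_forall_ord_eq_zero (K := K) (f := f / u ^ n)
      (div_ne_zero hf0 (pow_ne_zero n hu)) fun v => by
        rw [Curve.ord_div v hf0 (pow_ne_zero n hu), Curve.ord_pow, ← hD, hE, sub_self]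
    exact ⟨c, u, hc, hu, by rw [hce, div_mul_cancel₀ f (pow_ne_zero n hu)]⟩
  · rintro ⟨c, u, hc, hu, rfl⟩
    refine (pic0Mk_eq_zero_iff D).mpr ⟨u, hu, fun v => ?_⟩
    have h := hD v
    rw [v.ord_mul ((map_ne_zero _).mpr hc) (pow_ne_zero n hu), Curve.ord_algebraMap, zero_add,
      Curve.ord_pow] at h
    exact mul_left_cancel₀ (Int.natCast_ne_zero.mpr hn) h

/-- Two Kummer functions of the same class differ by a constant times an `n`-th power. -/
theorem IsKummerFun.eq_iff {n : ℕ} (hn : n ≠ 0) {x y : Pic0 K F} {f g : F}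
    (hf : IsKummerFun n x f) (hg : IsKummerFun n y g) :
    x = y ↔ ∃ (c : K) (u : F), c ≠ 0 ∧ u ≠ 0 ∧ f = algebraMap K F c * u ^ n * g := by
  rw [← sub_eq_zero, (hf.div hg).eq_zero_iff hn]
  refine exists₂_congr fun c u => ?_
  rw [div_eq_iff hg.ne_zero]

end FunctionField

section Norm

variable {F' : Type*} [Field F'] [Algebra K F'] (φ : F' →ₐ[K] F)
  [Curve.IsFunctionField1 K F'] [Curve.IsFunctionField1 K F]

/-- The divisor of a norm is the pushforward. -/
theorem IsKummerFun.ord_norm {n : ℕ} {f : F} (hφ : φ.toRingHom.IsIntegral)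
    (hfin : FiniteAlong K φ) (D : Divisor K F) (hf : f ≠ 0)
    (hD : ∀ v, (n : ℤ) * D v = v.ord f) (w : Place K F') :
    letI := algebraAlong φ
    (n : ℤ) * Divisor.pushforwardAlong φ hφ D w = w.ord (Algebra.norm F' f) := by
  have hN := Curve.normFormulaAlong φ hfin
  let := algebraAlong φ
  have := isScalarTower_along φ
  have : Module.Finite F' F := hfin
  have h := hN f hf ((n : ℤ) • D) (fun v => by rw [Finsupp.smul_apply, smul_eq_mul, hD]) w
  rw [map_zsmul, Finsupp.smul_apply, smul_eq_mul] at h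
  exact h

/-- If a class is killed by a degeneracy pushforward, the norm of its Kummer function is an `n`-th
power up to a constant. -/
theorem IsKummerFun.exists_norm_eq [IsAlgClosed K] {n : ℕ} {f : F}
    (hφ : φ.toRingHom.IsIntegral) (hfin : FiniteAlong K φ) (D : Divisor K F) (hf : f ≠ 0)
    (hD : ∀ v, (n : ℤ) * D v = v.ord f)
    (hpush : Divisor.pushforwardAlong φ hφ D ∈ Divisor.principal (K := K) (F := F')) :
    letI := algebraAlong φ
    ∃ (c : K) (u : F'), c ≠ 0 ∧ u ≠ 0 ∧ Algebra.norm F' f = algebraMap K F' c * u ^ n := by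
  have key := IsKummerFun.ord_norm φ hφ hfin D hf hD
  let := algebraAlong φ
  have : Module.Finite F' F := hfin
  obtain ⟨u, hu, hE⟩ := hpush
  have hN0 : Algebra.norm F' f ≠ 0 := Algebra.norm_ne_zero_iff.mpr hf
  obtain ⟨c, hc, hce⟩ := exists_algebraMap_eq_of_forall_ord_eq_zero (K := K)
    (f := Algebra.norm F' f / u ^ n) (div_ne_zero hN0 (pow_ne_zero n hu)) fun v => by
      rw [Curve.ord_div v hN0 (pow_ne_zero n hu), Curve.ord_pow, ← key v, hE, sub_self]
  exact ⟨c, u, hc, hu, by rw [hce, div_mul_cancel₀ _ (pow_ne_zero n hu)]⟩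

end Norm

end Fermat.Agent.BadPrime
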