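import Fermat.Agent.BadPrime.StrongMult
import Fermat.Agent.EichlerShimura.Plane

/-!
# A newform eigen-part maps to zero at a lower level

* `exists_heckeRep`: the integral Hecke matrices are a representation of the Hecke algebra.
* `map_eq_zero_of_newform`: a map commuting with almost all `T_ℓ` from a module over level `M` into
  a module over a proper divisor `M'` kills the eigenvectors of a newform system of level `M`.
-/

set_option autoImplicit false

noncomputable section

open CongruenceSubgroup ModularCurve ModularCurve.Period ModularFormClass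
open scoped MatrixGroups

namespace Fermat.Agent.BadPrime

open EichlerShimura (cuspRank cuspGen heckeMatrix heckeTU)

variable (N : ℕ) [NeZero N]

/-- The integral Hecke matrices are the images of the Hecke operators under a ring homomorphism. -/
theorem exists_heckeRep :
    ∃ Θ : CuspForm.heckeAlgebra N 2 (∅ : Set ℕ) →+*
        Matrix (Fin (cuspRank N)) (Fin (cuspRank N)) ℤ,
      ∀ ℓ : Nat.Primes, Θ (heckeTU N ℓ) = heckeMatrix N ℓ := by
  classical
  let coord : parabolicHoms ℂ (Gamma0 N) ℂ ≃ₗ[ℂ] (Fin (cuspRank N) → ℂ) :=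
    { toFun := fun φ i => (φ : Additive (Gamma0 N) →+ ℂ) (Additive.ofMul (cuspGen N i))
      map_add' := fun _ _ => rfl
      map_smul' := fun _ _ => rfl
      invFun := fun v => ⟨EichlerShimura.ofCoords N ℂ v, fun γ hγ =>
        EichlerShimura.isCuspidalHom_ofCoords N ℂ v γ hγ.le⟩
      left_inv := fun φ => Subtype.ext <| AddMonoidHom.ext fun g => by
        rw [EichlerShimura.ofCoords_apply]
        exact (EichlerShimura.cuspidal_expansion N
          (EichlerShimura.isCuspidalHom_of_parabolic N φ.2) g).symm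
      right_inv := fun v => funext fun j => by
        simp [EichlerShimura.ofCoords_apply, EichlerShimura.cuspDual_cuspGen] }
  let e := (Periods.periodEquiv N).trans coord
  let P : Module.End ℂ (CuspForm (Gamma0 N) 2) →+*
      Module.End ℂ (CuspForm (Gamma0 N) 2 × CuspForm (Gamma0 N) 2) :=
    { toFun := fun f => f.prodMap f
      map_one' := LinearMap.ext fun _ => rfl
      map_mul' := fun _ _ => LinearMap.ext fun _ => rfl
      map_zero' := LinearMap.ext fun _ => rfl
      map_add' := fun _ _ => LinearMap.ext fun _ => rfl }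
  let L : Module.End ℂ (CuspForm (Gamma0 N) 2) →+*
      Matrix (Fin (cuspRank N)) (Fin (cuspRank N)) ℂ :=
    (LinearMap.toMatrixAlgEquiv' : _ ≃ₐ[ℂ] Matrix (Fin (cuspRank N)) (Fin (cuspRank N)) ℂ).toRingHom.comp
      ((e.conjAlgEquiv ℂ).toRingHom.comp P)
  have hgen : ∀ (ℓ : Nat.Primes) (T : Module.End ℂ (CuspForm (Gamma0 N) 2)),
      (∀ x, periodHomPair N (T.prodMap T x) = Periods.heckeHom ℂ ℂ ℓ.2 (periodHomPair N x)) →
      L T = (heckeMatrix N ℓ).map (Int.castRingHom ℂ) := by
    intro ℓ T hT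
    refine LinearMap.toMatrixAlgEquiv'.symm.injective (LinearMap.ext fun v => ?_)
    obtain ⟨x, rfl⟩ := e.surjective v
    have h1 : LinearMap.toMatrixAlgEquiv'.symm (L T) (e x) = e (T.prodMap T x) := by
      simp [L, P, LinearEquiv.conj_apply]
    rw [h1]
    funext i
    simp only [LinearMap.toMatrixAlgEquiv'_symm, Matrix.toLinAlgEquiv'_apply]
    rw [EichlerShimura.mulVec_intMatrix]
    show periodHomPair N (T.prodMap T x) (Additive.ofMul (cuspGen N i)) = _
    rw [hT, EichlerShimura.heckeHom_apply_cuspGen N ℓ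
      (EichlerShimura.isCuspidalHom_of_parabolic N (by
        rw [← Periods.coe_periodEquiv]; exact (Periods.periodEquiv N x).2)) i]
    rfl
  have hTU : ∀ ℓ : Nat.Primes, L ((heckeTU N ℓ : CuspForm.heckeAlgebra N 2 (∅ : Set ℕ)) :
      Module.End ℂ (CuspForm (Gamma0 N) 2)) = (heckeMatrix N ℓ).map (Int.castRingHom ℂ) := by
    intro ℓ
    refine hgen ℓ _ fun x => ?_
    unfold heckeTU
    split
    · next h => exact (Periods.heckeHom_periodHomPair_U ℓ.2 h x.1 x.2).symm
    · next h => exact (Periods.heckeHom_periodHomPair_T ℓ.2 h x.1 x.2).symm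
  let C : Matrix (Fin (cuspRank N)) (Fin (cuspRank N)) ℤ →+*
      Matrix (Fin (cuspRank N)) (Fin (cuspRank N)) ℂ := (Int.castRingHom ℂ).mapMatrix
  have hC : Function.Injective C := fun A B h => Matrix.map_injective Int.cast_injective h
  let Λ : CuspForm.heckeAlgebra N 2 (∅ : Set ℕ) →+* Matrix (Fin (cuspRank N)) (Fin (cuspRank N)) ℂ :=
    L.comp (CuspForm.heckeAlgebra N 2 (∅ : Set ℕ)).val.toRingHom
  have hmem : ∀ t, Λ t ∈ C.range := by
    rintro ⟨t, ht⟩
    show L t ∈ C.range
    induction ht using Algebra.adjoin_induction with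
    | mem x hx =>
      rcases hx with ⟨ℓ, hℓ, hℓN, -, rfl⟩ | ⟨q, hqN, hq, -, rfl⟩
      · exact ⟨_, (hgen ⟨ℓ, hℓ⟩ (CuspForm.heckeTLin 2 hℓ hℓN) fun x =>
          (Periods.heckeHom_periodHomPair_T hℓ hℓN x.1 x.2).symm).symm⟩
      · exact ⟨_, (hgen ⟨q, hq⟩ (CuspForm.heckeULin 2 hqN) fun x =>
          (Periods.heckeHom_periodHomPair_U hq hqN x.1 x.2).symm).symm⟩
    | algebraMap r => rw [eq_intCast, map_intCast]; exact ⟨r, map_intCast C r⟩
    | add x y _ _ hx hy => rw [map_add]; exact add_mem hx hy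
    | mul x y _ _ hx hy => rw [map_mul]; exact mul_mem hx hy
  let E : Matrix (Fin (cuspRank N)) (Fin (cuspRank N)) ℤ ≃+* C.range :=
    RingEquiv.ofBijective C.rangeRestrict
      ⟨fun A B h => hC (congrArg Subtype.val h), C.rangeRestrict_surjective⟩
  refine ⟨E.symm.toRingHom.comp (Λ.codRestrict C.range hmem), fun ℓ => E.injective ?_⟩
  simp only [RingHom.comp_apply, RingEquiv.toRingHom_eq_coe, RingEquiv.coe_toRingHom,
    RingEquiv.apply_symm_apply]
  exact Subtype.ext (hTU ℓ)

variable {N}

/-- A map commuting with almost all Hecke operators, from a module over level `M` to a module over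
a proper divisor `M'`, kills every eigenvector of a newform system of level `M`.

`χ` is the eigen-system in the coefficient ring `R`; it must have the same kernel as the complex
eigen-character `φ` of the newform. -/
theorem map_eq_zero_of_newform {M M' : ℕ} [NeZero M] [NeZero M'] (hM : HasEigenRep M)
    (hM' : HasEigenRep M') {g : CuspForm (Gamma0 M) 2} (hg : g.IsNewform) (h : M' ∣ M)
    (hne : M' ≠ M) {K : ℕ} (hK : K ≠ 0) (hMK : M ∣ K)
    (φ : CuspForm.heckeAlgebra M 2 (∅ : Set ℕ) →+* ℂ)
    (hφ : ∀ ℓ : GoodIndex K, φ (goodT hMK ℓ) = qCoeff g ℓ)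
    {R : Type*} [CommRing R] [IsDomain R] (χ : CuspForm.heckeAlgebra M 2 (∅ : Set ℕ) →+* R)
    (hker : RingHom.ker χ ≤ RingHom.ker φ)
    {V W : Type*} [AddCommGroup V] [Module R V] [AddCommGroup W] [Module R W]
    [Module.IsTorsionFree R W]
    (ρ' : CuspForm.heckeAlgebra M' 2 (∅ : Set ℕ) →+* Module.End R W)
    (H : GoodIndex K → Module.End R V) (α : V →ₗ[R] W)
    (hα : ∀ (ℓ : GoodIndex K) (v : V), ρ' (goodT (h.trans hMK) ℓ) (α v) = α (H ℓ v))
    (v : V) (hv : ∀ ℓ : GoodIndex K, H ℓ v = χ (goodT hMK ℓ) • v) : α v = 0 := by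
  obtain ⟨P, hP0, hPg⟩ := exists_poly_killing_away hM hM' hg h hne hK hMK
  have key : ∀ Q : MvPolynomial (GoodIndex K) ℤ,
      ρ' (MvPolynomial.aeval (goodT (h.trans hMK)) Q) (α v) =
        χ (MvPolynomial.aeval (goodT hMK) Q) • α v := by
    intro Q
    induction Q using MvPolynomial.induction_on with
    | C a =>
      simp only [MvPolynomial.aeval_C, eq_intCast, map_intCast]
      rw [Module.End.intCast_apply, Int.cast_smul_eq_zsmul]
    | add p q hp hq =>
      simp only [map_add, LinearMap.add_apply, add_smul, hp, hq]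
    | mul_X p ℓ hp =>
      simp only [map_mul, MvPolynomial.aeval_X, Module.End.mul_apply]
      rw [hα, hv, map_smul, map_smul, hp, smul_smul, mul_comm]
  have h0 := key P
  rw [hP0, map_zero, LinearMap.zero_apply, eq_comm] at h0
  refine (smul_eq_zero.mp h0).resolve_left fun hc => hPg ?_
  have h1 : φ (MvPolynomial.aeval (goodT hMK) P) = 0 :=
    RingHom.mem_ker.mp (hker (RingHom.mem_ker.mpr hc))
  rw [← h1]
  have h2 := MvPolynomial.map_aeval (g := goodT hMK) φ P
  rw [h2]
  have h3 : φ.comp (algebraMap ℤ (CuspForm.heckeAlgebra M 2 (∅ : Set ℕ))) = algebraMap ℤ ℂ :=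
    RingHom.ext_int _ _
  simp only [hφ, h3]
  rfl

end Fermat.Agent.BadPrime
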