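import Fermat.Agent.BadPrime.Systems
import Fermat.Agent.Periods.Integral
import Mathlib.FieldTheory.IsAlgClosed.Basic
import Mathlib.RingTheory.Ideal.GoingUp

/-!
# A newform system does not live at a lower level

* `exists_eigenform_of_ker_le`: if every polynomial relation between the good Hecke operators of
  level `M'` holds for the numbers `a ℓ`, then `a` is the good system of an eigenform of level `M'`.
* `exists_poly_killing`: for a newform of level `M` and a proper divisor `M'` some polynomial in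
  `T_ℓ`, `ℓ ∤ M`, kills level `M'` and not the newform.
-/

set_option autoImplicit false

noncomputable section

open CongruenceSubgroup ModularFormClass

namespace Fermat.Agent.BadPrime

/-- The primes not dividing `M`. -/
abbrev GoodIndex (M : ℕ) : Type := {ℓ : ℕ // ℓ.Prime ∧ ¬ ℓ ∣ M}

/-- The good Hecke operators of level `M'`, indexed by the primes not dividing a multiple `M`. -/
def goodT {M M' : ℕ} [NeZero M'] (h : M' ∣ M) (ℓ : GoodIndex M) :
    CuspForm.heckeAlgebra M' 2 (∅ : Set ℕ) :=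
  CuspForm.heckeAlgebra.T ℓ.2.1 (fun h' => ℓ.2.2 (h'.trans h)) (Set.notMem_empty _)

/-- Extend a complex point of a subring of a finite `ℤ`-algebra to the whole algebra. -/
theorem exists_extension_complex {R S : Type*} [CommRing R] [CommRing S] [Algebra R S]
    [Algebra.IsIntegral R S] (hinj : Function.Injective (algebraMap R S)) (χ : R →+* ℂ) :
    ∃ ψ : S →+* ℂ, ψ.comp (algebraMap R S) = χ := by
  haveI : (RingHom.ker χ).IsPrime := RingHom.ker_isPrime χ
  obtain ⟨Q, -, hQp, hQ⟩ := Ideal.exists_ideal_over_prime_of_isIntegral (RingHom.ker χ)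
    (⊥ : Ideal S) (by
      rw [← RingHom.ker_eq_comap_bot, (RingHom.injective_iff_ker_eq_bot _).mp hinj]
      exact bot_le)
  haveI := hQp
  have hle : RingHom.ker χ ≤ Q.comap (algebraMap R S) := hQ.ge
  let i : R ⧸ RingHom.ker χ →+* S ⧸ Q := Ideal.quotientMap Q (algebraMap R S) hle
  have hi : Function.Injective i := Ideal.quotientMap_injective' hQ.le
  letI : Algebra (R ⧸ RingHom.ker χ) (S ⧸ Q) := i.toAlgebra
  letI : Algebra (R ⧸ RingHom.ker χ) ℂ := (RingHom.kerLift χ).toAlgebra
  haveI : FaithfulSMul (R ⧸ RingHom.ker χ) (S ⧸ Q) :=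
    (faithfulSMul_iff_algebraMap_injective _ _).mpr hi
  haveI : FaithfulSMul (R ⧸ RingHom.ker χ) ℂ :=
    (faithfulSMul_iff_algebraMap_injective _ _).mpr (RingHom.kerLift_injective χ)
  have hint : i.IsIntegral := RingHom.IsIntegral.tower_top (Ideal.Quotient.mk (RingHom.ker χ)) i <| by
    rw [Ideal.quotientMap_comp_mk]
    exact RingHom.IsIntegral.trans _ _ (algebraMap_isIntegral_iff.mpr inferInstance)
      (RingHom.isIntegral_of_surjective _ Ideal.Quotient.mk_surjective)
  haveI : Algebra.IsIntegral (R ⧸ RingHom.ker χ) (S ⧸ Q) := ⟨hint⟩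
  haveI : Algebra.IsAlgebraic (R ⧸ RingHom.ker χ) (S ⧸ Q) := Algebra.IsIntegral.isAlgebraic
  let L : S ⧸ Q →ₐ[R ⧸ RingHom.ker χ] ℂ := IsAlgClosed.lift
  refine ⟨L.toRingHom.comp (Ideal.Quotient.mk Q), RingHom.ext fun r => ?_⟩
  exact L.commutes (Ideal.Quotient.mk _ r)

/-- A system satisfying every relation between the good Hecke operators of level `M'` comes from
an eigenform of level `M'`. -/
theorem exists_eigenform_of_ker_le {M M' : ℕ} [NeZero M'] (h : M' ∣ M) (a : GoodIndex M → ℂ)
    (hker : ∀ P : MvPolynomial (GoodIndex M) ℤ,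
      MvPolynomial.aeval (goodT h) P = 0 → MvPolynomial.aeval a P = 0) :
    ∃ f : CuspForm (Gamma0 M') 2, f.IsNormalizedEigenform ∧
      ∀ ℓ : GoodIndex M, qCoeff f ℓ = a ℓ := by
  haveI := Periods.moduleFinite_heckeAlgebra_two M' (∅ : Set ℕ)
  haveI : Algebra.IsIntegral ℤ (CuspForm.heckeAlgebra M' 2 (∅ : Set ℕ)) :=
    Algebra.IsIntegral.of_finite _ _
  let F : MvPolynomial (GoodIndex M) ℤ →+* CuspForm.heckeAlgebra M' 2 (∅ : Set ℕ) :=
    (MvPolynomial.aeval (goodT h)).toRingHom
  let R := F.range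
  let χ : R →+* ℂ := (RingHom.liftOfSurjective F.rangeRestrict F.rangeRestrict_surjective)
    ⟨(MvPolynomial.aeval a).toRingHom, fun P hP => by
      rw [RingHom.mem_ker] at hP ⊢
      exact hker P (congrArg Subtype.val hP)⟩
  haveI : Algebra.IsIntegral R (CuspForm.heckeAlgebra M' 2 (∅ : Set ℕ)) :=
    ⟨fun x => (Algebra.IsIntegral.isIntegral (R := ℤ) x).tower_top⟩
  obtain ⟨ψ, hψ⟩ := exists_extension_complex (R := R) (Subtype.val_injective) χ
  obtain ⟨f, hf, hev⟩ := Periods.exists_eigenform_of_ringHom M' (Periods.hasHeckeLattice M') ψ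
  refine ⟨f, hf, fun ℓ => ?_⟩
  have h1 : ψ (goodT h ℓ) = a ℓ := by
    have := RingHom.congr_fun hψ (F.rangeRestrict (MvPolynomial.X ℓ))
    simp only [χ, RingHom.liftOfRightInverse_comp_apply, RingHom.coe_comp,
      Function.comp_apply] at this
    rw [show (algebraMap R _) (F.rangeRestrict (MvPolynomial.X ℓ)) = goodT h ℓ from
      MvPolynomial.aeval_X (goodT h) ℓ] at this
    simpa using this
  rw [← h1]
  refine smul_left_injective ℂ hf.ne_zero ?_
  exact ((Periods.isEigen_of_isNormalizedEigenform hf).1 ℓ ℓ.2.1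
    (fun h' => ℓ.2.2 (h'.trans h))).symm.trans (hev (goodT h ℓ))

/-- Some polynomial in the good Hecke operators kills every module over level `M'` and does not
kill the newform system of level `M`. -/
theorem exists_poly_killing {M M' : ℕ} [NeZero M'] {g : CuspForm (Gamma0 M) 2} (hg : g.IsNewform)
    (h : M' ∣ M) (hne : M' ≠ M) :
    ∃ P : MvPolynomial (GoodIndex M) ℤ, MvPolynomial.aeval (goodT h) P = 0 ∧
      MvPolynomial.aeval (fun ℓ : GoodIndex M => qCoeff g ℓ) P ≠ 0 := by
  by_contra hcon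
  push Not at hcon
  obtain ⟨f, hf, hfa⟩ := exists_eigenform_of_ker_le h (fun ℓ : GoodIndex M => qCoeff g ℓ) hcon
  exact hg.2 M' h hne ⟨f, hf, fun ℓ hℓ hℓM => hfa ⟨ℓ, hℓ, hℓM⟩⟩

end Fermat.Agent.BadPrime
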