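import Fermat.Prelude.Def_AlgebraicCurve_BaseChangeGalois
import Fermat.Agent.EichlerShimura.CorrespondenceComm
import Fermat.Agent.Torsion.Kummer

/-!
# Torsion classes and residues at two valuations

`Res f a b` says that `f` has residues `a`, `b` at two fixed valuations of the function field.
A class `x` with `n • x = 0` is the class of a divisor `D` with `n • D = div f`.  If all the classes
having such an `f` with residues `(1, 1)` satisfy `s • x = m • x`, this gives the unipotence of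
inertia and the relation of the square of a Frobenius.
-/

set_option autoImplicit false

noncomputable section

namespace Fermat.Agent.BadPrime

open AlgebraicCurve Fermat.Agent.EichlerShimura Fermat.Agent.Torsion

/-- Residues at two valuations, as a relation. -/
structure PairResidue (F k : Type*) [Field F] [Field k] where
  /-- `f` has residues `a` and `b`. -/
  Res : F → k → k → Prop
  mul : ∀ {f g : F} {a b c d : k}, Res f a b → Res g c d → Res (f * g) (a * c) (b * d)
  inv : ∀ {f : F} {a b : k}, Res f a b → a ≠ 0 → b ≠ 0 → Res f⁻¹ a⁻¹ b⁻¹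
  ne_zero : ∀ {f : F} {a b : k}, Res f a b → a ≠ 0 → f ≠ 0
  one : Res 1 1 1

namespace PairResidue

variable {F k : Type*} [Field F] [Field k] (P : PairResidue F k)

theorem pow {f : F} {a b : k} (h : P.Res f a b) (n : ℕ) : P.Res (f ^ n) (a ^ n) (b ^ n) := by
  induction n with
  | zero => simpa using P.one
  | succ n ih => rw [pow_succ, pow_succ, pow_succ]; exact P.mul ih h

variable {K : Type*} [Field K] [Algebra K F]

/-- Every function can be moved to one with nonzero residues by a constant and an `n`-th power. -/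
def CanNormalise (n : ℕ) (K : Type*) [Field K] [Algebra K F] : Prop :=
  ∀ f : F, f ≠ 0 → ∃ (c : K) (u : F) (a b : k), c ≠ 0 ∧ u ≠ 0 ∧ a ≠ 0 ∧ b ≠ 0 ∧
    P.Res (algebraMap K F c * u ^ n * f) a b

/-- The core property of an automorphism `s`: a function with residues `(1, 1)` all of whose
orders are divisible by `n` is sent to its `m`-th power up to constants and `n`-th powers. -/
def ActsAsPower (n m : ℕ) (s : SemilinearAut K F) : Prop :=
  ∀ g : F, P.Res g 1 1 → (∀ v : Place K F, (n : ℤ) ∣ v.ord g) →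
    ∃ (u : F) (c : K), u ≠ 0 ∧ u ^ n * (SemilinearAut.toRingAut s g) = algebraMap K F c * g ^ m

theorem ord_algebraMap' (v : Place K F) {c : K} (hc : c ≠ 0) : v.ord (algebraMap K F c) = 0 := by
  have h : IsUnit (algebraMap K v.toValuationSubring c) := (isUnit_iff_ne_zero.2 hc).map _
  simpa using v.ord_coe_unit h.unit

theorem ord_pow' (v : Place K F) (f : F) (n : ℕ) : v.ord (f ^ n) = n * v.ord f := by
  rw [← zpow_natCast, v.ord_zpow]

/-- The principal divisor of a nonzero function. -/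
theorem exists_divisor [HasPrincipalDivisors K F] {f : F} (hf : f ≠ 0) :
    ∃ E : Divisor.degZero (K := K) (F := F), Pic0.mk E = 0 ∧
      ∀ v, (E : Divisor K F) v = v.ord f := by
  obtain ⟨E, hE, hdeg⟩ := HasPrincipalDivisors.exists_divisor (K := K) f hf
  exact ⟨⟨E, hdeg⟩, (QuotientAddGroup.eq_zero_iff _).mpr ⟨f, hf, hE⟩, hE⟩

theorem exists_function {n : ℕ} (D : Divisor.degZero (K := K) (F := F))
    (hD : n • (Pic0.mk D : Pic0 K F) = 0) :
    ∃ f : F, f ≠ 0 ∧ ∀ v : Place K F, (n : ℤ) * (D : Divisor K F) v = v.ord f := by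
  rw [Pic0.mk, ← QuotientAddGroup.mk_nsmul, QuotientAddGroup.eq_zero_iff] at hD
  obtain ⟨f, hf, hDf⟩ := hD
  exact ⟨f, hf, fun v => by simpa [Finsupp.smul_apply] using hDf v⟩

variable [HasPrincipalDivisors K F]

/-- A torsion class has a divisor whose function has nonzero residues. -/
theorem exists_normalised {n : ℕ} (hP : P.CanNormalise n K)
    (D : Divisor.degZero (K := K) (F := F)) (hD : n • (Pic0.mk D : Pic0 K F) = 0) :
    ∃ (D' : Divisor.degZero (K := K) (F := F)) (f : F) (a b : k),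
      (Pic0.mk D' : Pic0 K F) = Pic0.mk D ∧ a ≠ 0 ∧ b ≠ 0 ∧ P.Res f a b ∧
      ∀ v : Place K F, (n : ℤ) * (D' : Divisor K F) v = v.ord f := by
  obtain ⟨f, hf, hDf⟩ := exists_function D hD
  obtain ⟨c, u, a, b, hc, hu, ha, hb, hres⟩ := hP f hf
  obtain ⟨E, hE, hEv⟩ := exists_divisor (K := K) hu
  refine ⟨D + E, _, a, b, by rw [Pic0.mk_add, hE, add_zero], ha, hb, hres, fun v => ?_⟩
  rw [v.ord_mul (mul_ne_zero (by simpa using hc) (pow_ne_zero _ hu)) hf,
    v.ord_mul (by simpa using hc) (pow_ne_zero _ hu), ord_algebraMap' v hc, ord_pow', zero_add,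
    ← hEv, ← hDf, AddSubgroup.coe_add, Finsupp.add_apply]
  ring

theorem smul_function (s : SemilinearAut K F) {n : ℕ} {D : Divisor.degZero (K := K) (F := F)}
    {f : F} (hDf : ∀ v : Place K F, (n : ℤ) * (D : Divisor K F) v = v.ord f) (v : Place K F) :
    (n : ℤ) * (SemilinearAut.degZeroSMulHom s D : Divisor K F) v =
      v.ord (SemilinearAut.toRingAut s f) := by
  rw [SemilinearAut.coe_degZeroSMulHom, SemilinearAut.divisor_smul_apply, hDf]
  have h := SemilinearAut.ord_smul s (s⁻¹ • v) f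
  rw [smul_inv_smul] at h
  exact h.symm

/-- A class with residues `(1, 1)` is multiplied by `m`. -/
theorem smul_eq_nsmul {n m : ℕ} (hn : n ≠ 0) {s : SemilinearAut K F} (hs : P.ActsAsPower n m s)
    {D : Divisor.degZero (K := K) (F := F)} {g : F} (hg : P.Res g 1 1)
    (hDg : ∀ v : Place K F, (n : ℤ) * (D : Divisor K F) v = v.ord g) :
    s • (Pic0.mk D : Pic0 K F) = m • (Pic0.mk D : Pic0 K F) := by
  have hg0 := P.ne_zero hg one_ne_zero
  obtain ⟨u, c, hu, huc⟩ := hs g hg fun v => ⟨_, (hDg v).symm⟩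
  have hc : c ≠ 0 := by
    rintro rfl
    rw [map_zero, zero_mul] at huc
    exact mul_ne_zero (pow_ne_zero n hu) (by simpa using hg0) huc
  rw [SemilinearAut.pic0_smul_mk, Pic0.mk, Pic0.mk, ← QuotientAddGroup.mk_nsmul, eq_comm,
    QuotientAddGroup.eq]
  refine ⟨u⁻¹, inv_ne_zero hu, fun v => ?_⟩
  have hn' : (n : ℤ) ≠ 0 := by exact_mod_cast hn
  refine mul_left_cancel₀ hn' ?_
  have h1 := congrArg v.ord huc
  rw [v.ord_mul (pow_ne_zero _ hu) (by simpa using hg0),
    v.ord_mul (by simpa using hc) (pow_ne_zero _ hg0), ord_algebraMap' v hc, ord_pow', ord_pow',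
    zero_add, ← smul_function s hDg, ← hDg] at h1
  simp only [AddSubgroup.subtype_apply, AddSubgroup.coe_add, NegMemClass.coe_neg,
    AddSubgroup.coe_nsmul, Finsupp.add_apply, Finsupp.neg_apply, Finsupp.smul_apply, nsmul_eq_mul,
    v.ord_inv]
  linear_combination h1

/-- An automorphism fixing all residues is unipotent of level two on torsion, given the core
property with `m = 1`. -/
theorem smul_smul_sub {n : ℕ} (hn : n ≠ 0) (hP : P.CanNormalise n K) {s : SemilinearAut K F}
    (hres : ∀ {f : F} {a b : k}, P.Res f a b → P.Res (SemilinearAut.toRingAut s f) a b)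
    (hs : P.ActsAsPower n 1 s) (x : Pic0 K F) (hx : n • x = 0) :
    s • (s • x - x) = s • x - x := by
  obtain ⟨D, rfl⟩ := Pic0.mk_surjective x
  obtain ⟨D', f, a, b, hD', ha, hb, hf, hDf⟩ := P.exists_normalised hP D hx
  rw [← hD']
  have hf0 := P.ne_zero hf ha
  have hg : P.Res (SemilinearAut.toRingAut s f * f⁻¹) 1 1 := by
    simpa [mul_inv_cancel₀ ha, mul_inv_cancel₀ hb] using P.mul (hres hf) (P.inv hf ha hb)
  have e : s • (Pic0.mk D' : Pic0 K F) - Pic0.mk D' =
      Pic0.mk (SemilinearAut.degZeroSMulHom s D' - D') := by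
    rw [SemilinearAut.pic0_smul_mk]; rfl
  rw [e, P.smul_eq_nsmul hn hs hg fun v => ?_, one_nsmul]
  rw [v.ord_mul (by simpa using hf0) (inv_ne_zero hf0), v.ord_inv, ← smul_function s hDf, ← hDf,
    AddSubgroup.coe_sub, Finsupp.sub_apply]
  ring

section Pushforward

variable {F' : Type*} [Field F'] [Algebra K F'] [IsAlgClosed K]

/-- If the pushforward of a torsion class is principal, its norm is an exact `n`-th power. -/
theorem exists_norm_eq_pow {n : ℕ} (hn : n ≠ 0) {ψ : F' →ₐ[K] F} (hψ : ψ.toRingHom.IsIntegral)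
    (hfin : FiniteAlong K ψ) (hN : NormFormulaAlong K ψ hfin) (hc : ConstantsAreConstant K F')
    {D : Divisor.degZero (K := K) (F := F)} {f : F} (hf : f ≠ 0)
    (hDf : ∀ v : Place K F, (n : ℤ) * (D : Divisor K F) v = v.ord f)
    (hD : Divisor.pushforwardAlong ψ hψ (D : Divisor K F) ∈
      Divisor.principal (K := K) (F := F')) :
    ∃ H : F', normAlong ψ f = H ^ n := by
  obtain ⟨h, hh, hDh⟩ := hD
  have hNf := normAlong_ne_zero hfin hf
  obtain ⟨c, hc⟩ := hc (normAlong ψ f * (h ^ n)⁻¹) (mul_ne_zero hNf (inv_ne_zero (pow_ne_zero _ hh)))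
    fun v => by
      have h1 := pushforwardAlong_eq_ord hψ hfin hN hf
        (D := n • (D : Divisor K F)) (fun w => by rw [← hDf, Finsupp.smul_apply, nsmul_eq_mul]) v
      rw [map_nsmul, Finsupp.smul_apply, hDh, nsmul_eq_mul] at h1
      rw [v.ord_mul hNf (inv_ne_zero (pow_ne_zero _ hh)), v.ord_inv, ord_pow', ← h1]
      ring
  obtain ⟨γ, rfl⟩ := IsAlgClosed.exists_pow_nat_eq c (Nat.pos_of_ne_zero hn)
  refine ⟨algebraMap K F' γ * h, ?_⟩
  rw [mul_pow, ← map_pow, hc, inv_mul_cancel_right₀ (pow_ne_zero _ hh)]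

/-- The relation of `φ ^ 2` on classes killed by both pushforwards. -/
theorem smul_smul_smul_smul_sub {n m : ℕ} (hn : n ≠ 0) (hP : P.CanNormalise n K)
    {φ : SemilinearAut K F} (τ : k →+* k)
    (hres : ∀ {f : F} {a b : k}, P.Res f a b → P.Res (SemilinearAut.toRingAut φ f) (τ a) (τ b))
    (hlift : ∀ a b : k, a ≠ 0 → b ≠ 0 → ∃ u : F, P.Res u a b)
    (hs : P.ActsAsPower n m (φ * φ))
    {α β : F' →ₐ[K] F} (hα : α.toRingHom.IsIntegral) (hβ : β.toRingHom.IsIntegral)
    (hfα : FiniteAlong K α) (hfβ : FiniteAlong K β)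
    (hNα : NormFormulaAlong K α hfα) (hNβ : NormFormulaAlong K β hfβ)
    (hc : ConstantsAreConstant K F')
    (hrα : ∀ {f : F} {a b : k}, P.Res f a b → a ≠ 0 → b ≠ 0 →
      ∀ H : F', normAlong α f = H ^ n → ∃ h : k, h ^ n = a * τ b)
    (hrβ : ∀ {f : F} {a b : k}, P.Res f a b → a ≠ 0 → b ≠ 0 →
      ∀ H : F', normAlong β f = H ^ n → ∃ h : k, h ^ n = τ a * b)
    (D : Divisor.degZero (K := K) (F := F)) (hD : n • (Pic0.mk D : Pic0 K F) = 0)
    (hDα : Divisor.pushforwardAlong α hα (D : Divisor K F) ∈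
      Divisor.principal (K := K) (F := F'))
    (hDβ : Divisor.pushforwardAlong β hβ (D : Divisor K F) ∈
      Divisor.principal (K := K) (F := F')) :
    φ • (φ • (φ • (φ • (Pic0.mk D : Pic0 K F)) - Pic0.mk D)) =
      m • (φ • (φ • (Pic0.mk D : Pic0 K F)) - Pic0.mk D) := by
  obtain ⟨D', f, a, b, hD', ha, hb, hf, hDf⟩ := P.exists_normalised hP D hD
  have hdiff : (D' : Divisor K F) - (D : Divisor K F) ∈ Divisor.principal (K := K) (F := F) := by
    have h := QuotientAddGroup.eq.mp hD'.symm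
    rw [AddSubgroup.mem_addSubgroupOf] at h
    simpa [sub_eq_neg_add] using h
  have hpush : ∀ (ψ : F' →ₐ[K] F) (hψ : ψ.toRingHom.IsIntegral) (hfin : FiniteAlong K ψ),
      NormFormulaAlong K ψ hfin →
      Divisor.pushforwardAlong ψ hψ (D : Divisor K F) ∈ Divisor.principal (K := K) (F := F') →
      Divisor.pushforwardAlong ψ hψ (D' : Divisor K F) ∈
        Divisor.principal (K := K) (F := F') := by
    intro ψ hψ hfin hN h
    have h2 := add_mem h (Divisor.isPrincipal_pushforwardAlong ψ hψ hfin hN hdiff :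
      Divisor.pushforwardAlong ψ hψ ((D' : Divisor K F) - D) ∈
        Divisor.principal (K := K) (F := F'))
    rwa [map_sub, add_sub_cancel] at h2
  rw [← hD']
  have hf0 := P.ne_zero hf ha
  obtain ⟨Hα, hHα⟩ := exists_norm_eq_pow hn hα hfα hNα hc hf0 hDf (hpush α hα hfα hNα hDα)
  obtain ⟨Hβ, hHβ⟩ := exists_norm_eq_pow hn hβ hfβ hNβ hc hf0 hDf (hpush β hβ hfβ hNβ hDβ)
  obtain ⟨h, hh⟩ := hrα hf ha hb Hα hHα
  obtain ⟨h', hh'⟩ := hrβ hf ha hb Hβ hHβ
  have hτa : τ a ≠ 0 := (map_ne_zero τ).2 ha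
  have hτb : τ b ≠ 0 := (map_ne_zero τ).2 hb
  have hh0 : h ≠ 0 := fun e => mul_ne_zero ha hτb (by rw [← hh, e, zero_pow hn])
  have hh0' : h' ≠ 0 := fun e => mul_ne_zero hτa hb (by rw [← hh', e, zero_pow hn])
  obtain ⟨u, hu⟩ := hlift (h * (τ h')⁻¹) (h' * (τ h)⁻¹)
    (mul_ne_zero hh0 (inv_ne_zero ((map_ne_zero τ).2 hh0')))
    (mul_ne_zero hh0' (inv_ne_zero ((map_ne_zero τ).2 hh0)))
  have hu0 := P.ne_zero hu (mul_ne_zero hh0 (inv_ne_zero ((map_ne_zero τ).2 hh0')))
  set F2 := SemilinearAut.toRingAut (φ * φ) f with hF2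
  have hF20 : F2 ≠ 0 := by simpa [hF2] using hf0
  have hg : P.Res (F2 * f⁻¹ * u ^ n) 1 1 := by
    have h1 := P.mul (P.mul (hres (hres hf)) (P.inv hf ha hb)) (P.pow hu n)
    have e1 : τ (τ a) * a⁻¹ * (h * (τ h')⁻¹) ^ n = 1 := by
      rw [mul_pow, inv_pow, hh, ← map_pow, hh', map_mul]
      field_simp [(map_ne_zero τ).2 hτa]
    have e2 : τ (τ b) * b⁻¹ * (h' * (τ h)⁻¹) ^ n = 1 := by
      rw [mul_pow, inv_pow, hh', ← map_pow, hh, map_mul]
      field_simp [(map_ne_zero τ).2 hτb]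
    rwa [e1, e2] at h1
  obtain ⟨E, hE, hEv⟩ := exists_divisor (K := K) hu0
  have e : φ • (φ • (Pic0.mk D' : Pic0 K F)) - Pic0.mk D' =
      Pic0.mk (SemilinearAut.degZeroSMulHom (φ * φ) D' - D' + E) := by
    rw [Pic0.mk_add, hE, add_zero, ← mul_smul, SemilinearAut.pic0_smul_mk]
    rfl
  rw [e, ← mul_smul, P.smul_eq_nsmul hn hs hg fun v => ?_]
  rw [v.ord_mul (mul_ne_zero hF20 (inv_ne_zero hf0)) (pow_ne_zero _ hu0),
    v.ord_mul hF20 (inv_ne_zero hf0), v.ord_inv, ord_pow', hF2, ← smul_function (φ * φ) hDf,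
    ← hDf, ← hEv, AddSubgroup.coe_add, AddSubgroup.coe_sub, Finsupp.add_apply, Finsupp.sub_apply]
  ring

end Pushforward

end PairResidue

end Fermat.Agent.BadPrime
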