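import Mathlib.RingTheory.Ideal.Maximal
import Mathlib.RingTheory.Ideal.Quotient.Basic
import Mathlib.RingTheory.Adjoin.Basic
import Mathlib.RingTheory.Valuation.Basic
import Mathlib.FieldTheory.IsAlgClosed.Basic
import Mathlib.Algebra.Polynomial.Splits
import Mathlib.FieldTheory.Separable
import Mathlib.Algebra.CharP.Lemmas
import Mathlib.Tactic.LinearCombination

/-!
# The special fibre of the two-component model of `X₀(qM)`

`Im` is the image of the affine chart in `R × R`, where `R` is the coordinate ring over `k` of the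
component.  From the pairs `(a, a^q)`, `(a^q, a)` for generators `a`, one element `(b, 0)` and the
glueing property at the zeros of `b`, the image consists of all pairs that agree at those zeros.
-/

set_option autoImplicit false

noncomputable section

namespace Fermat.Agent.BadPrime

open Polynomial

section glue

variable {B : Type*} [CommRing B] [IsDomain B] {R : Type*} [CommRing R]
variable {Γ₀ : Type*} [LinearOrderedCommMonoidWithZero Γ₀]

/-- If `b` divides `π` (so it has no zero on the generic fibre), vanishes on the second component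
and is prime to `π` on the first, then whatever vanishes on the second component vanishes on the
first at every zero of `b`. -/
theorem mem_of_mul_eq_of_map_eq_zero (red : B →+* R) (v₁ v₂ : Valuation B Γ₀) {π b c e : B}
    (hc : b * c = π) (hπ : π ≠ 0) (hle : ∀ x, v₁ x ≤ 1)
    (hdiv : ∀ x, v₁ x ≤ v₁ π → v₂ x ≤ v₂ π → π ∣ x)
    (hb : v₁ b = 1) (hc₂ : v₂ c ≤ 1) (he : ∃ m, v₂ e ^ m ≤ v₂ π)
    {P : Ideal R} (hP : P.IsPrime) (hbP : red b ∈ P) : red e ∈ P := by
  obtain ⟨m, hm⟩ := he
  have h₁ : v₁ (e ^ m * c) ≤ v₁ π := by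
    rw [← hc, map_mul, map_mul, hb, one_mul]
    exact mul_le_of_le_one_left zero_le (hle _)
  have h₂ : v₂ (e ^ m * c) ≤ v₂ π := by
    rw [map_mul, map_pow]
    exact (mul_le_of_le_one_right zero_le hc₂).trans hm
  obtain ⟨d, hd⟩ := hdiv _ h₁ h₂
  have hem : e ^ m = b * d := by
    have hc0 : c ≠ 0 := fun h => hπ (by rw [← hc, h, mul_zero])
    refine mul_right_cancel₀ hc0 ?_
    rw [hd, ← hc]; ring
  refine hP.mem_of_pow_mem m ?_
  rw [← map_pow, hem, map_mul]
  exact P.mul_mem_right _ hbP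

end glue

section image

variable {k : Type*} [Field k] {R : Type*} [CommRing R] [Algebra k R] (Im : Subalgebra k (R × R))

/-- The elements of the first component whose pair with `0` lies in the image. -/
def firstIdeal (hsurj : ∀ u : R, ∃ v : R, (u, v) ∈ Im) : Ideal R where
  carrier := {u | (u, (0 : R)) ∈ Im}
  zero_mem' := Im.zero_mem
  add_mem' {a b} ha hb := by simpa using Im.add_mem ha hb
  smul_mem' r u hu := by
    obtain ⟨v, hv⟩ := hsurj r
    simpa using Im.mul_mem hv hu

theorem mem_firstIdeal_iff {hsurj : ∀ u : R, ∃ v : R, (u, v) ∈ Im} {u : R} :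
    u ∈ firstIdeal Im hsurj ↔ (u, (0 : R)) ∈ Im := Iff.rfl

variable {q : ℕ} {gens : Set R}

theorem exists_right_mem (hgen : Algebra.adjoin k gens = ⊤)
    (hg₁ : ∀ a ∈ gens, (a, a ^ q) ∈ Im) (u : R) : ∃ v : R, (u, v) ∈ Im := by
  have h : Algebra.adjoin k gens ≤ Im.map (AlgHom.fst k R R) := by
    refine Algebra.adjoin_le fun a ha => ?_
    exact ⟨(a, a ^ q), hg₁ a ha, rfl⟩
  obtain ⟨⟨u', v⟩, hv, rfl⟩ := h (hgen.ge (Algebra.mem_top (x := u)))
  exact ⟨v, hv⟩

theorem exists_left_mem (hgen : Algebra.adjoin k gens = ⊤)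
    (hg₂ : ∀ a ∈ gens, (a ^ q, a) ∈ Im) (v : R) : ∃ u : R, (u, v) ∈ Im := by
  have h : Algebra.adjoin k gens ≤ Im.map (AlgHom.snd k R R) := by
    refine Algebra.adjoin_le fun a ha => ?_
    exact ⟨(a ^ q, a), hg₂ a ha, rfl⟩
  obtain ⟨⟨u, v'⟩, hu, rfl⟩ := h (hgen.ge (Algebra.mem_top (x := v)))
  exact ⟨u, hu⟩

theorem sub_pow_sq_mem {a : R} (h₁ : (a, a ^ q) ∈ Im) (h₂ : (a ^ q, a) ∈ Im) :
    (a - a ^ q ^ 2, (0 : R)) ∈ Im := by
  have h := Im.sub_mem h₁ (Im.pow_mem h₂ q)
  rw [show q ^ 2 = q * q by ring, pow_mul]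
  simpa using h

variable [IsAlgClosed k]

/-- An ideal containing `a - a ^ Q` for finitely many generators of the algebra, `Q` a positive
power of the characteristic, is the intersection of the maximal ideals containing it. -/
theorem mem_of_forall_maximal {p r : ℕ} [Fact p.Prime] [CharP k p] (hr : r ≠ 0)
    (hfin : gens.Finite) (hgen : Algebra.adjoin k gens = ⊤) {I : Ideal R}
    (hI : ∀ a ∈ gens, a - a ^ p ^ r ∈ I) {u : R}
    (hu : ∀ P : Ideal R, P.IsMaximal → I ≤ P → u ∈ P) : u ∈ I := by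
  classical
  let J : Ideal R := I.colon {u}
  suffices hJ : J = ⊤ by
    have : (1 : R) ∈ J := hJ.symm ▸ Submodule.mem_top
    simpa [J, Submodule.mem_colon_singleton] using this
  by_contra hJ
  obtain ⟨P, hP, hJP⟩ := Ideal.exists_le_maximal J hJ
  have hIJ : I ≤ J := fun x hx => by
    simpa [J, Submodule.mem_colon_singleton] using I.mul_mem_right u hx
  have hIP := hIJ.trans hJP
  have hpQ : 1 < p ^ r := Nat.one_lt_pow hr (Fact.out : p.Prime).one_lt
  set g : k[X] := X ^ p ^ r - X with hg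
  have hgmon : g.Monic := monic_X_pow_sub (by rw [degree_X]; exact_mod_cast hpQ)
  have hgsep : g.Separable := by
    refine (separable_def g).2 ⟨0, -1, ?_⟩
    have hQ : ((p ^ r : ℕ) : k) = 0 := by rw [Nat.cast_pow, CharP.cast_eq_zero, zero_pow hr]
    simp [hg, derivative_X_pow, hQ]
  have hgs : g = (g.roots.map fun c => X - C c).prod :=
    (prod_multiset_X_sub_C_of_monic_of_roots_card_eq hgmon
      (splits_iff_card_roots.1 (IsAlgClosed.splits g))).symm
  have key : ∀ a ∈ gens, ∃ (e : R) (c : k), e ∉ P ∧ e * (a - algebraMap k R c) ∈ I := by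
    intro a ha
    have hag : aeval a g ∈ I := by
      rw [show aeval a g = -(a - a ^ p ^ r) by simp [hg]]
      exact I.neg_mem (hI a ha)
    have hprod : aeval a g = (g.roots.map fun c => a - algebraMap k R c).prod := by
      conv_lhs => rw [hgs, map_multiset_prod, Multiset.map_map]
      simp
    rw [hprod] at hag
    obtain ⟨c, hc, hcP⟩ : ∃ c ∈ g.roots, a - algebraMap k R c ∈ P := by
      have := (hP.isPrime.multiset_prod_mem_iff_exists_mem _).1 (hIP hag)
      obtain ⟨y, hy, hyP⟩ := this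
      obtain ⟨c, hc, rfl⟩ := Multiset.mem_map.1 hy
      exact ⟨c, hc, hyP⟩
    refine ⟨((g.roots.erase c).map fun c' => a - algebraMap k R c').prod, c, fun he => ?_, ?_⟩
    · obtain ⟨y, hy, hyP⟩ := (hP.isPrime.multiset_prod_mem_iff_exists_mem _).1 he
      obtain ⟨c', hc', rfl⟩ := Multiset.mem_map.1 hy
      have hne : c' - c ≠ 0 := sub_ne_zero.2
        ((nodup_roots hgsep).mem_erase_iff.1 hc').1
      refine hP.ne_top (P.eq_top_of_isUnit_mem ?_ ((hne.isUnit).map (algebraMap k R)))
      rw [map_sub, show algebraMap k R c' - algebraMap k R c =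
        (a - algebraMap k R c) - (a - algebraMap k R c') by ring]
      exact P.sub_mem hcP hyP
    · rw [mul_comm, ← Multiset.prod_cons, ← Multiset.map_cons (fun c' => a - algebraMap k R c'),
        Multiset.cons_erase hc]
      exact hag
  choose! e c he hec using key
  set E := ∏ a ∈ hfin.toFinset, e a with hE
  have hEP : E ∉ P := fun h => by
    obtain ⟨a, ha, hae⟩ := (hP.isPrime.prod_mem_iff).1 h
    exact he a (hfin.mem_toFinset.1 ha) hae
  have hall : ∀ y : R, ∃ s : k, E * (y - algebraMap k R s) ∈ I := by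
    intro y
    have hy : y ∈ Algebra.adjoin k gens := hgen.ge Algebra.mem_top
    induction hy using Algebra.adjoin_induction with
    | mem a ha =>
      refine ⟨c a, ?_⟩
      rw [hE, ← Finset.prod_erase_mul _ _ (hfin.mem_toFinset.2 ha), mul_assoc]
      exact I.mul_mem_left _ (hec a ha)
    | algebraMap s => exact ⟨s, by simp⟩
    | add x y _ _ hx hy =>
      obtain ⟨s, hs⟩ := hx
      obtain ⟨t, ht⟩ := hy
      refine ⟨s + t, ?_⟩
      convert I.add_mem hs ht using 1
      rw [map_add]; ring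
    | mul x y _ _ hx hy =>
      obtain ⟨s, hs⟩ := hx
      obtain ⟨t, ht⟩ := hy
      refine ⟨s * t, ?_⟩
      convert I.add_mem (I.mul_mem_left y hs) (I.mul_mem_left (algebraMap k R s) ht) using 1
      rw [map_mul]; ring
  obtain ⟨s, hs⟩ := hall u
  have hs0 : s = 0 := by
    by_contra hne
    have h₁ := (hP.isPrime.mem_or_mem (hIP hs)).resolve_left hEP
    refine hP.ne_top (P.eq_top_of_isUnit_mem ?_ ((Ne.isUnit hne).map (algebraMap k R)))
    simpa using P.sub_mem (hu P hP hIP) h₁
  refine hEP (hJP ?_)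
  simpa [J, Submodule.mem_colon_singleton, hs0] using hs

variable {p : ℕ} [Fact p.Prime] [CharP k p] (hfin : gens.Finite)
  (hgen : Algebra.adjoin k gens = ⊤)
  (hg₁ : ∀ a ∈ gens, (a, a ^ p) ∈ Im) (hg₂ : ∀ a ∈ gens, (a ^ p, a) ∈ Im)
  {b : R} (hb : (b, (0 : R)) ∈ Im)
  (hglue : ∀ e : R, (e, (0 : R)) ∈ Im → ∀ P : Ideal R, P.IsMaximal → b ∈ P → e ∈ P)

include hfin hgen hg₁ hg₂ hb hglue in
/-- `(u, 0)` is in the image iff `u` vanishes at every zero of `b`. -/
theorem mk_zero_mem_iff (u : R) :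
    (u, (0 : R)) ∈ Im ↔ ∀ P : Ideal R, P.IsMaximal → b ∈ P → u ∈ P := by
  refine ⟨hglue u, fun h => ?_⟩
  refine mem_of_forall_maximal (p := p) two_ne_zero hfin hgen
    (I := firstIdeal Im (exists_right_mem Im hgen hg₁))
    (fun a ha => sub_pow_sq_mem Im (hg₁ a ha) (hg₂ a ha)) fun P hP hIP => h P hP (hIP ?_)
  exact hb

include hfin hgen hg₁ hg₂ hb hglue in
/-- The zeros of `b` are fixed by the square of the Frobenius. -/
theorem sub_pow_sq_mem_of_mem {a : R} (ha : a ∈ gens) {P : Ideal R} (hP : P.IsMaximal)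
    (hbP : b ∈ P) : a - a ^ p ^ 2 ∈ P :=
  (mk_zero_mem_iff Im hfin hgen hg₁ hg₂ hb hglue _).1
    (sub_pow_sq_mem Im (hg₁ a ha) (hg₂ a ha)) P hP hbP

include hfin hgen hg₁ hg₂ hb hglue in
/-- The image is the ring of pairs with compatible values at the zeros of `b`: to each zero `χ`
of `b` on the first component there is a point `χ'` of the second, its Frobenius transform, and
the image is cut out by `χ u = χ' v`. -/
theorem mk_mem_iff_forall (u v : R) :
    (u, v) ∈ Im ↔ ∀ P : Ideal R, P.IsMaximal → b ∈ P →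
      ∀ u' : R, (u', v) ∈ Im → u - u' ∈ P := by
  refine ⟨fun h P hP hbP u' hu' => hglue _ ?_ P hP hbP, fun h => ?_⟩
  · simpa using Im.sub_mem h hu'
  · obtain ⟨u', hu'⟩ := exists_left_mem Im hgen hg₂ v
    have := Im.add_mem ((mk_zero_mem_iff Im hfin hgen hg₁ hg₂ hb hglue (u - u')).2
      fun P hP hbP => h P hP hbP u' hu') hu'
    simpa using this

end image

end Fermat.Agent.BadPrime
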