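import Mathlib

/-!
# Codimensions of lattices over `k[X]` from determinants of pairings

If `β` is a nondegenerate bilinear form on a finite free `k[X]`-module `M` and `U, V, W` are
sublattices with `det β|U×V` associated to `det β|W×W`, then
`dim M/U + dim M/V = 2 dim M/W`.
-/

set_option autoImplicit false

open Polynomial

namespace Fermat.Agent.BadPrime

variable {k : Type*} [Field k] {M : Type*} [AddCommGroup M] [Module k[X] M] [Module k M]
  [IsScalarTower k k[X] M] {ι : Type*} [Fintype ι] [DecidableEq ι]

/-- The codimension of a full rank sublattice is the degree of the determinant of the change of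
basis matrix. -/
theorem finrank_quotient_eq_natDegree_det (b : Module.Basis ι k[X] M) (N : Submodule k[X] M)
    (v : Module.Basis ι k[X] N) :
    Module.finrank k (M ⧸ N) = (b.toMatrix fun i => (v i : M)).det.natDegree ∧
      Module.Finite k (M ⧸ N) ∧ (b.toMatrix fun i => (v i : M)).det ≠ 0 := by
  classical
  have h : Module.finrank k[X] N = Module.finrank k[X] M := by
    rw [Module.finrank_eq_card_basis v, Module.finrank_eq_card_basis b]
  have hne : ∀ i, Submodule.smithNormalFormCoeffs b h i ≠ 0 :=
    Submodule.smithNormalFormCoeffs_ne_zero b h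
  set a := Submodule.smithNormalFormCoeffs b h with ha
  set b' := Submodule.smithNormalFormTopBasis b h with hb'
  set ab := Submodule.smithNormalFormBotBasis b h with hab
  have key : b'.toMatrix (fun i => (ab i : M)) = Matrix.diagonal a := by
    ext i j
    rw [Module.Basis.toMatrix_apply, Submodule.smithNormalFormBotBasis_def, map_smul,
      Module.Basis.repr_self, Finsupp.smul_single, smul_eq_mul, mul_one, Finsupp.single_apply,
      Matrix.diagonal_apply]
    by_cases hij : i = j
    · subst hij; simp [ha]
    · rw [if_neg (Ne.symm hij), if_neg hij]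
  have hfac : b.toMatrix (fun i => (v i : M)) =
      b.toMatrix b' * Matrix.diagonal a * ab.toMatrix v := by
    rw [← key, Module.Basis.toMatrix_mul_toMatrix b b' (fun i => (ab i : M))]
    refine Matrix.ext fun i j => ?_
    rw [Matrix.mul_apply]
    simp only [Module.Basis.toMatrix_apply]
    conv_lhs => rw [← ab.sum_repr (v j)]
    simp only [Submodule.coe_sum, Submodule.coe_smul, map_sum, map_smul, Finsupp.coe_finsetSum,
      Finset.sum_apply, Finsupp.smul_apply, smul_eq_mul]
    exact Finset.sum_congr rfl fun x _ => mul_comm _ _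
  have hu1 : IsUnit (b.toMatrix b').det :=
    Matrix.isUnit_det_of_right_inverse (b.toMatrix_mul_toMatrix_flip b')
  have hu2 : IsUnit (ab.toMatrix v).det :=
    Matrix.isUnit_det_of_right_inverse (ab.toMatrix_mul_toMatrix_flip v)
  have hassoc : Associated (b.toMatrix fun i => (v i : M)).det (∏ i, a i) := by
    rw [hfac, Matrix.det_mul, Matrix.det_mul, Matrix.det_diagonal]
    exact (associated_mul_unit_left _ _ hu2).trans (associated_unit_mul_left _ _ hu1)
  have hfin : ∀ i, Module.Finite k (k[X] ⧸ Ideal.span ({a i} : Set k[X])) := fun i =>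
    PowerBasis.finite (AdjoinRoot.powerBasis (hne i))
  refine ⟨?_, ?_, fun h0 => ?_⟩
  · rw [natDegree_eq_of_degree_eq (degree_eq_degree_of_associated hassoc),
      natDegree_prod _ _ fun i _ => hne i, Submodule.finrank_quotient_eq_sum k b h]
    exact Finset.sum_congr rfl fun i _ => (AdjoinRoot.powerBasis (hne i)).finrank
  · exact Module.Finite.equiv
      ((N.quotientEquivPiSpan b h).restrictScalars k).symm
  · rw [h0] at hassoc
    exact Finset.prod_ne_zero_iff.mpr (fun i _ => hne i)
      (associated_zero_iff_eq_zero _ |>.mp hassoc.symm)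

/-- Gram matrix of a bilinear form on two families. -/
noncomputable def gram (β : M →ₗ[k[X]] M →ₗ[k[X]] k[X]) (u v : ι → M) : Matrix ι ι k[X] :=
  Matrix.of fun i j => β (u i) (v j)

omit [Module k M] [IsScalarTower k k[X] M] [DecidableEq ι] in
theorem gram_eq_toMatrix_mul (β : M →ₗ[k[X]] M →ₗ[k[X]] k[X]) (b : Module.Basis ι k[X] M)
    (u v : ι → M) :
    gram β u v = (b.toMatrix u).transpose * gram β b b * b.toMatrix v := by
  refine Matrix.ext fun i j => ?_
  simp only [gram, Matrix.of_apply, Matrix.mul_apply, Matrix.transpose_apply,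
    Module.Basis.toMatrix_apply, Finset.sum_mul]
  conv_lhs => rw [← b.sum_repr (u i), ← b.sum_repr (v j)]
  simp only [map_sum, LinearMap.sum_apply, LinearMap.smul_apply, map_smul, smul_eq_mul,
    Finset.mul_sum]
  exact Finset.sum_congr rfl fun x _ => Finset.sum_congr rfl fun y _ => by ring

/-- The codimension comparison for a bilinear form. -/
theorem finrank_quotient_add_eq_of_associated (b : Module.Basis ι k[X] M)
    (β : M →ₗ[k[X]] M →ₗ[k[X]] k[X]) (hβ : (gram β b b).det ≠ 0)
    {U V W : Submodule k[X] M} (u : Module.Basis ι k[X] U) (v : Module.Basis ι k[X] V)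
    (w : Module.Basis ι k[X] W)
    (h : Associated (gram β (fun i => (u i : M)) fun i => (v i : M)).det
      (gram β (fun i => (w i : M)) fun i => (w i : M)).det) :
    Module.finrank k (M ⧸ U) + Module.finrank k (M ⧸ V) = 2 * Module.finrank k (M ⧸ W) := by
  obtain ⟨h1, -, h1'⟩ := finrank_quotient_eq_natDegree_det b U u
  obtain ⟨h2, -, h2'⟩ := finrank_quotient_eq_natDegree_det b V v
  obtain ⟨h3, -, h3'⟩ := finrank_quotient_eq_natDegree_det b W w
  rw [gram_eq_toMatrix_mul β b, gram_eq_toMatrix_mul β b (fun i => (w i : M)), Matrix.det_mul,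
    Matrix.det_mul, Matrix.det_mul, Matrix.det_mul, Matrix.det_transpose, Matrix.det_transpose] at h
  have hd := natDegree_eq_of_degree_eq (degree_eq_degree_of_associated h)
  rw [natDegree_mul (mul_ne_zero h1' hβ) h2', natDegree_mul h1' hβ,
    natDegree_mul (mul_ne_zero h3' hβ) h3', natDegree_mul h3' hβ] at hd
  omega

end Fermat.Agent.BadPrime
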