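import Fermat.Agent.BadPrime.RegularTwo
import Mathlib.RingTheory.Ideal.GoingUp
import Mathlib.Algebra.Polynomial.Div

/-!
# Regularity of the models of level `q` and `q ^ 2` at crossing points

* Level `q`: a local ring with `a * b = q * u` whose maximal ideal is generated by `a, b, q` is
  regular once `u` is a unit; `u` is a unit as soon as `u ^ n` factors into two elements which are
  units on the two branches.
* Level `q ^ 2`: over a regular level `q` ring with parameters `(x, y)`, adjoining a root `z` of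
  `(P(Z) - P(x)) / (Z - x)`, for a Kronecker-congruent `P`, gives a regular ring with parameters
  `(x, z)`.
-/

set_option autoImplicit false

open IsLocalRing Polynomial

namespace Fermat.Agent.BadPrime

variable {R : Type*} [CommRing R] [IsLocalRing R]

omit [IsLocalRing R] in
/-- The criterion for `u` to be a unit at a crossing. -/
theorem isUnit_of_mul_eq_pow {D₁ D₂ : Type*} [CommRing D₁] [CommRing D₂]
    (φ₁ : R →+* D₁) [IsLocalHom φ₁] (φ₂ : R →+* D₂) [IsLocalHom φ₂] {G G' u : R} {n : ℕ}
    (hn : n ≠ 0) (h : G * G' = u ^ n) (h₁ : IsUnit (φ₁ G)) (h₂ : IsUnit (φ₂ G')) : IsUnit u := by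
  rw [← isUnit_pow_iff hn, ← h]
  exact (isUnit_of_map_unit φ₁ G h₁).mul (isUnit_of_map_unit φ₂ G' h₂)

variable [IsNoetherianRing R]

/-- Regularity at a crossing of the level `q` model. -/
theorem isRegularPair_of_crossing {a b u q : R} (ha : a ∈ maximalIdeal R)
    (hb : b ∈ maximalIdeal R) (hab : a * b = q * u) (hu : IsUnit u)
    (hm : maximalIdeal R ≤ Ideal.span {a, b, q} ⊔ maximalIdeal R ^ 2) (ha0 : a ≠ 0)
    {P : Ideal R} (hP : P.IsPrime) (haP : a ∈ P) (hne : P ≠ maximalIdeal R) :
    IsRegularPair a b := by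
  have hq : q ∈ Ideal.span {a, b} := by
    obtain ⟨v, hv⟩ := hu.exists_right_inv
    have e : q = v * b * a := by linear_combination (-v) * hab - q * hv
    exact e ▸ Ideal.mul_mem_left _ _ (Ideal.subset_span (by simp))
  have hab' : maximalIdeal R = Ideal.span {a, b} := by
    refine maximalIdeal_eq_span_pair ha hb (hm.trans (sup_le_sup_right ?_ _))
    rw [Ideal.span_le]
    rintro w (rfl | rfl | rfl)
    · exact Ideal.subset_span (by simp)
    · exact Ideal.subset_span (by simp)
    · exact hq
  exact ⟨hab', ha0, not_dvd_pow_of_isPrime hab' hP haP hne⟩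

omit [IsLocalRing R] [IsNoetherianRing R] in
/-- The constant coefficient of `(P - P(x)) / (X - x)`. -/
theorem coeff_zero_of_sub_eval_eq {P Q : R[X]} {x : R} (h : P - C (P.eval x) = (X - C x) * Q) :
    Q.coeff 0 = P.coeff 1 + x * Q.coeff 1 := by
  have h1 := congrArg (fun f : R[X] => f.coeff 1) h
  simp [sub_mul] at h1
  linear_combination -h1

omit [IsLocalRing R] [IsNoetherianRing R] in
/-- For a Kronecker congruence `P = (X - e₁)(X ^ q - e₂) + q U` the coefficient of `X` is `-e₂`
modulo `(q)`. -/
theorem coeff_one_of_kronecker {P U : R[X]} {e₁ e₂ c : R} {q : ℕ} (hq : 2 ≤ q)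
    (h : P = (X - C e₁) * (X ^ q - C e₂) + C c * U) :
    P.coeff 1 + e₂ = c * U.coeff 1 := by
  obtain ⟨m, rfl⟩ := Nat.exists_eq_add_of_le hq
  subst h
  simp [sub_mul, mul_sub, coeff_C, coeff_X_pow, show (0 : ℕ) ≠ 2 + m by omega,
    show (1 : ℕ) ≠ 2 + m by omega]

variable {S : Type*} [CommRing S] [IsNoetherianRing S] [IsLocalRing S]

omit [IsNoetherianRing R] in
/-- Regularity of the level `q ^ 2` model over a regular level `q` model. -/
theorem IsRegularPair.tower [Algebra R S] [Algebra.IsIntegral R S] [FaithfulSMul R S]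
    {x y : R} (h : IsRegularPair x y) {z : S} {Q : R[X]} (hQz : aeval z Q = 0)
    (hQ : Q.coeff 0 + y ∈ Ideal.span {x} ⊔ maximalIdeal R ^ 2)
    (hm : maximalIdeal S = (maximalIdeal R).map (algebraMap R S) ⊔ Ideal.span {z})
    (hpx : (Ideal.span {x}).IsPrime) :
    IsRegularPair (algebraMap R S x) z := by
  set f := algebraMap R S with hf
  have hmR : (maximalIdeal R).map f ≤ maximalIdeal S := hm ▸ le_sup_left
  have hxm : f x ∈ maximalIdeal S :=
    hmR (Ideal.mem_map_of_mem f (h.maximalIdeal_eq ▸ Ideal.subset_span (by simp)))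
  have hzm : z ∈ maximalIdeal S := hm ▸ Ideal.mem_sup_right (Ideal.mem_span_singleton_self z)
  set J := Ideal.span {f x, z} ⊔ maximalIdeal S ^ 2 with hJ
  have hxJ : f x ∈ J := Ideal.mem_sup_left (Ideal.subset_span (by simp))
  have hzJ : z ∈ J := Ideal.mem_sup_left (Ideal.subset_span (by simp))
  have h0 : f (Q.coeff 0) ∈ J := by
    have e := congrArg (aeval z) (Polynomial.X_mul_divX_add Q)
    rw [hQz, map_add, map_mul, aeval_X, aeval_C] at e
    rw [hf, show algebraMap R S (Q.coeff 0) = -(aeval z Q.divX) * z by linear_combination e]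
    exact J.mul_mem_left _ hzJ
  have hsq : ∀ r ∈ maximalIdeal R ^ 2, f r ∈ J := fun r hr => Ideal.mem_sup_right <| by
    have := Ideal.mem_map_of_mem f hr
    rw [Ideal.map_pow] at this
    exact Ideal.pow_right_mono hmR 2 this
  have hy : f y ∈ J := by
    obtain ⟨s, hs, t, ht, hst⟩ := Submodule.mem_sup.1 hQ
    obtain ⟨w, rfl⟩ := Ideal.mem_span_singleton'.1 hs
    have e : f y = f w * f x + f t - f (Q.coeff 0) := by
      rw [← map_mul, ← map_add, ← map_sub, hst]
      congr 1
      ring
    exact e ▸ sub_mem (add_mem (J.mul_mem_left _ hxJ) (hsq t ht)) h0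
  have hpair : maximalIdeal S = Ideal.span {f x, z} := by
    refine maximalIdeal_eq_span_pair hxm hzm (hm.trans_le (sup_le ?_ ?_))
    · rw [h.maximalIdeal_eq, Ideal.map_span, Ideal.span_le]
      rintro _ ⟨w, rfl | rfl, rfl⟩
      · exact hxJ
      · exact hy
    · exact (Ideal.span_singleton_le_iff_mem _).2 hzJ
  have hinj : Function.Injective f := FaithfulSMul.algebraMap_injective R S
  obtain ⟨P', -, hP', hcomap⟩ := Ideal.exists_ideal_over_prime_of_isIntegral (S := S)
    (Ideal.span {x}) (⊥ : Ideal S) (by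
      intro w hw
      have : w = 0 := by simpa using hw
      exact this ▸ zero_mem _)
  refine ⟨hpair, fun h0 => h.ne_zero (hinj (by rw [h0, map_zero])),
    not_dvd_pow_of_isPrime hpair hP' ?_ ?_⟩
  · have hx' : x ∈ P'.comap f := hcomap.symm ▸ Ideal.mem_span_singleton_self x
    exact hx'
  · intro he
    apply h.not_dvd_pow 1
    rw [pow_one, ← Ideal.mem_span_singleton, ← hcomap, he]
    exact hmR (Ideal.mem_map_of_mem f (h.maximalIdeal_eq ▸ Ideal.subset_span (by simp)))

end Fermat.Agent.BadPrime
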