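import Mathlib.RingTheory.Noetherian.UniqueFactorizationDomain
import Mathlib.RingTheory.Polynomial.RationalRoot
import Mathlib.RingTheory.Nakayama
import Mathlib.RingTheory.LocalRing.MaximalIdeal.Basic
import Mathlib.RingTheory.UniqueFactorizationDomain.Multiplicity
import Mathlib.RingTheory.Ideal.Operations
import Mathlib.Tactic.LinearCombination

/-!
# Two-dimensional regular local rings are factorial

A noetherian local domain with maximal ideal `(x, z)` such that no power of `z` is divisible by `x`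
is a unique factorisation domain.  The proof is elementary: every ideal saturated with respect to
the maximal ideal is principal, by Nakayama and the discrete valuation on `R/(x)`.
-/

set_option autoImplicit false

open IsLocalRing

namespace Fermat.Agent.BadPrime

variable {R : Type*} [CommRing R]

/-- `(x, z)` is a regular system of parameters of the two-dimensional local ring `R`. -/
structure IsRegularPair [IsLocalRing R] (x z : R) : Prop where
  maximalIdeal_eq : maximalIdeal R = Ideal.span {x, z}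
  ne_zero : x ≠ 0
  not_dvd_pow : ∀ k : ℕ, ¬ x ∣ z ^ k

variable [IsDomain R] [IsNoetherianRing R] [IsLocalRing R] {x z : R}

namespace IsRegularPair

omit [IsDomain R] [IsNoetherianRing R] in
theorem mem_maximalIdeal (h : IsRegularPair x z) : x ∈ maximalIdeal R ∧ z ∈ maximalIdeal R := by
  rw [h.maximalIdeal_eq]
  exact ⟨Ideal.subset_span (by simp), Ideal.subset_span (by simp)⟩

omit [IsDomain R] in
/-- Modulo `x` every element is a unit times a power of `z`. -/
theorem exists_eq_unit_mul_pow (h : IsRegularPair x z) :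
    ∀ a : R, ¬ x ∣ a → ∃ (k : ℕ) (u : R), IsUnit u ∧ x ∣ a - u * z ^ k := by
  suffices H : ∀ I : Ideal R, ∀ a : R, Ideal.span {x, a} = I → ¬ x ∣ a →
      ∃ (k : ℕ) (u : R), IsUnit u ∧ x ∣ a - u * z ^ k from fun a => H _ a rfl
  intro I
  induction I using WellFoundedGT.induction with
  | _ I ih =>
    intro a hI ha
    by_cases hu : IsUnit a
    · exact ⟨0, a, hu, by simp⟩
    have hm : a ∈ Ideal.span {x, z} := h.maximalIdeal_eq ▸ (IsLocalRing.mem_maximalIdeal a).2 hu
    obtain ⟨α, β, hab⟩ := Ideal.mem_span_pair.1 hm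
    have hβ : ¬ x ∣ β := fun hd => ha (by
      obtain ⟨γ, rfl⟩ := hd
      exact ⟨α + γ * z, by linear_combination -hab⟩)
    have hlt : I < Ideal.span {x, β} := by
      rw [← hI]
      refine lt_of_le_of_ne ?_ ?_
      · rw [Ideal.span_le, Set.insert_subset_iff, Set.singleton_subset_iff]
        exact ⟨Ideal.subset_span (by simp), Ideal.mem_span_pair.2 ⟨α, z, by linear_combination hab⟩⟩
      · intro he
        have hb : β ∈ Ideal.span {x, a} := he ▸ Ideal.subset_span (by simp)
        obtain ⟨d, c, hdc⟩ := Ideal.mem_span_pair.1 hb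
        have hu' : IsUnit (1 - c * z) :=
          IsLocalRing.isUnit_one_sub_self_of_mem_nonunits _
            (Ideal.mul_mem_left _ c h.mem_maximalIdeal.2)
        exact hβ ((hu'.dvd_mul_right).1 ⟨d + c * α, by linear_combination -hdc - c * hab⟩)
    obtain ⟨k, u, hu, γ, hγ⟩ := ih _ hlt β rfl hβ
    exact ⟨k + 1, u, hu, α + γ * z, by linear_combination -hab + z * hγ⟩

omit [IsDomain R] [IsNoetherianRing R] in
theorem not_dvd_unit_mul_pow (h : IsRegularPair x z) {u : R} (hu : IsUnit u) (k : ℕ) :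
    ¬ x ∣ u * z ^ k := fun hd => h.not_dvd_pow k (hu.dvd_mul_left.1 hd)

omit [IsDomain R] in
theorem dvd_or_dvd (h : IsRegularPair x z) {a b : R} (hab : x ∣ a * b) : x ∣ a ∨ x ∣ b := by
  by_contra hc
  push Not at hc
  obtain ⟨k, u, hu, γ, hγ⟩ := h.exists_eq_unit_mul_pow a hc.1
  obtain ⟨l, v, hv, δ, hδ⟩ := h.exists_eq_unit_mul_pow b hc.2
  obtain ⟨e, he⟩ := hab
  refine h.not_dvd_unit_mul_pow (hu.mul hv) (k + l) ⟨e - γ * b - δ * u * z ^ k, ?_⟩
  linear_combination he - b * hγ - u * z ^ k * hδ

omit [IsDomain R] [IsNoetherianRing R] in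
theorem not_isUnit (h : IsRegularPair x z) : ¬ IsUnit x :=
  (IsLocalRing.mem_maximalIdeal x).1 h.mem_maximalIdeal.1

omit [IsDomain R] in
theorem prime (h : IsRegularPair x z) : Prime x :=
  ⟨h.ne_zero, h.not_isUnit, fun _ _ hab => h.dvd_or_dvd hab⟩

variable {I : Ideal R}

omit [IsNoetherianRing R] in
theorem exists_eq_mul_of_mul_pow_mem (h : IsRegularPair x z) (hxp : Prime x)
    (hI : ∀ a, x * a ∈ I → z * a ∈ I → a ∈ I) :
    ∀ (k : ℕ) (a : R), (∃ i ∈ I, z ^ k * a = x * i) → a ∈ I → ∃ b ∈ I, a = x * b := by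
  intro k
  induction k with
  | zero =>
    rintro a ⟨i, hi, he⟩ -
    exact ⟨i, hi, by simpa using he⟩
  | succ k ih =>
    rintro a ⟨i, hi, he⟩ ha
    obtain ⟨b, hb, hab⟩ := ih (z * a) ⟨i, hi, by rw [← he]; ring⟩ (I.mul_mem_left z ha)
    obtain ⟨c, rfl⟩ := (hxp.dvd_or_dvd ⟨b, hab⟩).resolve_left fun hz =>
      h.not_dvd_pow 1 (by simpa using hz)
    have hc : z * c = b := mul_left_cancel₀ h.ne_zero (by linear_combination hab)
    exact ⟨c, hI c ha (hc ▸ hb), rfl⟩

/-- An ideal saturated with respect to the maximal ideal is principal. -/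
theorem exists_eq_span_singleton (h : IsRegularPair x z)
    (hI : ∀ a, x * a ∈ I → z * a ∈ I → a ∈ I) : ∃ g ∈ I, I = Ideal.span {g} := by
  have hxp := h.prime
  -- candidates `(g) + x I`
  let S : Set (Ideal R) := {J | ∃ g ∈ I, J = Ideal.span {g} ⊔ Ideal.span {x} * I}
  obtain ⟨J, ⟨g, hg, rfl⟩, hmax⟩ := wellFounded_gt.has_min S ⟨_, 0, I.zero_mem, rfl⟩
  refine ⟨g, hg, le_antisymm ?_ ((Ideal.span_singleton_le_iff_mem _).2 hg)⟩
  have key : I ≤ Ideal.span {g} ⊔ Ideal.span {x} * I := by
    intro a ha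
    set J := Ideal.span {x} * I with hJ
    by_contra hna
    have hgna : g ∉ Ideal.span {a} ⊔ J := by
      intro hga
      refine hmax _ ⟨a, ha, rfl⟩ (lt_of_le_of_ne ?_ ?_)
      · exact sup_le ((Ideal.span_singleton_le_iff_mem _).2 hga) le_sup_right
      · intro he
        exact hna (he ▸ Ideal.mem_sup_left (Ideal.mem_span_singleton_self a))
    have hJ' : ∀ c, c ∈ J ↔ ∃ i ∈ I, x * i = c := fun c => Ideal.mem_span_singleton_mul
    have ha0 : a ≠ 0 := fun h0 => hna (h0 ▸ zero_mem _)
    have hg0 : g ≠ 0 := fun h0 => hgna (h0 ▸ zero_mem _)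
    obtain ⟨i, c, hc, hgc⟩ := WfDvdMonoid.max_power_factor hg0 hxp.irreducible
    obtain ⟨j, d, hd, had⟩ := WfDvdMonoid.max_power_factor ha0 hxp.irreducible
    -- the relation `g * a = a * g`, divided by powers of `x`
    have hij : i = j := by
      rcases lt_trichotomy i j with hlt | heq | hgt
      · exfalso
        obtain ⟨m, rfl⟩ := Nat.exists_eq_add_of_lt hlt
        have e : c * a = x * (x ^ m * d * g) := by
          apply mul_left_cancel₀ (pow_ne_zero i h.ne_zero)
          linear_combination g * had - a * hgc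
        obtain ⟨k, u, hu, γ, hγ⟩ := h.exists_eq_unit_mul_pow c hc
        obtain ⟨v, hv⟩ := hu.exists_left_inv
        obtain ⟨b, hb, hab⟩ := h.exists_eq_mul_of_mul_pow_mem hxp hI k a
          ⟨v * (x ^ m * d * g - γ * a),
            I.mul_mem_left _ (sub_mem (I.mul_mem_left _ hg) (I.mul_mem_left _ ha)),
            by linear_combination v * e - v * a * hγ - z ^ k * a * hv⟩ ha
        exact hna (Ideal.mem_sup_right ((hJ' a).2 ⟨b, hb, hab.symm⟩))
      · exact heq
      · exfalso
        obtain ⟨m, rfl⟩ := Nat.exists_eq_add_of_lt hgt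
        have e : d * g = x * (x ^ m * c * a) := by
          apply mul_left_cancel₀ (pow_ne_zero j h.ne_zero)
          linear_combination a * hgc - g * had
        obtain ⟨k, u, hu, γ, hγ⟩ := h.exists_eq_unit_mul_pow d hd
        obtain ⟨v, hv⟩ := hu.exists_left_inv
        obtain ⟨b, hb, hab⟩ := h.exists_eq_mul_of_mul_pow_mem hxp hI k g
          ⟨v * (x ^ m * c * a - γ * g),
            I.mul_mem_left _ (sub_mem (I.mul_mem_left _ ha) (I.mul_mem_left _ hg)),
            by linear_combination v * e - v * g * hγ - z ^ k * g * hv⟩ hg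
        exact hgna (Ideal.mem_sup_right ((hJ' g).2 ⟨b, hb, hab.symm⟩))
    subst hij
    have e : c * a = d * g := by
      apply mul_left_cancel₀ (pow_ne_zero i h.ne_zero)
      linear_combination g * had - a * hgc
    obtain ⟨k, u, hu, γ, hγ⟩ := h.exists_eq_unit_mul_pow c hc
    obtain ⟨l, v, hv, δ, hδ⟩ := h.exists_eq_unit_mul_pow d hd
    rcases le_total k l with hkl | hkl
    · obtain ⟨m, rfl⟩ := Nat.exists_eq_add_of_le hkl
      obtain ⟨b, hb, hab⟩ := h.exists_eq_mul_of_mul_pow_mem hxp hI k (u * a - v * z ^ m * g)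
        ⟨δ * g - γ * a, sub_mem (I.mul_mem_left _ hg) (I.mul_mem_left _ ha),
          by linear_combination e - a * hγ + g * hδ⟩
        (sub_mem (I.mul_mem_left _ ha) (I.mul_mem_left _ hg))
      obtain ⟨u', hu'⟩ := hu.exists_left_inv
      have : a = u' * v * z ^ m * g + x * (u' * b) := by
        linear_combination u' * hab - a * hu'
      rw [this] at hna
      exact hna (add_mem (Ideal.mem_sup_left (Ideal.mul_mem_left _ _
        (Ideal.mem_span_singleton_self g)))
        (Ideal.mem_sup_right ((hJ' _).2 ⟨_, I.mul_mem_left u' hb, rfl⟩)))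
    · obtain ⟨m, rfl⟩ := Nat.exists_eq_add_of_le hkl
      obtain ⟨b, hb, hab⟩ := h.exists_eq_mul_of_mul_pow_mem hxp hI l (v * g - u * z ^ m * a)
        ⟨γ * a - δ * g, sub_mem (I.mul_mem_left _ ha) (I.mul_mem_left _ hg),
          by linear_combination -e + a * hγ - g * hδ⟩
        (sub_mem (I.mul_mem_left _ hg) (I.mul_mem_left _ ha))
      obtain ⟨v', hv'⟩ := hv.exists_left_inv
      have : g = v' * u * z ^ m * a + x * (v' * b) := by
        linear_combination v' * hab - g * hv'
      rw [this] at hgna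
      exact hgna (add_mem (Ideal.mem_sup_left (Ideal.mul_mem_left _ _
        (Ideal.mem_span_singleton_self a)))
        (Ideal.mem_sup_right ((hJ' _).2 ⟨_, I.mul_mem_left v' hb, rfl⟩)))
  refine Submodule.le_of_le_smul_of_le_jacobson_bot (IsNoetherian.noetherian I)
    (?_ : Ideal.span {x} ≤ _) (by rwa [smul_eq_mul])
  rw [IsLocalRing.jacobson_eq_maximalIdeal ⊥ bot_ne_top, Ideal.span_singleton_le_iff_mem]
  exact h.mem_maximalIdeal.1

/-- A prime other than the maximal ideal is principal. -/
theorem exists_eq_span_singleton_of_isPrime (h : IsRegularPair x z) {P : Ideal R} [hP : P.IsPrime]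
    (hne : P ≠ maximalIdeal R) : ∃ π, P = Ideal.span {π} := by
  obtain ⟨g, -, hg⟩ := h.exists_eq_span_singleton (I := P) fun a hxa hza => by
    by_contra ha
    apply hne
    refine le_antisymm (IsLocalRing.le_maximalIdeal hP.ne_top) ?_
    rw [h.maximalIdeal_eq, Ideal.span_le, Set.insert_subset_iff, Set.singleton_subset_iff]
    exact ⟨(hP.mem_or_mem hxa).resolve_right ha, (hP.mem_or_mem hza).resolve_right ha⟩
  exact ⟨g, hg⟩

theorem prime_of_irreducible (h : IsRegularPair x z) {a : R} (ha : Irreducible a) : Prime a := by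
  by_cases hex : ∃ P : Ideal R, P.IsPrime ∧ a ∈ P ∧ P ≠ maximalIdeal R
  · obtain ⟨P, hP, haP, hne⟩ := hex
    obtain ⟨π, rfl⟩ := h.exists_eq_span_singleton_of_isPrime hne
    have hπa := Ideal.mem_span_singleton.1 haP
    have hπ0 : π ≠ 0 := by
      rintro rfl
      exact ha.ne_zero (zero_dvd_iff.1 hπa)
    have hπ : Prime π := (Ideal.span_singleton_prime hπ0).1 hP
    exact (hπ.irreducible.associated_of_dvd ha hπa).prime hπ
  · push Not at hex
    have hxr : x ∈ (Ideal.span {a}).radical := by
      rw [Ideal.radical_eq_sInf, Ideal.mem_sInf]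
      rintro P ⟨haP, hP⟩
      rw [hex P hP (haP (Ideal.mem_span_singleton_self a))]
      exact h.mem_maximalIdeal.1
    obtain ⟨N, hN⟩ := hxr
    obtain ⟨c, hc⟩ := Ideal.mem_span_singleton.1 hN
    by_cases hxa : x ∣ a
    · exact (h.prime.irreducible.associated_of_dvd ha hxa).prime h.prime
    · exfalso
      obtain ⟨e, rfl⟩ := h.prime.pow_dvd_of_dvd_mul_left N hxa (show x ^ N ∣ a * c from ⟨1, by rw [mul_one, hc]⟩)
      refine ha.not_isUnit (.of_mul_eq_one e ?_)
      exact mul_left_cancel₀ (pow_ne_zero N h.ne_zero) (by linear_combination -hc)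

/-- A two-dimensional regular local ring is factorial. -/
theorem uniqueFactorizationMonoid (h : IsRegularPair x z) : UniqueFactorizationMonoid R :=
  { (inferInstance : WfDvdMonoid R) with
    irreducible_iff_prime := ⟨h.prime_of_irreducible, Prime.irreducible⟩ }

theorem isIntegrallyClosed (h : IsRegularPair x z) : IsIntegrallyClosed R := by
  have := h.uniqueFactorizationMonoid
  infer_instance

/-- An element whose multiplicity at every prime is divisible by `n` is a unit times an `n`-th
power. -/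
theorem exists_associated_pow (h : IsRegularPair x z) {n : ℕ} {a : R} (ha : a ≠ 0)
    (hn : ∀ π : R, Prime π → ∀ (k : ℕ), π ^ k ∣ a → ¬ π ^ (k + 1) ∣ a → n ∣ k) :
    ∃ c : R, Associated (c ^ n) a := by
  classical
  have := h.uniqueFactorizationMonoid
  suffices H : ∀ b : R, b ≠ 0 →
      (∀ π : R, Prime π → ∀ (k : ℕ), π ^ k ∣ b → ¬ π ^ (k + 1) ∣ b → n ∣ k) →
      ∃ c : R, Associated (c ^ n) b from H a ha hn
  intro b
  induction b using WellFounded.induction (wellFounded_dvdNotUnit (α := R)) with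
  | _ b ih =>
    intro hb hbn
    by_cases hu : IsUnit b
    · exact ⟨1, by simpa using (associated_one_iff_isUnit.2 hu).symm⟩
    obtain ⟨π, hπ, hπb⟩ := WfDvdMonoid.exists_irreducible_factor hu hb
    have hπp := h.prime_of_irreducible hπ
    obtain ⟨k, b', hb', hbk⟩ := WfDvdMonoid.max_power_factor hb hπ
    have hk : k ≠ 0 := by
      rintro rfl
      exact hb' (by rwa [hbk, pow_zero, one_mul] at hπb)
    obtain ⟨m, hm⟩ := hbn π hπp k ⟨b', hbk⟩ fun ⟨e, he⟩ => hb' ⟨e, by
      apply mul_left_cancel₀ (pow_ne_zero k hπp.ne_zero)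
      linear_combination he - hbk⟩
    have hb'0 : b' ≠ 0 := fun h0 => hb (by rw [hbk, h0, mul_zero])
    obtain ⟨c, hc⟩ := ih b' ⟨hb'0, π ^ k,
      fun hu' => hπ.not_isUnit ((isUnit_pow_iff hk).1 hu'), by rw [hbk, mul_comm]⟩ hb'0
      fun ρ hρ l hl hl' => by
        by_cases hass : π ∣ ρ
        · -- `ρ` is associated to `π`, which does not divide `b'`
          have : l = 0 := by
            by_contra hl0
            exact hb' (((hπ.associated_of_dvd hρ.irreducible hass).dvd).trans
              ((dvd_pow_self ρ hl0).trans hl))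
          simp [this]
        · have hρπ : ¬ ρ ∣ π ^ k := fun hd => hass
            ((hρ.irreducible.associated_of_dvd hπ (hρ.dvd_of_dvd_pow hd)).symm.dvd)
          refine hbn ρ hρ l (hl.trans ⟨π ^ k, by rw [hbk, mul_comm]⟩) fun hd => hl' ?_
          exact hρ.pow_dvd_of_dvd_mul_left _ hρπ (hbk ▸ hd)
    refine ⟨π ^ m * c, ?_⟩
    rw [hbk, hm, mul_pow, ← pow_mul, mul_comm n m]
    exact hc.mul_left _

end IsRegularPair

omit [IsDomain R] [IsNoetherianRing R] in
/-- `x` divides no power of `z` as soon as some non-maximal prime contains `x`. -/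
theorem not_dvd_pow_of_isPrime (hm : maximalIdeal R = Ideal.span {x, z}) {P : Ideal R}
    (hP : P.IsPrime) (hxP : x ∈ P) (hne : P ≠ maximalIdeal R) (k : ℕ) : ¬ x ∣ z ^ k := by
  rintro ⟨c, hc⟩
  apply hne
  refine le_antisymm (IsLocalRing.le_maximalIdeal hP.ne_top) ?_
  rw [hm, Ideal.span_le, Set.insert_subset_iff, Set.singleton_subset_iff]
  exact ⟨hxP, hP.mem_of_pow_mem k (hc ▸ P.mul_mem_right _ hxP)⟩

omit [IsDomain R] in
/-- Generators of the maximal ideal may be tested modulo its square. -/
theorem maximalIdeal_eq_span_pair (hx : x ∈ maximalIdeal R) (hz : z ∈ maximalIdeal R)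
    (h : maximalIdeal R ≤ Ideal.span {x, z} ⊔ maximalIdeal R ^ 2) :
    maximalIdeal R = Ideal.span {x, z} := by
  refine le_antisymm ?_ ?_
  · refine Submodule.le_of_le_smul_of_le_jacobson_bot (IsNoetherian.noetherian _)
      (IsLocalRing.jacobson_eq_maximalIdeal ⊥ bot_ne_top).ge ?_
    rwa [smul_eq_mul, ← pow_two]
  · rw [Ideal.span_le, Set.insert_subset_iff, Set.singleton_subset_iff]
    exact ⟨hx, hz⟩

end Fermat.Agent.BadPrime
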