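import Fermat.Agent.BadPrime.GeometryStatements
import Fermat.Agent.BadPrime.CoreFinal

/-!
# Torsion of `J₀(Mq)` at a prime `q` exactly dividing the level

The geometric statements, from the two-component model.
-/

set_option autoImplicit false

open ModularCurve

namespace Fermat.Agent.BadPrime

/-- Inertia at `q` is unipotent of level two on the prime-to-`q` torsion of `J₀(Mq)`, for
`q` prime to `M`. -/
theorem inertiaUnipotentTorsion (M q : ℕ) [NeZero M] (hq : q.Prime)
    (hN : (q = 2 → 3 ∣ M) ∧ (q = 3 → 2 ∣ M)) (hqM : ¬ q ∣ M) : InertiaUnipotentTorsion M q := by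
  have : Fact q.Prime := ⟨hq⟩
  exact inertiaUnipotentTorsion_of_core hqM fun A hA n hn w hw => coreProperty hN hqM hA hn hw

/-- The relation satisfied by the square of a Frobenius at `q` on torsion killed by both
degeneracy pushforwards, for `q` prime to `M`. -/
theorem frobeniusSqTorsion (M q : ℕ) [NeZero M] [NeZero q] (hq : q.Prime)
    (hN : (q = 2 → 3 ∣ M) ∧ (q = 3 → 2 ∣ M)) (hqM : ¬ q ∣ M) : FrobeniusSqTorsion M q := by
  have : Fact q.Prime := ⟨hq⟩
  exact frobeniusSqTorsion_of_core hqM fun A hA n hn w hw => coreProperty hN hqM hA hn hw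

/-- Prime level: `(σ - 1) ^ 2 = 0` on prime power torsion of `J₀(N)` for inertia above `N`. -/
theorem inertia_sub_sq_eq_zero {N r : ℕ} (hN : N.Prime) (hN5 : 5 ≤ N) (hr : r.Prime) (hrN : r ≠ N)
    (A : ValuationSubring (AlgebraicClosure ℚ)) (hA : A.LiesOverPrime N)
    {σ : AlgebraicClosure ℚ ≃ₐ[ℚ] AlgebraicClosure ℚ} (hσ : σ ∈ A.inertiaSubgroupIn ℚ) {k : ℕ}
    {x : JZero N} (hx : r ^ k • x = 0) : σ • (σ • x) - 2 • (σ • x) + x = 0 := by
  have key : ∀ (M : ℕ), InertiaUnipotentTorsion M N → M * N = N →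
      σ • (σ • x) - 2 • (σ • x) + x = 0 := by
    intro M h hM
    have hk : ¬ N ∣ r ^ k := fun hd =>
      hrN (((Nat.prime_dvd_prime_iff_eq hN hr).mp (hN.dvd_of_dvd_pow hd)).symm)
    have hall : ∀ K : ℕ, M * N = K → ∀ y : JZero K, r ^ k • y = 0 →
        σ • (σ • y) - 2 • (σ • y) + y = 0 := by
      rintro K rfl y hy
      have h1 := h A hA σ hσ _ hk y hy
      rw [smul_sub, sub_eq_iff_eq_add] at h1
      rw [h1, two_nsmul]
      abel
    exact hall N hM x hx
  exact key 1 (inertiaUnipotentTorsion 1 N hN ⟨by omega, by omega⟩ (fun h => hN.one_lt.ne' (Nat.dvd_one.mp h)))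
    (one_mul N)

end Fermat.Agent.BadPrime
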