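import Fermat.Agent.BadPrime.AssemblyS34
import Fermat.Agent.BadPrime.AssemblyS35
import Fermat.Agent.BadPrime.AuxDescent
import Fermat.Agent.BadPrime.ConductorDefs
import Fermat.Agent.BadPrime.Torsion
import Fermat.Agent.EichlerShimura.Inputs

/-!
# The representations at a prime exactly dividing the level

The Eichler–Shimura inputs and the two torsion statements at every prime, with the auxiliary prime
removed at `q = 2` and `q = 3`.
-/

set_option autoImplicit false

noncomputable section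

open ModularCurve

namespace Fermat.Agent.BadPrime

theorem hasEigenRep_modular (N : ℕ) [NeZero N] : HasEigenRep N :=
  ⟨EichlerShimura.kummerIso_modular N, EichlerShimura.galoisFiniteLevel_modular N, fun p hp =>
    haveI := Fact.mk hp
    EichlerShimura.frobeniusOnTorsion_modular N p⟩

theorem inertiaUnipotentTorsion_all (M q : ℕ) [NeZero M] (hq : q.Prime) (hqM : ¬ q ∣ M) :
    InertiaUnipotentTorsion M q := by
  by_cases h2 : q = 2 ∧ ¬ 3 ∣ M
  · obtain ⟨rfl, h3⟩ := h2
    haveI : NeZero (3 : ℕ) := ⟨by norm_num⟩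
    haveI : NeZero (M * 3) := ⟨Nat.mul_ne_zero (NeZero.ne M) (NeZero.ne 3)⟩
    exact inertiaUnipotentTorsion_of_aux hq Nat.prime_three h3 (by norm_num) (e := 2) rfl
      (inertiaUnipotentTorsion (M * 3) 2 hq ⟨fun _ => dvd_mul_left 3 M, by omega⟩
        fun h => (hq.dvd_mul.mp h).elim hqM (by norm_num))
  by_cases h3 : q = 3 ∧ ¬ 2 ∣ M
  · obtain ⟨rfl, h2'⟩ := h3
    haveI : NeZero (2 : ℕ) := ⟨by norm_num⟩
    haveI : NeZero (M * 2) := ⟨Nat.mul_ne_zero (NeZero.ne M) (NeZero.ne 2)⟩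
    exact inertiaUnipotentTorsion_of_aux hq Nat.prime_two h2' (by norm_num) (e := 1) rfl
      (inertiaUnipotentTorsion (M * 2) 3 hq ⟨by omega, fun _ => dvd_mul_left 2 M⟩
        fun h => (hq.dvd_mul.mp h).elim hqM (by norm_num))
  exact inertiaUnipotentTorsion M q hq ⟨fun h => by_contra fun h' => h2 ⟨h, h'⟩,
    fun h => by_contra fun h' => h3 ⟨h, h'⟩⟩ hqM

theorem frobeniusSqTorsion_all (M q : ℕ) [NeZero M] [NeZero q] (hq : q.Prime) (hqM : ¬ q ∣ M) :
    FrobeniusSqTorsion M q := by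
  by_cases h2 : q = 2 ∧ ¬ 3 ∣ M
  · obtain ⟨rfl, h3⟩ := h2
    haveI : NeZero (3 : ℕ) := ⟨by norm_num⟩
    haveI : NeZero (M * 3) := ⟨Nat.mul_ne_zero (NeZero.ne M) (NeZero.ne 3)⟩
    exact frobeniusSqTorsion_of_aux hq hqM Nat.prime_three h3 (by norm_num) (e := 2) rfl
      (frobeniusSqTorsion (M * 3) 2 hq ⟨fun _ => dvd_mul_left 3 M, by omega⟩
        fun h => (hq.dvd_mul.mp h).elim hqM (by norm_num))
  by_cases h3 : q = 3 ∧ ¬ 2 ∣ M
  · obtain ⟨rfl, h2'⟩ := h3
    haveI : NeZero (2 : ℕ) := ⟨by norm_num⟩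
    haveI : NeZero (M * 2) := ⟨Nat.mul_ne_zero (NeZero.ne M) (NeZero.ne 2)⟩
    exact frobeniusSqTorsion_of_aux hq hqM Nat.prime_two h2' (by norm_num) (e := 1) rfl
      (frobeniusSqTorsion (M * 2) 3 hq ⟨by omega, fun _ => dvd_mul_left 2 M⟩
        fun h => (hq.dvd_mul.mp h).elim hqM (by norm_num))
  exact frobeniusSqTorsion M q hq ⟨fun h => by_contra fun h' => h2 ⟨h, h'⟩,
    fun h => by_contra fun h' => h3 ⟨h, h'⟩⟩ hqM

/-- The representation of a newform at the primes exactly dividing its level. -/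
theorem newformMultRep_modular : NewformMultRep :=
  fun {M} _ {_} hg lam _ S O' _ _ _ _ _ _ hlamO' chig hchig iota hlamS hMS =>
    exists_charpoly_frobenius_of_sqTorsion hasEigenRep_modular hg lam S
      (fun M' q _ _ hq _ hqM' _ => frobeniusSqTorsion_all M' q hq hqM') O' hlamO' chig hchig iota
      hlamS hMS

end Fermat.Agent.BadPrime

end
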