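import Fermat.Prelude.Def_GaloisRep_LocalConditions
import Mathlib.LinearAlgebra.Charpoly.ToMatrix
import Mathlib.LinearAlgebra.Matrix.Charpoly.Coeff

/-!
# A rank two unipotent group has a fixed vector
-/

set_option autoImplicit false

noncomputable section

open Polynomial Matrix

namespace Fermat.Agent.BadPrime

/-- A monoid of `2 × 2` matrices over a domain, all with characteristic polynomial `(X - 1)²`,
fixes a nonzero vector. -/
theorem exists_fixed_of_unipotent {R : Type*} [CommRing R] [IsDomain R] [CharZero R]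
    {G : Type*} [Mul G] (M : G → Matrix (Fin 2) (Fin 2) R)
    (hmul : ∀ a b, M (a * b) = M a * M b) (huni : ∀ g, (M g).charpoly = (X - 1) ^ 2) :
    ∃ v : Fin 2 → R, v ≠ 0 ∧ ∀ g, M g *ᵥ v = v := by
  have htd : ∀ g, (M g).trace = 2 ∧ (M g).det = 1 := by
    intro g
    have h := huni g
    have h1 : ((X : R[X]) - 1) ^ 2 = X ^ 2 - C (2 : R) * X + C 1 := by
      rw [map_ofNat, map_one]; ring
    rw [Matrix.charpoly_fin_two, h1] at h
    have e0 := congrArg (fun P => Polynomial.coeff P 0) h
    have e1 := congrArg (fun P => Polynomial.coeff P 1) h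
    simp [Polynomial.coeff_one] at e0 e1
    exact ⟨by linear_combination e1, e0⟩
  by_cases hall : ∀ g, M g = 1
  · exact ⟨![1, 0], fun h => one_ne_zero (congrFun h 0), fun g => by rw [hall g, Matrix.one_mulVec]⟩
  push Not at hall
  obtain ⟨g₀, hg₀⟩ := hall
  -- nilpotent parts
  have key : ∀ g, ((M g) 0 0 - 1) + ((M g) 1 1 - 1) = 0 ∧
      ((M g) 0 0 - 1) ^ 2 + (M g) 0 1 * (M g) 1 0 = 0 := by
    intro g
    obtain ⟨ht, hd⟩ := htd g
    rw [Matrix.trace_fin_two] at ht
    rw [Matrix.det_fin_two] at hd
    exact ⟨by linear_combination ht, by linear_combination ((M g) 0 0) * ht - hd - ht + ht⟩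
  obtain ⟨a0, n0⟩ := key g₀
  set a := (M g₀) 0 0 - 1 with ha
  set b := (M g₀) 0 1 with hb
  set c := (M g₀) 1 0 with hc
  have hcross : ∀ g, 2 * a * ((M g) 0 0 - 1) + b * (M g) 1 0 + c * (M g) 0 1 = 0 := by
    intro g
    have h1 := (htd (g₀ * g)).1
    rw [hmul, Matrix.trace_fin_two, Matrix.mul_apply, Matrix.mul_apply, Fin.sum_univ_two,
      Fin.sum_univ_two] at h1
    have e1 : (M g₀) 1 1 = 1 - a := by linear_combination a0
    have e2 : (M g₀) 0 0 = 1 + a := by rw [ha]; ring
    have e3 : (M g) 1 1 = 2 - (M g) 0 0 := by linear_combination (key g).1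
    rw [← hb, ← hc, e1, e2, e3] at h1
    linear_combination h1
  -- a nonzero vector killed by every nilpotent part
  by_cases hb0 : b = 0
  · have hA : a = 0 := by
      rw [hb0, zero_mul, add_zero] at n0
      exact pow_eq_zero_iff (n := 2) (by norm_num) |>.mp n0
    have hC : c ≠ 0 := by
      intro hC
      apply hg₀
      ext i j
      fin_cases i <;> fin_cases j
      · simpa using sub_eq_zero.mp (ha ▸ hA)
      · simpa [hb] using hb0
      · simpa [hc] using hC
      · simpa using sub_eq_zero.mp (show (M g₀) 1 1 - 1 = 0 by linear_combination a0 - hA)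
    refine ⟨![0, 1], fun h => one_ne_zero (congrFun h 1), fun g => ?_⟩
    have hy : (M g) 0 1 = 0 := by
      have := hcross g
      rw [hA, hb0] at this
      simpa [hC] using this
    have hx : (M g) 0 0 - 1 = 0 := by
      have := (key g).2
      rw [hy, zero_mul, add_zero] at this
      exact pow_eq_zero_iff (n := 2) (by norm_num) |>.mp this
    ext i
    fin_cases i
    · simp [Matrix.mulVec, dotProduct, hy]
    · have : (M g) 1 1 = 1 := by linear_combination (key g).1 - hx
      simp [Matrix.mulVec, dotProduct, this]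
  · refine ⟨![b, -a], fun h => hb0 (congrFun h 0), fun g => ?_⟩
    set x := (M g) 0 0 - 1 with hx
    set y := (M g) 0 1 with hy
    set z := (M g) 1 0 with hz
    have e := hcross g
    have n := (key g).2
    -- `(bx - ay)² = 0` and `(bz + ax)` follows
    have h1 : b * x - a * y = 0 := by
      refine pow_eq_zero_iff (n := 2) (by norm_num) |>.mp ?_
      linear_combination b ^ 2 * n + y ^ 2 * n0 - b * y * e
    have h2 : b * z + a * x = 0 := by
      refine pow_eq_zero_iff (n := 2) (by norm_num) |>.mp ?_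
      linear_combination (b * z) * e + x ^ 2 * n0 - b * c * n
    ext i
    fin_cases i
    · have : (M g) 0 0 = 1 + x := by rw [hx]; ring
      simp [Matrix.mulVec, dotProduct, this, ← hy]
      linear_combination h1
    · have : (M g) 1 1 = 1 - x := by linear_combination (key g).1
      simp [Matrix.mulVec, dotProduct, this, ← hz]
      linear_combination h2

/-- A representation unipotent on inertia at `q` has a nonzero vector fixed by inertia. -/
theorem exists_inertia_fixed {A : Type} [CommRing A] [IsLocalRing A] [IsDomain A] [CharZero A]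
    {ρ : GaloisRepAdic A} {q : ℕ} (h : ρ.IsUnipotentOnInertiaAt q)
    {P : ValuationSubring (AlgebraicClosure ℚ)} (hP : P.LiesOverPrime q) :
    ∃ v : ρ.V, v ≠ 0 ∧ ∀ σ ∈ P.inertiaSubgroupIn ℚ, ρ.ρ σ v = v := by
  let b := Module.finBasisOfFinrankEq A ρ.V ρ.finrank_eq
  obtain ⟨w, hw0, hw⟩ := exists_fixed_of_unipotent (G := P.inertiaSubgroupIn ℚ)
    (fun σ => LinearMap.toMatrix b b (ρ.ρ σ))
    (fun σ τ => by simp only [Subgroup.coe_mul, map_mul, LinearMap.toMatrix_mul])
    (fun σ => by rw [LinearMap.charpoly_toMatrix]; exact h P hP σ σ.2)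
  refine ⟨b.equivFun.symm w, fun h0 => hw0 ?_, fun σ hσ => b.equivFun.injective ?_⟩
  · exact (b.equivFun.apply_symm_apply w).symm.trans (by rw [h0, map_zero])
  · have := hw ⟨σ, hσ⟩
    have e : LinearMap.toMatrix b b (ρ.ρ σ) *ᵥ ⇑(b.repr (b.equivFun.symm w)) =
        ⇑(b.repr (ρ.ρ σ (b.equivFun.symm w))) := LinearMap.toMatrix_mulVec_repr b b _ _
    rw [show (⇑(b.repr (b.equivFun.symm w)) : Fin 2 → A) = w from b.equivFun.apply_symm_apply w] at e
    show (⇑(b.repr (ρ.ρ σ (b.equivFun.symm w))) : Fin 2 → A) = b.equivFun (b.equivFun.symm w)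
    rw [← e, LinearEquiv.apply_symm_apply]
    exact this

end Fermat.Agent.BadPrime
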