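import Fermat.Agent.BadPrime.ConductorDefs
import Fermat.Agent.BadPrime.Reps
import Fermat.Agent.BadPrime.Sq.DescentModular

/-!
# The representations at a prime whose square exactly divides the level
-/

set_option autoImplicit false

noncomputable section

open ModularCurve

namespace Fermat.Agent.BadPrime

/-- Inertia fixed torsion at `q² ∥ M₁ q²` killed by both pushforwards is bounded. -/
theorem fixedKilledBound_modular (M₁ q lam : ℕ) [NeZero M₁] [NeZero q] [NeZero (M₁ * q)]
    (hq : q.Prime) (hlam : lam.Prime) (hqlam : q ≠ lam) (hqM : ¬ q ∣ M₁) :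
    Sq.FixedKilledBound (M₁ * q) q lam :=
  haveI : Fact q.Prime := ⟨hq⟩
  Sq.fixedKilledBound hlam hqlam hqM

/-- A newform is not unipotent on inertia at a prime whose square exactly divides its level. -/
theorem newformSquareRep_modular : NewformSquareRep :=
  fun {M} _ {_} hg lam hlam S O' _ _ _ _ _ _ hlamO' _ chig hchig iota hlamS hMS _ =>
    Sq.exists_not_isUnipotent_of_bound hasEigenRep_modular hg lam S
      (fun M₁ q _ _ hq hqlam hqM _ =>
        haveI : NeZero (M₁ * q) := ⟨Nat.mul_ne_zero (NeZero.ne M₁) (NeZero.ne q)⟩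
        fixedKilledBound_modular M₁ q lam hq hlam.out hqlam hqM)
      O' hlamO' chig hchig iota hlamS hMS

end Fermat.Agent.BadPrime

end
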